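/-
M1 (row 38, S44), chapter CAR, brick CAR-6 (RAT), part 2a — helper25.

**Places above a place in a constant field extension are separated by their residue embeddings**
(abstract form).

Setting: `F₀ / K` and `𝔽 / L` function fields, `L` algebraically closed, `ι : F₀ → 𝔽` compatible
with `K → L`, such that `𝔽` is the `L`-span of `ι F₀`.  `w` a place of `F₀ / K` whose residue field
is finite separable over `K`, `P, P'` places of `𝔽 / L` above `w`, unramified
(`ord_P ∘ ι = ord_w = ord_P' ∘ ι`).  If `f(P) = f(P')` for all `f ∈ O_w`, then `P = P'`.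

Proof: let `S = L[ι O_w]`, `θ̃ ∈ O_w` a lift of a primitive element `θ` of `κ(w) / K` with minimal
polynomial `m`, `θ₁ = θ̃(P)`, `m = (X - θ₁) m₁` over `L`, `ε = m₁(ι θ̃)`.  Then `ε(P) ≠ 0`, and
every `A ∈ S` with `A(P) = 0` satisfies `ε A ∈ ι π · S`.  By induction `ord_P = ord_P'` on `S`,
hence on `𝔽`.
-/
import Mathlib
import Fermat.Prelude.Def_AlgebraicCurve_DivisorClassGroup
import Fermat.Agent.X0.FFPlace
import Fermat.Agent.X0.FFResidue
import Fermat.Agent.ES.RED.PlaceValue13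

set_option autoImplicit false
set_option linter.unusedSectionVars false

open AlgebraicCurve Polynomial IsLocalRing

namespace Fermat.Agent.M1.Car.FibreAbs25

open Fermat.Agent.X0.FF Fermat.Agent.ES.RED.PlaceValue13

noncomputable section

variable {K L F₀ 𝔽 : Type*} [Field K] [Field L] [IsAlgClosed L] [Field F₀] [Field 𝔽]
  [Algebra K L] [Algebra K F₀] [Algebra L 𝔽]
  (ι : F₀ →+* 𝔽)

/-- `P` lies above `w`, unramified. -/
def IsAbove (w : Place K F₀) (P : Place L 𝔽) : Prop := ∀ f : F₀, P.ord (ι f) = w.ord f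

variable {ι}

theorem IsAbove.mem {w : Place K F₀} {P : Place L 𝔽} (hP : IsAbove ι w P) {f : F₀}
    (hf : f ∈ w.toValuationSubring) : ι f ∈ P.toValuationSubring := by
  rw [ffp_mem_iff_ord_nonneg, hP f]
  exact ffp_ord_nonneg_of_mem w hf

theorem IsAbove.mem_iff {w : Place K F₀} {P : Place L 𝔽} (hP : IsAbove ι w P) (f : F₀) :
    ι f ∈ P.toValuationSubring ↔ f ∈ w.toValuationSubring := by
  rw [ffp_mem_iff_ord_nonneg, ffp_mem_iff_ord_nonneg, hP f]

variable (ι)

/-- The subalgebra `L[ι O_w]`. -/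
def S (w : Place K F₀) : Subalgebra L 𝔽 :=
  Algebra.adjoin L (ι '' (w.toValuationSubring : Set F₀))

variable {ι}

theorem S_le {w : Place K F₀} {P : Place L 𝔽} (hP : IsAbove ι w P) :
    S (L := L) ι w ≤ placeSubalgebra P := by
  apply Algebra.adjoin_le
  rintro _ ⟨f, hf, rfl⟩
  exact hP.mem hf

theorem map_mem_S {w : Place K F₀} {f : F₀} (hf : f ∈ w.toValuationSubring) :
    ι f ∈ S (L := L) ι w :=
  Algebra.subset_adjoin ⟨f, hf, rfl⟩

/-- The inclusion `S → O_P`. -/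
def toO {w : Place K F₀} {P : Place L 𝔽} (hP : IsAbove ι w P) :
    S (L := L) ι w →ₐ[L] P.toValuationSubring where
  toFun A := ⟨A.1, S_le hP A.2⟩
  map_one' := rfl
  map_mul' _ _ := rfl
  map_zero' := rfl
  map_add' _ _ := rfl
  commutes' _ := rfl

variable {x : 𝔽} (hx : IsGen L x)

/-- The value at `P` of an element of `S`. -/
def valS {w : Place K F₀} {P : Place L 𝔽} (hP : IsAbove ι w P) : S (L := L) ι w →ₐ[L] L :=
  (valueHom hx P).comp (toO hP)

theorem valS_eq_zero_iff {w : Place K F₀} {P : Place L 𝔽} (hP : IsAbove ι w P)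
    (A : S (L := L) ι w) : valS hx hP A = 0 ↔ (A : 𝔽) = 0 ∨ 0 < P.ord (A : 𝔽) := by
  show valueHom hx P (toO hP A) = 0 ↔ _
  rw [valueHom_eq_iff]
  show ((A : 𝔽) = algebraMap L 𝔽 0 ∨ 0 < P.ord ((A : 𝔽) - algebraMap L 𝔽 0)) ↔ _
  rw [map_zero, sub_zero]

theorem ord_eq_zero_of_valS_ne_zero {w : Place K F₀} {P : Place L 𝔽} (hP : IsAbove ι w P)
    (A : S (L := L) ι w) (h : valS hx hP A ≠ 0) : P.ord (A : 𝔽) = 0 := by
  have h1 : 0 ≤ P.ord (A : 𝔽) := ffp_ord_nonneg_of_mem P (S_le hP A.2)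
  by_contra hne
  apply h
  rw [valS_eq_zero_iff]
  right
  omega

/-- Same values on `ι O_w` implies same values on `S`. -/
theorem valS_eq {w : Place K F₀} {P P' : Place L 𝔽} (hP : IsAbove ι w P) (hP' : IsAbove ι w P')
    (hval : ∀ (f : F₀) (hf : f ∈ w.toValuationSubring),
      valueHom hx P ⟨ι f, hP.mem hf⟩ = valueHom hx P' ⟨ι f, hP'.mem hf⟩) :
    valS hx hP = valS hx hP' := by
  apply AlgHom.adjoin_ext
  rintro _ ⟨f, hf, rfl⟩
  exact hval f hf


/-! ### The key lemma -/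

section Key

variable (hι : ∀ c : K, ι (algebraMap K F₀ c) = algebraMap L 𝔽 (algebraMap K L c))
  {w : Place K F₀}

include hι in
theorem map_aeval (a : w.toValuationSubring) (g : K[X]) :
    ι ((aeval a g : w.toValuationSubring) : F₀) =
      aeval (ι (a : F₀)) (g.map (algebraMap K L)) := by
  have h1 : ((aeval a g : w.toValuationSubring) : F₀) = aeval (a : F₀) g :=
    (Polynomial.aeval_algebraMap_apply (A := w.toValuationSubring) F₀ a g).symm
  rw [h1, aeval_def, aeval_def, Polynomial.hom_eval₂, Polynomial.eval₂_map]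
  congr 1
  exact RingHom.ext hι

variable (π θ : w.toValuationSubring)

/-- `ι θ̃` as an element of `S`. -/
def tS : S (L := L) ι w := ⟨ι (θ : F₀), map_mem_S θ.2⟩

/-- `ι π` as an element of `S`. -/
def pS : S (L := L) ι w := ⟨ι (π : F₀), map_mem_S π.2⟩

variable {π θ}

include hι in
/-- **Decomposition**: every element of `S` is `G(ι θ̃) + ι π · H`. -/
theorem exists_decomp (hπ : Irreducible π)
    (hgen : ∀ f : w.toValuationSubring, ∃ g : K[X],
      f - aeval θ g ∈ maximalIdeal w.toValuationSubring)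
    (A : S (L := L) ι w) :
    ∃ (G : L[X]) (H : S (L := L) ι w), A = aeval (tS θ) G + pS π * H := by
  obtain ⟨A, hA⟩ := A
  induction hA using Algebra.adjoin_induction with
  | mem y hy =>
      obtain ⟨f, hf, rfl⟩ := hy
      obtain ⟨g, hg⟩ := hgen ⟨f, hf⟩
      rw [hπ.maximalIdeal_eq, Ideal.mem_span_singleton] at hg
      obtain ⟨h, hh⟩ := hg
      refine ⟨g.map (algebraMap K L), ⟨ι (h : F₀), map_mem_S h.2⟩, ?_⟩
      apply Subtype.ext
      show ι f = ((aeval (tS θ) (g.map (algebraMap K L)) : S (L := L) ι w) : 𝔽) +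
        ι (π : F₀) * ι (h : F₀)
      rw [← Subalgebra.aeval_coe]
      show ι f = aeval (ι (θ : F₀)) (g.map (algebraMap K L)) + ι (π : F₀) * ι (h : F₀)
      rw [← map_aeval hι, ← map_mul, ← map_add]
      congr 1
      have h3 : (f : F₀) - ((aeval θ g : w.toValuationSubring) : F₀) = (π : F₀) * (h : F₀) :=
        congrArg (Subtype.val : w.toValuationSubring → F₀) hh
      rw [← h3]
      ring
  | algebraMap r =>
      refine ⟨C r, 0, ?_⟩
      rw [aeval_C, mul_zero, add_zero]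
      rfl
  | add y z hy hz ihy ihz =>
      obtain ⟨G₁, H₁, h₁⟩ := ihy
      obtain ⟨G₂, H₂, h₂⟩ := ihz
      refine ⟨G₁ + G₂, H₁ + H₂, ?_⟩
      have : (⟨y + z, add_mem hy hz⟩ : S (L := L) ι w) = ⟨y, hy⟩ + ⟨z, hz⟩ := rfl
      rw [this, h₁, h₂, map_add]
      ring
  | mul y z hy hz ihy ihz =>
      obtain ⟨G₁, H₁, h₁⟩ := ihy
      obtain ⟨G₂, H₂, h₂⟩ := ihz
      refine ⟨G₁ * G₂, aeval (tS θ) G₁ * H₂ + H₁ * aeval (tS θ) G₂ + pS π * H₁ * H₂, ?_⟩
      have : (⟨y * z, mul_mem hy hz⟩ : S (L := L) ι w) = ⟨y, hy⟩ * ⟨z, hz⟩ := rfl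
      rw [this, h₁, h₂, map_mul]
      ring

end Key


/-! ### The main induction -/

section Main

variable (hι : ∀ c : K, ι (algebraMap K F₀ c) = algebraMap L 𝔽 (algebraMap K L c))
  {w : Place K F₀} {P P' : Place L 𝔽} (hP : IsAbove ι w P) (hP' : IsAbove ι w P')
  {π θ : w.toValuationSubring} (hπ : Irreducible π)
  (hgen : ∀ f : w.toValuationSubring, ∃ g : K[X],
      f - aeval θ g ∈ maximalIdeal w.toValuationSubring)
  {m : K[X]} (hm : m.Separable) (hmθ : aeval θ m ∈ maximalIdeal w.toValuationSubring)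

include hπ in
theorem valS_pS : valS hx hP (pS π) = 0 := by
  rw [valS_eq_zero_iff]
  right
  show 0 < P.ord (ι (π : F₀))
  rw [hP, w.ord_coe_irreducible hπ]
  norm_num

theorem valS_aeval (G : L[X]) :
    valS hx hP (aeval (tS θ) G) = eval (valS hx hP (tS θ)) G := by
  rw [← Polynomial.aeval_algHom_apply, Polynomial.coe_aeval_eq_eval]

include hι hπ hmθ in
/-- `m(ι θ̃) = ι π · ι r`. -/
theorem exists_aeval_m_eq :
    ∃ r : S (L := L) ι w, aeval (tS θ) (m.map (algebraMap K L)) = pS π * r := by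
  rw [hπ.maximalIdeal_eq, Ideal.mem_span_singleton] at hmθ
  obtain ⟨r, hr⟩ := hmθ
  refine ⟨⟨ι (r : F₀), map_mem_S r.2⟩, ?_⟩
  apply Subtype.ext
  rw [← Subalgebra.aeval_coe]
  show aeval (ι (θ : F₀)) (m.map (algebraMap K L)) = ι (π : F₀) * ι (r : F₀)
  rw [← map_aeval hι, ← map_mul, hr]
  rfl

include hι hπ hmθ in
theorem isRoot_m : (m.map (algebraMap K L)).IsRoot (valS hx hP (tS θ)) := by
  obtain ⟨r, hr⟩ := exists_aeval_m_eq hι hπ hmθ
  rw [IsRoot, ← valS_aeval hx hP, hr, map_mul, valS_pS hx hP hπ, zero_mul]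

/-- The cofactor `m₁ = m / (X - θ₁)`. -/
def m₁ (m : K[X]) (θ₁ : L) : L[X] := (m.map (algebraMap K L)) /ₘ (X - C θ₁)

include hι hπ hmθ in
theorem mul_m₁ : (X - C (valS hx hP (tS θ))) * m₁ m (valS hx hP (tS θ)) =
    m.map (algebraMap K L) :=
  mul_divByMonic_eq_iff_isRoot.mpr (isRoot_m hx hι hP hπ hmθ)

include hι hπ hm hmθ in
theorem eval_m₁_ne_zero : eval (valS hx hP (tS θ)) (m₁ m (valS hx hP (tS θ))) ≠ 0 := by
  have hsep : (m.map (algebraMap K L)).Separable := hm.map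
  have hroot := isRoot_m hx hι hP hπ hmθ
  have h1 := hsep.eval₂_derivative_ne_zero (RingHom.id L) (x := valS hx hP (tS θ))
    (by rw [eval₂_id]; exact hroot)
  rw [eval₂_id, ← mul_m₁ hx hι hP hπ hmθ, derivative_mul, eval_add, eval_mul, eval_mul,
    eval_sub, eval_X, eval_C, sub_self, zero_mul, add_zero, derivative_sub, derivative_X,
    derivative_C, sub_zero, eval_one, one_mul] at h1
  exact h1

/-- The element `ε = m₁(ι θ̃)`. -/
def eps (m : K[X]) (θ : w.toValuationSubring) (θ₁ : L) : S (L := L) ι w :=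
  aeval (tS θ) (m₁ m θ₁)

include hι hπ hgen hmθ in
/-- **Key lemma.** -/
theorem exists_eps_mul_eq (A : S (L := L) ι w) (hA : valS hx hP A = 0) :
    ∃ A' : S (L := L) ι w, eps m θ (valS hx hP (tS θ)) * A = pS π * A' := by
  obtain ⟨G, H, rfl⟩ := exists_decomp hι hπ hgen A
  rw [map_add, map_mul, valS_pS hx hP hπ, zero_mul, add_zero, valS_aeval] at hA
  have hG : (X - C (valS hx hP (tS θ))) * (G /ₘ (X - C (valS hx hP (tS θ)))) = G :=
    mul_divByMonic_eq_iff_isRoot.mpr hA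
  obtain ⟨r, hr⟩ := exists_aeval_m_eq hι hπ hmθ
  refine ⟨r * aeval (tS θ) (G /ₘ (X - C (valS hx hP (tS θ)))) +
    eps m θ (valS hx hP (tS θ)) * H, ?_⟩
  have h1 : eps m θ (valS hx hP (tS θ)) * aeval (tS θ) G =
      pS π * r * aeval (tS θ) (G /ₘ (X - C (valS hx hP (tS θ)))) := by
    rw [← hr, eps, ← map_mul, ← map_mul]
    congr 1
    rw [← mul_m₁ hx hι hP hπ hmθ]
    conv_lhs => rw [← hG]
    ring
  rw [mul_add, h1]
  ring

include hι hπ hgen hm hmθ in
/-- `ord_P = ord_P'` on `S`. -/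
theorem ord_eq_on_S (hval : valS hx hP = valS hx hP') :
    ∀ (n : ℕ) (A : S (L := L) ι w), (A : 𝔽) ≠ 0 → P.ord (A : 𝔽) = n → P'.ord (A : 𝔽) = n := by
  have hε : valS hx hP (eps m θ (valS hx hP (tS θ))) ≠ 0 := by
    rw [eps, valS_aeval]
    exact eval_m₁_ne_zero hx hι hP hπ hm hmθ
  have hε' : valS hx hP' (eps m θ (valS hx hP (tS θ))) ≠ 0 := by rwa [← hval]
  have hεP := ord_eq_zero_of_valS_ne_zero hx hP _ hε
  have hεP' := ord_eq_zero_of_valS_ne_zero hx hP' _ hε'
  have hε0 : ((eps m θ (valS hx hP (tS θ)) : S (L := L) ι w) : 𝔽) ≠ 0 := by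
    intro h0
    apply hε
    have : eps m θ (valS hx hP (tS θ)) = (0 : S (L := L) ι w) := Subtype.ext h0
    rw [this, map_zero]
  have hπ0 : ι (π : F₀) ≠ 0 := by
    rw [ne_eq, map_eq_zero]
    simpa [ne_eq, ZeroMemClass.coe_eq_zero] using hπ.ne_zero
  intro n
  induction n with
  | zero =>
      intro A hA0 hA
      apply ord_eq_zero_of_valS_ne_zero hx hP'
      rw [← hval]
      intro h0
      rw [valS_eq_zero_iff] at h0
      rcases h0 with h0 | h0
      · exact hA0 h0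
      · rw [hA] at h0
        simp at h0
  | succ n ih =>
      intro A hA0 hA
      have hv : valS hx hP A = 0 := by
        rw [valS_eq_zero_iff]
        right
        rw [hA]
        positivity
      obtain ⟨A', hA'⟩ := exists_eps_mul_eq hx hι hP hπ hgen hmθ A hv
      have hA'F : ((eps m θ (valS hx hP (tS θ)) : S (L := L) ι w) : 𝔽) * (A : 𝔽) =
          ι (π : F₀) * (A' : 𝔽) := congrArg Subtype.val hA'
      have hA'0 : (A' : 𝔽) ≠ 0 := by
        intro h0
        rw [h0, mul_zero] at hA'F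
        exact mul_ne_zero hε0 hA0 hA'F
      have h1 := congrArg P.ord hA'F
      rw [P.ord_mul hε0 hA0, P.ord_mul hπ0 hA'0, hεP, hA, hP, w.ord_coe_irreducible hπ] at h1
      have h2 : P.ord (A' : 𝔽) = n := by push_cast at h1; omega
      have h3 := ih A' hA'0 h2
      have h4 := congrArg P'.ord hA'F
      rw [P'.ord_mul hε0 hA0, P'.ord_mul hπ0 hA'0, hεP', h3, hP', w.ord_coe_irreducible hπ] at h4
      push_cast
      omega

include hπ in
/-- Clearing denominators: `ι π ^ k · y ∈ S`. -/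
theorem exists_pow_mul_mem_S (hspan : ∀ y : 𝔽, y ∈ Submodule.span L (Set.range ι)) (y : 𝔽) :
    ∃ k : ℕ, ι (π : F₀) ^ k * y ∈ S (L := L) ι w := by
  have hπS : ι (π : F₀) ∈ S (L := L) ι w := map_mem_S π.2
  induction hspan y using Submodule.span_induction with
  | mem y hy =>
      obtain ⟨f, rfl⟩ := hy
      rcases eq_or_ne f 0 with rfl | hf
      · exact ⟨0, by simp⟩
      refine ⟨(-w.ord f).toNat, ?_⟩
      rw [← map_pow, ← map_mul]
      apply map_mem_S
      rw [ffp_mem_iff_ord_nonneg]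
      have hπ0 : (π : F₀) ≠ 0 := by
        simpa [ne_eq, ZeroMemClass.coe_eq_zero] using hπ.ne_zero
      rw [w.ord_mul (pow_ne_zero _ hπ0) hf, ← zpow_natCast, w.ord_zpow, w.ord_coe_irreducible hπ]
      have := Int.self_le_toNat (-w.ord f)
      omega
  | zero => exact ⟨0, by simp⟩
  | add y z _ _ ihy ihz =>
      obtain ⟨k₁, h₁⟩ := ihy
      obtain ⟨k₂, h₂⟩ := ihz
      refine ⟨k₁ + k₂, ?_⟩
      have : ι (π : F₀) ^ (k₁ + k₂) * (y + z) =
          ι (π : F₀) ^ k₂ * (ι (π : F₀) ^ k₁ * y) + ι (π : F₀) ^ k₁ * (ι (π : F₀) ^ k₂ * z) := by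
        ring
      rw [this]
      exact add_mem (mul_mem (pow_mem hπS _) h₁) (mul_mem (pow_mem hπS _) h₂)
  | smul c y _ ih =>
      obtain ⟨k, h⟩ := ih
      refine ⟨k, ?_⟩
      rw [mul_smul_comm]
      exact Subalgebra.smul_mem _ h c

include hι hπ hgen hm hmθ in
/-- **Separation of the places above `w` by their values on `O_w`.** -/
theorem eq_of_valS_eq (hspan : ∀ y : 𝔽, y ∈ Submodule.span L (Set.range ι))
    (hval : valS hx hP = valS hx hP') : P = P' := by
  have hπ0 : ι (π : F₀) ≠ 0 := by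
    rw [ne_eq, map_eq_zero]
    simpa [ne_eq, ZeroMemClass.coe_eq_zero] using hπ.ne_zero
  have hord : ∀ y : 𝔽, P.ord y = P'.ord y := by
    intro y
    rcases eq_or_ne y 0 with rfl | hy
    · simp
    obtain ⟨k, hk⟩ := exists_pow_mul_mem_S hπ hspan y
    have hA0 : ι (π : F₀) ^ k * y ≠ 0 := mul_ne_zero (pow_ne_zero _ hπ0) hy
    have h0 : 0 ≤ P.ord (ι (π : F₀) ^ k * y) := ffp_ord_nonneg_of_mem P (S_le hP hk)
    have h1 := ord_eq_on_S hx hι hP hP' hπ hgen hm hmθ hval (P.ord (ι (π : F₀) ^ k * y)).toNat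
      ⟨_, hk⟩ hA0 (Int.toNat_of_nonneg h0).symm
    rw [Int.toNat_of_nonneg h0] at h1
    rw [P.ord_mul (pow_ne_zero _ hπ0) hy, P'.ord_mul (pow_ne_zero _ hπ0) hy,
      ← zpow_natCast, P.ord_zpow, P'.ord_zpow, hP, hP'] at h1
    omega
  apply Place.ext
  ext y
  rw [ffp_mem_iff_ord_nonneg, ffp_mem_iff_ord_nonneg, hord]

end Main

end

end Fermat.Agent.M1.Car.FibreAbs25
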