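/-
M1 (row 38, S44), chapter CAR, brick CAR-6 (RAT), part 2b — helper25.

**The fibres of `Place ℚ̄ (ℚ̄·F_M) → Place K (K·F_M)`** for a number field `K ⊂ ℚ̄`:
the place below (`resPlace`), its residue embedding, transitivity of `Gal(ℚ̄ / K)` on the fibres
and the count `#fibre(w) = deg w`.
-/
import Mathlib
import Fermat.Agent.RED.Interface4
import Fermat.Agent.RED.DESC.PlaceExtend27
import Fermat.Agent.ES.P36.ConstUnram1
import Fermat.Agent.ES.N34.GalRational1
import Fermat.Agent.ES.GAL.OpenStab12
import Fermat.Agent.X0.FFOrd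
import Fermat.Agent.M1.Car.FibreAbs25

set_option autoImplicit false
set_option linter.unusedSectionVars false
set_option linter.style.haveILetI false

open AlgebraicCurve ModularCurve HahnSeries IntermediateField Polynomial IsLocalRing

namespace Fermat.Agent.M1.Car.Fibre25

open Fermat.Agent.X0 Fermat.Agent.X0.FF Fermat.Agent.RED.Interface4 Fermat.Agent.RED.DESC
  Fermat.Agent.M1.Car.FibreAbs25

noncomputable section

variable (M : ℕ) (K : IntermediateField ℚ Qbar)

/-- Coefficientwise base change `K·F_M → ℚ̄·F_M`. -/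
abbrev bc : FK M K →+* Fbar M := PlaceExtend27.baseChangeHom M K

/-! ### `ℚ̄·F_M` is the `ℚ̄`-span of `K·F_M` -/

/-- The image of `K·F_M` generates `ℚ̄·F_M` over `ℚ̄` (copy of `RankConcrete5`). -/
theorem adjoin_range_bc :
    IntermediateField.adjoin Qbar (Set.range (bc M K)) = ⊤ := by
  apply IntermediateField.map_injective (Fbar M).val
  have htop : (⊤ : IntermediateField Qbar ↥(Fbar M)).map (Fbar M).val = Fbar M := by
    rw [← AlgHom.fieldRange_eq_map, IntermediateField.fieldRange_val]
  rw [htop, IntermediateField.adjoin_map]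
  apply le_antisymm
  · rw [adjoin_le_iff]
    rintro _ ⟨y, -, rfl⟩
    exact y.2
  · show laurentBaseChange Qbar (modularFunctionFieldFull M) ≤ _
    rw [laurentBaseChange, adjoin_le_iff]
    rintro _ ⟨x, hx, rfl⟩
    apply subset_adjoin
    refine ⟨bc M K ⟨coeffEmb K x, coeffEmb_mem_laurentBaseChange K hx⟩, ⟨_, rfl⟩, ?_⟩
    show coeffMap (algebraMap K Qbar) (coeffEmb K x) = coeffEmb Qbar x
    exact CoeffDescent1.coeffMap_coeffEmb_of_algHom (algebraMap K Qbar) x

/-- Abstract form: if `𝔽` is generated as a field over `L` by the image of `F₀`, and the elements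
of `L` are integral over `F₀`, then `𝔽` is the `L`-span of the image of `F₀`. -/
theorem span_eq_top_abstract {L F₀ 𝔽 : Type*} [Field L] [Field F₀] [Field 𝔽] [Algebra L 𝔽]
    [Algebra F₀ 𝔽] (hint : ∀ c : L, IsIntegral F₀ (algebraMap L 𝔽 c))
    (hadj : IntermediateField.adjoin L (Set.range (algebraMap F₀ 𝔽)) = ⊤) (y : 𝔽) :
    y ∈ Submodule.span L (Set.range (algebraMap F₀ 𝔽)) := by
  obtain ⟨A, hAdef⟩ : ∃ A : Subalgebra F₀ 𝔽,
      A = Algebra.adjoin F₀ (Set.range (algebraMap L 𝔽)) := ⟨_, rfl⟩
  have hint' : Algebra.IsIntegral F₀ A := by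
    rw [hAdef]
    apply Algebra.IsIntegral.adjoin
    rintro _ ⟨c, rfl⟩
    exact hint c
  have hmulcl : ∀ a b : 𝔽, a ∈ Submodule.span L (Set.range (algebraMap F₀ 𝔽)) →
      b ∈ Submodule.span L (Set.range (algebraMap F₀ 𝔽)) →
      a * b ∈ Submodule.span L (Set.range (algebraMap F₀ 𝔽)) := by
    intro a b ha hb
    have h1 := Submodule.mul_mem_mul ha hb
    rw [Submodule.span_mul_span] at h1
    refine Submodule.span_mono ?_ h1
    rintro _ ⟨_, ⟨f, rfl⟩, _, ⟨g, rfl⟩, rfl⟩
    exact ⟨f * g, map_mul _ _ _⟩
  have hA : ∀ a ∈ A, a ∈ Submodule.span L (Set.range (algebraMap F₀ 𝔽)) := by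
    intro a ha
    rw [hAdef] at ha
    induction ha using Algebra.adjoin_induction with
    | mem x hx =>
        obtain ⟨c, rfl⟩ := hx
        have : algebraMap L 𝔽 c = c • (algebraMap F₀ 𝔽 1) := by
          rw [map_one, Algebra.smul_def, mul_one]
        rw [this]
        exact Submodule.smul_mem _ _ (Submodule.subset_span ⟨1, rfl⟩)
    | algebraMap r => exact Submodule.subset_span ⟨r, rfl⟩
    | add x y _ _ hx hy => exact add_mem hx hy
    | mul x y _ _ hx hy => exact hmulcl x y hx hy
  let E : IntermediateField L 𝔽 :=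
    { carrier := A
      mul_mem' := fun ha hb => A.mul_mem ha hb
      one_mem' := A.one_mem
      add_mem' := fun ha hb => A.add_mem ha hb
      zero_mem' := A.zero_mem
      algebraMap_mem' := fun c => by
        show algebraMap L 𝔽 c ∈ A
        rw [hAdef]
        exact Algebra.subset_adjoin ⟨c, rfl⟩
      inv_mem' := by
        intro a ha
        have h1 : IsIntegral F₀ (⟨a, ha⟩ : A) := hint'.isIntegral _
        have h2 : IsAlgebraic F₀ a := by
          have h3 : IsIntegral F₀ (((⟨a, ha⟩ : A) : 𝔽)) :=
            (isIntegral_algHom_iff A.val Subtype.val_injective).mpr h1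
          exact h3.isAlgebraic
        exact A.inv_mem_of_algebraic (x := ⟨a, ha⟩) h2 }
  have hE : IntermediateField.adjoin L (Set.range (algebraMap F₀ 𝔽)) ≤ E := by
    rw [adjoin_le_iff]
    rintro _ ⟨f, rfl⟩
    exact A.algebraMap_mem f
  rw [hadj] at hE
  exact hA y (hE (IntermediateField.mem_top))

/-- `ℚ̄·F_M` is the `ℚ̄`-span of the image of `K·F_M`. -/
theorem span_range_bc (y : Fbar M) : y ∈ Submodule.span Qbar (Set.range (bc M K)) := by
  letI alg : Algebra (FK M K) (Fbar M) := (bc M K).toAlgebra
  haveI : IsScalarTower ℚ (FK M K) (Fbar M) := IsScalarTower.of_algebraMap_eq fun q =>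
    RingHom.congr_fun (RingHom.ext_rat (algebraMap ℚ (Fbar M))
      ((algebraMap (FK M K) (Fbar M)).comp (algebraMap ℚ (FK M K)))) q
  refine span_eq_top_abstract (L := Qbar) (F₀ := FK M K) (𝔽 := Fbar M) ?_ (adjoin_range_bc M K) y
  intro c
  have h1 : IsIntegral ℚ c := (AlgebraicClosure.isAlgebraic ℚ).isAlgebraic c |>.isIntegral
  have h2 : IsIntegral ℚ (algebraMap Qbar (Fbar M) c) := h1.algebraMap
  exact h2.tower_top


/-! ### The place below -/

section Below

variable [NeZero M] [FiniteDimensional ℚ K]

theorem bc_ne_zero {f : FK M K} (hf : f ≠ 0) : bc M K f ≠ 0 :=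
  (map_ne_zero_iff _ (bc M K).injective).mpr hf

/-- Every place of `ℚ̄·F_M` lies above a (unique) place of `K·F_M`, and is unramified over it. -/
theorem exists_below (P : Place Qbar (Fbar M)) :
    ∃ w : Place K (FK M K), ∀ f : FK M K, P.ord (bc M K f) = w.ord f := by
  obtain ⟨v, m, hm, hv⟩ := FFOrd.exists_place_of_ordFun (K := K) (F := FK M K)
    (fun f => P.ord (bc M K f))
    (fun f g hf hg => by
      show P.ord (bc M K (f * g)) = _
      rw [map_mul, P.ord_mul (bc_ne_zero M K hf) (bc_ne_zero M K hg)])
    (fun f g hf hg hfg => by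
      show min (P.ord (bc M K f)) (P.ord (bc M K g)) ≤ P.ord (bc M K (f + g))
      rw [map_add]
      refine ffp_le_ord_add P (min_le_left _ _) (min_le_right _ _) ?_
      rw [← map_add]
      exact bc_ne_zero M K hfg)
    (fun c _ => by
      show P.ord (bc M K (algebraMap K (FK M K) c)) = 0
      rw [PlaceExtend27.baseChangeHom_algebraMap, ffp_ord_algebraMap])
    (by
      by_contra hall
      push Not at hall
      apply P.ne_top'
      rw [eq_top_iff]
      intro y _
      have hsub : Submodule.span Qbar (Set.range (bc M K)) ≤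
          Subalgebra.toSubmodule (placeSubalgebra P) := by
        rw [Submodule.span_le]
        rintro _ ⟨f, rfl⟩
        show bc M K f ∈ P.toValuationSubring
        rcases eq_or_ne f 0 with rfl | hf
        · rw [map_zero]; exact zero_mem _
        · rw [ffp_mem_iff_ord_nonneg, hall f hf]
      exact hsub (span_range_bc M K y))
  have hmZ : (0 : ℤ) < m := by exact_mod_cast hm
  have hmem : ∀ x : FK M K, bc M K x ∈ P.toValuationSubring ↔ x ∈ v.toValuationSubring := by
    intro f
    rcases eq_or_ne f 0 with rfl | hf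
    · simp
    rw [ffp_mem_iff_ord_nonneg, ffp_mem_iff_ord_nonneg, hv f hf]
    constructor
    · intro h
      by_contra hneg
      rw [not_le] at hneg
      have := mul_neg_of_pos_of_neg hmZ hneg
      omega
    · intro h
      exact mul_nonneg hmZ.le h
  exact ⟨v, fun f => Fermat.Agent.ES.P36.ConstUnram1.ord_baseChangeHom_eq M K v P hmem f⟩

/-- **The place of `K·F_M` below a place of `ℚ̄·F_M`.** -/
def resPlace (P : Place Qbar (Fbar M)) : Place K (FK M K) := (exists_below M K P).choose

/-- Constant field extensions are unramified. -/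
theorem ord_resPlace (P : Place Qbar (Fbar M)) (f : FK M K) :
    P.ord (bc M K f) = (resPlace M K P).ord f := (exists_below M K P).choose_spec f

theorem isAbove_resPlace (P : Place Qbar (Fbar M)) :
    IsAbove (bc M K) (resPlace M K P) P := ord_resPlace M K P

theorem mem_resPlace_iff (P : Place Qbar (Fbar M)) (f : FK M K) :
    f ∈ (resPlace M K P).toValuationSubring ↔ bc M K f ∈ P.toValuationSubring :=
  ((isAbove_resPlace M K P).mem_iff f).symm

/-- A place is determined by its order function. -/
theorem place_ext_ord {k F : Type*} [Field k] [Field F] [Algebra k F] {v w : Place k F}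
    (h : ∀ f : F, v.ord f = w.ord f) : v = w := by
  apply Place.ext
  ext y
  rw [ffp_mem_iff_ord_nonneg, ffp_mem_iff_ord_nonneg, h]

theorem resPlace_eq_iff (P : Place Qbar (Fbar M)) (w : Place K (FK M K)) :
    resPlace M K P = w ↔ IsAbove (bc M K) w P := by
  constructor
  · rintro rfl
    exact isAbove_resPlace M K P
  · intro h
    exact place_ext_ord fun f => by rw [← ord_resPlace, h f]

theorem resPlace_surjective : Function.Surjective (resPlace M K) := by
  intro w
  obtain ⟨v, e, he, hord, hmem⟩ := PlaceExtend27.exists_place_above_mem M K w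
  exact ⟨v, (resPlace_eq_iff M K v w).mpr
    (Fermat.Agent.ES.P36.ConstUnram1.ord_baseChangeHom_eq M K w v hmem)⟩

end Below

end

end Fermat.Agent.M1.Car.Fibre25
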