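/-
M1 (row 38, S44), chapter CAR, brick CAR-6 (RAT), part 2c — helper25.

**The residue embedding of a place of `ℚ̄·F_M` above a place `w` of `K·F_M`**:
`resEmb : κ(w) →ₐ[K] ℚ̄` (value at `P`), its Galois equivariance, finiteness of `κ(w) / K`, and the
separation theorem: two places above `w` with the same residue embedding are equal.
-/
import Mathlib
import Fermat.Agent.M1.Car.Fibre25

set_option autoImplicit false
set_option linter.unusedSectionVars false
set_option linter.style.haveILetI false

open AlgebraicCurve ModularCurve HahnSeries IntermediateField Polynomial IsLocalRing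

namespace Fermat.Agent.M1.Car.FibreEmb25

open Fermat.Agent.X0 Fermat.Agent.X0.FF Fermat.Agent.RED.Interface4 Fermat.Agent.RED.DESC
  Fermat.Agent.M1.Car.FibreAbs25 Fermat.Agent.M1.Car.Fibre25 Fermat.Agent.ES.RED.PlaceValue13
  Fermat.Agent.ES.N34.GalRational1

noncomputable section

/-- Shortcut to the instance found (slowly) by instance search. -/
local instance (priority := 5000) algKFK (M : ℕ) (K : IntermediateField ℚ Qbar) :
    Algebra K (FK M K) := SubalgebraClass.toAlgebra (FK M K)

variable (M : ℕ) [NeZero M] (K : IntermediateField ℚ Qbar) [FiniteDimensional ℚ K]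

/-- The generator `j` of `ℚ̄·F_M`. -/
theorem hxj : IsGen Qbar (jF M) := Fermat.Agent.RED.TOP.FbarFacts20.isGen_j M

/-- The semilinear action of `Gal(ℚ̄/ℚ)` on `ℚ̄·F_M`. -/
abbrev galBar (σ : Qbar ≃ₐ[ℚ] Qbar) : SemilinearAut Qbar (Fbar M) :=
  arithmeticGalois (modularFunctionFieldFull M) σ

variable {M K}

/-! ### The value map on `O_w` -/

section Value

variable {w : Place K (FK M K)} {P : Place Qbar (Fbar M)} (h : IsAbove (bc M K) w P)

/-- `O_w → O_P`. -/
def bcO : w.toValuationSubring →+* P.toValuationSubring where
  toFun f := ⟨bc M K (f : FK M K), h.mem f.2⟩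
  map_one' := Subtype.ext (map_one _)
  map_mul' _ _ := Subtype.ext (map_mul _ _ _)
  map_zero' := Subtype.ext (map_zero _)
  map_add' _ _ := Subtype.ext (map_add _ _ _)

/-- The value at `P` of an element of `O_w`. -/
def valAt : w.toValuationSubring →+* Qbar :=
  ((valueHom (hxj M) P : P.toValuationSubring →+* Qbar)).comp (bcO h)

theorem valAt_apply (f : w.toValuationSubring) :
    valAt h f = valueHom (hxj M) P ⟨bc M K (f : FK M K), h.mem f.2⟩ := rfl

theorem valAt_eq_zero_iff (f : w.toValuationSubring) :
    valAt h f = 0 ↔ f ∈ maximalIdeal w.toValuationSubring := by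
  rw [valAt_apply, valueHom_eq_zero_iff_ord]
  show (bc M K (f : FK M K) = 0 ∨ 0 < P.ord (bc M K (f : FK M K))) ↔ _
  rw [h (f : FK M K)]
  rcases eq_or_ne f 0 with rfl | hf
  · simp
  rw [ffp_mem_maximalIdeal_iff w f hf]
  constructor
  · rintro (h0 | h0)
    · exfalso
      apply hf
      apply Subtype.ext
      exact (map_eq_zero_iff _ (bc M K).injective).mp h0
    · exact h0
  · exact fun h0 => Or.inr h0

theorem valAt_algebraMap (c : K) :
    valAt h (algebraMap K w.toValuationSubring c) = algebraMap K Qbar c := by
  rw [valAt_apply]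
  have e : (⟨bc M K ((algebraMap K w.toValuationSubring c : w.toValuationSubring) : FK M K),
      h.mem (algebraMap K w.toValuationSubring c).2⟩ : P.toValuationSubring) =
      algebraMap Qbar P.toValuationSubring (algebraMap K Qbar c) := by
    apply Subtype.ext
    show bc M K (algebraMap K (FK M K) c) = algebraMap Qbar (Fbar M) (algebraMap K Qbar c)
    exact PlaceExtend27.baseChangeHom_algebraMap M K c
  rw [e, AlgHom.commutes]
  rfl

/-- **The residue embedding** `κ(w) →ₐ[K] ℚ̄` of a place `P` above `w`. -/
def resEmb : w.ResidueField →ₐ[K] Qbar :=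
  { Ideal.Quotient.lift (maximalIdeal w.toValuationSubring) (valAt h)
      (fun f hf => (valAt_eq_zero_iff h f).mpr hf) with
    commutes' := fun c => by
      show Ideal.Quotient.lift (maximalIdeal w.toValuationSubring) (valAt h) _
        (Ideal.Quotient.mk _ (algebraMap K w.toValuationSubring c)) = _
      rw [Ideal.Quotient.lift_mk]
      exact valAt_algebraMap h c }

theorem resEmb_residue (f : w.toValuationSubring) :
    resEmb h (residue w.toValuationSubring f) = valAt h f := rfl

end Value

end

end Fermat.Agent.M1.Car.FibreEmb25
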