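/-
M1 (row 38, S44), chapter CAR, brick CAR-6 (RAT), part 2d — helper25.

Galois equivariance of the residue embedding, finiteness of `κ(w) / K`, and the separation theorem:
two places of `ℚ̄·F_M` above the same place `w` of `K·F_M` with the same residue embedding coincide.
-/
import Mathlib
import Fermat.Agent.M1.Car.FibreEmb25

set_option autoImplicit false
set_option linter.unusedSectionVars false
set_option linter.style.haveILetI false

open AlgebraicCurve ModularCurve HahnSeries IntermediateField Polynomial IsLocalRing

namespace Fermat.Agent.M1.Car.FibreSep25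

open Fermat.Agent.X0 Fermat.Agent.X0.FF Fermat.Agent.RED.Interface4 Fermat.Agent.RED.DESC
  Fermat.Agent.M1.Car.FibreAbs25 Fermat.Agent.M1.Car.Fibre25 Fermat.Agent.M1.Car.FibreEmb25
  Fermat.Agent.ES.RED.PlaceValue13 Fermat.Agent.ES.N34.GalRational1

noncomputable section

/-- Shortcut to the instance found (slowly) by instance search. -/
local instance (priority := 5000) algKFK (M : ℕ) (K : IntermediateField ℚ Qbar) :
    Algebra K (FK M K) := SubalgebraClass.toAlgebra (FK M K)

variable {M : ℕ} [NeZero M] {K : IntermediateField ℚ Qbar} [FiniteDimensional ℚ K]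

/-! ### Galois equivariance -/

section Galois

variable {w : Place K (FK M K)} {P : Place Qbar (Fbar M)} (h : IsAbove (bc M K) w P)
  (σ : Qbar ≃ₐ[ℚ] Qbar) (hσ : ∀ a ∈ K, σ a = a)

include hσ in
theorem smul_bc (f : FK M K) : galBar M σ • bc M K f = bc M K f :=
  smul_baseChangeHom_of_fixed M K σ hσ f

include h hσ in
/-- `Gal(ℚ̄/K)` preserves the fibre of `w`. -/
theorem isAbove_smul : IsAbove (bc M K) w (galBar M σ • P) := by
  intro f
  have h1 := SemilinearAut.ord_smul (galBar M σ) P (bc M K f)
  rw [smul_bc σ hσ f] at h1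
  rw [h1, h f]

theorem valueHom_congr_elt {v : Place Qbar (Fbar M)} {y y' : Fbar M} (hyy : y = y')
    (hy : y ∈ v.toValuationSubring) (hy' : y' ∈ v.toValuationSubring) :
    valueHom (hxj M) v ⟨y, hy⟩ = valueHom (hxj M) v ⟨y', hy'⟩ := by
  subst hyy
  rfl

/-- **Equivariance of the residue embedding.** -/
theorem resEmb_smul (z : w.ResidueField) :
    resEmb (isAbove_smul h σ hσ) z = σ (resEmb h z) := by
  obtain ⟨f, rfl⟩ := residue_surjective z
  rw [resEmb_residue, resEmb_residue, valAt_apply, valAt_apply]
  have h1 := valueHom_smul' (hxj M) (galBar M σ) P (h.mem f.2)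
  rw [baseAut_arithmeticGalois] at h1
  show _ = σ.toRingEquiv _
  rw [← h1]
  exact valueHom_congr_elt (smul_bc σ hσ _).symm _ _

end Galois

/-! ### Finiteness of the residue field -/

section Finite

variable (w : Place K (FK M K))

/-- The values at `P` of the elements of `O_w` lie in a number field. -/
theorem exists_finite_range {P : Place Qbar (Fbar M)} (h : IsAbove (bc M K) w P) :
    ∃ L₁ : IntermediateField ℚ Qbar, FiniteDimensional ℚ L₁ ∧
      ∀ z : w.ResidueField, resEmb h z ∈ L₁ := by
  obtain ⟨L₀, hL₀, hfix⟩ := Fermat.Agent.ES.GAL.OpenStab12.hasLevel_place M P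
  haveI := hL₀
  refine ⟨L₀ ⊔ K, inferInstance, fun z => ?_⟩
  refine mem_of_fixed (L₀ ⊔ K) _ fun σ hσ => ?_
  have hσK : ∀ a ∈ K, σ a = a := fun a ha => hσ a (le_sup_right (a := L₀) ha)
  have hσL : ∀ a ∈ L₀, σ a = a := fun a ha => hσ a (le_sup_left (b := K) ha)
  have hP : galBar M σ • P = P := hfix σ hσL
  rw [← resEmb_smul h σ hσK z]
  obtain ⟨f, rfl⟩ := residue_surjective z
  rw [resEmb_residue, resEmb_residue, valAt_apply, valAt_apply]
  exact valueHom_congr_place M (hxj M) hP _ _ _

/-- **The residue field of a place of `K·F_M` is finite over `K`.** -/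
theorem finite_residueField : Module.Finite K w.ResidueField := by
  obtain ⟨P, hP⟩ := resPlace_surjective M K w
  have h : IsAbove (bc M K) w P := (resPlace_eq_iff M K P w).mp hP
  obtain ⟨L₁, hL₁, hmem⟩ := exists_finite_range w h
  haveI := hL₁
  haveI : CharZero w.ResidueField :=
    charZero_of_injective_algebraMap (algebraMap K w.ResidueField).injective
  -- a `ℚ`-linear injection `κ(w) → L₁`
  let φ : w.ResidueField →ₗ[ℚ] L₁ :=
    LinearMap.codRestrict (Subalgebra.toSubmodule L₁.toSubalgebra)
      ((resEmb h).toLinearMap.restrictScalars ℚ) hmem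
  have hφ : Function.Injective φ := by
    intro a b hab
    have h1 : resEmb h a = resEmb h b := congrArg Subtype.val hab
    exact (resEmb h).toRingHom.injective h1
  haveI : Module.Finite ℚ w.ResidueField := Module.Finite.of_injective φ hφ
  exact Module.Finite.of_restrictScalars_finite ℚ K w.ResidueField

end Finite

/-! ### Separation -/

section Separation

variable {w : Place K (FK M K)} {P P' : Place Qbar (Fbar M)}

/-- **Two places above `w` with the same residue embedding are equal.** -/
theorem eq_of_resEmb_eq (h : IsAbove (bc M K) w P) (h' : IsAbove (bc M K) w P')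
    (heq : resEmb h = resEmb h') : P = P' := by
  haveI := finite_residueField w
  obtain ⟨π, hπ⟩ := ffp_exists_irreducible w
  obtain ⟨α, hα⟩ := Field.exists_primitive_element K w.ResidueField
  obtain ⟨θ, hθ⟩ := residue_surjective α
  have hres : ∀ (a : w.toValuationSubring) (g : K[X]),
      residue w.toValuationSubring (aeval a g) = aeval (residue w.toValuationSubring a) g := by
    intro a g
    rw [aeval_def, aeval_def, Polynomial.hom_eval₂]
    rfl
  have hαint : IsIntegral K α := Algebra.IsIntegral.isIntegral α
  have hgen : ∀ f : w.toValuationSubring, ∃ g : K[X],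
      f - aeval θ g ∈ maximalIdeal w.toValuationSubring := by
    intro f
    have h1 : residue w.toValuationSubring f ∈ K⟮α⟯.toSubalgebra := by
      rw [hα]; exact Algebra.mem_top
    rw [adjoin_simple_toSubalgebra_of_isAlgebraic hαint.isAlgebraic,
      Algebra.adjoin_singleton_eq_range_aeval] at h1
    obtain ⟨g, hg⟩ := h1
    refine ⟨g, ?_⟩
    rw [← residue_eq_zero_iff, map_sub, hres, hθ, sub_eq_zero]
    exact hg.symm
  have hm : (minpoly K α).Separable := Algebra.IsSeparable.isSeparable K α
  have hmθ : aeval θ (minpoly K α) ∈ maximalIdeal w.toValuationSubring := by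
    rw [← residue_eq_zero_iff, hres, hθ, minpoly.aeval]
  have hval : valS (hxj M) h = valS (hxj M) h' := by
    apply valS_eq
    intro f hf
    have := congrArg (fun φ => φ (residue w.toValuationSubring ⟨f, hf⟩)) heq
    exact this
  exact eq_of_valS_eq (hxj M) (PlaceExtend27.baseChangeHom_algebraMap M K) h h' hπ hgen hm hmθ
    (span_range_bc M K) hval

end Separation

end

end Fermat.Agent.M1.Car.FibreSep25
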