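/-
M1 (row 38, S44), chapter CAR, brick CAR-6 (RAT), part 2e — helper25.

**Transitivity of `Gal(ℚ̄/K)` on the fibres of `Place ℚ̄ (ℚ̄·F_M) → Place K (K·F_M)` and the
count `#fibre(w) = deg w`** (the fundamental identity for the constant field extension `ℚ̄ / K`:
all ramification indices are `1`, all residue degrees upstairs are `1`).
-/
import Mathlib
import Fermat.Agent.M1.Car.FibreSep25

set_option autoImplicit false
set_option linter.unusedSectionVars false
set_option linter.style.haveILetI false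

open AlgebraicCurve ModularCurve HahnSeries IntermediateField Polynomial IsLocalRing

namespace Fermat.Agent.M1.Car.FibreCount25

open Fermat.Agent.X0 Fermat.Agent.X0.FF Fermat.Agent.RED.Interface4 Fermat.Agent.RED.DESC
  Fermat.Agent.M1.Car.FibreAbs25 Fermat.Agent.M1.Car.Fibre25 Fermat.Agent.M1.Car.FibreEmb25
  Fermat.Agent.M1.Car.FibreSep25

noncomputable section

/-- Two embeddings into a normal extension differ by an automorphism. -/
theorem exists_algEquiv_comp {k κ E : Type*} [Field k] [Field κ] [Field E] [Algebra k κ]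
    [Algebra k E] [Normal k E] (τ τ' : κ →ₐ[k] E) : ∃ σ : E ≃ₐ[k] E, ∀ z, σ (τ z) = τ' z := by
  let a1 : Algebra κ E := τ.toRingHom.toAlgebra
  let a2 : Algebra κ E := τ'.toRingHom.toAlgebra
  have t1 : @IsScalarTower k κ E _ a1.toSMul _ :=
    @IsScalarTower.of_algebraMap_eq k κ E _ _ _ _ a1 _ fun c => (τ.commutes c).symm
  have t2 : @IsScalarTower k κ E _ a2.toSMul _ :=
    @IsScalarTower.of_algebraMap_eq k κ E _ _ _ _ a2 _ fun c => (τ'.commutes c).symm
  refine ⟨@AlgEquiv.liftNormal k _ κ κ _ _ _ _ AlgEquiv.refl E _ _ a1 a2 t1 t2 _, fun z => ?_⟩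
  exact @AlgEquiv.liftNormal_commutes k _ κ κ _ _ _ _ AlgEquiv.refl E _ _ a1 a2 t1 t2 _ z

/-- Shortcut to the instance found (slowly) by instance search. -/
local instance (priority := 5000) algKFK (M : ℕ) (K : IntermediateField ℚ Qbar) :
    Algebra K (FK M K) := SubalgebraClass.toAlgebra (FK M K)

variable {M : ℕ} [NeZero M] {K : IntermediateField ℚ Qbar} [FiniteDimensional ℚ K]

theorem normal_Qbar_over (K : IntermediateField ℚ Qbar) : Normal K Qbar := by
  haveI : Algebra.IsAlgebraic K Qbar := PlaceExtend27.isAlgebraic_Qbar_over K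
  haveI : IsAlgClosure K Qbar := ⟨inferInstance, inferInstance⟩
  exact IsAlgClosure.normal K Qbar

/-- Every embedding `κ(w) → ℚ̄` over `K` is moved to any other by an element of `Gal(ℚ̄/K)`. -/
theorem exists_gal_comp {κ : Type*} [Field κ] [Algebra K κ] (τ τ' : κ →ₐ[K] Qbar) :
    ∃ σ : Qbar ≃ₐ[ℚ] Qbar, (∀ a ∈ K, σ a = a) ∧ ∀ z, σ (τ z) = τ' z := by
  haveI := normal_Qbar_over K
  obtain ⟨σK, hσK⟩ := exists_algEquiv_comp τ τ'
  refine ⟨σK.restrictScalars ℚ, fun a ha => ?_, fun z => hσK z⟩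
  exact σK.commutes ⟨a, ha⟩

section Transitive

variable {w : Place K (FK M K)} {P P' : Place Qbar (Fbar M)}

/-- **Transitivity**: two places above `w` are conjugate under `Gal(ℚ̄/K)`. -/
theorem exists_smul_eq_of_isAbove (h : IsAbove (bc M K) w P) (h' : IsAbove (bc M K) w P') :
    ∃ σ : Qbar ≃ₐ[ℚ] Qbar, (∀ a ∈ K, σ a = a) ∧ galBar M σ • P = P' := by
  obtain ⟨σ, hσ, hcomp⟩ := exists_gal_comp (resEmb h) (resEmb h')
  refine ⟨σ, hσ, eq_of_resEmb_eq (isAbove_smul h σ hσ) h' ?_⟩
  ext z
  rw [resEmb_smul h σ hσ z, hcomp z]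

end Transitive

variable (M K)

/-- **Transitivity on the fibres of `resPlace`.** -/
theorem exists_smul_eq_of_resPlace_eq (P P' : Place Qbar (Fbar M))
    (h : resPlace M K P = resPlace M K P') :
    ∃ σ : Qbar ≃ₐ[ℚ] Qbar, (∀ a ∈ K, σ a = a) ∧ galBar M σ • P = P' :=
  exists_smul_eq_of_isAbove ((resPlace_eq_iff M K P _).mp h) (isAbove_resPlace M K P')

/-- `Gal(ℚ̄/K)` preserves the fibres of `resPlace`. -/
theorem resPlace_smul (σ : Qbar ≃ₐ[ℚ] Qbar) (hσ : ∀ a ∈ K, σ a = a) (P : Place Qbar (Fbar M)) :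
    resPlace M K (galBar M σ • P) = resPlace M K P :=
  (resPlace_eq_iff M K _ _).mpr (isAbove_smul (isAbove_resPlace M K P) σ hσ)

/-! ### The count -/

section Count

variable (w : Place K (FK M K))

/-- The residue embedding as a map on the fibre. -/
def fibreEmb : {P : Place Qbar (Fbar M) // resPlace M K P = w} → (w.ResidueField →ₐ[K] Qbar) :=
  fun P => resEmb ((resPlace_eq_iff M K P.1 w).mp P.2)

theorem fibreEmb_bijective : Function.Bijective (fibreEmb M K w) := by
  constructor
  · intro P P' hPP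
    exact Subtype.ext (eq_of_resEmb_eq _ _ hPP)
  · intro τ'
    obtain ⟨P₀, hP₀⟩ := resPlace_surjective M K w
    have h₀ : IsAbove (bc M K) w P₀ := (resPlace_eq_iff M K P₀ w).mp hP₀
    obtain ⟨σ, hσ, hcomp⟩ := exists_gal_comp (resEmb h₀) τ'
    refine ⟨⟨galBar M σ • P₀, (resPlace_eq_iff M K _ w).mpr (isAbove_smul h₀ σ hσ)⟩, ?_⟩
    ext z
    show resEmb ((resPlace_eq_iff M K (galBar M σ • P₀) w).mp
      ((resPlace_eq_iff M K _ w).mpr (isAbove_smul h₀ σ hσ))) z = τ' z
    rw [resEmb_smul h₀ σ hσ z, hcomp z]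

/-- **`#fibre(w) = deg w`.** -/
theorem card_fibre : Nat.card {P : Place Qbar (Fbar M) // resPlace M K P = w} = w.deg := by
  haveI := finite_residueField w
  haveI : Algebra.IsAlgebraic K w.ResidueField := Algebra.IsAlgebraic.of_finite K _
  rw [Nat.card_congr (Equiv.ofBijective _ (fibreEmb_bijective M K w)),
    ← Field.finSepDegree_eq_of_isAlgClosed K w.ResidueField Qbar,
    Field.finSepDegree_eq_finrank_of_isSeparable]
  rfl

theorem deg_pos : 0 < w.deg := by
  haveI := finite_residueField w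
  exact Module.finrank_pos

/-- The fibres of `resPlace` are finite. -/
theorem finite_fibre : {P : Place Qbar (Fbar M) | resPlace M K P = w}.Finite := by
  have h1 : Nat.card {P : Place Qbar (Fbar M) // resPlace M K P = w} ≠ 0 := by
    rw [card_fibre]
    exact (deg_pos M K w).ne'
  exact Set.finite_coe_iff.mp (Nat.finite_of_card_ne_zero h1)

theorem ncard_fibre : {P : Place Qbar (Fbar M) | resPlace M K P = w}.ncard = w.deg := by
  rw [← card_fibre M K w]
  exact (Nat.card_coe_set_eq _).symm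

end Count

end

end Fermat.Agent.M1.Car.FibreCount25
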