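/-
M1 (row 38, S44), chapter CAR, brick CAR-6 (RAT), part 3a — helper25.

**Base change of divisors and divisor classes from `K·F_M` to `ℚ̄·F_M`** (`K ⊂ ℚ̄` a number field):
`extDiv` (conorm; all ramification indices are `1`), `degree_extDiv`, principal divisors,
`HasPrincipalDivisors K (K·F_M)`, the map `bcPic0 : Pic⁰(K·F_M) → J₀(M)(ℚ̄)`, and the descent of
`Gal(ℚ̄/K)`-stable divisors.
-/
import Mathlib
import Fermat.Agent.M1.Car.FibreCount25

set_option autoImplicit false
set_option linter.unusedSectionVars false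
set_option linter.style.haveILetI false

open AlgebraicCurve ModularCurve HahnSeries IntermediateField Polynomial IsLocalRing

namespace Fermat.Agent.M1.Car.RatClass25

open Fermat.Agent.X0 Fermat.Agent.X0.FF Fermat.Agent.RED.Interface4 Fermat.Agent.RED.DESC
  Fermat.Agent.M1.Car.FibreAbs25 Fermat.Agent.M1.Car.Fibre25 Fermat.Agent.M1.Car.FibreEmb25
  Fermat.Agent.M1.Car.FibreSep25 Fermat.Agent.M1.Car.FibreCount25

noncomputable section

/-- Shortcut to the instance found (slowly) by instance search. -/
local instance (priority := 5000) algKFK (M : ℕ) (K : IntermediateField ℚ Qbar) :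
    Algebra K (FK M K) := SubalgebraClass.toAlgebra (FK M K)

variable (M : ℕ) [NeZero M] (K : IntermediateField ℚ Qbar) [FiniteDimensional ℚ K]

/-! ### Extension of divisors -/

open Classical in
/-- The extension (conorm) of a divisor: `(extDiv E) P = E (P ∩ K·F_M)`. -/
def extDivFun (E : Divisor K (FK M K)) : Divisor Qbar (Fbar M) :=
  Finsupp.onFinset (E.support.biUnion fun w => (finite_fibre M K w).toFinset)
    (fun P => E (resPlace M K P)) (by
      intro P hP
      rw [Finset.mem_biUnion]
      exact ⟨resPlace M K P, Finsupp.mem_support_iff.mpr hP,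
        (Set.Finite.mem_toFinset _).mpr rfl⟩)

theorem extDivFun_apply (E : Divisor K (FK M K)) (P : Place Qbar (Fbar M)) :
    extDivFun M K E P = E (resPlace M K P) := rfl

/-- **Extension of divisors** from `K·F_M` to `ℚ̄·F_M`. -/
def extDiv : Divisor K (FK M K) →+ Divisor Qbar (Fbar M) where
  toFun := extDivFun M K
  map_zero' := by
    ext P
    rw [extDivFun_apply]
    rfl
  map_add' D E := by
    ext P
    rw [Finsupp.add_apply, extDivFun_apply, extDivFun_apply, extDivFun_apply, Finsupp.add_apply]

theorem extDiv_apply (E : Divisor K (FK M K)) (P : Place Qbar (Fbar M)) :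
    extDiv M K E P = E (resPlace M K P) := rfl

/-- The degree of a divisor of `ℚ̄·F_M` is the sum of its coefficients over any finite set
containing its support. -/
theorem degree_eq_sum_of_subset (D : Divisor Qbar (Fbar M)) (T : Finset (Place Qbar (Fbar M)))
    (hT : D.support ⊆ T) : Divisor.degree D = ∑ P ∈ T, D P := by
  rw [Divisor.degree, Finsupp.liftAddHom_apply, Finsupp.sum_of_support_subset D hT]
  · refine Finset.sum_congr rfl fun P _ => ?_
    show D P * (P.deg : ℤ) = D P
    rw [FF.deg_eq_one (hxj M) P]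
    simp
  · intro P _
    simp

theorem degree_extDiv_single (w : Place K (FK M K)) (n : ℤ) :
    Divisor.degree (extDiv M K (Finsupp.single w n)) = n * (w.deg : ℤ) := by
  classical
  rw [degree_eq_sum_of_subset M _ (finite_fibre M K w).toFinset]
  · have h1 : ∀ P ∈ (finite_fibre M K w).toFinset, extDiv M K (Finsupp.single w n) P = n := by
      intro P hP
      rw [Set.Finite.mem_toFinset] at hP
      rw [extDiv_apply, hP, Finsupp.single_eq_same]
    rw [Finset.sum_congr rfl h1, Finset.sum_const, ← ncard_fibre M K w,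
      Set.ncard_eq_toFinset_card _ (finite_fibre M K w)]
    simp [mul_comm]
  · intro P hP
    rw [Finsupp.mem_support_iff, extDiv_apply] at hP
    rw [Set.Finite.mem_toFinset]
    by_contra hne
    apply hP
    rw [Finsupp.single_apply, if_neg (fun h => hne h.symm)]

/-- **Extension of divisors preserves the degree** (`#fibre(w) = deg w`). -/
theorem degree_extDiv (E : Divisor K (FK M K)) :
    Divisor.degree (extDiv M K E) = Divisor.degree E := by
  induction E using Finsupp.induction with
  | zero => simp
  | single_add w n E _ _ ih =>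
      rw [map_add, map_add, map_add, ih, degree_extDiv_single, Divisor.degree_single]

/-- The extension of the divisor of `f` is the divisor of `bc f`. -/
theorem extDiv_eq_ord {D : Divisor K (FK M K)} {f : FK M K}
    (hD : ∀ w : Place K (FK M K), D w = w.ord f) (P : Place Qbar (Fbar M)) :
    extDiv M K D P = P.ord (bc M K f) := by
  rw [extDiv_apply, hD, ord_resPlace]

theorem extDiv_mem_principal {D : Divisor K (FK M K)}
    (hD : D ∈ Divisor.principal (K := K) (F := FK M K)) :
    extDiv M K D ∈ Divisor.principal (K := Qbar) (F := Fbar M) := by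
  obtain ⟨f, hf, hD⟩ := hD
  exact ⟨bc M K f, bc_ne_zero M K hf, extDiv_eq_ord M K hD⟩

/-! ### Principal divisors over the number field -/

/-- **Principal divisors of `K·F_M / K` have finite support and degree zero.** -/
theorem hasPrincipalDivisors : HasPrincipalDivisors K (FK M K) := by
  classical
  refine ⟨fun f hf => ?_⟩
  obtain ⟨Dbar, hDbar, hdeg⟩ :=
    (Fermat.Agent.RED.TOP.FbarFacts20.hasPrincipalDivisors_bar M).exists_divisor
      (bc M K f) (bc_ne_zero M K hf)
  let D : Divisor K (FK M K) :=
    Finsupp.onFinset (Dbar.support.image (resPlace M K)) (fun w => w.ord f) (by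
      intro w hw
      obtain ⟨P, rfl⟩ := resPlace_surjective M K w
      rw [Finset.mem_image]
      refine ⟨P, ?_, rfl⟩
      rw [Finsupp.mem_support_iff, hDbar, ord_resPlace]
      exact hw)
  have hD : ∀ w : Place K (FK M K), D w = w.ord f := fun w => rfl
  refine ⟨D, hD, ?_⟩
  rw [← degree_extDiv M K D, ← hdeg]
  congr 1
  ext P
  rw [extDiv_eq_ord M K hD, hDbar]

instance instHasPrincipalDivisors : HasPrincipalDivisors K (FK M K) := hasPrincipalDivisors M K

/-! ### The map on `Pic⁰` -/

/-- Extension of divisors of degree zero. -/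
def extDivZero : Divisor.degZero (K := K) (F := FK M K) →+
    Divisor.degZero (K := Qbar) (F := Fbar M) :=
  ((extDiv M K).comp (Divisor.degZero (K := K) (F := FK M K)).subtype).codRestrict _ (fun D => by
    show Divisor.degree (extDiv M K (D : Divisor K (FK M K))) = 0
    rw [degree_extDiv]
    exact D.2)

@[simp] theorem coe_extDivZero (D : Divisor.degZero (K := K) (F := FK M K)) :
    (extDivZero M K D : Divisor Qbar (Fbar M)) = extDiv M K (D : Divisor K (FK M K)) := rfl

/-- **Base change of divisor classes** `Pic⁰(K·F_M) → J₀(M)(ℚ̄)`. -/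
def bcPic0 : Pic0 K (FK M K) →+ JZero M :=
  QuotientAddGroup.map _ _ (extDivZero M K) (by
    rintro ⟨D, hD0⟩ hD
    simp only [AddSubgroup.mem_addSubgroupOf, AddSubgroup.mem_comap] at hD ⊢
    exact extDiv_mem_principal M K hD)

theorem bcPic0_mk (D : Divisor.degZero (K := K) (F := FK M K)) :
    bcPic0 M K (Pic0.mk D) = Pic0.mk (extDivZero M K D) := rfl

/-! ### Galois -/

/-- The extension of a divisor is `Gal(ℚ̄/K)`-stable. -/
theorem smul_extDiv (σ : Qbar ≃ₐ[ℚ] Qbar) (hσ : ∀ a ∈ K, σ a = a) (E : Divisor K (FK M K)) :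
    galBar M σ • extDiv M K E = extDiv M K E := by
  ext P
  rw [SemilinearAut.divisor_smul_apply, extDiv_apply, extDiv_apply]
  have hinv : ∀ a ∈ K, σ⁻¹ a = a := by
    intro a ha
    have h1 := hσ a ha
    calc σ⁻¹ a = σ⁻¹ (σ a) := by rw [h1]
      _ = a := by
        show σ.symm (σ a) = a
        exact σ.symm_apply_apply a
  have h2 : (galBar M σ)⁻¹ = galBar M σ⁻¹ := (map_inv _ σ).symm
  rw [h2, resPlace_smul M K σ⁻¹ hinv P]

/-- The classes in the image of `bcPic0` are `Gal(ℚ̄/K)`-fixed. -/
theorem smul_bcPic0 (σ : Qbar ≃ₐ[ℚ] Qbar) (hσ : ∀ a ∈ K, σ a = a) (x : Pic0 K (FK M K)) :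
    σ • bcPic0 M K x = bcPic0 M K x := by
  obtain ⟨D, rfl⟩ := Pic0.mk_surjective x
  rw [bcPic0_mk, galois_smul_pic0_def, SemilinearAut.pic0_smul_mk]
  congr 1
  apply Subtype.ext
  rw [SemilinearAut.coe_degZeroSMulHom, coe_extDivZero]
  exact smul_extDiv M K σ hσ _

/-- **Descent of stable divisors**: a `Gal(ℚ̄/K)`-stable divisor of `ℚ̄·F_M` is the extension of a
divisor of `K·F_M`. -/
theorem exists_extDiv_eq_of_stable (D : Divisor Qbar (Fbar M))
    (hD : ∀ σ : Qbar ≃ₐ[ℚ] Qbar, (∀ a ∈ K, σ a = a) → galBar M σ • D = D) :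
    ∃ E : Divisor K (FK M K), extDiv M K E = D := by
  classical
  choose sec hsec using resPlace_surjective M K
  let E : Divisor K (FK M K) :=
    Finsupp.onFinset (D.support.image (resPlace M K)) (fun w => D (sec w)) (by
      intro w hw
      rw [Finset.mem_image]
      exact ⟨sec w, Finsupp.mem_support_iff.mpr hw, hsec w⟩)
  refine ⟨E, ?_⟩
  ext P
  rw [extDiv_apply]
  show D (sec (resPlace M K P)) = D P
  obtain ⟨σ, hσ, hσP⟩ := exists_smul_eq_of_resPlace_eq M K (sec (resPlace M K P)) P
    (hsec (resPlace M K P))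
  have h1 := SemilinearAut.divisor_smul_apply_smul (galBar M σ) D (sec (resPlace M K P))
  rw [hD σ hσ, hσP] at h1
  exact h1.symm

end

end Fermat.Agent.M1.Car.RatClass25
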