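/-
M1 (row 38, S44), chapter CAR, brick CAR-6 (RAT), part 3b — helper25.

* `pInf M` : the place of `ℚ̄·F_M` at the cusp `∞` (the `q`-adic order), fixed by `Gal(ℚ̄/ℚ)`;
* `exists_bc_eq_of_fixed` : **Galois descent of functions to a fixed number field**:
  `(ℚ̄·F_M)^{Gal(ℚ̄/K)} = K·F_M`.
-/
import Mathlib
import Fermat.Agent.M1.Car.RatClass25
import Fermat.Agent.X0.LaurentPlace
import Fermat.Agent.X0.RootsK
import Fermat.Agent.ES.P36.DescTools1

set_option autoImplicit false
set_option linter.unusedSectionVars false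
set_option linter.style.haveILetI false

open AlgebraicCurve ModularCurve HahnSeries IntermediateField Polynomial IsLocalRing

namespace Fermat.Agent.M1.Car.RatInf25

open Fermat.Agent.X0 Fermat.Agent.X0.FF Fermat.Agent.RED.Interface4 Fermat.Agent.RED.DESC
  Fermat.Agent.M1.Car.FibreAbs25 Fermat.Agent.M1.Car.Fibre25 Fermat.Agent.M1.Car.FibreEmb25
  Fermat.Agent.M1.Car.FibreSep25 Fermat.Agent.M1.Car.FibreCount25 Fermat.Agent.M1.Car.RatClass25
  Fermat.Agent.ES.N34.GalRational1

noncomputable section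

/-- Shortcut to the instance found (slowly) by instance search. -/
local instance (priority := 5000) algKFK (M : ℕ) (K : IntermediateField ℚ Qbar) :
    Algebra K (FK M K) := SubalgebraClass.toAlgebra (FK M K)

variable (M : ℕ) [NeZero M]

/-! ### The place at infinity -/

/-- The inclusion `ℚ̄·F_M → ℚ̄((q))`. -/
def tauInf : Fbar M →+* LaurentSeries Qbar := (modularFunctionFieldBar M).val.toRingHom

theorem tauInf_apply (x : Fbar M) : tauInf M x = (x : LaurentSeries Qbar) := rfl

theorem tauInf_const (c : Qbar) : tauInf M (algebraMap Qbar (Fbar M) c) = HahnSeries.C c := by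
  show algebraMap Qbar (LaurentSeries Qbar) c = HahnSeries.C c
  rw [algebraMap_laurentSeries_eq_single]
  rfl

theorem tauInf_nt : ∃ f : Fbar M, f ≠ 0 ∧ (tauInf M f).order ≠ 0 := by
  refine ⟨jF M, ?_, ?_⟩
  · intro h
    have h1 := congrArg (tauInf M) h
    rw [map_zero, tauInf_apply, coe_jF] at h1
    exact jqK_ne_zero h1
  · rw [tauInf_apply, coe_jF]
    have h1 : jqK.order ≤ -1 :=
      HahnSeries.order_le_of_coeff_ne_zero (by rw [coeff_jqK_neg_one]; exact one_ne_zero)
    omega

/-- **The place at the cusp `∞`** of `ℚ̄·F_M`. -/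
def pInf : Place Qbar (Fbar M) :=
  LaurentPlace.embPlace (tauInf M) (tauInf_const M) (tauInf_nt M)

theorem tauInf_smul (σ : Qbar ≃ₐ[ℚ] Qbar) (f : Fbar M) :
    tauInf M (galBar M σ • f) = coeffMap (σ : Qbar →+* Qbar) (tauInf M f) :=
  coe_arithmeticGalois_smul (modularFunctionFieldFull M) σ f

/-- The place at `∞` is fixed by `Gal(ℚ̄/ℚ)`. -/
theorem smul_pInf (σ : Qbar ≃ₐ[ℚ] Qbar) : galBar M σ • pInf M = pInf M := by
  obtain ⟨m, hm, hspec⟩ := LaurentPlace.embPlace_spec (tauInf M) (tauInf_const M) (tauInf_nt M)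
  refine LaurentPlace.eq_embPlace_of_spec (tauInf M) (tauInf_const M) (tauInf_nt M)
    (galBar M σ • pInf M) hm (fun f hf => ?_)
  have h1 := SemilinearAut.ord_smul (galBar M σ) (pInf M) ((galBar M σ)⁻¹ • f)
  rw [smul_inv_smul] at h1
  have hf' : (galBar M σ)⁻¹ • f ≠ 0 := by
    intro h0
    apply hf
    have := congrArg (fun x => galBar M σ • x) h0
    simpa using this
  rw [h1]
  show _ = (m : ℤ) * (LaurentPlace.embPlace (tauInf M) (tauInf_const M) (tauInf_nt M)).ord _
  rw [← hspec _ hf']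
  have h2 : (galBar M σ)⁻¹ = galBar M σ⁻¹ := (map_inv _ σ).symm
  rw [h2, tauInf_smul, Fermat.Agent.ES.P36.DescTools1.order_coeffMap]

/-! ### Galois descent of functions -/

variable (K : IntermediateField ℚ Qbar) [FiniteDimensional ℚ K]

/-- the `n`-th Laurent coefficient on `K·F_M`. -/
def coefK (n : ℤ) : FK M K →ₗ[K] K where
  toFun f := (f : LaurentSeries K).coeff n
  map_add' _ _ := rfl
  map_smul' a f := by
    show ((a • f : FK M K) : LaurentSeries K).coeff n = a • (f : LaurentSeries K).coeff n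
    rw [IntermediateField.coe_smul, Algebra.smul_def, algebraMap_laurentSeries_eq_single,
      HahnSeries.coeff_single_zero_mul]
    rfl

/-- the `n`-th Laurent coefficient on `ℚ̄·F_M`. -/
def coefBar (n : ℤ) : Fbar M →ₗ[Qbar] Qbar where
  toFun f := (f : LaurentSeries Qbar).coeff n
  map_add' _ _ := rfl
  map_smul' a f := by
    show ((a • f : Fbar M) : LaurentSeries Qbar).coeff n = a • (f : LaurentSeries Qbar).coeff n
    rw [IntermediateField.coe_smul, Algebra.smul_def, algebraMap_laurentSeries_eq_single,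
      HahnSeries.coeff_single_zero_mul]
    rfl

theorem coefBar_bc (n : ℤ) (f : FK M K) :
    coefBar M n (bc M K f) = algebraMap K Qbar (coefK M K n f) := rfl

/-- **Galois descent of functions**: an element of `ℚ̄·F_M` fixed by `Gal(ℚ̄/K)` comes from
`K·F_M`. -/
theorem exists_bc_eq_of_fixed (y : Fbar M)
    (hy : ∀ σ : Qbar ≃ₐ[ℚ] Qbar, (∀ a ∈ K, σ a = a) → galBar M σ • y = y) :
    ∃ z : FK M K, bc M K z = y := by
  classical
  -- the coefficients of `y` lie in `K`
  have hcoef : ∀ n : ℤ, coefBar M n y ∈ K := by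
    intro n
    refine mem_of_fixed K _ fun σ hσ => ?_
    have h1 := congrArg (fun x : Fbar M => (x : LaurentSeries Qbar).coeff n) (hy σ hσ)
    simp only [coe_arithmeticGalois_smul, coeffMap_coeff] at h1
    exact h1
  -- a `K`-linear retraction `ℚ̄ → K`
  obtain ⟨lam, hlam⟩ : ∃ lam : Qbar →ₗ[K] K, ∀ a : K, lam (algebraMap K Qbar a) = a := by
    obtain ⟨g, hg⟩ := LinearMap.exists_leftInverse_of_injective (Algebra.linearMap K Qbar)
      (LinearMap.ker_eq_bot.mpr (algebraMap K Qbar).injective)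
    exact ⟨g, fun a => LinearMap.congr_fun hg a⟩
  have hy' := span_range_bc M K y
  rw [Finsupp.mem_span_range_iff_exists_finsupp] at hy'
  obtain ⟨c, hc⟩ := hy'
  refine ⟨c.sum fun f a => lam a • f, ?_⟩
  apply Subtype.ext
  ext n
  show coefBar M n (bc M K (c.sum fun f a => lam a • f)) = coefBar M n y
  rw [coefBar_bc, map_finsuppSum]
  obtain ⟨a, ha⟩ : ∃ a : K, algebraMap K Qbar a = coefBar M n y := ⟨⟨_, hcoef n⟩, rfl⟩
  rw [← ha]
  congr 1
  -- apply `lam` to the `n`-th coefficient of `y`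
  have h2 : lam (coefBar M n y) = a := by rw [← ha, hlam]
  rw [← h2, ← hc, map_finsuppSum, map_finsuppSum]
  refine Finsupp.sum_congr fun f _ => ?_
  rw [map_smul, map_smul, coefBar_bc]
  show lam (c f) • coefK M K n f = lam (c f • algebraMap K Qbar (coefK M K n f))
  have h3 : c f • algebraMap K Qbar (coefK M K n f) = coefK M K n f • c f := by
    rw [smul_eq_mul, Algebra.smul_def, mul_comm]
  rw [h3, map_smul, smul_eq_mul, smul_eq_mul, mul_comm]

end

end Fermat.Agent.M1.Car.RatInf25
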