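/-
M1 (row 38, S44), chapter CAR, brick CAR-6 (RAT), part 1 — helper25.

**A fixed divisor class has a stable representative** (abstract form).

`F / K` a function field satisfying the hypotheses `LSpace.LHyp` (all places of degree one, e.g.
`K` algebraically closed) and Riemann's inequality; `Γ` a group acting semilinearly on `F / K`,
`P0` a `Γ`-fixed place.  Then every `Γ`-fixed class `c ∈ Pic⁰` is the class of a `Γ`-stable
divisor of degree zero.

Proof (the Riemann–Roch trick): let `c = [A]` and let `n ≥ 0` be least with `L(A + n P0) ≠ 0`.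
Then `L(A + (n-1) P0) = 0`, hence `L(A + n P0)` is a line `K f`, and `D := A + div f` depends only
on the class of `A` (and on `P0`): it is stable.
-/
import Mathlib
import Fermat.Prelude.Def_AlgebraicCurve_BaseChangeGalois
import Fermat.Agent.RR.LSpace

set_option autoImplicit false

open AlgebraicCurve

namespace Fermat.Agent.M1.Car.StableRep25

open Fermat.Agent.RR.LSpace Fermat.Agent.X0.FF

variable {K F : Type*} [Field K] [Field F] [Algebra K F]

/-- Riemann's inequality, as a hypothesis. -/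
def RiemannIneq (K F : Type*) [Field K] [Field F] [Algebra K F] : Prop :=
  ∃ γ : ℤ, ∀ D : Divisor K F,
    Divisor.degree D + 1 - γ ≤ (Module.finrank K (riemannRochSpace D) : ℤ)

/-- `L(A + n P0) ≠ 0` for `n` large. -/
theorem exists_L_ne_bot (H : LHyp K F) (hRI : RiemannIneq K F) (A : Divisor K F)
    (P0 : Place K F) : ∃ n : ℕ, riemannRochSpace (A + Finsupp.single P0 (n : ℤ)) ≠ ⊥ := by
  obtain ⟨γ, hγ⟩ := hRI
  refine ⟨(γ - Divisor.degree A).toNat, fun hbot => ?_⟩
  have h1 := hγ (A + Finsupp.single P0 (((γ - Divisor.degree A).toNat : ℕ) : ℤ))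
  rw [hbot, finrank_bot, map_add, degree_single H] at h1
  have h2 : γ - Divisor.degree A ≤ ((γ - Divisor.degree A).toNat : ℤ) := Int.self_le_toNat _
  push_cast at h1
  omega

/-- The line `L(A + n P0)` for the least `n`: any two nonzero elements are proportional. -/
theorem proportional_of_least (H : LHyp K F) (A : Divisor K F) (hA : Divisor.degree A = 0)
    (P0 : Place K F) (n : ℕ)
    (hmin : ∀ m : ℕ, m < n → riemannRochSpace (A + Finsupp.single P0 (m : ℤ)) = ⊥)
    {f g : F} (hf : f ∈ riemannRochSpace (A + Finsupp.single P0 (n : ℤ)))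
    (hg : g ∈ riemannRochSpace (A + Finsupp.single P0 (n : ℤ))) (hg0 : g ≠ 0) :
    ∃ c : K, f = c • g := by
  -- `L(A + (n-1) P0) = 0`
  have hbot : riemannRochSpace (A + Finsupp.single P0 ((n : ℤ) - 1)) = ⊥ := by
    rcases Nat.eq_zero_or_pos n with h0 | hpos
    · apply L_eq_bot_of_degree_neg H
      rw [map_add, degree_single H, hA, h0]
      norm_num
    · have := hmin (n - 1) (by omega)
      have e : ((n - 1 : ℕ) : ℤ) = (n : ℤ) - 1 := by
        rw [Nat.cast_sub hpos]; simp
      rwa [e] at this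
  have e2 : A + Finsupp.single P0 (n : ℤ) =
      (A + Finsupp.single P0 ((n : ℤ) - 1)) + Finsupp.single P0 1 := by
    rw [add_assoc, ← Finsupp.single_add]
    congr 2
    ring
  rw [e2] at hf hg
  have hg' : g ∉ riemannRochSpace (A + Finsupp.single P0 ((n : ℤ) - 1)) := by
    rw [hbot, Submodule.mem_bot]
    exact hg0
  obtain ⟨c, hc⟩ := exists_sub_smul_mem H _ P0 hf hg hg'
  rw [hbot, Submodule.mem_bot, sub_eq_zero] at hc
  exact ⟨c, hc⟩

/-- The divisor of `c • g`, `c ≠ 0`, is the divisor of `g`. -/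
theorem ord_smul_const (v : Place K F) {c : K} (hc : c ≠ 0) (g : F) :
    v.ord (c • g) = v.ord g := by
  rcases eq_or_ne g 0 with rfl | hg
  · simp
  have hc' : algebraMap K F c ≠ 0 := by
    rwa [ne_eq, map_eq_zero_iff _ (algebraMap K F).injective]
  rw [Algebra.smul_def, v.ord_mul hc' hg, ffp_ord_algebraMap, zero_add]

section Action

variable {Γ : Type*} [Group Γ] (ρ : Γ →* SemilinearAut K F)

theorem smul_ne_zero' (σ : SemilinearAut K F) {f : F} (hf : f ≠ 0) : σ • f ≠ 0 := by
  rw [SemilinearAut.smul_def]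
  exact (map_ne_zero_iff _ (SemilinearAut.toRingAut σ).injective).mpr hf

/-- Transport of `L`-spaces: `σ f ∈ L(σ D)`. -/
theorem smul_mem_L (σ : SemilinearAut K F) {D : Divisor K F} {f : F}
    (hf : f ∈ riemannRochSpace D) : σ • f ∈ riemannRochSpace (σ • D) := by
  rcases eq_or_ne f 0 with rfl | hf0
  · rw [smul_zero]; exact Submodule.zero_mem _
  rw [mem_L_iff (smul_ne_zero' σ hf0)]
  intro v
  have h1 := (mem_L_iff hf0).mp hf (σ⁻¹ • v)
  have h2 := SemilinearAut.ord_smul σ (σ⁻¹ • v) f
  rw [smul_inv_smul] at h2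
  rw [SemilinearAut.divisor_smul_apply, h2]
  exact h1

/-- **The Riemann–Roch trick.**  A fixed class of degree zero has a stable representative. -/
theorem exists_stable_rep (H : LHyp K F) (hRI : RiemannIneq K F) (P0 : Place K F)
    (hP0 : ∀ σ : Γ, ρ σ • P0 = P0) (c : Pic0 K F) (hc : ∀ σ : Γ, ρ σ • c = c) :
    ∃ D : Divisor.degZero (K := K) (F := F), Pic0.mk D = c ∧
      ∀ σ : Γ, ρ σ • (D : Divisor K F) = (D : Divisor K F) := by
  classical
  obtain ⟨A, rfl⟩ := Pic0.mk_surjective c
  have hA : Divisor.degree (A : Divisor K F) = 0 := A.2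
  have hex := exists_L_ne_bot H hRI (A : Divisor K F) P0
  set n := Nat.find hex with hn
  have hnspec : riemannRochSpace ((A : Divisor K F) + Finsupp.single P0 (n : ℤ)) ≠ ⊥ :=
    Nat.find_spec hex
  have hmin : ∀ m : ℕ, m < n →
      riemannRochSpace ((A : Divisor K F) + Finsupp.single P0 (m : ℤ)) = ⊥ := by
    intro m hm
    have := Nat.find_min hex hm
    rwa [not_not] at this
  obtain ⟨f, hfL, hf0⟩ := (Submodule.ne_bot_iff _).mp hnspec
  -- the representative
  have hDdeg : (A : Divisor K F) + divOf H hf0 ∈ Divisor.degZero (K := K) (F := F) := by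
    rw [Divisor.mem_degZero, map_add, hA, degree_divOf, add_zero]
  refine ⟨⟨(A : Divisor K F) + divOf H hf0, hDdeg⟩, ?_, ?_⟩
  · -- same class
    show (QuotientAddGroup.mk _ : Pic0 K F) = QuotientAddGroup.mk A
    rw [QuotientAddGroup.eq, AddSubgroup.mem_addSubgroupOf]
    refine ⟨f⁻¹, inv_ne_zero hf0, fun v => ?_⟩
    show (-((A : Divisor K F) + divOf H hf0) + (A : Divisor K F)) v = v.ord f⁻¹
    rw [Finsupp.add_apply, Finsupp.neg_apply, Finsupp.add_apply, divOf_apply, v.ord_inv]
    ring
  · intro σ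
    -- `σ A - A = div h`
    have hσ := hc σ
    rw [SemilinearAut.pic0_smul_mk] at hσ
    have hσ' : (QuotientAddGroup.mk (SemilinearAut.degZeroSMulHom (ρ σ) A) : Pic0 K F) =
        QuotientAddGroup.mk A := hσ
    rw [QuotientAddGroup.eq, AddSubgroup.mem_addSubgroupOf] at hσ'
    obtain ⟨h, hh0, hh⟩ := hσ'
    have hh' : ∀ v : Place K F, (A : Divisor K F) v - (ρ σ • (A : Divisor K F)) v = v.ord h := by
      intro v
      have := hh v
      simp only [AddSubgroup.coe_add, NegMemClass.coe_neg, SemilinearAut.coe_degZeroSMulHom,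
        Finsupp.add_apply, Finsupp.neg_apply] at this
      omega
    -- `σ f ∈ L(σ A + n P0)`, hence `h⁻¹ * σ f ∈ L(A + n P0)`
    have h1 : ρ σ • f ∈ riemannRochSpace (ρ σ • ((A : Divisor K F) + Finsupp.single P0 (n : ℤ))) :=
      smul_mem_L (ρ σ) hfL
    rw [smul_add, SemilinearAut.smul_single, hP0 σ] at h1
    have hσf0 : ρ σ • f ≠ 0 := smul_ne_zero' (ρ σ) hf0
    have h2 : h⁻¹ * ρ σ • f ∈ riemannRochSpace ((A : Divisor K F) + Finsupp.single P0 (n : ℤ)) := by
      rw [mem_L_iff (mul_ne_zero (inv_ne_zero hh0) hσf0)]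
      intro v
      have h3 := (mem_L_iff hσf0).mp h1 v
      rw [v.ord_mul (inv_ne_zero hh0) hσf0, v.ord_inv, ← hh' v]
      rw [Finsupp.add_apply] at h3 ⊢
      omega
    -- proportionality
    obtain ⟨a, ha⟩ := proportional_of_least H (A : Divisor K F) hA P0 n hmin h2 hfL hf0
    have ha0 : a ≠ 0 := by
      rintro rfl
      rw [zero_smul] at ha
      exact mul_ne_zero (inv_ne_zero hh0) hσf0 ha
    -- compare divisors
    ext v
    show (ρ σ • ((A : Divisor K F) + divOf H hf0)) v = ((A : Divisor K F) + divOf H hf0) v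
    rw [smul_add, Finsupp.add_apply, Finsupp.add_apply, divOf_apply,
      SemilinearAut.divisor_smul_apply (ρ σ) (divOf H hf0), divOf_apply]
    have h4 := SemilinearAut.ord_smul (ρ σ) ((ρ σ)⁻¹ • v) f
    rw [smul_inv_smul] at h4
    rw [← h4]
    have h5 : v.ord (h⁻¹ * ρ σ • f) = v.ord f := by
      rw [ha, ord_smul_const v ha0]
    rw [v.ord_mul (inv_ne_zero hh0) hσf0, v.ord_inv, ← hh' v] at h5
    omega

end Action

end Fermat.Agent.M1.Car.StableRep25
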