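/-
M1 (S44), chapter CAR (helper43): DEFINITIONS.  Rigidified divisors ("Def C" of report #378) on a
nodal two-chart model in field form, and the filtration `Cart n` of `Pic0 K F` they define.

Setting (the vocabulary of `ES/N34/NodalCore13`): `R` a DVR-like base with uniformiser `π`,
`K = Frac R`, `F` the function field, `B0 B1 : Subalgebra R F` the two charts, `O1 O2` the two Gauss
valuation rings (the two components of the special fibre).  A closed point of the special fibre is a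
maximal ideal `𝔪 ∋ π` of a chart `B`; the component `j` passes through it iff
`¬ OffBranch π B O_j 𝔪`.

* `Through B 𝔪 P` : the place `P` of `F / K` passes through the closed point `(B, 𝔪)`
  (`B_𝔪 ⊆ O_P`).
* `IsLocEq B 𝔪 D h` : `h` is a local equation of the divisor `D` at `(B, 𝔪)` UP TO VERTICAL
  COMPONENTS: `ord_P h = D P` for every place `P` through `(B, 𝔪)`.
* `StrictOn π B O_j 𝔪 n h` : the component `j` misses `𝔪`, or `h` is a unit of `O_j` with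
  `h ≡ 1 mod π ^ n O_j` (`n = 0`: just a unit).
* `LevelAt`, `HasLevel n D` : at every closed point of both charts `D` has a local equation which is
  strict of level `n` on every component through the point.
* `Cart π B0 B1 O1 O2 n : AddSubgroup (Pic0 K F)` : the classes having a representative of level `n`
  (`n = 0`: Cartier classes with trivial vertical twist; `n ≥ 1`: the subgroup `J_n` of #378/#430).
* `PreservesModel σ` : a semilinear automorphism preserving charts, Gauss rings and every closed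
  point (an element of the inertia group acting on the model); transport of all notions.
* `smul_sub_mem_cart` : **(T6)/(J6)** if `σ ≡ id mod π ^ (b+1)` on `O_1`, `O_2` and
  `σ π = π (1 + θ π ^ b)` then `(σ - 1) Cart n ⊆ Cart (n + b)` for `n ≥ 1`.
-/
import Mathlib
import Fermat.Prelude.Def_AlgebraicCurve_BaseChangeGalois
import Fermat.Agent.ES.N34.NodalCore13

set_option autoImplicit false

namespace Fermat.Agent.M1.Car.Defs43

open AlgebraicCurve Fermat.Agent.ES.N34.NodalCore13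

section Basic

variable {R K F : Type*} [CommRing R] [Field K] [Field F] [Algebra K F] [Algebra R F]

/-- The place `P` of `F / K` passes through the closed point `(B, 𝔪)`: `B ⊆ O_P` and every
element of `B ∖ 𝔪` is a unit of `O_P` (i.e. `B_𝔪 ⊆ O_P`). -/
def Through (B : Subalgebra R F) (𝔪 : Ideal B) (P : Place K F) : Prop :=
  (∀ b : B, (b : F) ∈ P.toValuationSubring) ∧
    ∀ b : B, b ∉ 𝔪 → ((b : F))⁻¹ ∈ P.toValuationSubring

/-- `h` is a local equation of `D` at the closed point `(B, 𝔪)`, up to vertical components. -/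
def IsLocEq (B : Subalgebra R F) (𝔪 : Ideal B) (D : Divisor K F) (h : F) : Prop :=
  h ≠ 0 ∧ ∀ P : Place K F, Through B 𝔪 P → P.ord h = D P

theorem IsLocEq.one (B : Subalgebra R F) (𝔪 : Ideal B) : IsLocEq (K := K) B 𝔪 0 1 :=
  ⟨one_ne_zero, fun P _ => by simp⟩

theorem IsLocEq.mul {B : Subalgebra R F} {𝔪 : Ideal B} {D E : Divisor K F} {h g : F}
    (hh : IsLocEq B 𝔪 D h) (hg : IsLocEq B 𝔪 E g) : IsLocEq B 𝔪 (D + E) (h * g) :=
  ⟨mul_ne_zero hh.1 hg.1, fun P hP => by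
    rw [P.ord_mul hh.1 hg.1, hh.2 P hP, hg.2 P hP, Finsupp.add_apply]⟩

theorem IsLocEq.inv {B : Subalgebra R F} {𝔪 : Ideal B} {D : Divisor K F} {h : F}
    (hh : IsLocEq B 𝔪 D h) : IsLocEq B 𝔪 (-D) h⁻¹ :=
  ⟨inv_ne_zero hh.1, fun P hP => by rw [P.ord_inv, hh.2 P hP, Finsupp.neg_apply]⟩

theorem IsLocEq.div {B : Subalgebra R F} {𝔪 : Ideal B} {D E : Divisor K F} {h g : F}
    (hh : IsLocEq B 𝔪 D h) (hg : IsLocEq B 𝔪 E g) : IsLocEq B 𝔪 (D - E) (h / g) := by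
  rw [sub_eq_add_neg, div_eq_mul_inv]
  exact hh.mul hg.inv

theorem IsLocEq.pow {B : Subalgebra R F} {𝔪 : Ideal B} {D : Divisor K F} {h : F}
    (hh : IsLocEq B 𝔪 D h) (c : ℕ) : IsLocEq B 𝔪 (c • D) (h ^ c) := by
  induction c with
  | zero => simpa using IsLocEq.one (K := K) B 𝔪
  | succ c ih =>
    rw [pow_succ, succ_nsmul]
    exact ih.mul hh

/-- A principal divisor has the function itself as a local equation everywhere. -/
theorem IsLocEq.of_principal (B : Subalgebra R F) (𝔪 : Ideal B) {D : Divisor K F} {f : F}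
    (hf : f ≠ 0) (hD : ∀ P : Place K F, D P = P.ord f) : IsLocEq B 𝔪 D f :=
  ⟨hf, fun P _ => (hD P).symm⟩

/-- The component `j` misses `𝔪`, or `h` is a unit of `O_j` congruent to `1` modulo `π ^ n O_j`. -/
def StrictOn (π : R) (B : Subalgebra R F) (Oj : ValuationSubring F) (𝔪 : Ideal B) (n : ℕ)
    (h : F) : Prop :=
  OffBranch π B Oj 𝔪 ∨ (h ≠ 0 ∧ h⁻¹ ∈ Oj ∧ ∃ c ∈ Oj, h - 1 = algebraMap R F π ^ n * c)

variable {π : R} {B : Subalgebra R F} {Oj : ValuationSubring F} {𝔪 : Ideal B}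

theorem StrictOn.one (n : ℕ) : StrictOn π B Oj 𝔪 n 1 :=
  Or.inr ⟨one_ne_zero, by simp [Oj.one_mem], 0, Oj.zero_mem, by simp⟩

theorem StrictOn.mem (hπ : algebraMap R F π ∈ Oj) {n : ℕ} {h : F}
    (hh : h ≠ 0 ∧ h⁻¹ ∈ Oj ∧ ∃ c ∈ Oj, h - 1 = algebraMap R F π ^ n * c) : h ∈ Oj := by
  obtain ⟨-, -, c, hc, hhc⟩ := hh
  have : h = 1 + algebraMap R F π ^ n * c := by rw [← hhc]; ring
  rw [this]
  exact Oj.add_mem _ _ Oj.one_mem (Oj.mul_mem _ _ (pow_mem hπ n) hc)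

theorem StrictOn.mul (hπ : algebraMap R F π ∈ Oj) {n : ℕ} {h g : F}
    (hh : StrictOn π B Oj 𝔪 n h) (hg : StrictOn π B Oj 𝔪 n g) : StrictOn π B Oj 𝔪 n (h * g) := by
  rcases hh with hoff | hh
  · exact Or.inl hoff
  rcases hg with hoff | hg
  · exact Or.inl hoff
  have hgm : g ∈ Oj := StrictOn.mem hπ hg
  obtain ⟨hh0, hhi, c, hc, hhc⟩ := hh
  obtain ⟨hg0, hgi, c', hc', hgc⟩ := hg
  refine Or.inr ⟨mul_ne_zero hh0 hg0, by rw [mul_inv]; exact Oj.mul_mem _ _ hhi hgi, c * g + c',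
    Oj.add_mem _ _ (Oj.mul_mem _ _ hc hgm) hc', ?_⟩
  have : h * g - 1 = (h - 1) * g + (g - 1) := by ring
  rw [this, hhc, hgc]; ring

theorem StrictOn.inv (hπ : algebraMap R F π ∈ Oj) {n : ℕ} {h : F}
    (hh : StrictOn π B Oj 𝔪 n h) : StrictOn π B Oj 𝔪 n h⁻¹ := by
  rcases hh with hoff | hh
  · exact Or.inl hoff
  have hm : h ∈ Oj := StrictOn.mem hπ hh
  obtain ⟨h0, hhi, c, hc, hhc⟩ := hh
  refine Or.inr ⟨inv_ne_zero h0, by rwa [inv_inv], -(c * h⁻¹), Oj.neg_mem _ (Oj.mul_mem _ _ hc hhi), ?_⟩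
  have : h⁻¹ - 1 = -((h - 1) * h⁻¹) := by field_simp; ring
  rw [this, hhc]; ring

theorem StrictOn.div (hπ : algebraMap R F π ∈ Oj) {n : ℕ} {h g : F}
    (hh : StrictOn π B Oj 𝔪 n h) (hg : StrictOn π B Oj 𝔪 n g) : StrictOn π B Oj 𝔪 n (h / g) := by
  rw [div_eq_mul_inv]
  exact hh.mul hπ (hg.inv hπ)

theorem StrictOn.pow (hπ : algebraMap R F π ∈ Oj) {n : ℕ} {h : F}
    (hh : StrictOn π B Oj 𝔪 n h) (c : ℕ) : StrictOn π B Oj 𝔪 n (h ^ c) := by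
  induction c with
  | zero => simpa using StrictOn.one (π := π) (B := B) (Oj := Oj) (𝔪 := 𝔪) n
  | succ c ih =>
    rw [pow_succ]
    exact ih.mul hπ hh

theorem StrictOn.mono (hπ : algebraMap R F π ∈ Oj) {n m : ℕ} (hnm : n ≤ m) {h : F}
    (hh : StrictOn π B Oj 𝔪 m h) : StrictOn π B Oj 𝔪 n h := by
  rcases hh with hoff | ⟨h0, hhi, c, hc, hhc⟩
  · exact Or.inl hoff
  · obtain ⟨k, rfl⟩ := Nat.exists_eq_add_of_le hnm
    exact Or.inr ⟨h0, hhi, algebraMap R F π ^ k * c, Oj.mul_mem _ _ (pow_mem hπ k) hc, by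
      rw [hhc]; ring⟩

/-- `D` has level `n` at the closed point `(B, 𝔪)`. -/
def LevelAt (π : R) (B : Subalgebra R F) (O1 O2 : ValuationSubring F) (n : ℕ) (D : Divisor K F)
    (𝔪 : Ideal B) : Prop :=
  ∃ h : F, IsLocEq B 𝔪 D h ∧ StrictOn π B O1 𝔪 n h ∧ StrictOn π B O2 𝔪 n h

/-- `D` has level `n` at every closed point of the chart `B`. -/
def ChartLevel (π : R) (B : Subalgebra R F) (O1 O2 : ValuationSubring F) (n : ℕ)
    (D : Divisor K F) : Prop :=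
  ∀ 𝔪 : Ideal B, 𝔪.IsMaximal → algebraMap R B π ∈ 𝔪 → LevelAt π B O1 O2 n D 𝔪

/-- `D` is a rigidified divisor of level `n`: it has level `n` at every closed point of the special
fibre (both charts). -/
def HasLevel (π : R) (B0 B1 : Subalgebra R F) (O1 O2 : ValuationSubring F) (n : ℕ)
    (D : Divisor K F) : Prop :=
  ChartLevel π B0 O1 O2 n D ∧ ChartLevel π B1 O1 O2 n D

variable {O1 O2 : ValuationSubring F}

theorem ChartLevel.zero (π : R) (B : Subalgebra R F) (O1 O2 : ValuationSubring F) (n : ℕ) :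
    ChartLevel (K := K) π B O1 O2 n 0 := fun 𝔪 _ _ =>
  ⟨1, IsLocEq.one B 𝔪, StrictOn.one n, StrictOn.one n⟩

theorem ChartLevel.add (hπ1 : algebraMap R F π ∈ O1) (hπ2 : algebraMap R F π ∈ O2) {n : ℕ}
    {D E : Divisor K F} (hD : ChartLevel π B O1 O2 n D) (hE : ChartLevel π B O1 O2 n E) :
    ChartLevel π B O1 O2 n (D + E) := fun 𝔪 h𝔪 hπ𝔪 => by
  obtain ⟨h, hh, h1, h2⟩ := hD 𝔪 h𝔪 hπ𝔪
  obtain ⟨g, hg, g1, g2⟩ := hE 𝔪 h𝔪 hπ𝔪
  exact ⟨h * g, hh.mul hg, h1.mul hπ1 g1, h2.mul hπ2 g2⟩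

theorem ChartLevel.neg (hπ1 : algebraMap R F π ∈ O1) (hπ2 : algebraMap R F π ∈ O2) {n : ℕ}
    {D : Divisor K F} (hD : ChartLevel π B O1 O2 n D) :
    ChartLevel π B O1 O2 n (-D) := fun 𝔪 h𝔪 hπ𝔪 => by
  obtain ⟨h, hh, h1, h2⟩ := hD 𝔪 h𝔪 hπ𝔪
  exact ⟨h⁻¹, hh.inv, h1.inv hπ1, h2.inv hπ2⟩

theorem ChartLevel.mono (hπ1 : algebraMap R F π ∈ O1) (hπ2 : algebraMap R F π ∈ O2) {n m : ℕ}
    (hnm : n ≤ m) {D : Divisor K F} (hD : ChartLevel π B O1 O2 m D) :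
    ChartLevel π B O1 O2 n D := fun 𝔪 h𝔪 hπ𝔪 => by
  obtain ⟨h, hh, h1, h2⟩ := hD 𝔪 h𝔪 hπ𝔪
  exact ⟨h, hh, h1.mono hπ1 hnm, h2.mono hπ2 hnm⟩

/-- A principal divisor `div f` with `f` a unit of `O_1`, `O_2` congruent to `1` modulo `π ^ n` on
both has level `n` (with the local equation `f` everywhere). -/
theorem ChartLevel.of_principal (π : R) (B : Subalgebra R F) {n : ℕ} {D : Divisor K F} {f : F}
    (hf : f ≠ 0) (hD : ∀ P : Place K F, D P = P.ord f)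
    (h1 : f⁻¹ ∈ O1 ∧ ∃ c ∈ O1, f - 1 = algebraMap R F π ^ n * c)
    (h2 : f⁻¹ ∈ O2 ∧ ∃ c ∈ O2, f - 1 = algebraMap R F π ^ n * c) :
    ChartLevel π B O1 O2 n D := fun 𝔪 _ _ =>
  ⟨f, IsLocEq.of_principal B 𝔪 hf hD, Or.inr ⟨hf, h1⟩, Or.inr ⟨hf, h2⟩⟩

end Basic

section Cart

variable {R K F : Type*} [CommRing R] [Field K] [Field F] [Algebra K F] [Algebra R F]

/-- **The filtration.**  `Cart π B0 B1 O1 O2 _ _ n` is the subgroup of `Pic0 K F` of the classes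
having a representative which is a rigidified divisor of level `n`. -/
def Cart (π : R) (B0 B1 : Subalgebra R F) (O1 O2 : ValuationSubring F)
    (hπ1 : algebraMap R F π ∈ O1) (hπ2 : algebraMap R F π ∈ O2) (n : ℕ) :
    AddSubgroup (Pic0 K F) where
  carrier := {x | ∃ D : Divisor.degZero (K := K) (F := F), Pic0.mk D = x ∧
    HasLevel π B0 B1 O1 O2 n (D : Divisor K F)}
  zero_mem' := ⟨0, rfl, ChartLevel.zero π B0 O1 O2 n, ChartLevel.zero π B1 O1 O2 n⟩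
  add_mem' := by
    rintro x y ⟨D, rfl, hD0, hD1⟩ ⟨E, rfl, hE0, hE1⟩
    exact ⟨D + E, rfl, hD0.add hπ1 hπ2 hE0, hD1.add hπ1 hπ2 hE1⟩
  neg_mem' := by
    rintro x ⟨D, rfl, hD0, hD1⟩
    exact ⟨-D, rfl, hD0.neg hπ1 hπ2, hD1.neg hπ1 hπ2⟩

variable {π : R} {B0 B1 : Subalgebra R F} {O1 O2 : ValuationSubring F}
  {hπ1 : algebraMap R F π ∈ O1} {hπ2 : algebraMap R F π ∈ O2}

theorem mem_cart {n : ℕ} {x : Pic0 K F} :
    x ∈ Cart π B0 B1 O1 O2 hπ1 hπ2 n ↔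
      ∃ D : Divisor.degZero (K := K) (F := F), Pic0.mk D = x ∧
        HasLevel π B0 B1 O1 O2 n (D : Divisor K F) := Iff.rfl

theorem cart_anti {n m : ℕ} (hnm : n ≤ m) :
    Cart (K := K) π B0 B1 O1 O2 hπ1 hπ2 m ≤ Cart π B0 B1 O1 O2 hπ1 hπ2 n := by
  rintro x ⟨D, rfl, hD0, hD1⟩
  exact ⟨D, rfl, hD0.mono hπ1 hπ2 hnm, hD1.mono hπ1 hπ2 hnm⟩

end Cart

section Galois

open scoped Pointwise

variable {R K F : Type*} [CommRing R] [Field K] [Field F] [Algebra K F] [Algebra R F]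

/-- The semilinear automorphism `σ` preserves the chart `B` and each of its closed points over `π`
(`σ 𝔪 ⊆ 𝔪`): the shape of the action of an element of the inertia group on a chart. -/
def PreservesChart (π : R) (B : Subalgebra R F) (σ : SemilinearAut K F) : Prop :=
  (∀ b ∈ B, σ • b ∈ B) ∧
    ∀ 𝔪 : Ideal B, 𝔪.IsMaximal → algebraMap R B π ∈ 𝔪 → ∀ b : B, b ∈ 𝔪 →
      ∀ hb : σ • (b : F) ∈ B, (⟨σ • (b : F), hb⟩ : B) ∈ 𝔪

variable {π : R} {B : Subalgebra R F} {σ : SemilinearAut K F}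

theorem Through.inv_smul (hσ : PreservesChart π B σ) (hσ' : PreservesChart π B σ⁻¹)
    {𝔪 : Ideal B} (h𝔪 : 𝔪.IsMaximal) (hπ𝔪 : algebraMap R B π ∈ 𝔪) {P : Place K F}
    (hP : Through B 𝔪 P) : Through B 𝔪 (σ⁻¹ • P) := by
  have key : ∀ x : F, x ∈ (σ⁻¹ • P).toValuationSubring ↔ σ • x ∈ P.toValuationSubring := by
    intro x
    rw [SemilinearAut.smul_toValuationSubring,
      ValuationSubring.mem_pointwise_smul_iff_inv_smul_mem, inv_inv]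
  refine ⟨fun b => (key _).mpr (hP.1 ⟨_, hσ.1 _ b.2⟩), fun b hb => (key _).mpr ?_⟩
  have hmem : σ • (b : F) ∈ B := hσ.1 _ b.2
  have hnot : (⟨σ • (b : F), hmem⟩ : B) ∉ 𝔪 := by
    intro hin
    apply hb
    have hback : σ⁻¹ • (σ • (b : F)) ∈ B := by rw [inv_smul_smul]; exact b.2
    have := hσ'.2 𝔪 h𝔪 hπ𝔪 ⟨σ • (b : F), hmem⟩ hin hback
    have heq : (⟨σ⁻¹ • (σ • (b : F)), hback⟩ : B) = b := Subtype.ext (inv_smul_smul σ (b : F))
    rwa [heq] at this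
  have := hP.2 ⟨σ • (b : F), hmem⟩ hnot
  rwa [smul_inv'']

/-- Transport of local equations by an automorphism of the model fixing the closed point. -/
theorem IsLocEq.smul (hσ : PreservesChart π B σ) (hσ' : PreservesChart π B σ⁻¹)
    {𝔪 : Ideal B} (h𝔪 : 𝔪.IsMaximal) (hπ𝔪 : algebraMap R B π ∈ 𝔪) {D : Divisor K F} {h : F}
    (hh : IsLocEq B 𝔪 D h) : IsLocEq B 𝔪 (σ • D) (σ • h) := by
  refine ⟨by simpa using hh.1, fun P hP => ?_⟩
  rw [SemilinearAut.divisor_smul_apply, ← hh.2 _ (hP.inv_smul hσ hσ' h𝔪 hπ𝔪)]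
  have := SemilinearAut.ord_smul σ (σ⁻¹ • P) h
  rwa [smul_inv_smul] at this

/-- **The local computation behind (T6)/(J6)**: if `σ ≡ id mod π ^ (b+1)` on `O_j` and
`σ π = π (1 + θ π ^ b)`, then for a unit `h ≡ 1 mod π ^ n` of `O_j` the ratio `σ h / h` is
`≡ 1 mod π ^ (n + b)`. -/
theorem StrictOn.smul_div {Oj : ValuationSubring F} {𝔪 : Ideal B}
    (hπ : algebraMap R F π ∈ Oj) {b : ℕ}
    (hram : ∀ x ∈ Oj, ∃ c ∈ Oj, σ • x - x = algebraMap R F π ^ (b + 1) * c)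
    {θ : F} (hθ : θ ∈ Oj)
    (hπσ : σ • (algebraMap R F π) = algebraMap R F π * (1 + θ * algebraMap R F π ^ b))
    {n : ℕ} {h : F} (hh : StrictOn π B Oj 𝔪 n h) :
    StrictOn π B Oj 𝔪 (n + b) (σ • h / h) := by
  rcases hh with hoff | hh
  · exact Or.inl hoff
  set p : F := algebraMap R F π with hp
  have hmapO : ∀ x ∈ Oj, σ • x ∈ Oj := by
    intro x hx
    obtain ⟨c, hc, hxc⟩ := hram x hx
    have : σ • x = x + p ^ (b + 1) * c := by rw [← hxc]; ring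
    rw [this]
    exact Oj.add_mem _ _ hx (Oj.mul_mem _ _ (pow_mem hπ _) hc)
  have hm : h ∈ Oj := StrictOn.mem hπ hh
  obtain ⟨h0, hhi, c, hc, hhc⟩ := hh
  have hσh0 : σ • h ≠ 0 := by simpa using h0
  -- `σ h - h = p ^ (n + b) * c'`
  obtain ⟨c1, hc1, hcc1⟩ := hram c hc
  have hσc : σ • c ∈ Oj := hmapO c hc
  set ε : F := 1 + θ * p ^ b with hε
  have hεm : ε ∈ Oj := Oj.add_mem _ _ Oj.one_mem (Oj.mul_mem _ _ hθ (pow_mem hπ b))
  have hgeom : ε ^ n - 1 = (∑ i ∈ Finset.range n, ε ^ i) * θ * p ^ b := by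
    have := geom_sum_mul ε n
    rw [← this, hε]; ring
  have hsum : (∑ i ∈ Finset.range n, ε ^ i) ∈ Oj :=
    Oj.toSubring.sum_mem fun i _ => pow_mem hεm i
  have hσh : σ • h = 1 + (p * ε) ^ n * σ • c := by
    have : h = 1 + p ^ n * c := by rw [← hhc]; ring
    rw [this, smul_add, smul_one, smul_mul', smul_pow', hπσ]
  have hdiff : σ • h - h =
      p ^ (n + b) * ((∑ i ∈ Finset.range n, ε ^ i) * θ * σ • c + p * c1) := by
    have h1 : h = 1 + p ^ n * c := by rw [← hhc]; ring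
    have h3 : ε ^ n = 1 + (∑ i ∈ Finset.range n, ε ^ i) * θ * p ^ b := by rw [← hgeom]; ring
    rw [hσh, mul_pow]
    linear_combination (p ^ n * σ • c) * h3 - h1 + p ^ n * hcc1
  refine Or.inr ⟨div_ne_zero hσh0 h0, ?_, ((∑ i ∈ Finset.range n, ε ^ i) * θ * σ • c + p * c1) * h⁻¹,
    Oj.mul_mem _ _ (Oj.add_mem _ _ (Oj.mul_mem _ _ (Oj.mul_mem _ _ hsum hθ) hσc)
      (Oj.mul_mem _ _ hπ hc1)) hhi, ?_⟩
  · rw [inv_div, div_eq_mul_inv, ← smul_inv'']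
    exact Oj.mul_mem _ _ hm (hmapO _ hhi)
  · have : σ • h / h - 1 = (σ • h - h) * h⁻¹ := by field_simp
    rw [this, hdiff]; ring

variable {O1 O2 : ValuationSubring F}

/-- Chart form of (T6): `σ D - D` has level `n + b` if `D` has level `n`. -/
theorem ChartLevel.smul_sub (hπ1 : algebraMap R F π ∈ O1) (hπ2 : algebraMap R F π ∈ O2)
    (hσ : PreservesChart π B σ) (hσ' : PreservesChart π B σ⁻¹) {b : ℕ}
    (hram1 : ∀ x ∈ O1, ∃ c ∈ O1, σ • x - x = algebraMap R F π ^ (b + 1) * c)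
    (hram2 : ∀ x ∈ O2, ∃ c ∈ O2, σ • x - x = algebraMap R F π ^ (b + 1) * c)
    {θ : F} (hθ1 : θ ∈ O1) (hθ2 : θ ∈ O2)
    (hπσ : σ • (algebraMap R F π) = algebraMap R F π * (1 + θ * algebraMap R F π ^ b))
    {n : ℕ} {D : Divisor K F} (hD : ChartLevel π B O1 O2 n D) :
    ChartLevel π B O1 O2 (n + b) (σ • D - D) := fun 𝔪 h𝔪 hπ𝔪 => by
  obtain ⟨h, hh, h1, h2⟩ := hD 𝔪 h𝔪 hπ𝔪
  exact ⟨σ • h / h, (hh.smul hσ hσ' h𝔪 hπ𝔪).div hh, h1.smul_div hπ1 hram1 hθ1 hπσ,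
    h2.smul_div hπ2 hram2 hθ2 hπσ⟩

/-- **(T6)/(J6): an automorphism of the model which is `≡ id mod π ^ (b+1)` shifts the filtration
by `b`**: `(σ - 1) Cart n ⊆ Cart (n + b)`. -/
theorem smul_sub_mem_cart {B0 B1 : Subalgebra R F}
    {hπ1 : algebraMap R F π ∈ O1} {hπ2 : algebraMap R F π ∈ O2}
    (hσ0 : PreservesChart π B0 σ) (hσ0' : PreservesChart π B0 σ⁻¹)
    (hσ1 : PreservesChart π B1 σ) (hσ1' : PreservesChart π B1 σ⁻¹) {b : ℕ}
    (hram1 : ∀ x ∈ O1, ∃ c ∈ O1, σ • x - x = algebraMap R F π ^ (b + 1) * c)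
    (hram2 : ∀ x ∈ O2, ∃ c ∈ O2, σ • x - x = algebraMap R F π ^ (b + 1) * c)
    {θ : F} (hθ1 : θ ∈ O1) (hθ2 : θ ∈ O2)
    (hπσ : σ • (algebraMap R F π) = algebraMap R F π * (1 + θ * algebraMap R F π ^ b))
    {n : ℕ} {x : Pic0 K F} (hx : x ∈ Cart π B0 B1 O1 O2 hπ1 hπ2 n) :
    σ • x - x ∈ Cart π B0 B1 O1 O2 hπ1 hπ2 (n + b) := by
  obtain ⟨D, rfl, hD0, hD1⟩ := hx
  refine ⟨SemilinearAut.degZeroSMulHom σ D - D, ?_, ?_, ?_⟩
  · rw [SemilinearAut.pic0_smul_mk]; rfl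
  · exact hD0.smul_sub hπ1 hπ2 hσ0 hσ0' hram1 hram2 hθ1 hθ2 hπσ
  · exact hD1.smul_sub hπ1 hπ2 hσ1 hσ1' hram1 hram2 hθ1 hθ2 hπσ

/-- `(1 + x) ^ c = 1 + c x + x ^ 2 * q` with `q` in any subring containing `x`. -/
theorem one_add_pow_eq (S : Subring F) {x : F} (hx : x ∈ S) (c : ℕ) :
    ∃ q ∈ S, (1 + x) ^ c = 1 + (c : F) * x + x ^ 2 * q := by
  induction c with
  | zero => exact ⟨0, S.zero_mem, by simp⟩
  | succ c ih =>
    obtain ⟨q, hq, hqc⟩ := ih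
    refine ⟨q * (1 + x) + (c : F), S.add_mem (S.mul_mem hq (S.add_mem S.one_mem hx))
      (natCast_mem S c), ?_⟩
    rw [pow_succ, hqc]
    push_cast
    ring

/-- **The local computation behind (T1')**: a tame `τ` (`τ ≡ id mod π` on `O_j`, `τ π = ε π`) acts
on the `n`-th graded piece through `ε ^ n`: if `ε ^ n ≡ c mod π` then `τ h / h ^ c ≡ 1 mod π ^ (n+1)`
for every unit `h ≡ 1 mod π ^ n`, `n ≥ 1`. -/
theorem StrictOn.smul_div_pow {Oj : ValuationSubring F} {𝔪 : Ideal B}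
    (hπ : algebraMap R F π ∈ Oj)
    (hram : ∀ x ∈ Oj, ∃ c ∈ Oj, σ • x - x = algebraMap R F π * c)
    {ε : F} (_hε : ε ∈ Oj) (hπσ : σ • (algebraMap R F π) = algebraMap R F π * ε)
    {n : ℕ} (hn : 1 ≤ n) {c : ℕ} (hεc : ∃ d ∈ Oj, ε ^ n - (c : F) = algebraMap R F π * d)
    {h : F} (hh : StrictOn π B Oj 𝔪 n h) :
    StrictOn π B Oj 𝔪 (n + 1) (σ • h / h ^ c) := by
  rcases hh with hoff | hh
  · exact Or.inl hoff
  set p : F := algebraMap R F π with hp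
  have hmapO : ∀ x ∈ Oj, σ • x ∈ Oj := by
    intro x hx
    obtain ⟨c, hc, hxc⟩ := hram x hx
    have : σ • x = x + p * c := by rw [← hxc]; ring
    rw [this]
    exact Oj.add_mem _ _ hx (Oj.mul_mem _ _ hπ hc)
  have hm : h ∈ Oj := StrictOn.mem hπ hh
  obtain ⟨h0, hhi, a, ha, hha⟩ := hh
  have hσh0 : σ • h ≠ 0 := by simpa using h0
  obtain ⟨a1, ha1, haa1⟩ := hram a ha
  obtain ⟨d, hd, hεd⟩ := hεc
  have hσa : σ • a ∈ Oj := hmapO a ha
  have h1 : h = 1 + p ^ n * a := by rw [← hha]; ring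
  obtain ⟨q, hq, hqc⟩ := one_add_pow_eq Oj.toSubring
    (x := p ^ n * a) (Oj.mul_mem _ _ (pow_mem hπ n) ha) c
  have hσh : σ • h = 1 + (p * ε) ^ n * σ • a := by
    rw [h1, smul_add, smul_one, smul_mul', smul_pow', hπσ]
  obtain ⟨k, rfl⟩ : ∃ k, n = k + 1 := ⟨n - 1, by omega⟩
  have hdiff : σ • h - h ^ c =
      p ^ (k + 1 + 1) * (d * σ • a + (c : F) * a1 - p ^ k * a ^ 2 * q) := by
    rw [hσh, mul_pow]
    nth_rewrite 1 [h1]
    rw [hqc]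
    linear_combination (p ^ (k + 1) * σ • a) * hεd + (c : F) * p ^ (k + 1) * haa1
  have hpowinv : (h ^ c)⁻¹ ∈ Oj := by rw [← inv_pow]; exact pow_mem hhi c
  refine Or.inr ⟨div_ne_zero hσh0 (pow_ne_zero c h0), ?_,
    (d * σ • a + (c : F) * a1 - p ^ k * a ^ 2 * q) * (h ^ c)⁻¹,
    Oj.mul_mem _ _ (sub_mem (Oj.add_mem _ _ (Oj.mul_mem _ _ hd hσa)
      (Oj.mul_mem _ _ (natCast_mem Oj c) ha1))
      (Oj.mul_mem _ _ (Oj.mul_mem _ _ (pow_mem hπ k) (pow_mem ha 2)) hq)) hpowinv, ?_⟩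
  · rw [inv_div, div_eq_mul_inv, ← smul_inv'']
    exact Oj.mul_mem _ _ (pow_mem hm c) (hmapO _ hhi)
  · have : σ • h / h ^ c - 1 = (σ • h - h ^ c) * (h ^ c)⁻¹ := by
      have := pow_ne_zero c h0
      field_simp
    rw [this, hdiff]; ring

/-- Chart form of (T1'). -/
theorem ChartLevel.smul_sub_nsmul (hπ1 : algebraMap R F π ∈ O1) (hπ2 : algebraMap R F π ∈ O2)
    (hσ : PreservesChart π B σ) (hσ' : PreservesChart π B σ⁻¹)
    (hram1 : ∀ x ∈ O1, ∃ c ∈ O1, σ • x - x = algebraMap R F π * c)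
    (hram2 : ∀ x ∈ O2, ∃ c ∈ O2, σ • x - x = algebraMap R F π * c)
    {ε : F} (hε1 : ε ∈ O1) (hε2 : ε ∈ O2)
    (hπσ : σ • (algebraMap R F π) = algebraMap R F π * ε)
    {n : ℕ} (hn : 1 ≤ n) {c : ℕ}
    (hεc1 : ∃ d ∈ O1, ε ^ n - (c : F) = algebraMap R F π * d)
    (hεc2 : ∃ d ∈ O2, ε ^ n - (c : F) = algebraMap R F π * d)
    {D : Divisor K F} (hD : ChartLevel π B O1 O2 n D) :
    ChartLevel π B O1 O2 (n + 1) (σ • D - c • D) := fun 𝔪 h𝔪 hπ𝔪 => by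
  obtain ⟨h, hh, h1, h2⟩ := hD 𝔪 h𝔪 hπ𝔪
  exact ⟨σ • h / h ^ c, (hh.smul hσ hσ' h𝔪 hπ𝔪).div (hh.pow c),
    h1.smul_div_pow hπ1 hram1 hε1 hπσ hn hεc1, h2.smul_div_pow hπ2 hram2 hε2 hπσ hn hεc2⟩

/-- **(T1'): a tame automorphism of the model with `σ π = ε π` acts on `gr^n` through `ε ^ n`**:
if `ε ^ n ≡ c mod π` then `σ x - c x ∈ Cart (n + 1)` for `x ∈ Cart n`, `n ≥ 1`. -/
theorem smul_sub_nsmul_mem_cart {B0 B1 : Subalgebra R F}
    {hπ1 : algebraMap R F π ∈ O1} {hπ2 : algebraMap R F π ∈ O2}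
    (hσ0 : PreservesChart π B0 σ) (hσ0' : PreservesChart π B0 σ⁻¹)
    (hσ1 : PreservesChart π B1 σ) (hσ1' : PreservesChart π B1 σ⁻¹)
    (hram1 : ∀ x ∈ O1, ∃ c ∈ O1, σ • x - x = algebraMap R F π * c)
    (hram2 : ∀ x ∈ O2, ∃ c ∈ O2, σ • x - x = algebraMap R F π * c)
    {ε : F} (hε1 : ε ∈ O1) (hε2 : ε ∈ O2)
    (hπσ : σ • (algebraMap R F π) = algebraMap R F π * ε)
    {n : ℕ} (hn : 1 ≤ n) {c : ℕ}
    (hεc1 : ∃ d ∈ O1, ε ^ n - (c : F) = algebraMap R F π * d)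
    (hεc2 : ∃ d ∈ O2, ε ^ n - (c : F) = algebraMap R F π * d)
    {x : Pic0 K F} (hx : x ∈ Cart π B0 B1 O1 O2 hπ1 hπ2 n) :
    σ • x - c • x ∈ Cart π B0 B1 O1 O2 hπ1 hπ2 (n + 1) := by
  obtain ⟨D, rfl, hD0, hD1⟩ := hx
  refine ⟨SemilinearAut.degZeroSMulHom σ D - c • D, ?_, ?_, ?_⟩
  · rw [SemilinearAut.pic0_smul_mk]; rfl
  · exact hD0.smul_sub_nsmul hπ1 hπ2 hσ0 hσ0' hram1 hram2 hε1 hε2 hπσ hn hεc1 hεc2
  · exact hD1.smul_sub_nsmul hπ1 hπ2 hσ1 hσ1' hram1 hram2 hε1 hε2 hπσ hn hεc1 hεc2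

end Galois

end Fermat.Agent.M1.Car.Defs43
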