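/-
M1 (row 38, S44), chapter CAR, brick CAR-C (helper99): CENTRES of places on the two-chart model.

Vocabulary of `Car/Defs43`: a closed point of the special fibre is a maximal ideal `𝔪 ∋ π` of a chart
`B`; the place `P` of `F / K` passes through it (`Through B 𝔪 P`) iff `B_𝔪 ⊆ O_P`.

* `IsCentre π B 𝔪 P` : `(B, 𝔪)` is a closed point of the special fibre through which `P` passes.
* `exists_centre_of_proper` : (abstract, one chart) a proper ideal of `B` containing `π` and the
  horizontal prime `𝔪_P ∩ B` of `P` gives a centre.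
* `exists_centre_of_valuationSubring` : (abstract, one chart) a valuation ring `W` of the residue
  field of `P` containing the images of `R` and of `t`, with `π` in its maximal ideal, gives a centre
  on the chart `B` (integral over `R[t]`).
* `exists_valuationSubring_residue` : such a `W` exists as soon as `π` is not a unit of `R`
  and `R → F` is injective (valuative criterion, Mathlib `Ideal.image_subset_nonunits_valuationSubring`).
* `exists_centre` : **(CAR-C)** every place of `F / K` has a centre on a `NodalNumData` model.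
* `IsCentre.horizontal` : the centre lies on the closure of the horizontal prime of `P`.
* `isLocEq_one_of_no_centre` : away from the centres of its support a divisor has local
  equation `1`.
-/
import Mathlib
import Fermat.Agent.M1.Car.Defs43
import Fermat.Agent.ES.N34.NumData13

set_option autoImplicit false

namespace Fermat.Agent.M1.Car.Centre99

open Polynomial AlgebraicCurve Fermat.Agent.M1.Car.Defs43 Fermat.Agent.ES.N34.NodalCore13
  Fermat.Agent.ES.N34.NumData13

section Gen

variable {F : Type*} [Field F]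

/-- A valuation subring is integrally closed in its ambient field. -/
theorem mem_of_isIntegral (A : ValuationSubring F) {x : F} (hx : IsIntegral A x) : x ∈ A := by
  obtain ⟨y, hy⟩ := (IsIntegrallyClosed.isIntegral_iff (R := A) (K := F)).mp hx
  rw [← hy]
  exact y.2

/-- Transport of an integral equation along ring homomorphisms (no algebra instances needed on the
source side). -/
theorem isIntegral_of_monic_eval₂ {S B T L : Type*} [CommRing S] [CommRing B] [CommRing T]
    [CommRing L] [Algebra T L] (ι : S →+* B) (ψ : B →+* L) (ψS : S →+* T)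
    (hcomp : (algebraMap T L).comp ψS = ψ.comp ι) {b : B}
    (hb : ∃ p : S[X], p.Monic ∧ p.eval₂ ι b = 0) : IsIntegral T (ψ b) := by
  obtain ⟨p, hp, hpb⟩ := hb
  refine ⟨p.map ψS, hp.map ψS, ?_⟩
  rw [Polynomial.eval₂_map, hcomp, ← Polynomial.hom_eval₂, hpb, map_zero]

end Gen

section Sub

variable {R F : Type*} [CommRing R] [Field F] [Algebra R F]

/-- An element of `F` integral over a subalgebra `S ≤ B` satisfies a monic equation inside `B`. -/
theorem exists_monic_of_isIntegral {S B : Subalgebra R F} (hSB : S ≤ B) {b : F} (hb : b ∈ B)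
    (hint : IsIntegral S b) :
    ∃ p : (S : Type _)[X], p.Monic ∧
      p.eval₂ (Subalgebra.inclusion hSB : S →ₐ[R] B).toRingHom (⟨b, hb⟩ : B) = 0 := by
  obtain ⟨p, hp, hpb⟩ := hint
  refine ⟨p, hp, ?_⟩
  apply Subtype.ext
  have h1 : ((p.eval₂ (Subalgebra.inclusion hSB : S →ₐ[R] B).toRingHom (⟨b, hb⟩ : B) : B) : F) =
      p.eval₂ (B.val.toRingHom.comp (Subalgebra.inclusion hSB : S →ₐ[R] B).toRingHom) b := by
    have := Polynomial.hom_eval₂ p (Subalgebra.inclusion hSB : S →ₐ[R] B).toRingHom
      B.val.toRingHom (⟨b, hb⟩ : B)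
    exact this
  rw [h1]
  exact hpb

/-- `R[t] ⊆ A` for a subring `A ∋ t` containing the image of `R`. -/
theorem adjoin_le_of_mem (A : Subring F) (hRA : ∀ r : R, algebraMap R F r ∈ A) {t : F}
    (htA : t ∈ A) : ∀ s ∈ Algebra.adjoin R {t}, s ∈ A := by
  intro s hs
  induction hs using Algebra.adjoin_induction with
  | mem x hx =>
    rw [Set.mem_singleton_iff] at hx
    rw [hx]; exact htA
  | algebraMap r => exact hRA r
  | add x y _ _ hx hy => exact A.add_mem hx hy
  | mul x y _ _ hx hy => exact A.mul_mem hx hy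

/-- A chart integral over `R[t]` lies in every valuation subring containing `R` and `t`. -/
theorem chart_le_of_mem {B : Subalgebra R F} {t : F}
    (hint : ∀ x ∈ B, IsIntegral (Algebra.adjoin R {t}) x) (A : ValuationSubring F)
    (hRA : ∀ r : R, algebraMap R F r ∈ A) (htA : t ∈ A) : ∀ b ∈ B, b ∈ A := by
  intro b hb
  apply mem_of_isIntegral A
  have hSA := adjoin_le_of_mem (R := R) A.toSubring hRA htA
  obtain ⟨p, hp, hpb⟩ := hint b hb
  let ψS : (Algebra.adjoin R {t}) →+* A :=
    (algebraMap (Algebra.adjoin R {t}) F).codRestrict A.toSubring (fun s => hSA s s.2)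
  refine ⟨p.map ψS, hp.map ψS, ?_⟩
  rw [Polynomial.eval₂_map]
  exact hpb

end Sub

section Centre

variable {R K F : Type*} [CommRing R] [Field K] [Field F] [Algebra K F] [Algebra R F]

/-- `(B, 𝔪)` is a closed point of the special fibre through which the place `P` passes. -/
def IsCentre (π : R) (B : Subalgebra R F) (𝔪 : Ideal B) (P : Place K F) : Prop :=
  𝔪.IsMaximal ∧ algebraMap R B π ∈ 𝔪 ∧ Through B 𝔪 P

/-- A nonzero element of the maximal ideal of a valuation subring has its inverse outside. -/
theorem inv_not_mem_of_mem_nonunits (A : ValuationSubring F) {x : F} (hx0 : x ≠ 0)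
    (hx : x ∈ A.nonunits) : x⁻¹ ∉ A := by
  intro hxi
  rw [ValuationSubring.mem_nonunits_iff] at hx
  have h3 := (ValuationSubring.valuation_le_one_iff _ _).mpr hxi
  have : A.valuation (x * x⁻¹) < 1 := by
    rw [map_mul]
    calc _ ≤ A.valuation x * 1 := by gcongr
      _ < 1 := by rwa [mul_one]
  rw [mul_inv_cancel₀ hx0, map_one] at this
  exact lt_irrefl _ this

/-- The inverse of a unit of a valuation subring lies in it. -/
theorem inv_mem_of_isUnit (A : ValuationSubring F) {x : F} (hx : x ∈ A)
    (hu : IsUnit (⟨x, hx⟩ : A)) : x⁻¹ ∈ A := by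
  have h1 : A.valuation x = 1 := (A.valuation_eq_one_iff ⟨x, hx⟩).mp hu
  rw [← A.valuation_le_one_iff, map_inv₀, h1, inv_one]

/-- If `x ∉ A` then `x⁻¹` lies in the maximal ideal of the valuation subring `A`. -/
theorem inv_mem_nonunits_of_not_mem (A : ValuationSubring F) {x : F} (hx : x ∉ A) :
    x⁻¹ ∈ A.nonunits := by
  rw [ValuationSubring.mem_nonunits_iff, map_inv₀]
  have h1 : ¬ A.valuation x ≤ 1 := fun h => hx ((A.valuation_le_one_iff x).mp h)
  have h2 : 1 < A.valuation x := lt_of_not_ge h1
  exact inv_lt_one_of_one_lt₀ h2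

/-- The centre lies on the closure of the horizontal prime `𝔪_P ∩ B` of `P`. -/
theorem IsCentre.horizontal {π : R} {B : Subalgebra R F} {𝔪 : Ideal B} {P : Place K F}
    (h : IsCentre π B 𝔪 P) (hπ0 : algebraMap R F π ≠ 0)
    (hπP : (algebraMap R F π)⁻¹ ∈ P.toValuationSubring) :
    ∃ 𝔭 : Ideal B, 𝔭.IsPrime ∧ 𝔭 ≤ 𝔪 ∧ algebraMap R B π ∉ 𝔭 ∧
      ∀ b : B, b ∈ 𝔭 ↔ (b : F) ∈ P.toValuationSubring.nonunits := by
  obtain ⟨-, -, hB, hu⟩ := h
  let φ : B →+* P.toValuationSubring :=
    B.val.toRingHom.codRestrict P.toValuationSubring.toSubring (fun b => hB b)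
  have hmem : ∀ b : B, b ∈ (IsLocalRing.maximalIdeal P.toValuationSubring).comap φ ↔
      (b : F) ∈ P.toValuationSubring.nonunits := by
    intro b
    rw [Ideal.mem_comap, IsLocalRing.mem_maximalIdeal, mem_nonunits_iff,
      ValuationSubring.mem_nonunits_iff_exists_mem_maximalIdeal]
    constructor
    · intro hb
      exact ⟨hB b, by rw [IsLocalRing.mem_maximalIdeal, mem_nonunits_iff]; exact hb⟩
    · rintro ⟨hb', hb⟩
      rw [IsLocalRing.mem_maximalIdeal, mem_nonunits_iff] at hb
      exact hb
  refine ⟨(IsLocalRing.maximalIdeal P.toValuationSubring).comap φ, Ideal.comap_isPrime φ _, ?_, ?_,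
    hmem⟩
  · intro b hb
    by_contra hb𝔪
    have hb0 : (b : F) ≠ 0 := by
      intro h0
      have : b = 0 := Subtype.ext h0
      exact hb𝔪 (this ▸ 𝔪.zero_mem)
    exact inv_not_mem_of_mem_nonunits _ hb0 ((hmem b).mp hb) (hu b hb𝔪)
  · intro hπ
    exact inv_not_mem_of_mem_nonunits _ hπ0 ((hmem _).mp hπ) hπP

/-- **Abstract centre, one chart.** A proper ideal of `B ⊆ O_P` containing `π` and the horizontal
prime of `P` is contained in a centre of `P`. -/
theorem exists_centre_of_proper {π : R} {B : Subalgebra R F} {P : Place K F}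
    (hBP : ∀ b : B, (b : F) ∈ P.toValuationSubring) (I : Ideal B) (hI : I ≠ ⊤)
    (hπ : algebraMap R B π ∈ I)
    (hP : ∀ b : B, (b : F) ∈ P.toValuationSubring.nonunits → b ∈ I) :
    ∃ 𝔪 : Ideal B, IsCentre π B 𝔪 P ∧ I ≤ 𝔪 := by
  obtain ⟨𝔪, h𝔪, hI𝔪⟩ := Ideal.exists_le_maximal I hI
  refine ⟨𝔪, ⟨h𝔪, hI𝔪 hπ, hBP, fun b hb => ?_⟩, hI𝔪⟩
  by_contra hbi
  apply hb
  apply hI𝔪
  apply hP
  rw [ValuationSubring.mem_nonunits_iff]
  have h1 := (ValuationSubring.valuation_le_one_iff _ _).mpr (hBP b)
  rcases lt_or_eq_of_le h1 with h | h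
  · exact h
  · exfalso
    apply hbi
    rw [← ValuationSubring.valuation_le_one_iff, map_inv₀, h, inv_one]

/-- Converse of `IsCentre.horizontal`: a maximal ideal `𝔪 ∋ π` of a chart `B ⊆ O_P` containing the
horizontal prime `𝔪_P ∩ B` is a centre of `P`. -/
theorem isCentre_of_le {π : R} {B : Subalgebra R F} {𝔪 : Ideal B} {P : Place K F}
    (h𝔪 : 𝔪.IsMaximal) (hπ : algebraMap R B π ∈ 𝔪)
    (hBP : ∀ b : B, (b : F) ∈ P.toValuationSubring)
    (hP : ∀ b : B, (b : F) ∈ P.toValuationSubring.nonunits → b ∈ 𝔪) : IsCentre π B 𝔪 P := by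
  obtain ⟨𝔪', h', hle⟩ := exists_centre_of_proper (π := π) (P := P) hBP 𝔪 h𝔪.ne_top hπ hP
  have : 𝔪 = 𝔪' := h𝔪.eq_of_le h'.1.ne_top hle
  rw [this]; exact h'

/-- Away from the centres of its support a divisor has the local equation `1`. -/
theorem isLocEq_one_of_no_centre {B : Subalgebra R F} {𝔪 : Ideal B} {D : Divisor K F}
    (h : ∀ P : Place K F, Through B 𝔪 P → D P = 0) : IsLocEq B 𝔪 D 1 :=
  ⟨one_ne_zero, fun P hP => by rw [h P hP]; simp⟩

/-- Away from the centres of its support a divisor has every level. -/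
theorem levelAt_of_no_centre {π : R} {B : Subalgebra R F} {O1 O2 : ValuationSubring F}
    {𝔪 : Ideal B} {D : Divisor K F} (n : ℕ)
    (h : ∀ P : Place K F, Through B 𝔪 P → D P = 0) : LevelAt π B O1 O2 n D 𝔪 :=
  ⟨1, isLocEq_one_of_no_centre h, StrictOn.one n, StrictOn.one n⟩

/-- **Centre from a valuation ring of the residue field, one chart.**  Let `B ∋ t` be a chart
integral over `R[t]` and contained in `O_P`.  A valuation ring `W` of the residue field of `P`
containing the images of `R` and `t`, with the image of `π` in its maximal ideal, yields a centre of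
`P` on `B` (namely any closed point of `B` specialising the centre of the composite valuation). -/
theorem exists_centre_of_valuationSubring {π : R} {B : Subalgebra R F} {t : F} (ht : t ∈ B)
    (hint : ∀ x ∈ B, IsIntegral (Algebra.adjoin R {t}) x) (P : Place K F)
    (hBP : ∀ b : B, (b : F) ∈ P.toValuationSubring)
    (W : ValuationSubring P.ResidueField)
    (hRW : ∀ (r : R) (h : algebraMap R F r ∈ P.toValuationSubring),
      IsLocalRing.residue P.toValuationSubring ⟨algebraMap R F r, h⟩ ∈ W)
    (hπW : ∀ h : algebraMap R F π ∈ P.toValuationSubring,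
      IsLocalRing.residue P.toValuationSubring ⟨algebraMap R F π, h⟩ ∈ W.nonunits)
    (htW : ∀ h : t ∈ P.toValuationSubring,
      IsLocalRing.residue P.toValuationSubring ⟨t, h⟩ ∈ W) :
    ∃ 𝔪 : Ideal B, IsCentre π B 𝔪 P := by
  classical
  let φ : B →+* P.toValuationSubring :=
    B.val.toRingHom.codRestrict P.toValuationSubring.toSubring (fun b => hBP b)
  let ρ : B →+* P.ResidueField := (IsLocalRing.residue P.toValuationSubring).comp φ
  have hSB : Algebra.adjoin R {t} ≤ B := Algebra.adjoin_le (Set.singleton_subset_iff.mpr ht)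
  -- the image of `R[t]` lies in `W`
  have hSW : ∀ s (hs : s ∈ Algebra.adjoin R {t}), ρ ⟨s, hSB hs⟩ ∈ W := by
    intro s hs
    induction hs using Algebra.adjoin_induction with
    | mem x hx =>
      rw [Set.mem_singleton_iff] at hx
      subst hx
      exact htW _
    | algebraMap r => exact hRW r _
    | add x y hx hy hx' hy' =>
      have : (⟨x + y, hSB (add_mem hx hy)⟩ : B) = ⟨x, hSB hx⟩ + ⟨y, hSB hy⟩ := rfl
      rw [this, map_add]
      exact W.add_mem _ _ hx' hy'
    | mul x y hx hy hx' hy' =>
      have : (⟨x * y, hSB (mul_mem hx hy)⟩ : B) = ⟨x, hSB hx⟩ * ⟨y, hSB hy⟩ := rfl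
      rw [this, map_mul]
      exact W.mul_mem _ _ hx' hy'
  -- hence the image of `B` lies in `W`
  have hBW : ∀ b : B, ρ b ∈ W := by
    intro b
    apply mem_of_isIntegral W
    let ψS : (Algebra.adjoin R {t}) →+* W :=
      (ρ.comp (Subalgebra.inclusion hSB : _ →ₐ[R] B).toRingHom).codRestrict W.toSubring
        (fun s => hSW s.1 s.2)
    have hb := exists_monic_of_isIntegral hSB b.2 (hint b b.2)
    exact isIntegral_of_monic_eval₂ (Subalgebra.inclusion hSB : _ →ₐ[R] B).toRingHom ρ ψS
      (by ext s; rfl) hb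
  let φW : B →+* W := ρ.codRestrict W.toSubring hBW
  have hπB : ((algebraMap R B π : B) : F) = algebraMap R F π := rfl
  obtain ⟨𝔪, h𝔪, -⟩ := exists_centre_of_proper (π := π) (P := P) hBP
    ((IsLocalRing.maximalIdeal W).comap φW) (Ideal.comap_ne_top _ (Ideal.IsPrime.ne_top'))
    (by
      rw [Ideal.mem_comap]
      obtain ⟨h1, h2⟩ := ValuationSubring.mem_nonunits_iff_exists_mem_maximalIdeal.mp
        (hπW (hBP (algebraMap R B π)))
      exact h2)
    (by
      intro b hb
      rw [Ideal.mem_comap]
      have : φW b = 0 := by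
        apply Subtype.ext
        show ρ b = 0
        show IsLocalRing.residue P.toValuationSubring (φ b) = 0
        rw [IsLocalRing.residue_eq_zero_iff]
        obtain ⟨h1, h2⟩ :=
          ValuationSubring.mem_nonunits_iff_exists_mem_maximalIdeal.mp hb
        exact h2
      rw [this]
      exact Ideal.zero_mem _)
  exact ⟨𝔪, h𝔪⟩

/-- **Valuative criterion, field form.**  If `R ↪ F` lands in `O_P` with every nonzero element of
`R` a unit of `O_P` (`K = Frac R ⊆ O_P`) and `π` is not a unit of `R`, the residue field of `P` has a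
valuation ring containing the image of `R` and having the image of `π` in its maximal ideal. -/
theorem exists_valuationSubring_residue (P : Place K F) {π : R} (hπ : ¬ IsUnit π)
    (hinj : Function.Injective (algebraMap R F))
    (hRP : ∀ r : R, algebraMap R F r ∈ P.toValuationSubring)
    (hRK : ∀ r : R, r ≠ 0 → (algebraMap R F r)⁻¹ ∈ P.toValuationSubring) :
    ∃ W : ValuationSubring P.ResidueField,
      (∀ (r : R) (h : algebraMap R F r ∈ P.toValuationSubring),
        IsLocalRing.residue P.toValuationSubring ⟨algebraMap R F r, h⟩ ∈ W) ∧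
      ∀ h : algebraMap R F π ∈ P.toValuationSubring,
        IsLocalRing.residue P.toValuationSubring ⟨algebraMap R F π, h⟩ ∈ W.nonunits := by
  classical
  let φ : R →+* P.toValuationSubring :=
    (algebraMap R F).codRestrict P.toValuationSubring.toSubring hRP
  let ρ : R →+* P.ResidueField := (IsLocalRing.residue P.toValuationSubring).comp φ
  -- the kernel of `ρ` is trivial
  have hker : ∀ r : R, ρ r = 0 → r = 0 := by
    intro r hr
    by_contra hr0
    have h1 : φ r ∈ IsLocalRing.maximalIdeal P.toValuationSubring :=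
      (IsLocalRing.residue_eq_zero_iff _).mp hr
    have h2 : algebraMap R F r ∈ P.toValuationSubring.nonunits :=
      ValuationSubring.mem_nonunits_iff_exists_mem_maximalIdeal.mpr ⟨hRP r, h1⟩
    have h3 : algebraMap R F r ≠ 0 := fun h0 => hr0 (hinj (by rw [h0, map_zero]))
    exact inv_not_mem_of_mem_nonunits _ h3 h2 (hRK r hr0)
  let A : Subring P.ResidueField := ρ.range
  let I : Ideal A := Ideal.span {⟨ρ π, π, rfl⟩}
  have hI : I ≠ ⊤ := by
    intro htop
    have h1 : (1 : A) ∈ I := by rw [htop]; exact Submodule.mem_top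
    obtain ⟨⟨a, r, hr⟩, ha⟩ := Ideal.mem_span_singleton'.mp h1
    have h2 : ρ (r * π - 1) = 0 := by
      have := congrArg Subtype.val ha
      simp only [Subring.coe_mul, Subring.coe_one] at this
      rw [map_sub, map_mul, map_one, hr, this, sub_self]
    have h3 := hker _ h2
    exact hπ (IsUnit.of_mul_eq_one r (by rw [mul_comm]; exact sub_eq_zero.mp h3))
  obtain ⟨W, hAW, hIW⟩ := Ideal.image_subset_nonunits_valuationSubring I hI
  refine ⟨W, fun r h => hAW ⟨r, rfl⟩, fun h => hIW ⟨⟨ρ π, π, rfl⟩, ?_, rfl⟩⟩
  exact Ideal.subset_span (Set.mem_singleton _)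

end Centre

section Model

variable {R K F : Type*} [CommRing R] [Field K] [Field F] [Algebra R K] [Algebra K F]
  [Algebra R F] [IsScalarTower R K F]

/-- The image of `R` lies in the valuation ring of every place of `F / K`. -/
theorem algebraMap_mem_place (P : Place K F) (r : R) :
    algebraMap R F r ∈ P.toValuationSubring := by
  rw [IsScalarTower.algebraMap_apply R K F]
  exact P.algebraMap_mem' _

/-- The inverse of the image of an element of `R` lies in the valuation ring of every place. -/
theorem algebraMap_inv_mem_place (P : Place K F) (r : R) :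
    (algebraMap R F r)⁻¹ ∈ P.toValuationSubring := by
  rw [IsScalarTower.algebraMap_apply R K F, ← map_inv₀]
  exact P.algebraMap_mem' _

/-- **(CAR-C) Every place has a centre**, abstract two-chart form: `B0` integral over `R[t]`, `B1`
integral over `R[t⁻¹]`, `R ↪ F`, `π` not a unit of `R`. -/
theorem exists_centre_of_charts {π : R} (hπ : ¬ IsUnit π)
    (hinj : Function.Injective (algebraMap R F)) {t : F} {B0 B1 : Subalgebra R F}
    (ht0 : t ∈ B0) (ht1 : t⁻¹ ∈ B1)
    (int0 : ∀ x ∈ B0, IsIntegral (Algebra.adjoin R {t}) x)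
    (int1 : ∀ x ∈ B1, IsIntegral (Algebra.adjoin R {t⁻¹}) x) (P : Place K F) :
    (∃ 𝔪 : Ideal B0, IsCentre π B0 𝔪 P) ∨ (∃ 𝔪 : Ideal B1, IsCentre π B1 𝔪 P) := by
  classical
  obtain ⟨W, hRW, hπW⟩ := exists_valuationSubring_residue (R := R) P hπ hinj
    (algebraMap_mem_place P) (fun r _ => algebraMap_inv_mem_place P r)
  by_cases hcase : ∃ h : t ∈ P.toValuationSubring,
      IsLocalRing.residue P.toValuationSubring ⟨t, h⟩ ∈ W
  · obtain ⟨htP, htW⟩ := hcase
    left
    have hBP : ∀ b : B0, (b : F) ∈ P.toValuationSubring := fun b =>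
      chart_le_of_mem int0 P.toValuationSubring (algebraMap_mem_place P) htP b b.2
    exact exists_centre_of_valuationSubring ht0 int0 P hBP W hRW hπW (fun _ => htW)
  · right
    -- `t⁻¹ ∈ O_P` and its residue lies in `W`
    have key : ∃ h : t⁻¹ ∈ P.toValuationSubring,
        IsLocalRing.residue P.toValuationSubring ⟨t⁻¹, h⟩ ∈ W := by
      by_cases htP : t ∈ P.toValuationSubring
      · have htW : IsLocalRing.residue P.toValuationSubring ⟨t, htP⟩ ∉ W := fun h =>
          hcase ⟨htP, h⟩
        have hne : IsLocalRing.residue P.toValuationSubring ⟨t, htP⟩ ≠ 0 := fun h0 =>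
          htW (h0 ▸ W.zero_mem)
        have hunit : IsUnit (⟨t, htP⟩ : P.toValuationSubring) := by
          by_contra hnu
          exact hne ((IsLocalRing.residue_eq_zero_iff _).mpr
            ((IsLocalRing.mem_maximalIdeal _).mpr hnu))
        have htiP : t⁻¹ ∈ P.toValuationSubring := inv_mem_of_isUnit _ htP hunit
        refine ⟨htiP, ?_⟩
        have ht0' : t ≠ 0 := by
          rintro rfl
          exact hne (by
            have : (⟨0, htP⟩ : P.toValuationSubring) = 0 := rfl
            rw [this, map_zero])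
        have hmul : IsLocalRing.residue P.toValuationSubring ⟨t, htP⟩ *
            IsLocalRing.residue P.toValuationSubring ⟨t⁻¹, htiP⟩ = 1 := by
          rw [← map_mul, ← map_one (IsLocalRing.residue P.toValuationSubring)]
          congr 1
          apply Subtype.ext
          show t * t⁻¹ = 1
          exact mul_inv_cancel₀ ht0'
        rcases W.mem_or_inv_mem (IsLocalRing.residue P.toValuationSubring ⟨t, htP⟩) with h | h
        · exact absurd h htW
        · rwa [eq_inv_of_mul_eq_one_right hmul]
      · have htiP : t⁻¹ ∈ P.toValuationSubring :=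
          (P.toValuationSubring.mem_or_inv_mem t).resolve_left htP
        refine ⟨htiP, ?_⟩
        have h0 : IsLocalRing.residue P.toValuationSubring ⟨t⁻¹, htiP⟩ = 0 := by
          rw [IsLocalRing.residue_eq_zero_iff]
          obtain ⟨h1, h2⟩ := ValuationSubring.mem_nonunits_iff_exists_mem_maximalIdeal.mp
            (inv_mem_nonunits_of_not_mem _ htP)
          exact h2
        rw [h0]; exact W.zero_mem
    obtain ⟨htiP, htiW⟩ := key
    have hBP : ∀ b : B1, (b : F) ∈ P.toValuationSubring := fun b =>
      chart_le_of_mem int1 P.toValuationSubring (algebraMap_mem_place P) htiP b b.2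
    exact exists_centre_of_valuationSubring ht1 int1 P hBP W hRW hπW (fun _ => htiW)

/-- **(CAR-C) Every place of `F / K` has a centre on a `NodalNumData` model.** -/
theorem exists_centre {π : R} {t : F} {B0 B1 : Subalgebra R F} {O1 O2 : ValuationSubring F}
    (D : NodalNumData R K F π t B0 B1 O1 O2) (P : Place K F) :
    (∃ 𝔪 : Ideal B0, IsCentre π B0 𝔪 P) ∨ (∃ 𝔪 : Ideal B1, IsCentre π B1 𝔪 P) := by
  have hinj : Function.Injective (algebraMap R F) := by
    rw [IsScalarTower.algebraMap_eq R K F]
    have := D.fracR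
    exact (algebraMap K F).injective.comp (IsFractionRing.injective R K)
  have hπ : ¬ IsUnit π := by
    intro hu
    obtain ⟨u, hu⟩ := hu.exists_right_inv
    apply D.model.pi_nonunit1
    have h1 : algebraMap R F π * algebraMap R F u = 1 := by rw [← map_mul, hu, map_one]
    rw [← eq_inv_of_mul_eq_one_right h1]
    exact D.model.le_O1_0 _ (B0.algebraMap_mem u)
  exact exists_centre_of_charts hπ hinj D.model.t_mem D.model.tinv_mem D.model.int0 D.model.int1 P

end Model

end Fermat.Agent.M1.Car.Centre99
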