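/-
M1 (row 38, S44), chapter CAR, brick CAR-C part 2 (helper99): FINITENESS of the set of centres of a
place on a chart, and algebraicity of the residues.

Setting of `Car/Centre99`.  Let `B ∋ t` be a noetherian chart, integral over `R[t]`, contained in
`O_P`, `𝔭 = 𝔪_P ∩ B` the horizontal prime of `P` (nonzero, since `P` is not trivial).

* `exists_primitive` : over a DVR-like `R`, a nonzero polynomial is `π ^ n` times a polynomial with
  a unit coefficient.
* `isAlgebraic_residue` : the residue of every `b ∈ B` at `P` is algebraic over `K`.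
* `exists_primitive_relation` : every `b ∈ B` satisfies `g(b) ∈ 𝔭` for a `g ∈ R[X]` with a unit
  coefficient.
* `isMaximal_of_horizontal_le` : a prime `𝔮 ⊇ 𝔭 + π B` is maximal (`dim B / 𝔭 ≤ 1`).
* `finite_centres_chart` / `finite_centres` : **the set of centres of `P` on a chart is finite.**
-/
import Mathlib
import Fermat.Agent.M1.Car.Centre99

set_option autoImplicit false

namespace Fermat.Agent.M1.Car.CentreFin99

open Polynomial AlgebraicCurve Fermat.Agent.M1.Car.Defs43 Fermat.Agent.M1.Car.Centre99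
  Fermat.Agent.ES.N34.NodalCore13 Fermat.Agent.ES.N34.NumData13

section Primitive

variable {R : Type*} [CommRing R] [IsDomain R]

/-- Over a DVR-like ring a nonzero polynomial is `π ^ n` times a polynomial having a unit
coefficient. -/
theorem exists_primitive {π : R} (hπ0 : π ≠ 0)
    (dvrR : ∀ r : R, r ≠ 0 → ∃ (k : ℕ) (v : Rˣ), r = π ^ k * v) (f : R[X]) (hf : f ≠ 0) :
    ∃ (n : ℕ) (g : R[X]), f = C (π ^ n) * g ∧ ∃ i, IsUnit (g.coeff i) := by
  have key : ∀ k : ℕ, ∀ f : R[X], (∃ i, ∃ v : Rˣ, f.coeff i = π ^ k * v) →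
      ∃ (n : ℕ) (g : R[X]), f = C (π ^ n) * g ∧ ∃ i, IsUnit (g.coeff i) := by
    intro k
    induction k with
    | zero =>
      rintro f ⟨i, v, hv⟩
      exact ⟨0, f, by simp, i, by rw [hv]; simp⟩
    | succ k ih =>
      rintro f ⟨i, v, hv⟩
      by_cases hdiv : ∀ j, π ∣ f.coeff j
      · obtain ⟨f₁, hf₁⟩ := (C_dvd_iff_dvd_coeff π f).mpr hdiv
        have h1 : f₁.coeff i = π ^ k * v := by
          have h2 : f.coeff i = π * f₁.coeff i := by rw [hf₁, coeff_C_mul]
          rw [hv, pow_succ] at h2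
          have h3 : π * (π ^ k * v) = π * f₁.coeff i := by rw [← h2]; ring
          exact (mul_left_cancel₀ hπ0 h3).symm
        obtain ⟨n, g, hg, hi⟩ := ih f₁ ⟨i, v, h1⟩
        exact ⟨n + 1, g, by rw [hf₁, hg, pow_succ, C_mul]; ring, hi⟩
      · push Not at hdiv
        obtain ⟨j, hj⟩ := hdiv
        have hj0 : f.coeff j ≠ 0 := fun h => hj (h ▸ dvd_zero π)
        obtain ⟨m, w, hw⟩ := dvrR _ hj0
        cases m with
        | zero => exact ⟨0, f, by simp, j, by rw [hw]; simp⟩
        | succ m => exact absurd ⟨π ^ m * w, by rw [hw, pow_succ]; ring⟩ hj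
  obtain ⟨i, hi⟩ : ∃ i, f.coeff i ≠ 0 := by
    by_contra hcon
    push Not at hcon
    exact hf (Polynomial.ext (by simpa using hcon))
  obtain ⟨k, v, hv⟩ := dvrR _ hi
  exact key k f ⟨i, v, hv⟩

end Primitive

section Residue

variable {R K F : Type*} [CommRing R] [Field K] [Field F] [Algebra R K] [Algebra K F]
  [Algebra R F] [IsScalarTower R K F]

/-- The residue map at `P` of a chart contained in `O_P`. -/
noncomputable def resB (B : Subalgebra R F) (P : Place K F)
    (hBP : ∀ b : B, (b : F) ∈ P.toValuationSubring) : B →+* P.ResidueField :=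
  (IsLocalRing.residue P.toValuationSubring).comp
    (B.val.toRingHom.codRestrict P.toValuationSubring.toSubring hBP)

omit [Algebra R K] [IsScalarTower R K F] in
theorem resB_eq_zero_iff {B : Subalgebra R F} {P : Place K F}
    (hBP : ∀ b : B, (b : F) ∈ P.toValuationSubring) (b : B) :
    resB B P hBP b = 0 ↔ (b : F) ∈ P.toValuationSubring.nonunits := by
  unfold resB
  rw [RingHom.comp_apply, IsLocalRing.residue_eq_zero_iff,
    ValuationSubring.mem_nonunits_iff_exists_mem_maximalIdeal]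
  constructor
  · intro h; exact ⟨hBP b, h⟩
  · rintro ⟨_, h⟩; exact h

theorem resB_algebraMap {B : Subalgebra R F} {P : Place K F}
    (hBP : ∀ b : B, (b : F) ∈ P.toValuationSubring) (r : R) :
    resB B P hBP (algebraMap R B r) = algebraMap K P.ResidueField (algebraMap R K r) := by
  have h1 : algebraMap K P.ResidueField (algebraMap R K r) =
      IsLocalRing.residue P.toValuationSubring (algebraMap K P.toValuationSubring
        (algebraMap R K r)) := rfl
  rw [h1]
  unfold resB
  rw [RingHom.comp_apply]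
  congr 1
  apply Subtype.ext
  show algebraMap R F r = algebraMap K F (algebraMap R K r)
  exact IsScalarTower.algebraMap_apply R K F r

/-- **The residues of a chart are algebraic over `K`**: `B ∋ t` integral over `R[t]`, contained in
`O_P`, and `f(t) ∈ 𝔪_P` for a nonzero `f ∈ R[X]`. -/
theorem isAlgebraic_residue (hinjK : Function.Injective (algebraMap R K)) {B : Subalgebra R F}
    {t : F} (ht : t ∈ B) (hint : ∀ x ∈ B, IsIntegral (Algebra.adjoin R {t}) x) (P : Place K F)
    (hBP : ∀ b : B, (b : F) ∈ P.toValuationSubring) (f : R[X]) (hf : f ≠ 0)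
    (hft : aeval t f ∈ P.toValuationSubring.nonunits) (b : B) :
    IsAlgebraic K (resB B P hBP b) := by
  classical
  set ρ := resB B P hBP with hρ
  have hSB : Algebra.adjoin R {t} ≤ B := Algebra.adjoin_le (Set.singleton_subset_iff.mpr ht)
  have hcomp : (algebraMap K P.ResidueField).comp (algebraMap R K) = ρ.comp (algebraMap R B) := by
    ext r
    exact (resB_algebraMap hBP r).symm
  -- the residue of `t` is algebraic
  have htalg : IsAlgebraic K (ρ ⟨t, ht⟩) := by
    refine ⟨f.map (algebraMap R K), ?_, ?_⟩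
    · intro h0
      apply hf
      apply Polynomial.map_injective _ hinjK
      rw [h0, Polynomial.map_zero]
    · rw [Polynomial.aeval_def, Polynomial.eval₂_map, hcomp, ← Polynomial.hom_eval₂]
      rw [hρ, resB_eq_zero_iff]
      have : ((f.eval₂ (algebraMap R B) (⟨t, ht⟩ : B) : B) : F) = aeval t f := by
        have := Polynomial.hom_eval₂ f (algebraMap R B) B.val.toRingHom (⟨t, ht⟩ : B)
        rw [Polynomial.aeval_def]
        exact this
      rw [this]
      exact hft
  let A₀ : Subalgebra K P.ResidueField := Algebra.adjoin K {ρ ⟨t, ht⟩}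
  have hA₀ : Algebra.IsIntegral K A₀ := Algebra.IsIntegral.adjoin (fun x hx => by
    rw [Set.mem_singleton_iff] at hx
    rw [hx]
    exact htalg.isIntegral)
  -- the image of `R[t]` lies in `A₀`
  have hSA : ∀ s (hs : s ∈ Algebra.adjoin R {t}), ρ ⟨s, hSB hs⟩ ∈ A₀ := by
    intro s hs
    induction hs using Algebra.adjoin_induction with
    | mem x hx =>
      rw [Set.mem_singleton_iff] at hx
      subst hx
      exact Algebra.subset_adjoin (Set.mem_singleton _)
    | algebraMap r =>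
      have : (⟨algebraMap R F r, hSB (Subalgebra.algebraMap_mem _ r)⟩ : B) = algebraMap R B r := rfl
      rw [this, hρ, resB_algebraMap]
      exact A₀.algebraMap_mem _
    | add x y hx hy hx' hy' =>
      have : (⟨x + y, hSB (add_mem hx hy)⟩ : B) = ⟨x, hSB hx⟩ + ⟨y, hSB hy⟩ := rfl
      rw [this, map_add]
      exact A₀.add_mem hx' hy'
    | mul x y hx hy hx' hy' =>
      have : (⟨x * y, hSB (mul_mem hx hy)⟩ : B) = ⟨x, hSB hx⟩ * ⟨y, hSB hy⟩ := rfl
      rw [this, map_mul]
      exact A₀.mul_mem hx' hy'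
  let ψS : (Algebra.adjoin R {t}) →+* A₀ :=
    (ρ.comp (Subalgebra.inclusion hSB : _ →ₐ[R] B).toRingHom).codRestrict A₀.toSubring
      (fun s => hSA s.1 s.2)
  have hb := exists_monic_of_isIntegral hSB b.2 (hint b b.2)
  have h1 : IsIntegral A₀ (ρ b) :=
    isIntegral_of_monic_eval₂ (Subalgebra.inclusion hSB : _ →ₐ[R] B).toRingHom ρ ψS
      (by ext s; rfl) hb
  exact (isIntegral_trans (R := K) (A := A₀) _ h1).isAlgebraic

/-- Every element `b` of the chart satisfies `g(b) ∈ 𝔪_P` for some `g ∈ R[X]` having a unit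
coefficient. -/
theorem exists_primitive_relation [IsDomain R] [IsFractionRing R K] {π : R} (hπ0 : π ≠ 0)
    (dvrR : ∀ r : R, r ≠ 0 → ∃ (k : ℕ) (v : Rˣ), r = π ^ k * v) {B : Subalgebra R F}
    {t : F} (ht : t ∈ B) (hint : ∀ x ∈ B, IsIntegral (Algebra.adjoin R {t}) x) (P : Place K F)
    (hBP : ∀ b : B, (b : F) ∈ P.toValuationSubring) (f : R[X]) (hf : f ≠ 0)
    (hft : aeval t f ∈ P.toValuationSubring.nonunits) (b : B) :
    ∃ g : R[X], (∃ i, IsUnit (g.coeff i)) ∧ resB B P hBP (g.eval₂ (algebraMap R B) b) = 0 := by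
  classical
  have hinjK : Function.Injective (algebraMap R K) := IsFractionRing.injective R K
  have halg := isAlgebraic_residue hinjK ht hint P hBP f hf hft b
  let _ : Algebra R P.ResidueField :=
    ((algebraMap K P.ResidueField).comp (algebraMap R K)).toAlgebra
  have : IsScalarTower R K P.ResidueField := IsScalarTower.of_algebraMap_eq (fun r => rfl)
  obtain ⟨p, hp0, hp⟩ := (IsFractionRing.isAlgebraic_iff R K P.ResidueField).mpr halg
  have hcomp : algebraMap R P.ResidueField = (resB B P hBP).comp (algebraMap R B) := by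
    ext r
    exact (resB_algebraMap hBP r).symm
  rw [Polynomial.aeval_def, hcomp, ← Polynomial.hom_eval₂] at hp
  obtain ⟨n, g, hg, hi⟩ := exists_primitive hπ0 dvrR p hp0
  refine ⟨g, hi, ?_⟩
  rw [hg, Polynomial.eval₂_mul, Polynomial.eval₂_C, map_mul] at hp
  rcases mul_eq_zero.mp hp with h | h
  · exfalso
    rw [resB_algebraMap, map_pow, map_pow] at h
    have h2 : algebraMap K P.ResidueField (algebraMap R K π) ≠ 0 := by
      intro h0
      have h1 := (algebraMap K P.ResidueField).injective (h0.trans (map_zero _).symm)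
      exact hπ0 (hinjK (h1.trans (map_zero _).symm))
    exact pow_ne_zero n h2 h
  · exact h

/-- `dim B / 𝔭 ≤ 1`: a prime of the chart containing `π` and the horizontal prime of `P` is
maximal. -/
theorem isMaximal_of_horizontal_le [IsDomain R] [IsFractionRing R K] {π : R} (hπ0 : π ≠ 0)
    (dvrR : ∀ r : R, r ≠ 0 → ∃ (k : ℕ) (v : Rˣ), r = π ^ k * v)
    (hπmax : (Ideal.span {π} : Ideal R).IsMaximal) {B : Subalgebra R F}
    {t : F} (ht : t ∈ B) (hint : ∀ x ∈ B, IsIntegral (Algebra.adjoin R {t}) x) (P : Place K F)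
    (hBP : ∀ b : B, (b : F) ∈ P.toValuationSubring) (f : R[X]) (hf : f ≠ 0)
    (hft : aeval t f ∈ P.toValuationSubring.nonunits) (𝔮 : Ideal B) [h𝔮 : 𝔮.IsPrime]
    (hπ𝔮 : algebraMap R B π ∈ 𝔮)
    (hP𝔮 : ∀ b : B, (b : F) ∈ P.toValuationSubring.nonunits → b ∈ 𝔮) : 𝔮.IsMaximal := by
  classical
  have hle : Ideal.span {π} ≤ 𝔮.comap (algebraMap R B) := by
    rw [Ideal.span_singleton_le_iff_mem]
    exact hπ𝔮
  let _ : Field (R ⧸ (Ideal.span {π} : Ideal R)) := Ideal.Quotient.field _
  let _ : Algebra (R ⧸ (Ideal.span {π} : Ideal R)) (B ⧸ 𝔮) :=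
    Ideal.Quotient.algebraQuotientOfLEComap hle
  have hmap : ∀ r : R, algebraMap (R ⧸ (Ideal.span {π} : Ideal R)) (B ⧸ 𝔮)
      (Ideal.Quotient.mk _ r) = Ideal.Quotient.mk 𝔮 (algebraMap R B r) := fun r => rfl
  have : IsDomain (B ⧸ 𝔮) := Ideal.Quotient.isDomain 𝔮
  have hint' : Algebra.IsIntegral (R ⧸ (Ideal.span {π} : Ideal R)) (B ⧸ 𝔮) := by
    refine ⟨fun x => ?_⟩
    obtain ⟨b, rfl⟩ := Ideal.Quotient.mk_surjective x
    obtain ⟨g, ⟨i, hi⟩, hg⟩ := exists_primitive_relation hπ0 dvrR ht hint P hBP f hf hft b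
    apply IsAlgebraic.isIntegral
    refine ⟨g.map (Ideal.Quotient.mk _), ?_, ?_⟩
    · intro h0
      have h1 : (g.map (Ideal.Quotient.mk (Ideal.span {π} : Ideal R))).coeff i = 0 := by
        rw [h0, Polynomial.coeff_zero]
      rw [Polynomial.coeff_map] at h1
      exact (hi.map (Ideal.Quotient.mk (Ideal.span {π} : Ideal R))).ne_zero h1
    · rw [Polynomial.aeval_def, Polynomial.eval₂_map]
      have hc : (algebraMap (R ⧸ (Ideal.span {π} : Ideal R)) (B ⧸ 𝔮)).comp
          (Ideal.Quotient.mk _) = (Ideal.Quotient.mk 𝔮).comp (algebraMap R B) := by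
        ext r; exact hmap r
      rw [hc, ← Polynomial.hom_eval₂, Ideal.Quotient.eq_zero_iff_mem]
      exact hP𝔮 _ ((resB_eq_zero_iff hBP _).mp hg)
  exact Ideal.Quotient.maximal_of_isField 𝔮
    (isField_of_isIntegral_of_isField' (R := R ⧸ (Ideal.span {π} : Ideal R))
      (Field.toIsField (R ⧸ (Ideal.span {π} : Ideal R))))

end Residue

/-- For a DVR-like `R` the ideal `(π)` is maximal. -/
theorem span_pi_isMaximal {R : Type*} [CommRing R] {π : R} (hπ : ¬ IsUnit π)
    (dvrR : ∀ r : R, r ≠ 0 → ∃ (k : ℕ) (v : Rˣ), r = π ^ k * v) :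
    (Ideal.span {π} : Ideal R).IsMaximal := by
  rw [Ideal.isMaximal_iff]
  refine ⟨fun h1 => hπ ?_, fun J x _ hx hxJ => ?_⟩
  · obtain ⟨a, ha⟩ := Ideal.mem_span_singleton'.mp h1
    exact IsUnit.of_mul_eq_one a (by rw [mul_comm]; exact ha)
  · have hx0 : x ≠ 0 := fun h => hx (h ▸ Ideal.zero_mem _)
    obtain ⟨k, v, hv⟩ := dvrR x hx0
    cases k with
    | zero =>
      rw [pow_zero, one_mul] at hv
      have : (1 : R) = x * (v⁻¹ : Rˣ) := by rw [hv]; simp
      rw [this]
      exact J.mul_mem_right _ hxJ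
    | succ k =>
      exfalso
      apply hx
      rw [hv, pow_succ]
      exact Ideal.mem_span_singleton'.mpr ⟨π ^ k * v, by ring⟩

section Finite

variable {R K F : Type*} [CommRing R] [Field K] [Field F] [Algebra R K] [Algebra K F]
  [Algebra R F] [IsScalarTower R K F]

omit [Algebra R K] [IsScalarTower R K F] in
/-- The horizontal prime of a place on a chart `B ⊆ O_P` with `Frac B = F` contains a nonzero
element of `R[t]`: there is `f ≠ 0` in `R[X]` with `f(t) ∈ 𝔪_P`. -/
theorem exists_relation_t {B : Subalgebra R F} {t : F} (ht : t ∈ B)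
    (hint : ∀ x ∈ B, IsIntegral (Algebra.adjoin R {t}) x)
    (frac : ∀ x : F, ∃ a ∈ B, ∃ b ∈ B, b ≠ 0 ∧ x * b = a) (P : Place K F)
    (hBP : ∀ b : B, (b : F) ∈ P.toValuationSubring) :
    ∃ f : R[X], f ≠ 0 ∧ aeval t f ∈ P.toValuationSubring.nonunits := by
  classical
  have hSB : Algebra.adjoin R {t} ≤ B := Algebra.adjoin_le (Set.singleton_subset_iff.mpr ht)
  -- a nonzero element of `B` in `𝔪_P`
  obtain ⟨b₀, hb₀, hb₀P⟩ : ∃ b : B, b ≠ 0 ∧ (b : F) ∈ P.toValuationSubring.nonunits := by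
    by_contra hcon
    push Not at hcon
    apply P.ne_top'
    refine SetLike.ext fun x => ⟨fun _ => ValuationSubring.mem_top x, fun _ => ?_⟩
    obtain ⟨a, ha, b, hb, hb0, hab⟩ := frac x
    have hbB : (⟨b, hb⟩ : B) ≠ 0 := fun h => hb0 (congrArg Subtype.val h)
    have h1 := hcon ⟨b, hb⟩ hbB
    have h2 : b⁻¹ ∈ P.toValuationSubring := by
      by_contra h3
      apply h1
      have := inv_mem_nonunits_of_not_mem _ h3
      rwa [inv_inv] at this
    have : x = a * b⁻¹ := by rw [← hab]; field_simp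
    rw [this]
    exact P.toValuationSubring.mul_mem _ _ (hBP ⟨a, ha⟩) h2
  let _ : Algebra (Algebra.adjoin R {t}) B :=
    (Subalgebra.inclusion hSB : _ →ₐ[R] B).toRingHom.toAlgebra
  have hb₀int : IsIntegral (Algebra.adjoin R {t}) b₀ :=
    exists_monic_of_isIntegral hSB b₀.2 (hint b₀ b₀.2)
  have hb₀ker : b₀ ∈ RingHom.ker (resB B P hBP) := (resB_eq_zero_iff hBP b₀).mpr hb₀P
  have hne := Ideal.comap_ne_bot_of_integral_mem (R := Algebra.adjoin R {t}) hb₀ hb₀ker hb₀int
  obtain ⟨s, hs, hs0⟩ := Submodule.exists_mem_ne_zero_of_ne_bot hne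
  have hs' : (s : F) ∈ (aeval (R := R) t).range := by
    rw [← Algebra.adjoin_singleton_eq_range_aeval]; exact s.2
  obtain ⟨f, hf⟩ := hs'
  refine ⟨f, ?_, ?_⟩
  · rintro rfl
    apply hs0
    apply Subtype.ext
    rw [← hf]; simp
  · rw [Ideal.mem_comap, RingHom.mem_ker, resB_eq_zero_iff] at hs
    have : aeval t f = (s : F) := hf
    rw [this]
    exact hs

/-- **(CAR-C, finiteness) The set of centres of a place on a noetherian chart is finite.** -/
theorem finite_centres_chart [IsDomain R] [IsFractionRing R K] {π : R} (hπ : ¬ IsUnit π)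
    (hπ0 : π ≠ 0) (dvrR : ∀ r : R, r ≠ 0 → ∃ (k : ℕ) (v : Rˣ), r = π ^ k * v)
    {B : Subalgebra R F} (noethB : IsNoetherianRing B) {t : F} (ht : t ∈ B)
    (hint : ∀ x ∈ B, IsIntegral (Algebra.adjoin R {t}) x)
    (frac : ∀ x : F, ∃ a ∈ B, ∃ b ∈ B, b ≠ 0 ∧ x * b = a) (P : Place K F) :
    {𝔪 : Ideal B | IsCentre π B 𝔪 P}.Finite := by
  classical
  by_cases hBP : ∀ b : B, (b : F) ∈ P.toValuationSubring
  · obtain ⟨f, hf, hft⟩ := exists_relation_t ht hint frac P hBP
    have hπmax := span_pi_isMaximal hπ dvrR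
    refine (Ideal.finite_minimalPrimes_of_isNoetherianRing B
      (RingHom.ker (resB B P hBP) ⊔ Ideal.span {algebraMap R B π})).subset ?_
    rintro 𝔪 ⟨h𝔪, hπ𝔪, hT⟩
    have hker : ∀ b : B, (b : F) ∈ P.toValuationSubring.nonunits → b ∈ 𝔪 := by
      intro b hb
      by_contra hb𝔪
      have hb0 : (b : F) ≠ 0 := by
        intro h0
        have : b = 0 := Subtype.ext h0
        exact hb𝔪 (this ▸ 𝔪.zero_mem)
      exact inv_not_mem_of_mem_nonunits _ hb0 hb (hT.2 b hb𝔪)
    have hJ𝔪 : RingHom.ker (resB B P hBP) ⊔ Ideal.span {algebraMap R B π} ≤ 𝔪 := by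
      refine sup_le (fun b hb => hker b ((resB_eq_zero_iff hBP b).mp hb)) ?_
      rw [Ideal.span_singleton_le_iff_mem]; exact hπ𝔪
    refine ⟨⟨h𝔪.isPrime, hJ𝔪⟩, ?_⟩
    rintro 𝔮 ⟨h𝔮, hJ𝔮⟩ h𝔮𝔪
    have h𝔮max : 𝔮.IsMaximal :=
      isMaximal_of_horizontal_le hπ0 dvrR hπmax ht hint P hBP f hf hft 𝔮
        (hJ𝔮 (Ideal.mem_sup_right (Ideal.subset_span (Set.mem_singleton _))))
        (fun b hb => hJ𝔮 (Ideal.mem_sup_left ((resB_eq_zero_iff hBP b).mpr hb)))
    exact (h𝔮max.eq_of_le h𝔪.ne_top h𝔮𝔪).ge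
  · convert Set.finite_empty
    ext 𝔪
    simp only [Set.mem_empty_iff_false, iff_false]
    rintro ⟨-, -, hT⟩
    exact hBP hT.1

/-- **(CAR-C, finiteness) On a `NodalNumData` model every place has finitely many centres** (on each
of the two charts). -/
theorem finite_centres {π : R} {t : F} {B0 B1 : Subalgebra R F} {O1 O2 : ValuationSubring F}
    (D : NodalNumData R K F π t B0 B1 O1 O2) (P : Place K F) :
    {𝔪 : Ideal B0 | IsCentre π B0 𝔪 P}.Finite ∧ {𝔪 : Ideal B1 | IsCentre π B1 𝔪 P}.Finite := by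
  have := D.fracR
  have hinjK : Function.Injective (algebraMap R K) := IsFractionRing.injective R K
  have : IsDomain R := hinjK.isDomain _
  have hπ : ¬ IsUnit π := by
    intro hu
    obtain ⟨u, hu⟩ := hu.exists_right_inv
    apply D.model.pi_nonunit1
    have h1 : algebraMap R F π * algebraMap R F u = 1 := by rw [← map_mul, hu, map_one]
    rw [← eq_inv_of_mul_eq_one_right h1]
    exact D.model.le_O1_0 _ (B0.algebraMap_mem u)
  have hπ0 : π ≠ 0 := by
    rintro rfl
    exact D.model.pi_ne (map_zero _)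
  exact ⟨finite_centres_chart hπ hπ0 D.dvrR D.noeth0 D.model.t_mem D.model.int0 D.frac0 P,
    finite_centres_chart hπ hπ0 D.dvrR D.noeth1 D.model.tinv_mem D.model.int1 D.frac1 P⟩

/-- The closed points of a chart which are centres of some place in the support of a divisor form a
finite set. -/
theorem finite_centres_support {π : R} {t : F} {B0 B1 : Subalgebra R F}
    {O1 O2 : ValuationSubring F} (D : NodalNumData R K F π t B0 B1 O1 O2) (E : Divisor K F) :
    {𝔪 : Ideal B0 | ∃ P ∈ E.support, IsCentre π B0 𝔪 P}.Finite ∧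
      {𝔪 : Ideal B1 | ∃ P ∈ E.support, IsCentre π B1 𝔪 P}.Finite := by
  constructor
  · have : {𝔪 : Ideal B0 | ∃ P ∈ E.support, IsCentre π B0 𝔪 P} =
        ⋃ P ∈ E.support, {𝔪 : Ideal B0 | IsCentre π B0 𝔪 P} := by
      ext 𝔪; simp
    rw [this]
    exact Set.Finite.biUnion E.support.finite_toSet (fun P _ => (finite_centres D P).1)
  · have : {𝔪 : Ideal B1 | ∃ P ∈ E.support, IsCentre π B1 𝔪 P} =
        ⋃ P ∈ E.support, {𝔪 : Ideal B1 | IsCentre π B1 𝔪 P} := by
      ext 𝔪; simp
    rw [this]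
    exact Set.Finite.biUnion E.support.finite_toSet (fun P _ => (finite_centres D P).2)

omit [Algebra R K] [IsScalarTower R K F] in
/-- `ChartLevel` only has to be checked at the (finitely many) centres of the support. -/
theorem chartLevel_of_centres {π : R} {B : Subalgebra R F} {O1 O2 : ValuationSubring F} {n : ℕ}
    {E : Divisor K F}
    (h : ∀ 𝔪 : Ideal B, (∃ P ∈ E.support, IsCentre π B 𝔪 P) → LevelAt π B O1 O2 n E 𝔪) :
    ChartLevel π B O1 O2 n E := by
  classical
  intro 𝔪 h𝔪 hπ𝔪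
  by_cases hc : ∃ P ∈ E.support, Through B 𝔪 P
  · obtain ⟨P, hP, hT⟩ := hc
    exact h 𝔪 ⟨P, hP, h𝔪, hπ𝔪, hT⟩
  · push Not at hc
    refine levelAt_of_no_centre n (fun P hT => ?_)
    by_contra h0
    exact hc P (Finsupp.mem_support_iff.mpr h0) hT

end Finite

end Fermat.Agent.M1.Car.CentreFin99
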