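/-
Program M1 (S44), chapter CAR, brick CAR-SEMILOCAL (helper53).

The commutative algebra behind the moving lemma: an invertible pair `(I0, I1)` of modules over the
two charts `B0 ∋ t`, `B1 ∋ t⁻¹` of a two-chart model has ONE element `f` of the function field that
generates it at finitely many prescribed closed points of both charts simultaneously.

Everything is in field form, in the vocabulary of `ES/N34` (`B : Subalgebra R F`, `𝔪 : Ideal B`,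
`x ∈ B_𝔪` means `∃ a d : B, d ∉ 𝔪 ∧ x * d = a`).  Mathlib only.
-/
import Mathlib

set_option autoImplicit false

namespace Fermat.Agent.M1.Car.SemiLocal53

section Loc

variable {R F : Type*} [CommRing R] [Field F] [Algebra R F]

/-- `x ∈ B_𝔪` (field form). -/
def InLoc (B : Subalgebra R F) (𝔪 : Ideal B) (x : F) : Prop :=
  ∃ a d : B, d ∉ 𝔪 ∧ x * (d : F) = (a : F)

/-- `x ∈ 𝔪 · B_𝔪` (field form). -/
def InLocMax (B : Subalgebra R F) (𝔪 : Ideal B) (x : F) : Prop :=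
  ∃ a d : B, a ∈ 𝔪 ∧ d ∉ 𝔪 ∧ x * (d : F) = (a : F)

/-- `x` is a unit of `B_𝔪` (field form). -/
def IsLocUnit (B : Subalgebra R F) (𝔪 : Ideal B) (x : F) : Prop :=
  ∃ a d : B, a ∉ 𝔪 ∧ d ∉ 𝔪 ∧ x * (d : F) = (a : F)

variable {B : Subalgebra R F} {𝔪 : Ideal B}

theorem coe_ne_zero_of_not_mem {d : B} (hd : d ∉ 𝔪) : (d : F) ≠ 0 := by
  intro h
  apply hd
  have : d = 0 := Subtype.ext h
  rw [this]
  exact 𝔪.zero_mem

theorem one_not_mem [h𝔪 : 𝔪.IsPrime] : (1 : B) ∉ 𝔪 := fun h =>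
  h𝔪.ne_top ((Ideal.eq_top_iff_one 𝔪).mpr h)

theorem InLoc.of_mem [𝔪.IsPrime] {x : F} (hx : x ∈ B) : InLoc B 𝔪 x :=
  ⟨⟨x, hx⟩, 1, one_not_mem, by simp⟩

theorem InLocMax.of_mem [𝔪.IsPrime] {b : B} (hb : b ∈ 𝔪) : InLocMax B 𝔪 (b : F) :=
  ⟨b, 1, hb, one_not_mem, by simp⟩

theorem IsLocUnit.of_not_mem [𝔪.IsPrime] {b : B} (hb : b ∉ 𝔪) : IsLocUnit B 𝔪 (b : F) :=
  ⟨b, 1, hb, one_not_mem, by simp⟩

theorem InLocMax.inLoc {x : F} (hx : InLocMax B 𝔪 x) : InLoc B 𝔪 x := by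
  obtain ⟨a, d, -, hd, h⟩ := hx
  exact ⟨a, d, hd, h⟩

theorem IsLocUnit.inLoc {x : F} (hx : IsLocUnit B 𝔪 x) : InLoc B 𝔪 x := by
  obtain ⟨a, d, -, hd, h⟩ := hx
  exact ⟨a, d, hd, h⟩

theorem InLoc.zero [𝔪.IsPrime] : InLoc B 𝔪 0 := InLoc.of_mem B.zero_mem

theorem InLoc.one [𝔪.IsPrime] : InLoc B 𝔪 1 := InLoc.of_mem B.one_mem

theorem IsLocUnit.one [𝔪.IsPrime] : IsLocUnit B 𝔪 1 :=
  ⟨1, 1, one_not_mem, one_not_mem, by simp⟩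

theorem InLocMax.zero [𝔪.IsPrime] : InLocMax B 𝔪 0 :=
  ⟨0, 1, 𝔪.zero_mem, one_not_mem, by simp⟩

theorem InLoc.add [h𝔪 : 𝔪.IsPrime] {x y : F} (hx : InLoc B 𝔪 x) (hy : InLoc B 𝔪 y) :
    InLoc B 𝔪 (x + y) := by
  obtain ⟨a, d, hd, h⟩ := hx
  obtain ⟨a', d', hd', h'⟩ := hy
  refine ⟨a * d' + a' * d, d * d', fun hh => (h𝔪.mem_or_mem hh).elim hd hd', ?_⟩
  push_cast
  rw [← h, ← h']
  ring

theorem InLoc.mul [h𝔪 : 𝔪.IsPrime] {x y : F} (hx : InLoc B 𝔪 x) (hy : InLoc B 𝔪 y) :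
    InLoc B 𝔪 (x * y) := by
  obtain ⟨a, d, hd, h⟩ := hx
  obtain ⟨a', d', hd', h'⟩ := hy
  refine ⟨a * a', d * d', fun hh => (h𝔪.mem_or_mem hh).elim hd hd', ?_⟩
  push_cast
  rw [← h, ← h']
  ring

theorem InLoc.neg {x : F} (hx : InLoc B 𝔪 x) : InLoc B 𝔪 (-x) := by
  obtain ⟨a, d, hd, h⟩ := hx
  refine ⟨-a, d, hd, ?_⟩
  push_cast
  rw [← h]
  ring

theorem InLoc.sub [𝔪.IsPrime] {x y : F} (hx : InLoc B 𝔪 x) (hy : InLoc B 𝔪 y) :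
    InLoc B 𝔪 (x - y) := by
  rw [sub_eq_add_neg]
  exact hx.add hy.neg

theorem InLoc.pow [𝔪.IsPrime] {x : F} (hx : InLoc B 𝔪 x) (n : ℕ) : InLoc B 𝔪 (x ^ n) := by
  induction n with
  | zero => rw [pow_zero]; exact InLoc.one
  | succ n ih => rw [pow_succ]; exact ih.mul hx

theorem InLocMax.add [h𝔪 : 𝔪.IsPrime] {x y : F} (hx : InLocMax B 𝔪 x) (hy : InLocMax B 𝔪 y) :
    InLocMax B 𝔪 (x + y) := by
  obtain ⟨a, d, ha, hd, h⟩ := hx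
  obtain ⟨a', d', ha', hd', h'⟩ := hy
  refine ⟨a * d' + a' * d, d * d',
    𝔪.add_mem (𝔪.mul_mem_right _ ha) (𝔪.mul_mem_right _ ha'),
    fun hh => (h𝔪.mem_or_mem hh).elim hd hd', ?_⟩
  push_cast
  rw [← h, ← h']
  ring

theorem InLocMax.mul_left [h𝔪 : 𝔪.IsPrime] {c x : F} (hc : InLoc B 𝔪 c) (hx : InLocMax B 𝔪 x) :
    InLocMax B 𝔪 (c * x) := by
  obtain ⟨a, d, hd, h⟩ := hc
  obtain ⟨a', d', ha', hd', h'⟩ := hx
  refine ⟨a * a', d * d', 𝔪.mul_mem_left _ ha', fun hh => (h𝔪.mem_or_mem hh).elim hd hd', ?_⟩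
  push_cast
  rw [← h, ← h']
  ring

theorem InLocMax.mul_right [𝔪.IsPrime] {c x : F} (hx : InLocMax B 𝔪 x) (hc : InLoc B 𝔪 c) :
    InLocMax B 𝔪 (x * c) := by
  rw [mul_comm]
  exact hx.mul_left hc

theorem InLocMax.neg {x : F} (hx : InLocMax B 𝔪 x) : InLocMax B 𝔪 (-x) := by
  obtain ⟨a, d, ha, hd, h⟩ := hx
  refine ⟨-a, d, 𝔪.neg_mem ha, hd, ?_⟩
  push_cast
  rw [← h]
  ring

theorem InLocMax.sum [𝔪.IsPrime] {ι : Type*} (s : Finset ι) (x : ι → F)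
    (hx : ∀ i ∈ s, InLocMax B 𝔪 (x i)) : InLocMax B 𝔪 (∑ i ∈ s, x i) := by
  classical
  induction s using Finset.induction_on with
  | empty => rw [Finset.sum_empty]; exact InLocMax.zero
  | insert i s hi ih =>
    rw [Finset.sum_insert hi]
    exact (hx i (Finset.mem_insert_self i s)).add
      (ih fun j hj => hx j (Finset.mem_insert_of_mem hj))

theorem InLocMax.pow [𝔪.IsPrime] {x : F} (hx : InLocMax B 𝔪 x) {n : ℕ} (hn : 0 < n) :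
    InLocMax B 𝔪 (x ^ n) := by
  obtain ⟨m, rfl⟩ : ∃ m, n = m + 1 := ⟨n - 1, by omega⟩
  rw [pow_succ]
  exact hx.mul_left (hx.inLoc.pow m)

theorem IsLocUnit.ne_zero {x : F} (hx : IsLocUnit B 𝔪 x) : x ≠ 0 := by
  obtain ⟨a, d, ha, hd, h⟩ := hx
  rintro rfl
  rw [zero_mul] at h
  exact coe_ne_zero_of_not_mem ha h.symm

theorem IsLocUnit.inv {x : F} (hx : IsLocUnit B 𝔪 x) : IsLocUnit B 𝔪 x⁻¹ := by
  have hx0 := hx.ne_zero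
  obtain ⟨a, d, ha, hd, h⟩ := hx
  refine ⟨d, a, hd, ha, ?_⟩
  rw [← h]
  field_simp

theorem IsLocUnit.mul [h𝔪 : 𝔪.IsPrime] {x y : F} (hx : IsLocUnit B 𝔪 x) (hy : IsLocUnit B 𝔪 y) :
    IsLocUnit B 𝔪 (x * y) := by
  obtain ⟨a, d, ha, hd, h⟩ := hx
  obtain ⟨a', d', ha', hd', h'⟩ := hy
  refine ⟨a * a', d * d', fun hh => (h𝔪.mem_or_mem hh).elim ha ha',
    fun hh => (h𝔪.mem_or_mem hh).elim hd hd', ?_⟩
  push_cast
  rw [← h, ← h']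
  ring

theorem IsLocUnit.pow [𝔪.IsPrime] {x : F} (hx : IsLocUnit B 𝔪 x) (n : ℕ) :
    IsLocUnit B 𝔪 (x ^ n) := by
  induction n with
  | zero => rw [pow_zero]; exact IsLocUnit.one
  | succ n ih => rw [pow_succ]; exact ih.mul hx

/-- unit + non-unit = unit (the local ring property). -/
theorem IsLocUnit.add_max [h𝔪 : 𝔪.IsPrime] {x y : F} (hx : IsLocUnit B 𝔪 x)
    (hy : InLocMax B 𝔪 y) : IsLocUnit B 𝔪 (x + y) := by
  obtain ⟨a, d, ha, hd, h⟩ := hx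
  obtain ⟨a', d', ha', hd', h'⟩ := hy
  refine ⟨a * d' + a' * d, d * d', fun hh => ?_, fun hh => (h𝔪.mem_or_mem hh).elim hd hd', ?_⟩
  · have h1 : a * d' ∈ 𝔪 := by
      have := 𝔪.sub_mem hh (𝔪.mul_mem_right d ha')
      simpa using this
    exact (h𝔪.mem_or_mem h1).elim ha hd'
  · push_cast
    rw [← h, ← h']
    ring

theorem not_inLocMax_of_isLocUnit [h𝔪 : 𝔪.IsPrime] {x : F} (hx : IsLocUnit B 𝔪 x) :
    ¬ InLocMax B 𝔪 x := by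
  obtain ⟨a, d, ha, hd, h⟩ := hx
  rintro ⟨a', d', ha', hd', h'⟩
  -- `a * d' = a' * d`
  have h1 : a * d' = a' * d := by
    apply Subtype.ext
    push_cast
    rw [← h, ← h']
    ring
  have h2 : a * d' ∈ 𝔪 := by rw [h1]; exact 𝔪.mul_mem_right _ ha'
  exact (h𝔪.mem_or_mem h2).elim ha hd'

/-- an element of `B_𝔪` is a unit or lies in the maximal ideal. -/
theorem InLoc.isLocUnit_or_inLocMax {x : F} (hx : InLoc B 𝔪 x) :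
    IsLocUnit B 𝔪 x ∨ InLocMax B 𝔪 x := by
  obtain ⟨a, d, hd, h⟩ := hx
  by_cases ha : a ∈ 𝔪
  · exact Or.inr ⟨a, d, ha, hd, h⟩
  · exact Or.inl ⟨a, d, ha, hd, h⟩

end Loc

section Gen

variable {R F : Type*} [CommRing R] [Field F] [Algebra R F]

/-- `x ∈ I · B_𝔪` (field form): some `d ∈ B ∖ 𝔪` has `d * x ∈ I`. -/
def InLocMod (B : Subalgebra R F) (𝔪 : Ideal B) (I : AddSubgroup F) (x : F) : Prop :=
  ∃ d : B, d ∉ 𝔪 ∧ (d : F) * x ∈ I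

/-- `f` generates `I` at `𝔪`:  `I · B_𝔪 = f · B_𝔪` (field form). -/
def GenAt (B : Subalgebra R F) (𝔪 : Ideal B) (I : AddSubgroup F) (f : F) : Prop :=
  InLocMod B 𝔪 I f ∧ ∀ x ∈ I, ∃ c d : B, d ∉ 𝔪 ∧ x * (d : F) = f * (c : F)

variable {B : Subalgebra R F} {𝔪 : Ideal B} {I : AddSubgroup F}

theorem InLocMod.of_mem [𝔪.IsPrime] {x : F} (hx : x ∈ I) : InLocMod B 𝔪 I x :=
  ⟨1, one_not_mem, by simpa using hx⟩

/-- every element of `I · B_𝔪` is a `B_𝔪`-multiple of a generator. -/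
theorem GenAt.exists_eq_mul [h𝔪 : 𝔪.IsPrime] {f : F} (hf : GenAt B 𝔪 I f) {x : F}
    (hx : InLocMod B 𝔪 I x) : ∃ c : F, InLoc B 𝔪 c ∧ x = c * f := by
  obtain ⟨d, hd, hdx⟩ := hx
  obtain ⟨c, d', hd', h⟩ := hf.2 _ hdx
  have hd0 : (d : F) ≠ 0 := coe_ne_zero_of_not_mem hd
  have hd0' : (d' : F) ≠ 0 := coe_ne_zero_of_not_mem hd'
  refine ⟨(c : F) / ((d : F) * (d' : F)),
    ⟨c, d * d', fun hh => (h𝔪.mem_or_mem hh).elim hd hd', ?_⟩, ?_⟩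
  · push_cast
    field_simp
  · field_simp
    linear_combination h

/-- a unit multiple of a generator is a generator. -/
theorem GenAt.mul_unit [h𝔪 : 𝔪.IsPrime] (hI : ∀ b ∈ B, ∀ x ∈ I, b * x ∈ I) {f v : F}
    (hf : GenAt B 𝔪 I f) (hv : IsLocUnit B 𝔪 v) : GenAt B 𝔪 I (v * f) := by
  obtain ⟨a, d, ha, hd, h⟩ := hv
  obtain ⟨⟨d', hd', hdf⟩, hgen⟩ := hf
  have hd0 : (d : F) ≠ 0 := coe_ne_zero_of_not_mem hd
  refine ⟨⟨d * d', fun hh => (h𝔪.mem_or_mem hh).elim hd hd', ?_⟩, fun x hx => ?_⟩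
  · have : ((d * d' : B) : F) * (v * f) = (a : F) * ((d' : F) * f) := by
      push_cast
      rw [← h]
      ring
    rw [this]
    exact hI _ a.2 _ hdf
  · obtain ⟨c, d'', hd'', hx'⟩ := hgen x hx
    refine ⟨c * d, d'' * a, fun hh => (h𝔪.mem_or_mem hh).elim hd'' ha, ?_⟩
    push_cast
    rw [← h]
    linear_combination (v * (d : F)) * hx'

/-- **Nakayama step**: a generator plus an element of `𝔪 · I · B_𝔪` is a generator. -/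
theorem GenAt.add_small [h𝔪 : 𝔪.IsPrime] (hI : ∀ b ∈ B, ∀ x ∈ I, b * x ∈ I) {f μ : F}
    (hf : GenAt B 𝔪 I f) (hμ : InLocMax B 𝔪 μ) : GenAt B 𝔪 I (f + μ * f) := by
  have : f + μ * f = (1 + μ) * f := by ring
  rw [this]
  exact hf.mul_unit hI (IsLocUnit.one.add_max hμ)

/-- `unit * f + small * f` is a generator. -/
theorem GenAt.unit_add_small [h𝔪 : 𝔪.IsPrime] (hI : ∀ b ∈ B, ∀ x ∈ I, b * x ∈ I) {f v μ : F}
    (hf : GenAt B 𝔪 I f) (hv : IsLocUnit B 𝔪 v) (hμ : InLocMax B 𝔪 μ) :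
    GenAt B 𝔪 I (v * f + μ * f) := by
  have : v * f + μ * f = (v + μ) * f := by ring
  rw [this]
  exact hf.mul_unit hI (hv.add_max hμ)

/-- a generator can be moved into `I`. -/
theorem GenAt.exists_mem [h𝔪 : 𝔪.IsPrime] (hI : ∀ b ∈ B, ∀ x ∈ I, b * x ∈ I) {f : F}
    (hf : GenAt B 𝔪 I f) : ∃ a ∈ I, GenAt B 𝔪 I a := by
  obtain ⟨d, hd, hdf⟩ := hf.1
  exact ⟨(d : F) * f, hdf, hf.mul_unit hI (IsLocUnit.of_not_mem hd)⟩

theorem GenAt.ne_zero {f : F} (hf : GenAt B 𝔪 I f) (hI0 : I ≠ ⊥) : f ≠ 0 := by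
  rintro rfl
  apply hI0
  rw [eq_bot_iff]
  intro x hx
  obtain ⟨c, d, hd, h⟩ := hf.2 x hx
  rw [zero_mul] at h
  rcases mul_eq_zero.mp h with h0 | h0
  · rw [h0]; exact AddSubgroup.zero_mem _
  · exact absurd h0 (coe_ne_zero_of_not_mem hd)

/-- **Invertible ⟹ locally principal** (certificate form): if `∑ g k * w k = 1` with `g k ∈ I` and
`w k * I ⊆ B`, then at every prime some `g k` generates `I`. -/
theorem genAt_of_certificate {n : ℕ} (g w : Fin n → F)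
    (hg : ∀ k, g k ∈ I) (hw : ∀ k, ∀ x ∈ I, w k * x ∈ B) (h1 : ∑ k, g k * w k = 1)
    (𝔪 : Ideal B) [h𝔪 : 𝔪.IsPrime] : ∃ k, GenAt B 𝔪 I (g k) := by
  classical
  -- some `g k * w k ∉ 𝔪`
  have key : ∃ k, (⟨w k * g k, hw k _ (hg k)⟩ : B) ∉ 𝔪 := by
    by_contra hcon
    push Not at hcon
    have hsum : (∑ k, (⟨w k * g k, hw k _ (hg k)⟩ : B)) ∈ 𝔪 := 𝔪.sum_mem fun k _ => hcon k
    have h2 : (∑ k, (⟨w k * g k, hw k _ (hg k)⟩ : B)) = 1 := by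
      apply Subtype.ext
      rw [Subalgebra.coe_one, ← h1]
      push_cast
      exact Finset.sum_congr rfl fun k _ => mul_comm _ _
    rw [h2] at hsum
    exact one_not_mem hsum
  obtain ⟨k, hk⟩ := key
  refine ⟨k, InLocMod.of_mem (hg k), fun x hx => ?_⟩
  refine ⟨⟨w k * x, hw k x hx⟩, ⟨w k * g k, hw k _ (hg k)⟩, hk, ?_⟩
  show x * (w k * g k) = g k * (w k * x)
  ring

end Gen

section OneChart

variable {R F : Type*} [CommRing R] [Field F] [Algebra R F]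

/-- separators: for a finite set of maximal ideals and one of them, an element outside it and
inside all the others. -/
theorem exists_separator {A : Type*} [CommRing A] (s : Finset (Ideal A))
    (hs : ∀ 𝔪 ∈ s, 𝔪.IsMaximal) (𝔫 : Ideal A) (h𝔫 : 𝔫 ∈ s) :
    ∃ e : A, e ∉ 𝔫 ∧ ∀ 𝔪 ∈ s, 𝔪 ≠ 𝔫 → e ∈ 𝔪 := by
  classical
  have h𝔫p : 𝔫.IsPrime := (hs 𝔫 h𝔫).isPrime
  have hex : ∀ 𝔪 ∈ s.erase 𝔫, ∃ c : A, c ∈ 𝔪 ∧ c ∉ 𝔫 := by
    intro 𝔪 h𝔪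
    have hne : 𝔪 ≠ 𝔫 := Finset.ne_of_mem_erase h𝔪
    have hmem : 𝔪 ∈ s := Finset.mem_of_mem_erase h𝔪
    by_contra hcon
    push Not at hcon
    have hle : 𝔪 ≤ 𝔫 := fun c hc => hcon c hc
    exact hne ((hs 𝔪 hmem).eq_of_le h𝔫p.ne_top hle)
  choose! c hc using hex
  refine ⟨∏ 𝔪 ∈ s.erase 𝔫, c 𝔪, ?_, ?_⟩
  · intro hmem
    obtain ⟨𝔪, h𝔪, h⟩ := (Ideal.IsPrime.prod_mem_iff).mp hmem
    exact (hc 𝔪 h𝔪).2 h
  · intro 𝔪 h𝔪 hne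
    have h𝔪' : 𝔪 ∈ s.erase 𝔫 := Finset.mem_erase.mpr ⟨hne, h𝔪⟩
    rw [← Finset.mul_prod_erase _ _ h𝔪']
    exact 𝔪.mul_mem_right _ (hc 𝔪 h𝔪').1

variable {B : Subalgebra R F} {I : AddSubgroup F}

/-- **Semi-local generation on one chart**: a `B`-module `I ⊆ F` that is locally principal at
finitely many maximal ideals has a single element generating it at all of them. -/
theorem exists_genAt_finset (hI : ∀ b ∈ B, ∀ x ∈ I, b * x ∈ I) (s : Finset (Ideal B))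
    (hs : ∀ 𝔪 ∈ s, 𝔪.IsMaximal) (hloc : ∀ 𝔪 ∈ s, ∃ a, GenAt B 𝔪 I a) :
    ∃ f ∈ I, ∀ 𝔪 ∈ s, GenAt B 𝔪 I f := by
  classical
  have hloc' : ∀ 𝔪 ∈ s, ∃ a ∈ I, GenAt B 𝔪 I a := fun 𝔪 h𝔪 => by
    have := (hs 𝔪 h𝔪).isPrime
    obtain ⟨a, ha⟩ := hloc 𝔪 h𝔪
    exact ha.exists_mem hI
  choose! a haI ha using hloc'
  have hsep := fun 𝔫 (h𝔫 : 𝔫 ∈ s) => exists_separator s hs 𝔫 h𝔫
  choose! e he1 he2 using hsep
  refine ⟨∑ 𝔪 ∈ s, (e 𝔪 : F) * a 𝔪, ?_, fun 𝔫 h𝔫 => ?_⟩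
  · exact I.sum_mem fun 𝔪 h𝔪 => hI _ (e 𝔪).2 _ (haI 𝔪 h𝔪)
  · have h𝔫p : 𝔫.IsPrime := (hs 𝔫 h𝔫).isPrime
    rw [← Finset.add_sum_erase _ _ h𝔫]
    -- each other term is a small multiple of `a 𝔫`
    have hsmall : ∀ 𝔪 ∈ s.erase 𝔫, ∃ μ : F, InLocMax B 𝔫 μ ∧ (e 𝔪 : F) * a 𝔪 = μ * a 𝔫 := by
      intro 𝔪 h𝔪
      have hne : 𝔪 ≠ 𝔫 := Finset.ne_of_mem_erase h𝔪
      have hmem : 𝔪 ∈ s := Finset.mem_of_mem_erase h𝔪
      obtain ⟨c, hc, hca⟩ := (ha 𝔫 h𝔫).exists_eq_mul (InLocMod.of_mem (𝔪 := 𝔫) (haI 𝔪 hmem))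
      refine ⟨(e 𝔪 : F) * c, ?_, by rw [hca]; ring⟩
      exact (InLocMax.of_mem (he2 𝔪 hmem 𝔫 h𝔫 hne.symm)).mul_right hc
    choose! μ hμ1 hμ2 using hsmall
    have hsum : ∑ 𝔪 ∈ s.erase 𝔫, (e 𝔪 : F) * a 𝔪 = (∑ 𝔪 ∈ s.erase 𝔫, μ 𝔪) * a 𝔫 := by
      rw [Finset.sum_mul]
      exact Finset.sum_congr rfl fun 𝔪 h𝔪 => hμ2 𝔪 h𝔪
    rw [hsum]
    exact (ha 𝔫 h𝔫).unit_add_small hI (IsLocUnit.of_not_mem (he1 𝔫 h𝔫))
      (InLocMax.sum _ _ hμ1)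

end OneChart

section TwoCharts

variable {R F : Type*} [CommRing R] [Field F] [Algebra R F]

/-- `T ^ (n + 1) - T ∈ 𝔪` and `n ∣ M` give `T ^ (M + 1) - T ∈ 𝔪`. -/
theorem pow_succ_sub_mem_of_dvd {A : Type*} [CommRing A] (𝔪 : Ideal A) (T : A) {n M : ℕ}
    (h : T ^ (n + 1) - T ∈ 𝔪) (hnM : n ∣ M) : T ^ (M + 1) - T ∈ 𝔪 := by
  obtain ⟨k, rfl⟩ := hnM
  induction k with
  | zero => simp
  | succ k ih =>
    have : T ^ (n * (k + 1) + 1) - T = T ^ (n * k) * (T ^ (n + 1) - T) + (T ^ (n * k + 1) - T) := by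
      ring
    rw [this]
    exact 𝔪.add_mem (𝔪.mul_mem_left _ h) ih

theorem mul_pow_succ_aux {A : Type*} [CommRing A] (D C T H : A) (k : ℕ) (h : D = T * H) :
    (C * D) ^ (k + 1) = T ^ k * (D * H ^ k * C ^ (k + 1)) := by
  subst h
  ring

/-- **Semi-local generation on two charts.**  `B0 ∋ t`, `B1 ∋ t⁻¹` the two charts of a two-chart
model (overlap `B0[1/t] = B1[t]`), `(I0, I1)` a pair of modules over them agreeing on the overlap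
and locally principal at finitely many maximal ideals `s0` of `B0` (where the value of `t` is `0`
or a root of unity: automatic for finite residue fields) and `s1` of `B1` (points at `t = ∞`).
Then a single `f` generates `I0` at all points of `s0` and `I1` at all points of `s1`. -/
theorem exists_genAt_two_charts (t : F) (ht : t ≠ 0) (B0 B1 : Subalgebra R F)
    (t_mem : t ∈ B0) (tinv_mem : t⁻¹ ∈ B1)
    (I0 I1 : AddSubgroup F)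
    (hI0 : ∀ b ∈ B0, ∀ x ∈ I0, b * x ∈ I0) (hI1 : ∀ b ∈ B1, ∀ x ∈ I1, b * x ∈ I1)
    (glue0 : ∀ x ∈ I1, ∃ k : ℕ, t ^ k * x ∈ I0) (glue1 : ∀ x ∈ I0, ∃ k : ℕ, t⁻¹ ^ k * x ∈ I1)
    (s0 : Finset (Ideal B0)) (s1 : Finset (Ideal B1))
    (hs0 : ∀ 𝔪 ∈ s0, 𝔪.IsMaximal) (hs1 : ∀ 𝔪 ∈ s1, 𝔪.IsMaximal)
    (hfin0 : ∀ 𝔪 ∈ s0, ∃ n : ℕ, 0 < n ∧ ∃ b ∈ 𝔪, (b : F) = t ^ (n + 1) - t)
    (hinf1 : ∀ 𝔪 ∈ s1, ∃ b ∈ 𝔪, (b : F) = t⁻¹)
    (hloc0 : ∀ 𝔪 ∈ s0, ∃ a, GenAt B0 𝔪 I0 a) (hloc1 : ∀ 𝔪 ∈ s1, ∃ a, GenAt B1 𝔪 I1 a) :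
    ∃ f : F, (∀ 𝔪 ∈ s0, GenAt B0 𝔪 I0 f) ∧ (∀ 𝔪 ∈ s1, GenAt B1 𝔪 I1 f) := by
  classical
  obtain ⟨f0, hf0I, hf0⟩ := exists_genAt_finset hI0 s0 hs0 hloc0
  obtain ⟨f1, hf1I, hf1⟩ := exists_genAt_finset hI1 s1 hs1 hloc1
  obtain ⟨k1, hk1⟩ := glue1 f0 hf0I
  obtain ⟨k0, hk0⟩ := glue0 f1 hf1I
  choose! n hn0 hnb using hfin0
  set M : ℕ := ∏ 𝔪 ∈ s0, n 𝔪 with hM
  have hMpos : 0 < M := Finset.prod_pos fun 𝔪 h𝔪 => hn0 𝔪 h𝔪
  -- the elements `T = t ∈ B0`, `W = t⁻¹ ∈ B1`, `G = 1 + T^(M+1) - T`, `Rr = W^(M+1) + 1 - W^M`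
  set T : B0 := ⟨t, t_mem⟩ with hT
  set W : B1 := ⟨t⁻¹, tinv_mem⟩ with hW
  set G : B0 := 1 + T ^ (M + 1) - T with hG
  set Rr : B1 := W ^ (M + 1) + 1 - W ^ M with hRr
  have hTc : (T : F) = t := rfl
  have hWc : (W : F) = t⁻¹ := rfl
  have hGc : (G : F) = 1 + t ^ (M + 1) - t := by rw [hG]; push_cast; rw [hTc]
  have hRc : (Rr : F) = t⁻¹ ^ (M + 1) + 1 - t⁻¹ ^ M := by rw [hRr]; push_cast; rw [hWc]
  have hgR : (G : F) = (Rr : F) * t ^ (M + 1) := by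
    rw [hGc, hRc, inv_pow, inv_pow]
    have h1 : t ^ (M + 1) ≠ 0 := pow_ne_zero _ ht
    have h2 : t ^ M ≠ 0 := pow_ne_zero _ ht
    have e1 : (t ^ (M + 1))⁻¹ * t ^ (M + 1) = 1 := inv_mul_cancel₀ h1
    have e2 : (t ^ M)⁻¹ * t ^ (M + 1) = t := by
      rw [pow_succ, ← mul_assoc, inv_mul_cancel₀ h2, one_mul]
    rw [sub_mul, add_mul, e1, e2, one_mul]
  -- `G ≡ 1` at the points of `s0`
  have hG1 : ∀ 𝔪 ∈ s0, G - 1 ∈ 𝔪 := by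
    intro 𝔪 h𝔪
    obtain ⟨b, hb, hbt⟩ := hnb 𝔪 h𝔪
    have hb' : b = T ^ (n 𝔪 + 1) - T := by
      apply Subtype.ext
      rw [hbt]; push_cast; rw [hTc]
    rw [hb'] at hb
    have := pow_succ_sub_mem_of_dvd 𝔪 T hb (Finset.dvd_prod_of_mem n h𝔪)
    have h2 : G - 1 = T ^ (M + 1) - T := by rw [hG]; ring
    rw [h2]; exact this
  have hGnot : ∀ 𝔪 ∈ s0, G ∉ 𝔪 := by
    intro 𝔪 h𝔪 hmem
    have := (hs0 𝔪 h𝔪).isPrime
    have h1 : (1 : B0) ∈ 𝔪 := by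
      have := 𝔪.sub_mem hmem (hG1 𝔪 h𝔪)
      simpa using this
    exact one_not_mem h1
  -- `W ∈ 𝔪`, `Rr ≡ 1` at the points of `s1`
  have hWmem : ∀ 𝔪 ∈ s1, W ∈ 𝔪 := by
    intro 𝔪 h𝔪
    obtain ⟨b, hb, hbt⟩ := hinf1 𝔪 h𝔪
    have : b = W := Subtype.ext (by rw [hbt])
    rwa [this] at hb
  have hRnot : ∀ 𝔪 ∈ s1, Rr ∉ 𝔪 := by
    intro 𝔪 h𝔪 hmem
    have := (hs1 𝔪 h𝔪).isPrime
    obtain ⟨M', hM'⟩ : ∃ M', M = M' + 1 := ⟨M - 1, by omega⟩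
    have h1 : (1 : B1) ∈ 𝔪 := by
      have h2 : (1 : B1) = Rr - W * (W ^ (M' + 1) - W ^ M') := by rw [hRr, hM']; ring
      rw [h2]
      exact 𝔪.sub_mem hmem (𝔪.mul_mem_right _ (hWmem 𝔪 h𝔪))
    exact one_not_mem h1
  set u : F := (G : F)⁻¹ with hu
  set m : ℕ := k1 + 1 with hm
  set β : F := (1 - u ^ m) ^ (k0 + 1) with hβ
  refine ⟨u ^ m * f0 + β * f1, fun 𝔪 h𝔪 => ?_, fun 𝔪 h𝔪 => ?_⟩
  · -- at a point of `s0`
    have h𝔪p := (hs0 𝔪 h𝔪).isPrime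
    have hgu : IsLocUnit B0 𝔪 (G : F) := IsLocUnit.of_not_mem (hGnot 𝔪 h𝔪)
    have huu : IsLocUnit B0 𝔪 (u ^ m) := hgu.inv.pow m
    obtain ⟨c', hc', hcf⟩ := (hf0 𝔪 h𝔪).exists_eq_mul (InLocMod.of_mem (𝔪 := 𝔪) hk0)
    set C : B0 := ∑ i ∈ Finset.range m, G ^ i with hC
    have hgeom : G ^ m - 1 = C * (G - 1) := by rw [hC]; exact (geom_sum_mul G m).symm
    set H : B0 := T ^ M - 1 with hH
    have hGT : G - 1 = T * H := by rw [hG, hH]; ring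
    set E : B0 := (G - 1) * H ^ k0 * C ^ (k0 + 1) with hE
    have hEmem : E ∈ 𝔪 := by
      rw [hE]; exact 𝔪.mul_mem_right _ (𝔪.mul_mem_right _ (hG1 𝔪 h𝔪))
    have hpow : (G ^ m - 1) ^ (k0 + 1) = T ^ k0 * E := by
      rw [hgeom, hE]; exact mul_pow_succ_aux _ _ _ _ _ hGT
    have hg0 := hgu.ne_zero
    have hβ' : β = t ^ k0 * (E : F) * u ^ (m * (k0 + 1)) := by
      have h1 : 1 - u ^ m = ((G : F) ^ m - 1) * u ^ m := by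
        rw [hu, inv_pow]; field_simp
      have h2 : ((G : F) ^ m - 1) ^ (k0 + 1) = t ^ k0 * (E : F) := by
        have := congrArg Subtype.val hpow
        push_cast at this
        rw [hTc] at this
        exact this
      rw [hβ, h1, mul_pow, h2, ← pow_mul]
    have hrew : β * f1 = ((E : F) * u ^ (m * (k0 + 1)) * c') * f0 := by
      rw [hβ']
      linear_combination ((E : F) * u ^ (m * (k0 + 1))) * hcf
    rw [hrew]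
    exact (hf0 𝔪 h𝔪).unit_add_small hI0 huu
      (((InLocMax.of_mem hEmem).mul_right (hgu.inv.pow _).inLoc).mul_right hc')
  · -- at a point of `s1`
    have h𝔪p := (hs1 𝔪 h𝔪).isPrime
    have hRu : IsLocUnit B1 𝔪 (Rr : F) := IsLocUnit.of_not_mem (hRnot 𝔪 h𝔪)
    have hWmax : InLocMax B1 𝔪 t⁻¹ := InLocMax.of_mem (hWmem 𝔪 h𝔪)
    have hu' : u = (Rr : F)⁻¹ * t⁻¹ ^ (M + 1) := by rw [hu, hgR, mul_inv, inv_pow]
    have hum : u ^ m = ((Rr : F)⁻¹) ^ m * t⁻¹ ^ ((M + 1) * m) := by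
      rw [hu', mul_pow, ← pow_mul]
    have hle : k1 + 1 ≤ (M + 1) * m := by
      rw [hm]; nlinarith
    have hexp : (M + 1) * m = k1 + ((M + 1) * m - k1) := by omega
    have hpos : 0 < (M + 1) * m - k1 := by omega
    have hpos' : 0 < (M + 1) * m := by omega
    have humax : InLocMax B1 𝔪 (u ^ m) := by
      rw [hum]; exact (hWmax.pow hpos').mul_left (hRu.inv.pow m).inLoc
    have hβu : IsLocUnit B1 𝔪 β := by
      rw [hβ]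
      refine IsLocUnit.pow ?_ _
      have : 1 - u ^ m = 1 + -(u ^ m) := by ring
      rw [this]
      exact IsLocUnit.one.add_max humax.neg
    obtain ⟨c'', hc'', hcf⟩ := (hf1 𝔪 h𝔪).exists_eq_mul (InLocMod.of_mem (𝔪 := 𝔪) hk1)
    have hrew : u ^ m * f0 = (((Rr : F)⁻¹) ^ m * t⁻¹ ^ ((M + 1) * m - k1) * c'') * f1 := by
      rw [hum]
      conv_lhs => rw [hexp, pow_add]
      linear_combination (((Rr : F)⁻¹) ^ m * t⁻¹ ^ ((M + 1) * m - k1)) * hcf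
    rw [hrew, add_comm]
    exact (hf1 𝔪 h𝔪).unit_add_small hI1 hβu
      (((hWmax.pow hpos).mul_left (hRu.inv.pow m).inLoc).mul_right hc'')

end TwoCharts

end Fermat.Agent.M1.Car.SemiLocal53
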