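/-
M1 (S44), chapter CAR, brick CAR-S (helper53): **local equations at one-branch closed points**.

At a closed point `(B, 𝔪)` of the special fibre of a nodal two-chart model through which only ONE
component passes, the local ring `B_𝔪` is regular (`𝔪 B_𝔪 = (π, s)`, `π` prime), every place `P` of
`F / K` through the point has a principal centre `𝔪_P ∩ B_𝔪 = (f_P)` (`Node/Smooth25`, no "regular ⇒
UFD"), `ord_P f_P = 1`, `ord_Q f_P = 0` for the other places `Q` through the point, and `f_P` is a unit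
of the Gauss ring of the component.  Hence EVERY divisor of `F / K` has a local equation at the point
which is strict of level `0` on both components (`Car/Defs43`).

* `Core` : the abstract statement for a local subalgebra `C ⊂ F` (`= B_𝔪`).
* `exists_locEq_of_smooth` : the chart form, for one chart of a `NodalTwoChartModel`.
-/
import Mathlib
import Fermat.Agent.X0.FFDict
import Fermat.Agent.M1.Node.Smooth25
import Fermat.Agent.M1.Node.SlopeAdapter25
import Fermat.Agent.ES.N34.NumData13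

set_option autoImplicit false
set_option linter.unusedSectionVars false

namespace Fermat.Agent.M1.Car.SmoothEq53

open AlgebraicCurve IsLocalRing
open Fermat.Agent.X0

section Ord

variable {K F : Type*} [Field K] [Field F] [Algebra K F]

theorem ord_eq_zero_of_mem_of_inv_mem (P : Place K F) {w : F} (h1 : w ∈ P.toValuationSubring)
    (h2 : w⁻¹ ∈ P.toValuationSubring) : P.ord w = 0 := by
  have a := FF.ord_nonneg_of_mem P h1
  have b := FF.ord_nonneg_of_mem P h2
  rw [P.ord_inv] at b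
  omega

theorem inv_mem_of_ord_eq_zero (P : Place K F) {w : F} (h : P.ord w = 0) :
    w⁻¹ ∈ P.toValuationSubring := by
  apply FF.mem_of_ord_nonneg
  rw [P.ord_inv, h]
  simp

theorem ord_prod (P : Place K F) {ι : Type*} (s : Finset ι) (g : ι → F) (hg : ∀ i ∈ s, g i ≠ 0) :
    P.ord (∏ i ∈ s, g i) = ∑ i ∈ s, P.ord (g i) := by
  classical
  induction s using Finset.induction_on with
  | empty => simp
  | insert i s hi ih =>
    rw [Finset.prod_insert hi, Finset.sum_insert hi,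
      P.ord_mul (hg i (Finset.mem_insert_self i s))
        (Finset.prod_ne_zero_iff.mpr fun j hj => hg j (Finset.mem_insert_of_mem hj)),
      ih fun j hj => hg j (Finset.mem_insert_of_mem hj)]

end Ord

section Core

variable {R K F : Type*} [CommRing R] [Field K] [Field F] [Algebra K F] [Algebra R F]

/-- `C ⊆ O_P`. -/
def ThroughLoc (C : Subalgebra R F) (P : Place K F) : Prop :=
  ∀ c : C, (c : F) ∈ P.toValuationSubring

variable {C : Subalgebra R F} {P Q : Place K F}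

/-- `C → O_P`. -/
def inclP (hP : ThroughLoc C P) : C →+* P.toValuationSubring where
  toFun c := ⟨(c : F), hP c⟩
  map_one' := rfl
  map_mul' _ _ := rfl
  map_zero' := rfl
  map_add' _ _ := rfl

/-- the centre of `P` on `C`: `𝔪_P ∩ C`. -/
def qOf (hP : ThroughLoc C P) : Ideal C :=
  (maximalIdeal P.toValuationSubring).comap (inclP hP)

instance qOf_isPrime (hP : ThroughLoc C P) : (qOf hP).IsPrime :=
  Ideal.comap_isPrime _ _

theorem mem_qOf_iff (hP : ThroughLoc C P) {c : C} :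
    c ∈ qOf hP ↔ (c : F) = 0 ∨ 0 < P.ord (c : F) := by
  unfold qOf
  rw [Ideal.mem_comap, IsLocalRing.mem_maximalIdeal, mem_nonunits_iff]
  constructor
  · intro hnu
    by_cases hc : (c : F) = 0
    · exact Or.inl hc
    · right
      have h0 := FF.ord_nonneg_of_mem P (hP c)
      rcases h0.lt_or_eq with h | h
      · exact h
      · exfalso
        apply hnu
        rw [isUnit_iff_exists_inv]
        exact ⟨⟨(c : F)⁻¹, inv_mem_of_ord_eq_zero P h.symm⟩, Subtype.ext (mul_inv_cancel₀ hc)⟩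
  · rintro (hc | hc) hu
    · have : inclP hP c = 0 := Subtype.ext hc
      rw [this] at hu
      exact not_isUnit_zero hu
    · obtain ⟨u, hu⟩ := hu
      have := P.ord_coe_unit u
      rw [hu] at this
      have h2 : ((inclP hP c : P.toValuationSubring) : F) = (c : F) := rfl
      rw [h2] at this
      omega

theorem ord_eq_zero_of_notMem_qOf (hP : ThroughLoc C P) {c : C} (hc : c ∉ qOf hP) :
    (c : F) ≠ 0 ∧ P.ord (c : F) = 0 := by
  rw [mem_qOf_iff] at hc
  push Not at hc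
  refine ⟨hc.1, ?_⟩
  have := FF.ord_nonneg_of_mem P (hP c)
  omega

variable [IsLocalRing C] [IsNoetherianRing C] {π s : C}

/-- the hypotheses on `C = B_𝔪` at a one-branch point. -/
structure SmoothLoc (K : Type*) [Field K] [Algebra K F] (C : Subalgebra R F) [IsLocalRing C]
    (π s : C) : Prop where
  max_eq : maximalIdeal C = Ideal.span {π, s}
  prime : Prime π
  frac : ∀ x : F, ∃ a b : C, b ≠ 0 ∧ x * (b : F) = (a : F)
  pi_inv : ∀ P : Place K F, ((π : C) : F)⁻¹ ∈ P.toValuationSubring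

theorem pi_notMem_qOf (H : SmoothLoc K C π s) (hP : ThroughLoc C P) : π ∉ qOf hP := by
  rw [mem_qOf_iff]
  push Not
  have hπ0 : (π : F) ≠ 0 := by
    intro h
    exact H.prime.ne_zero (Subtype.ext h)
  refine ⟨hπ0, ?_⟩
  rw [ord_eq_zero_of_mem_of_inv_mem P (hP π) (H.pi_inv P)]

theorem qOf_ne_bot (H : SmoothLoc K C π s) (hP : ThroughLoc C P) : qOf hP ≠ ⊥ := by
  intro hbot
  apply P.ne_top'
  rw [eq_top_iff]
  intro x _
  obtain ⟨a, b, hb, hab⟩ := H.frac x
  have hb' : b ∉ qOf hP := by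
    rw [hbot, Ideal.mem_bot]; exact hb
  obtain ⟨hb0, hbo⟩ := ord_eq_zero_of_notMem_qOf hP hb'
  have : x = (a : F) * (b : F)⁻¹ := by rw [← hab]; field_simp
  rw [this]
  exact P.toValuationSubring.mul_mem _ _ (hP a) (inv_mem_of_ord_eq_zero P hbo)

/-- the centre of a place through the point is principal. -/
theorem exists_gen (H : SmoothLoc K C π s) (hP : ThroughLoc C P) :
    ∃ f : C, qOf hP = Ideal.span {f} := by
  obtain ⟨f, -, h, -⟩ := Node.Smooth25.exists_generator_of_smooth H.max_eq H.prime (qOf hP)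
    (fun c hc => ((qOf_isPrime hP).mem_or_mem hc).resolve_left (pi_notMem_qOf H hP))
  exact ⟨f, h⟩

theorem gen_ne_zero (H : SmoothLoc K C π s) (hP : ThroughLoc C P) {f : C}
    (hf : qOf hP = Ideal.span {f}) : f ≠ 0 := by
  rintro rfl
  apply qOf_ne_bot H hP
  rw [hf]
  simp

theorem gen_not_isUnit (hP : ThroughLoc C P) {f : C} (hf : qOf hP = Ideal.span {f}) :
    ¬ IsUnit f := by
  intro hu
  apply (qOf_isPrime hP).ne_top
  rw [hf]
  exact Ideal.span_singleton_eq_top.mpr hu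

/-- `ord_P c = mult_f(c) · ord_P f` for `c ∈ C`, `f` a generator of the centre. -/
theorem ord_eq_multiplicity_mul (H : SmoothLoc K C π s) (hP : ThroughLoc C P) {f : C}
    (hf : qOf hP = Ideal.span {f}) {c : C} (hc : c ≠ 0) :
    P.ord (c : F) = (multiplicity f c : ℤ) * P.ord (f : F) := by
  have : WfDvdMonoid C := IsNoetherianRing.wfDvdMonoid
  obtain ⟨c', hc1, hc2⟩ :=
    (FiniteMultiplicity.of_not_isUnit (gen_not_isUnit hP hf) hc).exists_eq_pow_mul_and_not_dvd
  have hc' : c' ∉ qOf hP := by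
    rw [hf, Ideal.mem_span_singleton]; exact hc2
  obtain ⟨hc'0, hc'o⟩ := ord_eq_zero_of_notMem_qOf hP hc'
  have hf0 : (f : F) ≠ 0 := fun h => gen_ne_zero H hP hf (Subtype.ext h)
  have hcF : (c : F) = (f : F) ^ multiplicity f c * (c' : F) := by
    conv_lhs => rw [hc1]
    push_cast
    rfl
  rw [hcF, P.ord_mul (pow_ne_zero _ hf0) hc'0, hc'o, FF.ord_pow, add_zero]

/-- a generator of the centre of `P` is a uniformiser at `P`. -/
theorem ord_gen (H : SmoothLoc K C π s) (hP : ThroughLoc C P) {f : C}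
    (hf : qOf hP = Ideal.span {f}) : P.ord (f : F) = 1 := by
  have hf0 := gen_ne_zero H hP hf
  have hfq : f ∈ qOf hP := by rw [hf]; exact Ideal.mem_span_singleton_self f
  have hpos : 0 < P.ord (f : F) := by
    rcases (mem_qOf_iff hP).mp hfq with h | h
    · exact absurd (Subtype.ext h) hf0
    · exact h
  obtain ⟨ϖ, hϖ⟩ := IsDiscreteValuationRing.exists_irreducible P.toValuationSubring
  have hϖ1 := P.ord_coe_irreducible hϖ
  have hϖ0 : (ϖ : F) ≠ 0 := by
    intro h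
    exact hϖ.ne_zero (Subtype.ext h)
  obtain ⟨a, b, hb, hab⟩ := H.frac (ϖ : F)
  have hb0 : (b : F) ≠ 0 := fun h => hb (Subtype.ext h)
  have ha : a ≠ 0 := by
    rintro rfl
    have : (ϖ : F) * (b : F) = 0 := by rw [hab]; rfl
    rcases mul_eq_zero.mp this with h | h
    · exact hϖ0 h
    · exact hb0 h
  have h1 := ord_eq_multiplicity_mul H hP hf ha
  have h2 := ord_eq_multiplicity_mul H hP hf hb
  have h3 : P.ord (a : F) = 1 + P.ord (b : F) := by
    rw [← hab, P.ord_mul hϖ0 hb0, hϖ1]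
  have hdvd : P.ord (f : F) ∣ 1 :=
    ⟨(multiplicity f a : ℤ) - (multiplicity f b : ℤ), by rw [mul_sub]; linarith⟩
  exact Int.eq_one_of_dvd_one hpos.le hdvd

/-- two places through the point with the same centre coincide. -/
theorem place_eq_of_qOf_eq (H : SmoothLoc K C π s) (hP : ThroughLoc C P) (hQ : ThroughLoc C Q)
    (h : qOf hP = qOf hQ) : P = Q := by
  obtain ⟨f, hf⟩ := exists_gen H hP
  have hfQ : qOf hQ = Ideal.span {f} := h ▸ hf
  have hord : ∀ c : C, c ≠ 0 → P.ord (c : F) = Q.ord (c : F) := by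
    intro c hc
    rw [ord_eq_multiplicity_mul H hP hf hc, ord_eq_multiplicity_mul H hQ hfQ hc,
      ord_gen H hP hf, ord_gen H hQ hfQ]
  have hordF : ∀ x : F, x ≠ 0 → P.ord x = Q.ord x := by
    intro x hx
    obtain ⟨a, b, hb, hab⟩ := H.frac x
    have hb0 : (b : F) ≠ 0 := fun h => hb (Subtype.ext h)
    have ha : a ≠ 0 := by
      rintro rfl
      have : x * (b : F) = 0 := by rw [hab]; rfl
      rcases mul_eq_zero.mp this with h | h
      · exact hx h
      · exact hb0 h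
    have e1 : P.ord (a : F) = P.ord x + P.ord (b : F) := by rw [← hab, P.ord_mul hx hb0]
    have e2 : Q.ord (a : F) = Q.ord x + Q.ord (b : F) := by rw [← hab, Q.ord_mul hx hb0]
    have := hord a ha
    have := hord b hb
    omega
  apply Place.ext
  ext x
  by_cases hx : x = 0
  · subst hx; simp
  · constructor
    · intro hxP
      apply FF.mem_of_ord_nonneg
      rw [← hordF x hx]
      exact FF.ord_nonneg_of_mem P hxP
    · intro hxQ
      apply FF.mem_of_ord_nonneg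
      rw [hordF x hx]
      exact FF.ord_nonneg_of_mem Q hxQ

/-- a generator of the centre of `P` is a unit at every other place through the point. -/
theorem ord_gen_other (H : SmoothLoc K C π s) (hP : ThroughLoc C P) (hQ : ThroughLoc C Q)
    (hPQ : P ≠ Q) {f : C} (hf : qOf hP = Ideal.span {f}) : Q.ord (f : F) = 0 := by
  by_contra hne
  apply hPQ
  apply place_eq_of_qOf_eq H hP hQ
  have hf0 := gen_ne_zero H hP hf
  have hfQ : f ∈ qOf hQ := by
    rw [mem_qOf_iff]
    right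
    have := FF.ord_nonneg_of_mem Q (hQ f)
    omega
  obtain ⟨g, hg⟩ := exists_gen H hQ
  rw [hg, Ideal.mem_span_singleton] at hfQ
  obtain ⟨c, hc⟩ := hfQ
  have hfprime : Prime f := by
    have := qOf_isPrime hP
    rw [hf] at this
    exact (Ideal.span_singleton_prime hf0).mp this
  rcases hfprime.irreducible.isUnit_or_isUnit hc with hu | hu
  · exact absurd hu (gen_not_isUnit hQ hg)
  · rw [hf, hg, Ideal.span_singleton_eq_span_singleton]
    exact ⟨hu.unit⁻¹, by rw [hc, mul_assoc, IsUnit.mul_val_inv, mul_one]⟩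

/-- a generator of the centre of a place is a unit of the Gauss ring of the component. -/
theorem gen_inv_mem (H : SmoothLoc K C π s) (hP : ThroughLoc C P) {f : C}
    (hf : qOf hP = Ideal.span {f}) (O1 : ValuationSubring F)
    (sat : ∀ c : C, (c : F)⁻¹ ∉ O1 → π ∣ c) : (f : F)⁻¹ ∈ O1 := by
  by_contra hcon
  obtain ⟨c, hc⟩ := sat f hcon
  have hf0 := gen_ne_zero H hP hf
  have hmem : π * c ∈ qOf hP := by
    rw [← hc, hf]; exact Ideal.mem_span_singleton_self f
  have hcq : c ∈ qOf hP :=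
    ((qOf_isPrime hP).mem_or_mem hmem).resolve_left (pi_notMem_qOf H hP)
  rw [hf, Ideal.mem_span_singleton] at hcq
  obtain ⟨d, hd⟩ := hcq
  -- `f = π f d`, so `π d = 1`
  have h1 : f * (1 - π * d) = 0 := by
    have : f = π * (f * d) := by rw [← hd]; exact hc
    linear_combination this
  rcases mul_eq_zero.mp h1 with h | h
  · exact hf0 h
  · apply H.prime.not_isUnit
    rw [isUnit_iff_exists_inv]
    exact ⟨d, by linear_combination -h⟩

/-- **CAR-S, abstract form.**  Every divisor has a local equation at a one-branch point which is a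
unit of the Gauss ring of the component through the point. -/
theorem exists_locEq_core (H : SmoothLoc K C π s) (O1 : ValuationSubring F)
    (le_O1 : ∀ c : C, (c : F) ∈ O1) (sat : ∀ c : C, (c : F)⁻¹ ∉ O1 → π ∣ c)
    (D : Divisor K F) :
    ∃ h : F, h ≠ 0 ∧ h ∈ O1 ∧ h⁻¹ ∈ O1 ∧ ∀ P : Place K F, ThroughLoc C P → P.ord h = D P := by
  classical
  have hex : ∀ P : Place K F, ∃ f : C, ∀ hP : ThroughLoc C P, qOf hP = Ideal.span {f} := by
    intro P
    by_cases hP : ThroughLoc C P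
    · obtain ⟨f, hf⟩ := exists_gen H hP
      exact ⟨f, fun _ => hf⟩
    · exact ⟨0, fun h => absurd h hP⟩
  choose f hf using hex
  set T : Finset (Place K F) := D.support.filter (fun P => ThroughLoc C P) with hT
  have hTthrough : ∀ P ∈ T, ThroughLoc C P := fun P hP => (Finset.mem_filter.mp hP).2
  have hf0 : ∀ P ∈ T, ((f P : C) : F) ≠ 0 := fun P hP h =>
    gen_ne_zero H (hTthrough P hP) (hf P (hTthrough P hP)) (Subtype.ext h)
  have hz0 : ∀ P ∈ T, ((f P : C) : F) ^ (D P) ≠ 0 := fun P hP => zpow_ne_zero _ (hf0 P hP)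
  refine ⟨∏ P ∈ T, ((f P : C) : F) ^ (D P), Finset.prod_ne_zero_iff.mpr hz0, ?_, ?_, ?_⟩
  · -- in `O1`
    refine Subring.prod_mem O1.toSubring fun P hP => ?_
    have h1 : ((f P : C) : F) ∈ O1 := le_O1 _
    have h2 : ((f P : C) : F)⁻¹ ∈ O1 :=
      gen_inv_mem H (hTthrough P hP) (hf P (hTthrough P hP)) O1 sat
    rcases Int.eq_nat_or_neg (D P) with ⟨n, hn | hn⟩
    · rw [hn, zpow_natCast]; exact pow_mem h1 n
    · rw [hn, zpow_neg, zpow_natCast, ← inv_pow]; exact pow_mem h2 n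
  · rw [← Finset.prod_inv_distrib]
    refine Subring.prod_mem O1.toSubring fun P hP => ?_
    have h1 : ((f P : C) : F) ∈ O1 := le_O1 _
    have h2 : ((f P : C) : F)⁻¹ ∈ O1 :=
      gen_inv_mem H (hTthrough P hP) (hf P (hTthrough P hP)) O1 sat
    rcases Int.eq_nat_or_neg (D P) with ⟨n, hn | hn⟩
    · rw [hn, zpow_natCast, ← inv_pow]; exact pow_mem h2 n
    · rw [hn, zpow_neg, zpow_natCast, inv_inv]; exact pow_mem h1 n
  · intro Q hQ
    rw [ord_prod Q T _ hz0]
    have hterm : ∀ P ∈ T, Q.ord (((f P : C) : F) ^ (D P)) = if P = Q then D Q else 0 := by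
      intro P hP
      rw [Q.ord_zpow]
      split_ifs with hPQ
      · subst hPQ
        rw [ord_gen H hQ (hf P hQ), mul_one]
      · rw [ord_gen_other H (hTthrough P hP) hQ hPQ (hf P (hTthrough P hP)), mul_zero]
    rw [Finset.sum_congr rfl hterm, Finset.sum_ite_eq' T Q]
    split_ifs with hQT
    · rfl
    · have : Q ∉ D.support := fun h => hQT (Finset.mem_filter.mpr ⟨h, hQ⟩)
      exact (Finsupp.notMem_support_iff.mp this).symm

end Core

section Chart

open Fermat.Agent.ES.N34.NodalCore13 Fermat.Agent.ES.N34.NodalCL13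
  Fermat.Agent.ES.N34.NodalSmooth13 Fermat.Agent.M1.Car.Defs43
  Fermat.Agent.M1.Node.SlopeAdapter25

variable {R K F : Type*} [CommRing R] [Field K] [Field F] [Algebra R K] [Algebra K F]
  [Algebra R F] [IsScalarTower R K F]

/-- both components cannot miss a closed point of the special fibre. -/
theorem not_offBranch_both (π : R) (B : Subalgebra R F) (O1 O2 : ValuationSubring F)
    (leO1 : ∀ x ∈ B, x ∈ O1) (leO2 : ∀ x ∈ B, x ∈ O2)
    (sat : ∀ b ∈ B, ∀ c : F, c ∈ O1 → c ∈ O2 → b = algebraMap R F π * c → c ∈ B)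
    (𝔪 : Ideal B) [h𝔪 : 𝔪.IsPrime] (hπ𝔪 : algebraMap R B π ∈ 𝔪)
    (h1 : OffBranch π B O1 𝔪) (h2 : OffBranch π B O2 𝔪) : False := by
  obtain ⟨e1, he1, c1, hc1, hec1⟩ := h1
  obtain ⟨e2, he2, c2, hc2, hec2⟩ := h2
  -- `x := c1 * e2 = e1 * c2` lies in `O1 ⊓ O2`, and `e1 * e2 = π x`
  have hx1 : c1 * (e2 : F) ∈ O1 := O1.mul_mem _ _ hc1 (leO1 _ e2.2)
  have hx2 : c1 * (e2 : F) ∈ O2 := by
    by_cases hp : algebraMap R F π = 0
    · -- then `e1 = 0 ∈ 𝔪`
      exfalso
      apply he1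
      have : e1 = 0 := Subtype.ext (by rw [hec1, hp, zero_mul]; rfl)
      rw [this]; exact 𝔪.zero_mem
    · have : c1 * (e2 : F) = (e1 : F) * c2 := by
        apply mul_left_cancel₀ hp
        rw [← mul_assoc, ← hec1, hec2]; ring
      rw [this]
      exact O2.mul_mem _ _ (leO2 _ e1.2) hc2
  have hxB : c1 * (e2 : F) ∈ B :=
    sat ((e1 : F) * (e2 : F)) (B.mul_mem e1.2 e2.2) _ hx1 hx2 (by rw [hec1]; ring)
  have hmem : e1 * e2 ∈ 𝔪 := by
    have : e1 * e2 = algebraMap R B π * ⟨c1 * (e2 : F), hxB⟩ := by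
      apply Subtype.ext
      push_cast
      rw [hec1]
      show _ = algebraMap R F π * (c1 * (e2 : F))
      ring
    rw [this]
    exact 𝔪.mul_mem_right _ hπ𝔪
  exact (h𝔪.mem_or_mem hmem).elim he1 he2

/-- **CAR-S, chart form** (the component `O1` passes through `𝔪`, the component `O2` does not). -/
theorem exists_locEq_of_smooth (π : R) (B : Subalgebra R F) (O1 O2 : ValuationSubring F)
    (noethB : IsNoetherianRing B)
    (frac : ∀ x : F, ∃ a ∈ B, ∃ b ∈ B, b ≠ 0 ∧ x * b = a)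
    (leO1 : ∀ x ∈ B, x ∈ O1) (leO2 : ∀ x ∈ B, x ∈ O2)
    (pi_ne : algebraMap R F π ≠ 0) (pi_nonunit1 : (algebraMap R F π)⁻¹ ∉ O1)
    (unif1 : ∀ x ∈ O1, x⁻¹ ∉ O1 → ∃ c ∈ O1, x = algebraMap R F π * c)
    (arch1 : ∀ x : F, ∃ k : ℕ, algebraMap R F π ^ k * x ∈ O1)
    (arch2 : ∀ x : F, ∃ k : ℕ, algebraMap R F π ^ k * x ∈ O2)
    (sat : ∀ b ∈ B, ∀ c : F, c ∈ O1 → c ∈ O2 → b = algebraMap R F π * c → c ∈ B)
    (𝔪 : Ideal B) (h𝔪 : 𝔪.IsMaximal) (hπ𝔪 : algebraMap R B π ∈ 𝔪)
    (hoff : OffBranch π B O2 𝔪) (hsm : SmoothAt π B 𝔪) (D : Divisor K F) :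
    ∃ h : F, IsLocEq B 𝔪 D h ∧ StrictOn π B O1 𝔪 0 h ∧ StrictOn π B O2 𝔪 0 h := by
  classical
  have h𝔪p : 𝔪.IsPrime := h𝔪.isPrime
  set p : F := algebraMap R F π with hp
  set C : Subalgebra R F := locSub B 𝔪 with hC
  have hnoethC : IsNoetherianRing ↥C := IsLocalization.isNoetherianRing 𝔪.primeCompl _ noethB
  -- the component `O1` passes through `𝔪`
  have hon : ¬ OffBranch π B O1 𝔪 := fun h1 =>
    not_offBranch_both π B O1 O2 leO1 leO2 sat 𝔪 hπ𝔪 h1 hoff
  -- `d ∉ 𝔪` is a unit of `O1`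
  have hinvO1 : ∀ d : B, d ∉ 𝔪 → ((d : F))⁻¹ ∈ O1 := by
    intro d hd
    by_contra hcon
    obtain ⟨c, hc, hdc⟩ := unif1 _ (leO1 _ d.2) hcon
    exact hon ⟨d, hd, c, hc, hdc⟩
  have hCO1 : ∀ c : C, (c : F) ∈ O1 := by
    rintro ⟨x, a, d, hd, h⟩
    have hd0 := coe_ne_zero_of_notMem B 𝔪 hd
    have : x = (a : F) * (d : F)⁻¹ := by rw [← h]; field_simp
    show x ∈ O1
    rw [this]
    exact O1.mul_mem _ _ (leO1 _ a.2) (hinvO1 d hd)
  -- local saturation
  have hsatC : ∀ c : C, ∀ o ∈ O1, (c : F) = p * o → o ∈ C := by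
    intro c o ho hco
    obtain ⟨c', hc', hcc'⟩ := mem_pow_mul_locSub π B O1 O2 leO1 leO2 arch1 arch2 sat 𝔪 c.2 1
      (Or.inl ⟨o, ho, by rw [pow_one]; exact hco⟩) (Or.inr hoff) pi_ne
    rw [pow_one] at hcc'
    have : o = c' := mul_left_cancel₀ pi_ne (by rw [← hco, ← hcc'])
    rw [this]; exact hc'
  set πC : C := algebraMap R C π with hπC
  have hπCc : (πC : F) = p := rfl
  have hπCnu : ¬ IsUnit πC := by
    have h1 := not_isUnit_of_mem B 𝔪 hπ𝔪
    have h2 : algebraMap ↥B ↥C (algebraMap R B π) = πC := Subtype.ext rfl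
    rwa [h2] at h1
  -- the core saturation hypothesis
  have hsat' : ∀ c : C, (c : F)⁻¹ ∉ O1 → πC ∣ c := by
    intro c hc
    obtain ⟨o, ho, hco⟩ := unif1 _ (hCO1 c) hc
    exact ⟨⟨o, hsatC c o ho hco⟩, Subtype.ext (by push_cast; rw [hπCc]; exact hco)⟩
  -- `π` is prime in `C`
  have hprime : Prime πC := by
    refine ⟨fun h => pi_ne (by rw [← hπCc, h]; rfl), hπCnu, fun a b hab => ?_⟩
    by_cases ha : (a : F)⁻¹ ∉ O1
    · exact Or.inl (hsat' a ha)
    by_cases hb : (b : F)⁻¹ ∉ O1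
    · exact Or.inr (hsat' b hb)
    push Not at ha hb
    -- both are units of `O1`: then `π⁻¹ ∈ O1` unless `a b = 0`
    obtain ⟨c, hc⟩ := hab
    have hcF : (a : F) * (b : F) = p * (c : F) := by
      have h1 : ((a * b : C) : F) = ((πC * c : C) : F) := by rw [hc]
      push_cast at h1
      rw [hπCc] at h1
      exact h1
    by_cases hab0 : (a : F) * (b : F) = 0
    · rcases mul_eq_zero.mp hab0 with h | h
      · left
        have : a = 0 := Subtype.ext h
        rw [this]; exact dvd_zero _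
      · right
        have : b = 0 := Subtype.ext h
        rw [this]; exact dvd_zero _
    · exfalso
      apply pi_nonunit1
      have ha0 : (a : F) ≠ 0 := left_ne_zero_of_mul hab0
      have hb0 : (b : F) ≠ 0 := right_ne_zero_of_mul hab0
      have : p⁻¹ = (c : F) * ((a : F)⁻¹ * (b : F)⁻¹) := by
        field_simp
        linear_combination hcF
      rw [this]
      exact O1.mul_mem _ _ (hCO1 c) (O1.mul_mem _ _ ha hb)
  -- the maximal ideal of `C`
  obtain ⟨s, hs, hgen⟩ := hsm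
  set sC : C := algebraMap ↥B ↥C s with hsC
  have hmax : maximalIdeal ↥C = Ideal.span {πC, sC} := by
    apply le_antisymm
    · intro y hy
      have hynu : ¬ IsUnit y := by
        rwa [IsLocalRing.mem_maximalIdeal, mem_nonunits_iff] at hy
      obtain ⟨a, d, hd, had⟩ := y.2
      have ha𝔪 : a ∈ 𝔪 := num_mem_of_not_isUnit B 𝔪 hynu hd had
      obtain ⟨d', hd', hspan⟩ := hgen a ha𝔪
      obtain ⟨b₁, b₂, hb⟩ := Ideal.mem_span_pair.mp hspan
      have hd0 := coe_ne_zero_of_notMem B 𝔪 hd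
      have hd0' := coe_ne_zero_of_notMem B 𝔪 hd'
      rw [Ideal.mem_span_pair]
      have hinv : ((d : F) * (d' : F))⁻¹ ∈ C := by
        rw [mul_inv]
        exact C.mul_mem (inv_mem_locSub B 𝔪 hd) (inv_mem_locSub B 𝔪 hd')
      refine ⟨⟨(b₁ : F) * ((d : F) * (d' : F))⁻¹, C.mul_mem (le_locSub B 𝔪 b₁.2) hinv⟩,
        ⟨(b₂ : F) * ((d : F) * (d' : F))⁻¹, C.mul_mem (le_locSub B 𝔪 b₂.2) hinv⟩, ?_⟩
      apply Subtype.ext
      show (b₁ : F) * ((d : F) * (d' : F))⁻¹ * p + (b₂ : F) * ((d : F) * (d' : F))⁻¹ * (s : F)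
        = (y : F)
      have hbF : (b₁ : F) * p + (b₂ : F) * (s : F) = (d' : F) * (a : F) := by
        have := congrArg (Subtype.val) hb
        simpa using this
      have hyF : (y : F) = (a : F) * (d : F)⁻¹ := by rw [← had]; field_simp
      rw [hyF]
      field_simp
      linear_combination hbF
    · rw [Ideal.span_le]
      rintro z (rfl | rfl)
      · rw [SetLike.mem_coe, IsLocalRing.mem_maximalIdeal, mem_nonunits_iff]; exact hπCnu
      · rw [SetLike.mem_coe, IsLocalRing.mem_maximalIdeal, mem_nonunits_iff]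
        exact not_isUnit_of_mem B 𝔪 hs
  have H : SmoothLoc K C πC sC :=
    { max_eq := hmax
      prime := hprime
      frac := by
        intro x
        obtain ⟨a, ha, b, hb, hb0, hab⟩ := frac x
        exact ⟨⟨a, le_locSub B 𝔪 ha⟩, ⟨b, le_locSub B 𝔪 hb⟩,
          fun h => hb0 (congrArg Subtype.val h), hab⟩
      pi_inv := fun P => (pi_mem_place (K := K) π P).2 }
  obtain ⟨h, hh0, hh1, hh2, hord⟩ := exists_locEq_core H O1 hCO1 hsat' D
  refine ⟨h, ⟨hh0, fun P hP => hord P fun c => locSub_le_of_through hP c.2⟩,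
    Or.inr ⟨hh0, hh2, h - 1, sub_mem hh1 O1.one_mem, by rw [pow_zero, one_mul]⟩,
    Or.inl hoff⟩

/-- **CAR-S, one chart, both cases.** -/
theorem exists_locEq_of_offBranch (π : R) (B : Subalgebra R F) (O1 O2 : ValuationSubring F)
    (noethB : IsNoetherianRing B)
    (frac : ∀ x : F, ∃ a ∈ B, ∃ b ∈ B, b ≠ 0 ∧ x * b = a)
    (leO1 : ∀ x ∈ B, x ∈ O1) (leO2 : ∀ x ∈ B, x ∈ O2)
    (pi_ne : algebraMap R F π ≠ 0) (pi_nonunit1 : (algebraMap R F π)⁻¹ ∉ O1)
    (pi_nonunit2 : (algebraMap R F π)⁻¹ ∉ O2)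
    (unif1 : ∀ x ∈ O1, x⁻¹ ∉ O1 → ∃ c ∈ O1, x = algebraMap R F π * c)
    (unif2 : ∀ x ∈ O2, x⁻¹ ∉ O2 → ∃ c ∈ O2, x = algebraMap R F π * c)
    (arch1 : ∀ x : F, ∃ k : ℕ, algebraMap R F π ^ k * x ∈ O1)
    (arch2 : ∀ x : F, ∃ k : ℕ, algebraMap R F π ^ k * x ∈ O2)
    (sat : ∀ b ∈ B, ∀ c : F, c ∈ O1 → c ∈ O2 → b = algebraMap R F π * c → c ∈ B)
    (𝔪 : Ideal B) (h𝔪 : 𝔪.IsMaximal) (hπ𝔪 : algebraMap R B π ∈ 𝔪)
    (hoff : OffBranch π B O1 𝔪 ∨ OffBranch π B O2 𝔪) (hsm : SmoothAt π B 𝔪) (D : Divisor K F) :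
    ∃ h : F, IsLocEq B 𝔪 D h ∧ StrictOn π B O1 𝔪 0 h ∧ StrictOn π B O2 𝔪 0 h := by
  rcases hoff with hoff | hoff
  · obtain ⟨h, hh, h2, h1⟩ := exists_locEq_of_smooth (K := K) π B O2 O1 noethB frac leO2 leO1 pi_ne
      pi_nonunit2 unif2 arch2 arch1 (fun b hb c h2 h1 e => sat b hb c h1 h2 e) 𝔪 h𝔪 hπ𝔪 hoff hsm D
    exact ⟨h, hh, h1, h2⟩
  · exact exists_locEq_of_smooth (K := K) π B O1 O2 noethB frac leO1 leO2 pi_ne pi_nonunit1 unif1
      arch1 arch2 sat 𝔪 h𝔪 hπ𝔪 hoff hsm D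

/-- **CAR-S for a nodal two-chart model**, literally the hypothesis `smooth` of
`Car/Slope43.mem_cart_zero_of_slopes`. -/
theorem smooth_of_numData {π : R} {t : F} {B0 B1 : Subalgebra R F} {O1 O2 : ValuationSubring F}
    (N : Fermat.Agent.ES.N34.NumData13.NodalNumData R K F π t B0 B1 O1 O2) (D : Divisor K F) :
    ∀ B : Subalgebra R F, B = B0 ∨ B = B1 → ∀ 𝔪 : Ideal B, 𝔪.IsMaximal →
      algebraMap R B π ∈ 𝔪 → (OffBranch π B O1 𝔪 ∨ OffBranch π B O2 𝔪) →
      ∃ h, IsLocEq B 𝔪 D h ∧ StrictOn π B O1 𝔪 0 h ∧ StrictOn π B O2 𝔪 0 h := by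
  have M := N.model
  rintro B (rfl | rfl) 𝔪 h𝔪 hπ𝔪 hoff
  · exact exists_locEq_of_offBranch (K := K) π _ O1 O2 N.noeth0 N.frac0 M.le_O1_0 M.le_O2_0 M.pi_ne
      M.pi_nonunit1 M.pi_nonunit2 M.unif1 M.unif2 M.arch1 M.arch2 M.sat0 𝔪 h𝔪 hπ𝔪 hoff
      (N.smooth0 𝔪 h𝔪 hπ𝔪 hoff) D
  · exact exists_locEq_of_offBranch (K := K) π _ O1 O2 N.noeth1 N.frac1 M.le_O1_1 M.le_O2_1 M.pi_ne
      M.pi_nonunit1 M.pi_nonunit2 M.unif1 M.unif2 M.arch1 M.arch2 M.sat1 𝔪 h𝔪 hπ𝔪 hoff
      (N.smooth1 𝔪 h𝔪 hπ𝔪 hoff) D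

end Chart

end Fermat.Agent.M1.Car.SmoothEq53
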