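/-
M1 (S44), chapter CAR, brick CAR-2 = MV (helper53): **the moving lemma**.

On a nodal two-chart model (`NodalNumData`), a class of `Cart 0` (a Cartier class with trivial
vertical twist, `Car/Defs43`) has a representative which is still of level `0` and whose support
avoids any prescribed finite set of closed points of the special fibre (e.g. all the nodes: an ORD
representative).

* `divMod B O1 O2 D` : the divisorial `B`-module `{z ∈ O1 ⊓ O2 | ord_P z ≥ D P ∀ P over B}`;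
* `genAt_of_levelAt` : it is generated at a closed point by any local equation of `D` which is strict
  of level `0` on both components (chart Hartogs + avoidance of the finitely many bad places);
* `levelAt_of_genAt` : conversely a generator is a strict local equation;
* `glue_divMod` : the modules of the two charts agree on the overlap;
* `contract`, `contract_isMaximal`, `through_contract` : a closed point of the chart `B1` with `t`
  finite, seen as a closed point of the chart `B0`;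
* `exists_rep_avoiding`, `exists_rep_avoiding_gen` : the moving lemma (semi-local generation,
  `SemiLocal53.exists_genAt_two_charts`);
* `exists_ord_rep` : a representative avoiding all the nodes (finitely many nodes);
* `exists_pow_sub_mem_of_finite` : the residue-field hypothesis `hfin` for finite residue fields.
-/
import Mathlib
import Fermat.Agent.X0.FFDict
import Fermat.Agent.M1.Car.Defs43
import Fermat.Agent.M1.Car.SemiLocal53
import Fermat.Agent.M1.Car.PlacePrime58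
import Fermat.Agent.M1.Car.SmoothEq53
import Fermat.Agent.M1.Node.SlopeAdapter25
import Fermat.Agent.M1.Mon.WildPL43
import Fermat.Agent.ES.N34.NumData13

set_option autoImplicit false
set_option linter.unusedSectionVars false
set_option linter.unusedVariables false

namespace Fermat.Agent.M1.Car.Moving53

open AlgebraicCurve
open Fermat.Agent.X0
open Fermat.Agent.ES.N34.NodalCore13 Fermat.Agent.ES.N34.NumData13
open Fermat.Agent.M1.Car.Defs43 Fermat.Agent.M1.Car.SemiLocal53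

section Ord

variable {K F : Type*} [Field K] [Field F] [Algebra K F]

/-- a nonzero function has finitely many zeros and poles. -/
theorem finite_ord_ne_zero [HasPrincipalDivisors K F] {f : F} (hf : f ≠ 0) :
    {P : Place K F | P.ord f ≠ 0}.Finite := by
  obtain ⟨D, hD, -⟩ := HasPrincipalDivisors.exists_divisor (K := K) f hf
  refine (D.support.finite_toSet).subset fun P hP => ?_
  have hP' : P.ord f ≠ 0 := hP
  rw [Finset.mem_coe, Finsupp.mem_support_iff, hD]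
  exact hP'

theorem ord_pos_of_mem_nonunits (P : Place K F) {x : F} (hx0 : x ≠ 0)
    (hx : x ∈ P.toValuationSubring.nonunits) : 0 < P.ord x := by
  have h1 : x ∈ P.toValuationSubring := ValuationSubring.nonunits_le hx
  have h2 := FF.ord_nonneg_of_mem P h1
  rcases h2.lt_or_eq with h | h
  · exact h
  · exfalso
    exact Centre99.inv_not_mem_of_mem_nonunits _ hx0 hx (SmoothEq53.inv_mem_of_ord_eq_zero P h.symm)

theorem ord_pos_of_inv_not_mem (P : Place K F) {x : F} (hx : x ∈ P.toValuationSubring)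
    (hxi : x⁻¹ ∉ P.toValuationSubring) : 0 < P.ord x := by
  have h2 := FF.ord_nonneg_of_mem P hx
  rcases h2.lt_or_eq with h | h
  · exact h
  · exact absurd (SmoothEq53.inv_mem_of_ord_eq_zero P h.symm) hxi

end Ord

section Module

variable {R K F : Type*} [CommRing R] [Field K] [Field F] [Algebra K F] [Algebra R F]

/-- the place `P` lies over the chart `B`: `B ⊆ O_P`. -/
def OverChart (B : Subalgebra R F) (P : Place K F) : Prop :=
  ∀ b : B, (b : F) ∈ P.toValuationSubring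

theorem Through.overChart {B : Subalgebra R F} {𝔪 : Ideal B} {P : Place K F}
    (hP : Through B 𝔪 P) : OverChart B P := hP.1

theorem OverChart.ord_nonneg {B : Subalgebra R F} {P : Place K F} (hP : OverChart B P) (b : B) :
    0 ≤ P.ord (b : F) := FF.ord_nonneg_of_mem P (hP b)

/-- **The divisorial module** of `D` on the chart `B`: functions in `O1 ⊓ O2` with
`ord_P z ≥ D P` at every place over the chart. -/
def divMod (B : Subalgebra R F) (O1 O2 : ValuationSubring F) (D : Divisor K F) : AddSubgroup F where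
  carrier := {z | z ∈ O1 ∧ z ∈ O2 ∧ (z = 0 ∨ ∀ P : Place K F, OverChart B P → D P ≤ P.ord z)}
  zero_mem' := ⟨O1.zero_mem, O2.zero_mem, Or.inl rfl⟩
  add_mem' := by
    rintro z w ⟨hz1, hz2, hz⟩ ⟨hw1, hw2, hw⟩
    refine ⟨O1.add_mem _ _ hz1 hw1, O2.add_mem _ _ hz2 hw2, ?_⟩
    rcases hz with rfl | hz
    · rw [zero_add]; exact hw
    rcases hw with rfl | hw
    · rw [add_zero]; exact Or.inr hz
    by_cases h0 : z + w = 0
    · exact Or.inl h0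
    · exact Or.inr fun P hP => le_trans (le_min (hz P hP) (hw P hP)) (FF.ord_add_ge P h0)
  neg_mem' := by
    rintro z ⟨hz1, hz2, hz⟩
    refine ⟨O1.neg_mem _ hz1, O2.neg_mem _ hz2, ?_⟩
    rcases hz with rfl | hz
    · exact Or.inl neg_zero
    · exact Or.inr fun P hP => by rw [FF.ord_neg]; exact hz P hP

variable {B : Subalgebra R F} {O1 O2 : ValuationSubring F} {D : Divisor K F}

theorem mem_divMod {z : F} : z ∈ divMod B O1 O2 D ↔
    z ∈ O1 ∧ z ∈ O2 ∧ (z = 0 ∨ ∀ P : Place K F, OverChart B P → D P ≤ P.ord z) := Iff.rfl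

/-- `divMod` is a `B`-module. -/
theorem divMod_stable (leO1 : ∀ x ∈ B, x ∈ O1) (leO2 : ∀ x ∈ B, x ∈ O2) :
    ∀ b ∈ B, ∀ x ∈ divMod B O1 O2 D, b * x ∈ divMod B O1 O2 D := by
  rintro b hb x ⟨hx1, hx2, hx⟩
  refine ⟨O1.mul_mem _ _ (leO1 b hb) hx1, O2.mul_mem _ _ (leO2 b hb) hx2, ?_⟩
  rcases hx with rfl | hx
  · exact Or.inl (mul_zero b)
  by_cases hb0 : b = 0
  · exact Or.inl (by rw [hb0, zero_mul])
  by_cases hx0 : x = 0
  · exact Or.inl (by rw [hx0, mul_zero])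
  refine Or.inr fun P hP => ?_
  rw [P.ord_mul hb0 hx0]
  have := hP.ord_nonneg ⟨b, hb⟩
  have h2 := hx P hP
  simp only at this
  omega

/-- **Avoidance**: finitely many places over the chart which do not pass through `𝔪` can be killed
to any prescribed order by an element of `B ∖ 𝔪`. -/
theorem exists_avoid {𝔪 : Ideal B} [h𝔪 : 𝔪.IsPrime] (T : Finset (Place K F))
    (hT : ∀ P ∈ T, OverChart B P ∧ ¬ Through B 𝔪 P) (n : Place K F → ℕ) :
    ∃ d : B, d ∉ 𝔪 ∧ ∀ P ∈ T, (n P : ℤ) ≤ P.ord (d : F) := by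
  classical
  induction T using Finset.induction_on with
  | empty => exact ⟨1, SemiLocal53.one_not_mem, by simp⟩
  | insert P T hPT ih =>
    obtain ⟨d, hd, hdT⟩ := ih fun Q hQ => hT Q (Finset.mem_insert_of_mem hQ)
    obtain ⟨hPB, hPthrough⟩ := hT P (Finset.mem_insert_self P T)
    -- an element of the horizontal prime of `P` outside `𝔪`
    have hex : ∃ e : B, e ∈ PlacePrime58.primeOf B P hPB ∧ e ∉ 𝔪 := by
      by_contra hcon
      push Not at hcon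
      exact hPthrough (PlacePrime58.through_of_primeOf_le hPB fun e he => hcon e he)
    obtain ⟨e, heP, he𝔪⟩ := hex
    have he0 : (e : F) ≠ 0 := SemiLocal53.coe_ne_zero_of_not_mem he𝔪
    have hd0 : (d : F) ≠ 0 := SemiLocal53.coe_ne_zero_of_not_mem hd
    have hepos : 0 < P.ord (e : F) :=
      ord_pos_of_mem_nonunits P he0 ((PlacePrime58.mem_primeOf hPB e).mp heP)
    refine ⟨d * e ^ n P, fun hh => (h𝔪.mem_or_mem hh).elim hd
      (fun h2 => he𝔪 (h𝔪.mem_of_pow_mem _ h2)), fun Q hQ => ?_⟩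
    have hQB : OverChart B Q := by
      rcases Finset.mem_insert.mp hQ with rfl | hQ'
      · exact hPB
      · exact (hT Q (Finset.mem_insert_of_mem hQ')).1
    have hcoe : ((d * e ^ n P : B) : F) = (d : F) * (e : F) ^ n P := by push_cast; rfl
    rw [hcoe, Q.ord_mul hd0 (pow_ne_zero _ he0), FF.ord_pow]
    have h1 := hQB.ord_nonneg d
    have h2 := hQB.ord_nonneg e
    rcases Finset.mem_insert.mp hQ with rfl | hQ'
    · nlinarith
    · have h3 := hdT Q hQ'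
      have h4 : 0 ≤ (n P : ℤ) * Q.ord (e : F) := mul_nonneg (by positivity) h2
      omega

end Module

section Chart

variable {R K F : Type*} [CommRing R] [Field K] [Field F] [Algebra R K] [Algebra K F]
  [Algebra R F] [IsScalarTower R K F]

/-- `B_𝔪 ⊆ O_j` when the component `j` passes through `𝔪`. -/
theorem inLoc_mem_of_not_offBranch {π : R} {B : Subalgebra R F} {Oj : ValuationSubring F}
    (leOj : ∀ x ∈ B, x ∈ Oj)
    (unifj : ∀ x ∈ Oj, x⁻¹ ∉ Oj → ∃ c ∈ Oj, x = algebraMap R F π * c)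
    {𝔪 : Ideal B} (hoff : ¬ OffBranch π B Oj 𝔪) {c : F} (hc : InLoc B 𝔪 c) : c ∈ Oj := by
  obtain ⟨a, d, hd, had⟩ := hc
  have hd0 : (d : F) ≠ 0 := SemiLocal53.coe_ne_zero_of_not_mem hd
  have hdi : ((d : F))⁻¹ ∈ Oj := by
    by_contra hcon
    obtain ⟨c', hc', hdc⟩ := unifj _ (leOj _ d.2) hcon
    exact hoff ⟨d, hd, c', hc', hdc⟩
  have : c = (a : F) * ((d : F))⁻¹ := by rw [← had]; field_simp
  rw [this]
  exact Oj.mul_mem _ _ (leOj _ a.2) hdi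

/-- a vertical denominator for a strict local equation. -/
theorem exists_vert {π : R} {B : Subalgebra R F} {Oj : ValuationSubring F}
    (leOj : ∀ x ∈ B, x ∈ Oj)
    (archj : ∀ x : F, ∃ k : ℕ, algebraMap R F π ^ k * x ∈ Oj)
    {𝔪 : Ideal B} [h𝔪 : 𝔪.IsPrime] {h : F} (hs : StrictOn π B Oj 𝔪 0 h) :
    ∃ d : B, d ∉ 𝔪 ∧ (d : F) * h ∈ Oj := by
  rcases hs with ⟨e, he, c, hc, hec⟩ | ⟨h0, hi, c, hc, hhc⟩
  · obtain ⟨k, hk⟩ := archj h
    refine ⟨e ^ k, fun h2 => he (h𝔪.mem_of_pow_mem _ h2), ?_⟩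
    have : ((e ^ k : B) : F) * h = c ^ k * (algebraMap R F π ^ k * h) := by
      push_cast
      rw [hec]; ring
    rw [this]
    exact Oj.mul_mem _ _ (pow_mem hc k) hk
  · refine ⟨1, SemiLocal53.one_not_mem, ?_⟩
    have : ((1 : B) : F) * h = 1 + c := by
      rw [pow_zero, one_mul] at hhc
      rw [← hhc]; push_cast; ring
    rw [this]
    exact Oj.add_mem _ _ Oj.one_mem hc

variable (π : R) (t : F) (B : Subalgebra R F) (O1 O2 : ValuationSubring F)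
  (ht : t ∈ B) (noethB : IsNoetherianRing B) (fracR : IsFractionRing R K)
  (dvrR : ∀ r : R, r ≠ 0 → ∃ (k : ℕ) (v : Rˣ), r = π ^ k * v)
  (pi_ne : algebraMap R F π ≠ 0)
  (intcl : ∀ x : F, IsIntegral B x → x ∈ B)
  (int0 : ∀ x ∈ B, IsIntegral (Algebra.adjoin R {t}) x)
  (frac : ∀ x : F, ∃ a ∈ B, ∃ b ∈ B, b ≠ 0 ∧ x * b = a)
  (leO1 : ∀ x ∈ B, x ∈ O1) (leO2 : ∀ x ∈ B, x ∈ O2)
  (arch1 : ∀ x : F, ∃ k : ℕ, algebraMap R F π ^ k * x ∈ O1)
  (arch2 : ∀ x : F, ∃ k : ℕ, algebraMap R F π ^ k * x ∈ O2)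
  (sat : ∀ b ∈ B, ∀ c : F, c ∈ O1 → c ∈ O2 → b = algebraMap R F π * c → c ∈ B)
  (𝔪 : Ideal B) [h𝔪 : 𝔪.IsPrime]

include leO1 leO2 arch1 arch2 in
/-- part (a) of local generation: a strict local equation lies in `I · B_𝔪`. -/
theorem inLocMod_of_levelAt [HasPrincipalDivisors K F] {D : Divisor K F} {h : F}
    (hh : IsLocEq B 𝔪 D h) (hs1 : StrictOn π B O1 𝔪 0 h) (hs2 : StrictOn π B O2 𝔪 0 h) :
    InLocMod B 𝔪 (divMod B O1 O2 D) h := by
  classical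
  obtain ⟨d1, hd1, hd1h⟩ := exists_vert leO1 arch1 hs1
  obtain ⟨d2, hd2, hd2h⟩ := exists_vert leO2 arch2 hs2
  set T : Finset (Place K F) :=
    ((finite_ord_ne_zero (K := K) hh.1).toFinset ∪ D.support).filter
      (fun P => OverChart B P ∧ ¬ Through B 𝔪 P) with hT
  obtain ⟨d, hd, hdT⟩ := exists_avoid (𝔪 := 𝔪) T
    (fun P hP => (Finset.mem_filter.mp hP).2) (fun P => (D P - P.ord h).toNat)
  have hd10 : (d1 : F) ≠ 0 := SemiLocal53.coe_ne_zero_of_not_mem hd1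
  have hd20 : (d2 : F) ≠ 0 := SemiLocal53.coe_ne_zero_of_not_mem hd2
  have hd0 : (d : F) ≠ 0 := SemiLocal53.coe_ne_zero_of_not_mem hd
  refine ⟨d1 * d2 * d, fun hh' => (h𝔪.mem_or_mem hh').elim
    (fun h2 => (h𝔪.mem_or_mem h2).elim hd1 hd2) hd, ?_, ?_, Or.inr fun Q hQ => ?_⟩
  · have : ((d1 * d2 * d : B) : F) * h = ((d2 : F) * (d : F)) * ((d1 : F) * h) := by
      push_cast; ring
    rw [this]
    exact O1.mul_mem _ _ (O1.mul_mem _ _ (leO1 _ d2.2) (leO1 _ d.2)) hd1h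
  · have : ((d1 * d2 * d : B) : F) * h = ((d1 : F) * (d : F)) * ((d2 : F) * h) := by
      push_cast; ring
    rw [this]
    exact O2.mul_mem _ _ (O2.mul_mem _ _ (leO2 _ d1.2) (leO2 _ d.2)) hd2h
  · have hcoe : ((d1 * d2 * d : B) : F) * h = (d1 : F) * ((d2 : F) * ((d : F) * h)) := by
      push_cast; ring
    rw [hcoe, Q.ord_mul hd10 (mul_ne_zero hd20 (mul_ne_zero hd0 hh.1)),
      Q.ord_mul hd20 (mul_ne_zero hd0 hh.1), Q.ord_mul hd0 hh.1]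
    have h1 := hQ.ord_nonneg d1
    have h2 := hQ.ord_nonneg d2
    have h3 := hQ.ord_nonneg d
    by_cases hthr : Through B 𝔪 Q
    · have := hh.2 Q hthr
      omega
    · by_cases hmem : Q ∈ (finite_ord_ne_zero (K := K) hh.1).toFinset ∪ D.support
      · have hQT : Q ∈ T := Finset.mem_filter.mpr ⟨hmem, hQ, hthr⟩
        have h4 := hdT Q hQT
        have h5 := Int.self_le_toNat (D Q - Q.ord h)
        omega
      · rw [Finset.mem_union, not_or] at hmem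
        have h4 : Q.ord h = 0 := by
          by_contra hne
          exact hmem.1 ((Set.Finite.mem_toFinset _).mpr hne)
        have h5 : D Q = 0 := Finsupp.notMem_support_iff.mp hmem.2
        omega

include ht noethB fracR dvrR pi_ne intcl int0 frac leO1 leO2 arch1 arch2 sat in
/-- part (b) of local generation (chart Hartogs): every section is a `B_𝔪`-multiple of a strict
local equation. -/
theorem gen_of_levelAt {D : Divisor K F} {h : F}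
    (hh : IsLocEq B 𝔪 D h) (hs1 : StrictOn π B O1 𝔪 0 h) (hs2 : StrictOn π B O2 𝔪 0 h) :
    ∀ x ∈ divMod B O1 O2 D, ∃ c d : B, d ∉ 𝔪 ∧ x * (d : F) = h * (c : F) := by
  rintro x ⟨hx1, hx2, hx⟩
  set ε : F := x * h⁻¹ with hε
  have hεP : ∀ P : Place K F, Through B 𝔪 P → ε ∈ P.toValuationSubring := by
    intro P hP
    by_cases hx0 : x = 0
    · rw [hε, hx0, zero_mul]; exact P.toValuationSubring.zero_mem
    rcases hx with rfl | hx
    · exact absurd rfl hx0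
    apply FF.mem_of_ord_nonneg
    rw [hε, P.ord_mul hx0 (inv_ne_zero hh.1), P.ord_inv, hh.2 P hP]
    have := hx P hP.1
    omega
  have hhor := Fermat.Agent.ES.N34.HorizPlace13.hhor_of_places (K := K) π t B ht noethB fracR dvrR
    pi_ne intcl int0 frac 𝔪 ε
    (fun v hvB hv𝔪 => hεP v ⟨fun b => hvB _ b.2, fun b hb => by
      by_contra hcon
      exact hb (hv𝔪 b hcon)⟩)
  have hG1 : ε ∈ O1 ∨ OffBranch π B O1 𝔪 :=
    hs1.elim Or.inr (fun hu => Or.inl (O1.mul_mem _ _ hx1 hu.2.1))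
  have hG2 : ε ∈ O2 ∨ OffBranch π B O2 𝔪 :=
    hs2.elim Or.inr (fun hu => Or.inl (O2.mul_mem _ _ hx2 hu.2.1))
  obtain ⟨a, d, hd, had⟩ := Fermat.Agent.ES.N34.NodalStart13.exists_den_of_horizontal π B O1 O2
    leO1 leO2 arch1 arch2 sat frac 𝔪 ε hhor hG1 hG2
  refine ⟨a, d, hd, ?_⟩
  rw [← had, hε]
  have := hh.1
  field_simp

include ht noethB fracR dvrR pi_ne intcl int0 frac leO1 leO2 arch1 arch2 sat in
/-- **Local generation**: at a closed point the divisorial module is generated by any local equation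
which is strict of level `0` on both components. -/
theorem genAt_of_levelAt [HasPrincipalDivisors K F] {D : Divisor K F} {h : F}
    (hh : IsLocEq B 𝔪 D h) (hs1 : StrictOn π B O1 𝔪 0 h) (hs2 : StrictOn π B O2 𝔪 0 h) :
    GenAt B 𝔪 (divMod B O1 O2 D) h :=
  ⟨inLocMod_of_levelAt π B O1 O2 leO1 leO2 arch1 arch2 𝔪 hh hs1 hs2,
    gen_of_levelAt (K := K) π t B O1 O2 ht noethB fracR dvrR pi_ne intcl int0 frac leO1 leO2 arch1
      arch2 sat 𝔪 hh hs1 hs2⟩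

include ht noethB fracR dvrR pi_ne intcl int0 frac leO1 leO2 arch1 arch2 sat in
/-- **Converse**: any generator of the divisorial module at a closed point where `D` has level `0`
is a local equation of `D`, strict of level `0` on both components. -/
theorem levelAt_of_genAt [HasPrincipalDivisors K F]
    (unif1 : ∀ x ∈ O1, x⁻¹ ∉ O1 → ∃ c ∈ O1, x = algebraMap R F π * c)
    (unif2 : ∀ x ∈ O2, x⁻¹ ∉ O2 → ∃ c ∈ O2, x = algebraMap R F π * c)
    {D : Divisor K F} {h f : F}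
    (hh : IsLocEq B 𝔪 D h) (hs1 : StrictOn π B O1 𝔪 0 h) (hs2 : StrictOn π B O2 𝔪 0 h)
    (hf : GenAt B 𝔪 (divMod B O1 O2 D) f) :
    IsLocEq B 𝔪 D f ∧ StrictOn π B O1 𝔪 0 f ∧ StrictOn π B O2 𝔪 0 f := by
  have hgen := genAt_of_levelAt (K := K) π t B O1 O2 ht noethB fracR dvrR pi_ne intcl int0 frac
    leO1 leO2 arch1 arch2 sat 𝔪 hh hs1 hs2
  obtain ⟨c, hc, hfc⟩ := hgen.exists_eq_mul hf.1
  obtain ⟨c', hc', hhc⟩ := hf.exists_eq_mul hgen.1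
  have hh0 : h ≠ 0 := hh.1
  have hcc : c' * c = 1 := by
    have h1 : (c' * c - 1) * h = 0 := by
      have : h = c' * (c * h) := by rw [← hfc]; exact hhc
      linear_combination -this
    rcases mul_eq_zero.mp h1 with h2 | h2
    · linear_combination h2
    · exact absurd h2 hh0
  have hc0 : c ≠ 0 := fun h0 => by rw [h0, mul_zero] at hcc; exact zero_ne_one hcc
  have hc'0 : c' ≠ 0 := fun h0 => by rw [h0, zero_mul] at hcc; exact zero_ne_one hcc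
  have hf0 : f ≠ 0 := by rw [hfc]; exact mul_ne_zero hc0 hh0
  have hcinv : c⁻¹ = c' := by
    rw [← mul_one c⁻¹, ← hcc]; field_simp
  have hmemP : ∀ {P : Place K F}, Through B 𝔪 P → ∀ {z : F}, InLoc B 𝔪 z →
      z ∈ P.toValuationSubring := by
    rintro P hP z ⟨a, d, hd, had⟩
    have hd0 : (d : F) ≠ 0 := SemiLocal53.coe_ne_zero_of_not_mem hd
    have : z = (a : F) * ((d : F))⁻¹ := by rw [← had]; field_simp
    rw [this]
    exact P.toValuationSubring.mul_mem _ _ (hP.1 a) (hP.2 d hd)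
  have strict : ∀ {Oj : ValuationSubring F}, (∀ x ∈ B, x ∈ Oj) →
      (∀ x ∈ Oj, x⁻¹ ∉ Oj → ∃ c ∈ Oj, x = algebraMap R F π * c) →
      StrictOn π B Oj 𝔪 0 h → StrictOn π B Oj 𝔪 0 f := by
    intro Oj leOj unifj hs
    by_cases hoff : OffBranch π B Oj 𝔪
    · exact Or.inl hoff
    rcases hs with hoff' | ⟨-, hi, c0, hc0m, hhc0⟩
    · exact absurd hoff' hoff
    have hhm : h ∈ Oj := by
      have : h = 1 + c0 := by
        rw [pow_zero, one_mul] at hhc0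
        rw [← hhc0]; ring
      rw [this]; exact Oj.add_mem _ _ Oj.one_mem hc0m
    have hcm : c ∈ Oj := inLoc_mem_of_not_offBranch leOj unifj hoff hc
    have hcm' : c' ∈ Oj := inLoc_mem_of_not_offBranch leOj unifj hoff hc'
    refine Or.inr ⟨hf0, ?_, f - 1, ?_, by rw [pow_zero, one_mul]⟩
    · rw [hfc, mul_inv, hcinv]; exact Oj.mul_mem _ _ hcm' hi
    · rw [hfc]; exact sub_mem (Oj.mul_mem _ _ hcm hhm) Oj.one_mem
  refine ⟨⟨hf0, fun P hP => ?_⟩, strict leO1 unif1 hs1, strict leO2 unif2 hs2⟩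
  rw [hfc, P.ord_mul hc0 hh0, hh.2 P hP,
    SmoothEq53.ord_eq_zero_of_mem_of_inv_mem P (hmemP hP hc) (by rw [hcinv]; exact hmemP hP hc'),
    zero_add]

end Chart

section Glue

variable {R K F : Type*} [CommRing R] [Field K] [Field F] [Algebra K F] [Algebra R F]

/-- **Gluing**: `B ∋ s`, `B'[s] ⊆ B[1/s]`... the divisorial modules of two charts `B ∋ s` and `B'`
with `s ^ k B' ⊆ B` agree after inverting `s`. -/
theorem glue_divMod [HasPrincipalDivisors K F] {B B' : Subalgebra R F} {O1 O2 : ValuationSubring F}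
    (s : F) (hs0 : s ≠ 0) (hsB : s ∈ B) (leO1 : ∀ x ∈ B, x ∈ O1) (leO2 : ∀ x ∈ B, x ∈ O2)
    (ov : ∀ x ∈ B', ∃ k : ℕ, s ^ k * x ∈ B) (D : Divisor K F) :
    ∀ x ∈ divMod B' O1 O2 D, ∃ k : ℕ, s ^ k * x ∈ divMod B O1 O2 D := by
  classical
  rintro x ⟨hx1, hx2, hx⟩
  by_cases hx0 : x = 0
  · exact ⟨0, by rw [hx0, mul_zero]; exact AddSubgroup.zero_mem _⟩
  rcases hx with rfl | hx
  · exact absurd rfl hx0
  set Z : Finset (Place K F) := (finite_ord_ne_zero (K := K) hs0).toFinset with hZ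
  set k : ℕ := ∑ P ∈ Z, (D P - P.ord x).toNat with hk
  refine ⟨k, O1.mul_mem _ _ (pow_mem (leO1 s hsB) k) hx1,
    O2.mul_mem _ _ (pow_mem (leO2 s hsB) k) hx2, Or.inr fun P hP => ?_⟩
  rw [P.ord_mul (pow_ne_zero _ hs0) hx0, FF.ord_pow]
  have hsP : s ∈ P.toValuationSubring := hP ⟨s, hsB⟩
  by_cases hsi : s⁻¹ ∈ P.toValuationSubring
  · have hP' : OverChart B' P := by
      intro b
      obtain ⟨j, hj⟩ := ov b b.2
      have : (b : F) = (s⁻¹) ^ j * (s ^ j * (b : F)) := by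
        rw [← mul_assoc, ← mul_pow, inv_mul_cancel₀ hs0, one_pow, one_mul]
      rw [this]
      exact P.toValuationSubring.mul_mem _ _ (pow_mem hsi j) (hP ⟨_, hj⟩)
    rw [SmoothEq53.ord_eq_zero_of_mem_of_inv_mem P hsP hsi, mul_zero, zero_add]
    exact hx P hP'
  · have hpos := ord_pos_of_inv_not_mem P hsP hsi
    have hPZ : P ∈ Z := (Set.Finite.mem_toFinset _).mpr hpos.ne'
    have hle : (D P - P.ord x).toNat ≤ k :=
      Finset.single_le_sum (f := fun P => (D P - P.ord x).toNat) (fun _ _ => Nat.zero_le _) hPZ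
    have h5 := Int.self_le_toNat (D P - P.ord x)
    have h6 : (k : ℤ) ≤ (k : ℤ) * P.ord s := by nlinarith
    have h7 : ((D P - P.ord x).toNat : ℤ) ≤ (k : ℤ) := by exact_mod_cast hle
    omega

end Glue

section Transfer

variable {R K F : Type*} [CommRing R] [Field K] [Field F] [Algebra K F] [Algebra R F]

variable {B B' : Subalgebra R F} (s : F) (hsinv : s⁻¹ ∈ B')
  (ov : ∀ x ∈ B, ∃ k : ℕ, s⁻¹ ^ k * x ∈ B')

/-- **Contraction** of an ideal of the chart `B'` (`∋ s⁻¹`) to the chart `B` (`∋ s`) along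
`B ⊆ B'[s]`: a closed point of `B'` with `s` finite, seen as a closed point of `B`. -/
def contract (𝔪 : Ideal B') : Ideal B where
  carrier := {b | ∃ (k : ℕ) (hb : s⁻¹ ^ k * (b : F) ∈ B'), (⟨_, hb⟩ : B') ∈ 𝔪}
  zero_mem' := ⟨0, by simp [B'.zero_mem], by
    have : (⟨s⁻¹ ^ 0 * ((0 : B) : F), by simp [B'.zero_mem]⟩ : B') = 0 := Subtype.ext (by simp)
    rw [this]; exact 𝔪.zero_mem⟩
  add_mem' := by
    rintro a b ⟨k, ha, ham⟩ ⟨j, hb, hbm⟩
    have e : s⁻¹ ^ (k + j) * ((a + b : B) : F) =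
        s⁻¹ ^ j * (s⁻¹ ^ k * (a : F)) + s⁻¹ ^ k * (s⁻¹ ^ j * (b : F)) := by
      push_cast; rw [pow_add]; ring
    have hmem : s⁻¹ ^ (k + j) * ((a + b : B) : F) ∈ B' := by
      rw [e]
      exact B'.add_mem (B'.mul_mem (pow_mem hsinv j) ha) (B'.mul_mem (pow_mem hsinv k) hb)
    refine ⟨k + j, hmem, ?_⟩
    have : (⟨_, hmem⟩ : B') = (⟨s⁻¹, hsinv⟩ : B') ^ j * ⟨_, ha⟩ + (⟨s⁻¹, hsinv⟩ : B') ^ k * ⟨_, hb⟩ :=
      Subtype.ext (by push_cast; exact e)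
    rw [this]
    exact 𝔪.add_mem (𝔪.mul_mem_left _ ham) (𝔪.mul_mem_left _ hbm)
  smul_mem' := by
    rintro c b ⟨k, hb, hbm⟩
    obtain ⟨j, hj⟩ := ov c c.2
    have e : s⁻¹ ^ (j + k) * ((c • b : B) : F) = (s⁻¹ ^ j * (c : F)) * (s⁻¹ ^ k * (b : F)) := by
      rw [smul_eq_mul]; push_cast; rw [pow_add]; ring
    have hmem : s⁻¹ ^ (j + k) * ((c • b : B) : F) ∈ B' := by
      rw [e]; exact B'.mul_mem hj hb
    refine ⟨j + k, hmem, ?_⟩
    have : (⟨_, hmem⟩ : B') = (⟨_, hj⟩ : B') * ⟨_, hb⟩ := Subtype.ext (by push_cast; exact e)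
    rw [this]
    exact 𝔪.mul_mem_left _ hbm

variable {s} {hsinv} {ov}

/-- membership in the contraction does not depend on the exponent. -/
theorem mem_contract_iff {𝔪 : Ideal B'} [h𝔪 : 𝔪.IsPrime] (hW : (⟨s⁻¹, hsinv⟩ : B') ∉ 𝔪)
    {b : B} {k : ℕ} (hb : s⁻¹ ^ k * (b : F) ∈ B') :
    b ∈ contract s hsinv ov 𝔪 ↔ (⟨_, hb⟩ : B') ∈ 𝔪 := by
  constructor
  · rintro ⟨j, hb', hm⟩
    have e : (⟨s⁻¹, hsinv⟩ : B') ^ j * ⟨_, hb⟩ = (⟨s⁻¹, hsinv⟩ : B') ^ k * ⟨_, hb'⟩ :=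
      Subtype.ext (by push_cast; ring)
    have h1 : (⟨s⁻¹, hsinv⟩ : B') ^ j * ⟨_, hb⟩ ∈ 𝔪 := by rw [e]; exact 𝔪.mul_mem_left _ hm
    rcases h𝔪.mem_or_mem h1 with h2 | h2
    · exact absurd (h𝔪.mem_of_pow_mem _ h2) hW
    · exact h2
  · intro hm
    exact ⟨k, hb, hm⟩

theorem pi_mem_contract {π : R} {𝔪 : Ideal B'} (hπ : algebraMap R B' π ∈ 𝔪) :
    algebraMap R B π ∈ contract s hsinv ov 𝔪 := by
  have hmem : s⁻¹ ^ 0 * ((algebraMap R B π : B) : F) ∈ B' := by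
    rw [pow_zero, one_mul]; exact B'.algebraMap_mem π
  refine ⟨0, hmem, ?_⟩
  have : (⟨_, hmem⟩ : B') = algebraMap R B' π := Subtype.ext (by
    show s⁻¹ ^ 0 * ((algebraMap R B π : B) : F) = ((algebraMap R B' π : B') : F)
    rw [pow_zero, one_mul]; rfl)
  rw [this]; exact hπ

/-- the contraction of a closed point with finite residue field (`s` finite there) is a closed
point. -/
theorem contract_isMaximal (hs0 : s ≠ 0) (hsB : s ∈ B) (ov' : ∀ x ∈ B', ∃ k : ℕ, s ^ k * x ∈ B)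
    {𝔪 : Ideal B'} (h𝔪 : 𝔪.IsMaximal) (hW : (⟨s⁻¹, hsinv⟩ : B') ∉ 𝔪)
    (hfin : ∃ n : ℕ, 0 < n ∧ ∃ b ∈ 𝔪, (b : F) = s⁻¹ ^ (n + 1) - s⁻¹) :
    (contract s hsinv ov 𝔪).IsMaximal := by
  have h𝔪p : 𝔪.IsPrime := h𝔪.isPrime
  set W : B' := ⟨s⁻¹, hsinv⟩ with hWdef
  set T : B := ⟨s, hsB⟩ with hTdef
  have hsi0 : s⁻¹ ≠ 0 := inv_ne_zero hs0
  have hcancel : ∀ m : ℕ, s⁻¹ ^ m * s ^ m = 1 := fun m => by
    rw [← mul_pow, inv_mul_cancel₀ hs0, one_pow]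
  obtain ⟨n, hn, b, hb𝔪, hbn⟩ := hfin
  -- `W ^ n - 1 ∈ 𝔪`
  have hWn : W ^ n - 1 ∈ 𝔪 := by
    have e : b = W * (W ^ n - 1) := Subtype.ext (by rw [hbn]; push_cast; rw [hWdef]; ring)
    rw [e] at hb𝔪
    exact (h𝔪p.mem_or_mem hb𝔪).resolve_left hW
  -- `T ^ n - 1 ∈ contract`
  have hTn : T ^ n - 1 ∈ contract s hsinv ov 𝔪 := by
    have hmem : s⁻¹ ^ n * ((T ^ n - 1 : B) : F) ∈ B' := by
      have : s⁻¹ ^ n * ((T ^ n - 1 : B) : F) = 1 - s⁻¹ ^ n := by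
        push_cast; rw [hTdef]; rw [mul_sub, hcancel, mul_one]
      rw [this]; exact B'.sub_mem B'.one_mem (pow_mem hsinv n)
    refine ⟨n, hmem, ?_⟩
    have : (⟨_, hmem⟩ : B') = -(W ^ n - 1) := Subtype.ext (by
      push_cast; rw [hTdef, hWdef]; rw [mul_sub, hcancel, mul_one]; ring)
    rw [this]; exact 𝔪.neg_mem hWn
  rw [Ideal.isMaximal_iff]
  constructor
  · have hmem : s⁻¹ ^ 0 * ((1 : B) : F) ∈ B' := by simp [B'.one_mem]
    rw [mem_contract_iff hW hmem]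
    have : (⟨_, hmem⟩ : B') = 1 := Subtype.ext (by simp)
    rw [this]
    exact fun h1 => h𝔪p.ne_top ((Ideal.eq_top_iff_one 𝔪).mpr h1)
  · intro J x hJ hx hxJ
    obtain ⟨k, hk⟩ := ov x x.2
    set x1 : B' := ⟨_, hk⟩ with hx1
    have hx1𝔪 : x1 ∉ 𝔪 := fun h => hx ((mem_contract_iff hW hk).mpr h)
    obtain ⟨c1, i, hi, hci⟩ := h𝔪.exists_inv hx1𝔪
    obtain ⟨j, hj⟩ := ov' c1 c1.2
    set c0 : B := ⟨_, hj⟩ with hc0
    -- `x * c0 - T ^ (j + k) ∈ contract`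
    have h1 : x * c0 - T ^ (j + k) ∈ contract s hsinv ov 𝔪 := by
      have e : s⁻¹ ^ (j + k) * ((x * c0 - T ^ (j + k) : B) : F) = (c1 : F) * (x1 : F) - 1 := by
        push_cast
        rw [hTdef, hc0, hx1]
        simp only
        rw [mul_sub, hcancel, pow_add]
        have := hcancel j
        linear_combination ((x : F) * (c1 : F) * s⁻¹ ^ k) * this
      have hmem : s⁻¹ ^ (j + k) * ((x * c0 - T ^ (j + k) : B) : F) ∈ B' := by
        rw [e]; exact B'.sub_mem (B'.mul_mem c1.2 x1.2) B'.one_mem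
      refine ⟨j + k, hmem, ?_⟩
      have : (⟨_, hmem⟩ : B') = -i := Subtype.ext (by
        show s⁻¹ ^ (j + k) * ((x * c0 - T ^ (j + k) : B) : F) = ((-i : B') : F)
        rw [e]
        have := congrArg (fun z : B' => (z : F)) hci
        push_cast at this ⊢
        linear_combination this)
      rw [this]; exact 𝔪.neg_mem hi
    -- `T ^ (n * (j + k)) - 1 ∈ contract`
    have h2 : (T ^ n) ^ (j + k) - 1 ∈ contract s hsinv ov 𝔪 := by
      have hd : T ^ n - 1 ∣ (T ^ n) ^ (j + k) - 1 := by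
        have := sub_dvd_pow_sub_pow (T ^ n) 1 (j + k)
        rwa [one_pow] at this
      exact Ideal.mem_of_dvd _ hd hTn
    obtain ⟨n', rfl⟩ : ∃ n', n = n' + 1 := ⟨n - 1, by omega⟩
    have e : (1 : B) = -((T ^ (n' + 1)) ^ (j + k) - 1) - T ^ (n' * (j + k)) * (x * c0 - T ^ (j + k))
        + T ^ (n' * (j + k)) * c0 * x := by
      have : (T ^ (n' + 1)) ^ (j + k) = T ^ (n' * (j + k)) * T ^ (j + k) := by
        rw [← pow_mul, ← pow_add]; congr 1; ring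
      rw [this]; ring
    rw [e]
    exact J.add_mem (J.sub_mem (J.neg_mem (hJ h2)) (J.mul_mem_left _ (hJ h1)))
      (J.mul_mem_left _ hxJ)

/-- a place through a closed point of `B'` (with `s` finite) passes through its contraction. -/
theorem through_contract (hs0 : s ≠ 0) (hsB : s ∈ B) {𝔪 : Ideal B'} [h𝔪 : 𝔪.IsPrime]
    (hW : (⟨s⁻¹, hsinv⟩ : B') ∉ 𝔪) {P : Place K F} (hP : Through B' 𝔪 P) :
    Through B (contract s hsinv ov 𝔪) P := by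
  have hsiP : s⁻¹ ∈ P.toValuationSubring := hP.1 ⟨s⁻¹, hsinv⟩
  have hsP : s ∈ P.toValuationSubring := by
    have := hP.2 ⟨s⁻¹, hsinv⟩ hW
    simpa using this
  have hcancel : ∀ m : ℕ, s ^ m * s⁻¹ ^ m = 1 := fun m => by
    rw [← mul_pow, mul_inv_cancel₀ hs0, one_pow]
  refine ⟨fun b => ?_, fun b hb => ?_⟩
  · obtain ⟨k, hk⟩ := ov b b.2
    have : (b : F) = s ^ k * (s⁻¹ ^ k * (b : F)) := by rw [← mul_assoc, hcancel, one_mul]
    rw [this]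
    exact P.toValuationSubring.mul_mem _ _ (pow_mem hsP k) (hP.1 ⟨_, hk⟩)
  · obtain ⟨k, hk⟩ := ov b b.2
    have hnot : (⟨_, hk⟩ : B') ∉ 𝔪 := fun h => hb ((mem_contract_iff hW hk).mpr h)
    have h1 := hP.2 ⟨_, hk⟩ hnot
    have : ((b : F))⁻¹ = s⁻¹ ^ k * (s⁻¹ ^ k * (b : F))⁻¹ := by
      rw [mul_inv, ← mul_assoc, ← inv_pow, inv_inv]
      have := hcancel k
      rw [mul_comm] at this
      rw [this, one_mul]
    rw [this]
    exact P.toValuationSubring.mul_mem _ _ (pow_mem hsiP k) h1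

end Transfer

section Main

variable {R K F : Type*} [CommRing R] [Field K] [Field F] [Algebra R K] [Algebra K F]
  [Algebra R F] [IsScalarTower R K F]

/-- every component of the special fibre carries a closed point of the chart. -/
theorem exists_point_on {π : R} {B : Subalgebra R F} {Oj : ValuationSubring F}
    (leOj : ∀ x ∈ B, x ∈ Oj) (pi_nonunit : (algebraMap R F π)⁻¹ ∉ Oj) :
    ∃ 𝔪 : Ideal B, 𝔪.IsMaximal ∧ algebraMap R B π ∈ 𝔪 ∧ ¬ OffBranch π B Oj 𝔪 := by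
  let J : Ideal B :=
    { carrier := {b | ∃ c ∈ Oj, (b : F) = algebraMap R F π * c}
      zero_mem' := ⟨0, Oj.zero_mem, by simp⟩
      add_mem' := by
        rintro a b ⟨c, hc, hac⟩ ⟨c', hc', hbc⟩
        exact ⟨c + c', Oj.add_mem _ _ hc hc', by push_cast; rw [hac, hbc]; ring⟩
      smul_mem' := by
        rintro a b ⟨c, hc, hbc⟩
        exact ⟨(a : F) * c, Oj.mul_mem _ _ (leOj _ a.2) hc, by
          rw [smul_eq_mul]; push_cast; rw [hbc]; ring⟩ }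
  have hJ : J ≠ ⊤ := by
    intro htop
    have h1 : (1 : B) ∈ J := by rw [htop]; exact Submodule.mem_top
    obtain ⟨c, hc, h1c⟩ := h1
    apply pi_nonunit
    have : (algebraMap R F π)⁻¹ = c := by
      rw [Subalgebra.coe_one] at h1c
      exact inv_eq_of_mul_eq_one_right h1c.symm
    rw [this]; exact hc
  obtain ⟨𝔪, h𝔪, hJ𝔪⟩ := Ideal.exists_le_maximal J hJ
  refine ⟨𝔪, h𝔪, hJ𝔪 ⟨1, Oj.one_mem, by rw [mul_one]; rfl⟩, ?_⟩
  rintro ⟨e, he, c, hc, hec⟩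
  exact he (hJ𝔪 ⟨c, hc, hec⟩)

/-- the hypothesis `hfin` of the moving lemma holds at closed points with finite residue field. -/
theorem exists_pow_sub_mem_of_finite {B : Subalgebra R F} {t : F} (ht : t ∈ B) (𝔪 : Ideal B)
    (h𝔪 : 𝔪.IsMaximal) [Finite (B ⧸ 𝔪)] :
    ∃ n : ℕ, 0 < n ∧ ∃ b ∈ 𝔪, (b : F) = t ^ (n + 1) - t := by
  classical
  let _ := Ideal.Quotient.field 𝔪
  have := Fintype.ofFinite (B ⧸ 𝔪)
  have hq : 1 < Fintype.card (B ⧸ 𝔪) := Fintype.one_lt_card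
  refine ⟨Fintype.card (B ⧸ 𝔪) - 1, by omega, (⟨t, ht⟩ : B) ^ (Fintype.card (B ⧸ 𝔪) - 1 + 1) - ⟨t, ht⟩,
    ?_, by push_cast; rfl⟩
  rw [← Ideal.Quotient.eq_zero_iff_mem, map_sub, map_pow,
    show Fintype.card (B ⧸ 𝔪) - 1 + 1 = Fintype.card (B ⧸ 𝔪) by omega, FiniteField.pow_card,
    sub_self]

variable {π : R} {t : F} {B0 B1 : Subalgebra R F} {O1 O2 : ValuationSubring F}

/-- **The moving lemma.**  On a nodal two-chart model whose closed points have residue fields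
algebraic over a finite field (`hfin`), every class of `Cart 0` has a representative of level `0`
whose support avoids a prescribed finite set of closed points (`S0` on the chart `t ≠ ∞`, `S1` at
`t = ∞`). -/
theorem exists_rep_avoiding [HasPrincipalDivisors K F] (N : NodalNumData R K F π t B0 B1 O1 O2)
    {hπ1 : algebraMap R F π ∈ O1} {hπ2 : algebraMap R F π ∈ O2}
    (hfin : ∀ 𝔪 : Ideal B0, 𝔪.IsMaximal → algebraMap R B0 π ∈ 𝔪 →
      ∃ n : ℕ, 0 < n ∧ ∃ b ∈ 𝔪, (b : F) = t ^ (n + 1) - t)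
    (S0 : Finset (Ideal B0)) (S1 : Finset (Ideal B1))
    (hS0 : ∀ 𝔪 ∈ S0, 𝔪.IsMaximal ∧ algebraMap R B0 π ∈ 𝔪)
    (hS1 : ∀ 𝔪 ∈ S1, 𝔪.IsMaximal ∧ algebraMap R B1 π ∈ 𝔪 ∧ ∃ b ∈ 𝔪, (b : F) = t⁻¹)
    {x : Pic0 K F} (hx : x ∈ Cart π B0 B1 O1 O2 hπ1 hπ2 0) :
    ∃ D : Divisor.degZero (K := K) (F := F), Pic0.mk D = x ∧
      HasLevel π B0 B1 O1 O2 0 (D : Divisor K F) ∧
      (∀ 𝔪 ∈ S0, ∀ P : Place K F, Through B0 𝔪 P → (D : Divisor K F) P = 0) ∧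
      (∀ 𝔪 ∈ S1, ∀ P : Place K F, Through B1 𝔪 P → (D : Divisor K F) P = 0) := by
  classical
  obtain ⟨D0, rfl, hlev0, hlev1⟩ := hx
  have M := N.model
  obtain ⟨𝔫1, h𝔫1, hπ𝔫1, hon1⟩ := exists_point_on (π := π) (B := B0) M.le_O1_0 M.pi_nonunit1
  obtain ⟨𝔫2, h𝔫2, hπ𝔫2, hon2⟩ := exists_point_on (π := π) (B := B0) M.le_O2_0 M.pi_nonunit2
  set S0' : Finset (Ideal B0) := insert 𝔫1 (insert 𝔫2 S0) with hS0'def
  have hS0' : ∀ 𝔪 ∈ S0', 𝔪.IsMaximal ∧ algebraMap R B0 π ∈ 𝔪 := by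
    intro 𝔪 h𝔪
    rcases Finset.mem_insert.mp h𝔪 with rfl | h𝔪
    · exact ⟨h𝔫1, hπ𝔫1⟩
    rcases Finset.mem_insert.mp h𝔪 with rfl | h𝔪
    · exact ⟨h𝔫2, hπ𝔫2⟩
    exact hS0 𝔪 h𝔪
  have hsub : ∀ 𝔪 ∈ S0, 𝔪 ∈ S0' := fun 𝔪 h𝔪 =>
    Finset.mem_insert_of_mem (Finset.mem_insert_of_mem h𝔪)
  have hloc0 : ∀ 𝔪 ∈ S0', ∃ a, GenAt B0 𝔪 (divMod B0 O1 O2 (D0 : Divisor K F)) a := fun 𝔪 h𝔪 => by
    obtain ⟨hmax, hπ𝔪⟩ := hS0' 𝔪 h𝔪
    have := hmax.isPrime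
    obtain ⟨h, hh, hs1, hs2⟩ := hlev0 𝔪 hmax hπ𝔪
    exact ⟨h, genAt_of_levelAt (K := K) π t B0 O1 O2 M.t_mem N.noeth0 N.fracR N.dvrR M.pi_ne
      M.intcl0 M.int0 N.frac0 M.le_O1_0 M.le_O2_0 M.arch1 M.arch2 M.sat0 𝔪 hh hs1 hs2⟩
  have hloc1 : ∀ 𝔪 ∈ S1, ∃ a, GenAt B1 𝔪 (divMod B1 O1 O2 (D0 : Divisor K F)) a := fun 𝔪 h𝔪 => by
    obtain ⟨hmax, hπ𝔪, -⟩ := hS1 𝔪 h𝔪
    have := hmax.isPrime
    obtain ⟨h, hh, hs1, hs2⟩ := hlev1 𝔪 hmax hπ𝔪
    exact ⟨h, genAt_of_levelAt (K := K) π t⁻¹ B1 O1 O2 M.tinv_mem N.noeth1 N.fracR N.dvrR M.pi_ne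
      M.intcl1 M.int1 N.frac1 M.le_O1_1 M.le_O2_1 M.arch1 M.arch2 M.sat1 𝔪 hh hs1 hs2⟩
  obtain ⟨f, hf0, hf1⟩ := exists_genAt_two_charts t M.t_ne B0 B1 M.t_mem M.tinv_mem
    (divMod B0 O1 O2 (D0 : Divisor K F)) (divMod B1 O1 O2 (D0 : Divisor K F))
    (divMod_stable M.le_O1_0 M.le_O2_0) (divMod_stable M.le_O1_1 M.le_O2_1)
    (glue_divMod t M.t_ne M.t_mem M.le_O1_0 M.le_O2_0 M.ov0 (D0 : Divisor K F))
    (glue_divMod t⁻¹ (inv_ne_zero M.t_ne) M.tinv_mem M.le_O1_1 M.le_O2_1 M.ov1 (D0 : Divisor K F))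
    S0' S1 (fun 𝔪 h => (hS0' 𝔪 h).1) (fun 𝔪 h => (hS1 𝔪 h).1)
    (fun 𝔪 h => hfin 𝔪 (hS0' 𝔪 h).1 (hS0' 𝔪 h).2) (fun 𝔪 h => (hS1 𝔪 h).2.2) hloc0 hloc1
  -- `f` is a strict local equation at all points of `S0'` and `S1`
  have hfl0 : ∀ 𝔪 ∈ S0', IsLocEq B0 𝔪 (D0 : Divisor K F) f ∧ StrictOn π B0 O1 𝔪 0 f ∧
      StrictOn π B0 O2 𝔪 0 f := fun 𝔪 h𝔪 => by
    obtain ⟨hmax, hπ𝔪⟩ := hS0' 𝔪 h𝔪
    have := hmax.isPrime
    obtain ⟨h, hh, hs1, hs2⟩ := hlev0 𝔪 hmax hπ𝔪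
    exact levelAt_of_genAt (K := K) π t B0 O1 O2 M.t_mem N.noeth0 N.fracR N.dvrR M.pi_ne
      M.intcl0 M.int0 N.frac0 M.le_O1_0 M.le_O2_0 M.arch1 M.arch2 M.sat0 𝔪 M.unif1 M.unif2
      hh hs1 hs2 (hf0 𝔪 h𝔪)
  have hfl1 : ∀ 𝔪 ∈ S1, IsLocEq B1 𝔪 (D0 : Divisor K F) f ∧ StrictOn π B1 O1 𝔪 0 f ∧
      StrictOn π B1 O2 𝔪 0 f := fun 𝔪 h𝔪 => by
    obtain ⟨hmax, hπ𝔪, -⟩ := hS1 𝔪 h𝔪
    have := hmax.isPrime
    obtain ⟨h, hh, hs1, hs2⟩ := hlev1 𝔪 hmax hπ𝔪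
    exact levelAt_of_genAt (K := K) π t⁻¹ B1 O1 O2 M.tinv_mem N.noeth1 N.fracR N.dvrR M.pi_ne
      M.intcl1 M.int1 N.frac1 M.le_O1_1 M.le_O2_1 M.arch1 M.arch2 M.sat1 𝔪 M.unif1 M.unif2
      hh hs1 hs2 (hf1 𝔪 h𝔪)
  have h𝔫1mem : 𝔫1 ∈ S0' := Finset.mem_insert_self _ _
  have h𝔫2mem : 𝔫2 ∈ S0' := Finset.mem_insert_of_mem (Finset.mem_insert_self _ _)
  have hf_ne : f ≠ 0 := (hfl0 𝔫1 h𝔫1mem).1.1
  -- `f` is a unit of both Gauss rings
  have hu1 : f ≠ 0 ∧ f⁻¹ ∈ O1 ∧ ∃ c ∈ O1, f - 1 = algebraMap R F π ^ 0 * c := by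
    rcases (hfl0 𝔫1 h𝔫1mem).2.1 with hoff | hu
    · exact absurd hoff hon1
    · exact hu
  have hu2 : f ≠ 0 ∧ f⁻¹ ∈ O2 ∧ ∃ c ∈ O2, f - 1 = algebraMap R F π ^ 0 * c := by
    rcases (hfl0 𝔫2 h𝔫2mem).2.2 with hoff | hu
    · exact absurd hoff hon2
    · exact hu
  obtain ⟨Df, hDf, hdeg⟩ := HasPrincipalDivisors.exists_divisor (K := K) f hf_ne
  have hlev : ∀ B : Subalgebra R F, ChartLevel π B O1 O2 0 (D0 : Divisor K F) →
      ChartLevel π B O1 O2 0 ((D0 : Divisor K F) - Df) := by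
    intro B hB 𝔪 h𝔪 hπ𝔪
    obtain ⟨h, hh, hs1, hs2⟩ := hB 𝔪 h𝔪 hπ𝔪
    exact ⟨h / f, hh.div (IsLocEq.of_principal B 𝔪 hf_ne hDf), hs1.div hπ1 (Or.inr hu1),
      hs2.div hπ2 (Or.inr hu2)⟩
  refine ⟨D0 - ⟨Df, hdeg⟩, ?_, ⟨hlev B0 hlev0, hlev B1 hlev1⟩, fun 𝔪 h𝔪 P hP => ?_,
    fun 𝔪 h𝔪 P hP => ?_⟩
  · have h0 : Pic0.mk (⟨Df, hdeg⟩ : Divisor.degZero (K := K) (F := F)) = 0 :=
      (QuotientAddGroup.eq_zero_iff _).mpr (AddSubgroup.mem_addSubgroupOf.mpr ⟨f, hf_ne, hDf⟩)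
    have h1 : Pic0.mk (D0 - ⟨Df, hdeg⟩) = Pic0.mk D0 - Pic0.mk ⟨Df, hdeg⟩ := rfl
    rw [h1, h0, sub_zero]
  · have := (hfl0 𝔪 (hsub 𝔪 h𝔪)).1.2 P hP
    show ((D0 : Divisor K F) - Df) P = 0
    rw [Finsupp.sub_apply, hDf, this, sub_self]
  · have := (hfl1 𝔪 h𝔪).1.2 P hP
    show ((D0 : Divisor K F) - Df) P = 0
    rw [Finsupp.sub_apply, hDf, this, sub_self]

/-- **The moving lemma, general form**: `S1` an arbitrary finite set of closed points of the chart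
`B1` (those with `t` finite are moved to the chart `B0` by `contract`). -/
theorem exists_rep_avoiding_gen [HasPrincipalDivisors K F]
    (N : NodalNumData R K F π t B0 B1 O1 O2)
    {hπ1 : algebraMap R F π ∈ O1} {hπ2 : algebraMap R F π ∈ O2}
    (hfin0 : ∀ 𝔪 : Ideal B0, 𝔪.IsMaximal → algebraMap R B0 π ∈ 𝔪 →
      ∃ n : ℕ, 0 < n ∧ ∃ b ∈ 𝔪, (b : F) = t ^ (n + 1) - t)
    (hfin1 : ∀ 𝔪 : Ideal B1, 𝔪.IsMaximal → algebraMap R B1 π ∈ 𝔪 →
      ∃ n : ℕ, 0 < n ∧ ∃ b ∈ 𝔪, (b : F) = t⁻¹ ^ (n + 1) - t⁻¹)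
    (S0 : Finset (Ideal B0)) (S1 : Finset (Ideal B1))
    (hS0 : ∀ 𝔪 ∈ S0, 𝔪.IsMaximal ∧ algebraMap R B0 π ∈ 𝔪)
    (hS1 : ∀ 𝔪 ∈ S1, 𝔪.IsMaximal ∧ algebraMap R B1 π ∈ 𝔪)
    {x : Pic0 K F} (hx : x ∈ Cart π B0 B1 O1 O2 hπ1 hπ2 0) :
    ∃ D : Divisor.degZero (K := K) (F := F), Pic0.mk D = x ∧
      HasLevel π B0 B1 O1 O2 0 (D : Divisor K F) ∧
      (∀ 𝔪 ∈ S0, ∀ P : Place K F, Through B0 𝔪 P → (D : Divisor K F) P = 0) ∧
      (∀ 𝔪 ∈ S1, ∀ P : Place K F, Through B1 𝔪 P → (D : Divisor K F) P = 0) := by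
  classical
  have M := N.model
  set W : B1 := ⟨t⁻¹, M.tinv_mem⟩ with hW
  set S1inf : Finset (Ideal B1) := S1.filter (fun 𝔪 => W ∈ 𝔪) with hS1inf
  set S1fin : Finset (Ideal B1) := S1.filter (fun 𝔪 => W ∉ 𝔪) with hS1fin
  set S0' : Finset (Ideal B0) := S0 ∪ S1fin.image (contract t M.tinv_mem M.ov1) with hS0'def
  have hS0' : ∀ 𝔪 ∈ S0', 𝔪.IsMaximal ∧ algebraMap R B0 π ∈ 𝔪 := by
    intro 𝔪 h
    rcases Finset.mem_union.mp h with h | h
    · exact hS0 𝔪 h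
    · obtain ⟨𝔫, h𝔫, rfl⟩ := Finset.mem_image.mp h
      obtain ⟨h𝔫S, hW𝔫⟩ := Finset.mem_filter.mp h𝔫
      obtain ⟨hmax, hπ⟩ := hS1 𝔫 h𝔫S
      exact ⟨contract_isMaximal M.t_ne M.t_mem M.ov0 hmax hW𝔫 (hfin1 𝔫 hmax hπ),
        pi_mem_contract hπ⟩
  have hS1i : ∀ 𝔪 ∈ S1inf, 𝔪.IsMaximal ∧ algebraMap R B1 π ∈ 𝔪 ∧ ∃ b ∈ 𝔪, (b : F) = t⁻¹ := by
    intro 𝔪 h
    obtain ⟨hS, hW𝔪⟩ := Finset.mem_filter.mp h
    exact ⟨(hS1 𝔪 hS).1, (hS1 𝔪 hS).2, W, hW𝔪, rfl⟩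
  obtain ⟨D, hD, hlev, h0, h1⟩ := exists_rep_avoiding N hfin0 S0' S1inf hS0' hS1i hx
  refine ⟨D, hD, hlev, fun 𝔪 h𝔪 => h0 𝔪 (Finset.mem_union_left _ h𝔪), fun 𝔪 h𝔪 P hP => ?_⟩
  by_cases hW𝔪 : W ∈ 𝔪
  · exact h1 𝔪 (Finset.mem_filter.mpr ⟨h𝔪, hW𝔪⟩) P hP
  · have := (hS1 𝔪 h𝔪).1.isPrime
    exact h0 _ (Finset.mem_union_right _ (Finset.mem_image_of_mem _
      (Finset.mem_filter.mpr ⟨h𝔪, hW𝔪⟩))) P (through_contract M.t_ne M.t_mem hW𝔪 hP)

/-- **ORD representative.**  If the special fibre has finitely many nodes, every class of `Cart 0`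
has a representative of level `0` whose support avoids all the nodes. -/
theorem exists_ord_rep [HasPrincipalDivisors K F]
    (N : NodalNumData R K F π t B0 B1 O1 O2)
    {hπ1 : algebraMap R F π ∈ O1} {hπ2 : algebraMap R F π ∈ O2}
    (hfin0 : ∀ 𝔪 : Ideal B0, 𝔪.IsMaximal → algebraMap R B0 π ∈ 𝔪 →
      ∃ n : ℕ, 0 < n ∧ ∃ b ∈ 𝔪, (b : F) = t ^ (n + 1) - t)
    (hfin1 : ∀ 𝔪 : Ideal B1, 𝔪.IsMaximal → algebraMap R B1 π ∈ 𝔪 →
      ∃ n : ℕ, 0 < n ∧ ∃ b ∈ 𝔪, (b : F) = t⁻¹ ^ (n + 1) - t⁻¹)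
    (hnodes0 : {𝔪 : Ideal B0 | 𝔪.IsMaximal ∧ algebraMap R B0 π ∈ 𝔪 ∧ ¬ OffBranch π B0 O1 𝔪 ∧
      ¬ OffBranch π B0 O2 𝔪}.Finite)
    (hnodes1 : {𝔪 : Ideal B1 | 𝔪.IsMaximal ∧ algebraMap R B1 π ∈ 𝔪 ∧ ¬ OffBranch π B1 O1 𝔪 ∧
      ¬ OffBranch π B1 O2 𝔪}.Finite)
    {x : Pic0 K F} (hx : x ∈ Cart π B0 B1 O1 O2 hπ1 hπ2 0) :
    ∃ D : Divisor.degZero (K := K) (F := F), Pic0.mk D = x ∧
      HasLevel π B0 B1 O1 O2 0 (D : Divisor K F) ∧
      ∀ (B : Subalgebra R F) (𝔪 : Ideal B), Fermat.Agent.M1.Mon.WildPL43.IsNode π B0 B1 O1 O2 B 𝔪 →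
        ∀ P : Place K F, Through B 𝔪 P → (D : Divisor K F) P = 0 := by
  obtain ⟨D, hD, hlev, h0, h1⟩ := exists_rep_avoiding_gen N hfin0 hfin1 hnodes0.toFinset
    hnodes1.toFinset
    (fun 𝔪 h => by
      have := (Set.Finite.mem_toFinset _).mp h
      exact ⟨this.1, this.2.1⟩)
    (fun 𝔪 h => by
      have := (Set.Finite.mem_toFinset _).mp h
      exact ⟨this.1, this.2.1⟩) hx
  refine ⟨D, hD, hlev, fun B 𝔪 hs P hP => ?_⟩
  obtain ⟨hchart, hmax, hπ𝔪, hon1, hon2⟩ := hs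
  rcases hchart with rfl | rfl
  · exact h0 𝔪 ((Set.Finite.mem_toFinset _).mpr ⟨hmax, hπ𝔪, hon1, hon2⟩) P hP
  · exact h1 𝔪 ((Set.Finite.mem_toFinset _).mpr ⟨hmax, hπ𝔪, hon1, hon2⟩) P hP

end Main


end Fermat.Agent.M1.Car.Moving53
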