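/-
M1 (S44), chapter CAR (helper53): **the residue-field hypothesis `hfin` of the moving lemma
(`Car/Moving53`) from finiteness of the residue field of the base.**

For a chart `B ∋ t` integral over `R[t]`, a maximal ideal `𝔪 ∋ π` of `B`, and `R / π` a finite field,
the class of `t` in `B / 𝔪` is algebraic over `R / π`, hence `t ^ (n + 1) - t ∈ 𝔪` for some `n > 0`.

* `exists_pow_succ_eq_of_isIntegral` : an element of a field integral over a finite field satisfies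
  `x ^ (n + 1) = x` for some `n > 0`.
* `exists_pow_sub_mem_of_finite_base` : the chart statement.
* `hfin_of_numData` : both `hfin0` and `hfin1` of `Moving53.exists_ord_rep` for a `NodalNumData`
  with `R / π` finite.
* `exists_ord_rep_of_finite` : the moving lemma with `hfin0`, `hfin1` discharged.
-/
import Mathlib
import Fermat.Agent.M1.Car.Moving53
import Fermat.Agent.M1.Car.CentreFin99

set_option autoImplicit false
set_option linter.unusedSectionVars false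
set_option linter.unusedVariables false

namespace Fermat.Agent.M1.Car.ResidueFin53

open Polynomial AlgebraicCurve
open Fermat.Agent.ES.N34.NodalCore13 Fermat.Agent.ES.N34.NumData13
open Fermat.Agent.M1.Car.Defs43

/-- an element of a field which is integral over a finite field has finite multiplicative order
(or is zero). -/
theorem exists_pow_succ_eq_of_isIntegral {k L : Type*} [Field k] [Finite k] [Field L] [Algebra k L]
    {x : L} (hx : IsIntegral k x) : ∃ n : ℕ, 0 < n ∧ x ^ (n + 1) = x := by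
  by_cases hx0 : x = 0
  · exact ⟨1, one_pos, by rw [hx0]; simp⟩
  have hfg : Module.Finite k (Algebra.adjoin k {x}) :=
    Module.Finite.iff_fg.mpr hx.fg_adjoin_singleton
  have hfin : Finite (Algebra.adjoin k {x}) := Module.finite_of_finite k
  let f : ℕ → Algebra.adjoin k {x} := fun i =>
    ⟨x ^ i, pow_mem (Algebra.subset_adjoin (Set.mem_singleton x)) i⟩
  obtain ⟨a, b, hab, hfab⟩ := Finite.exists_ne_map_eq_of_infinite f
  have hpow : x ^ a = x ^ b := congrArg Subtype.val hfab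
  -- wlog a < b
  have key : ∀ a b : ℕ, a < b → x ^ a = x ^ b → ∃ n : ℕ, 0 < n ∧ x ^ (n + 1) = x := by
    intro a b hlt h
    obtain ⟨c, rfl⟩ := Nat.exists_eq_add_of_lt hlt
    refine ⟨c + 1, Nat.succ_pos c, ?_⟩
    have h1 : x ^ a * x ^ (c + 1) = x ^ a * 1 := by
      rw [mul_one, ← pow_add]
      have : a + (c + 1) = a + c + 1 := by ring
      rw [this]; exact h.symm
    have h2 : x ^ (c + 1) = 1 := mul_left_cancel₀ (pow_ne_zero a hx0) h1
    rw [pow_succ, h2, one_mul]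
  rcases lt_or_gt_of_ne hab with h | h
  · exact key a b h hpow
  · exact key b a h hpow.symm

section Chart

variable {R F : Type*} [CommRing R] [Field F] [Algebra R F]

/-- **`hfin` from a finite base residue field**, one chart. -/
theorem exists_pow_sub_mem_of_finite_base {π : R} {B : Subalgebra R F} {t : F} (ht : t ∈ B)
    (hint : ∀ x ∈ B, IsIntegral (Algebra.adjoin R {t}) x)
    (hπmax : (Ideal.span {π} : Ideal R).IsMaximal)
    [Finite (R ⧸ (Ideal.span {π} : Ideal R))]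
    (𝔪 : Ideal B) (h𝔪 : 𝔪.IsMaximal) (hπ𝔪 : algebraMap R B π ∈ 𝔪) :
    ∃ n : ℕ, 0 < n ∧ ∃ b ∈ 𝔪, (b : F) = t ^ (n + 1) - t := by
  classical
  set T : B := ⟨t, ht⟩ with hT
  -- it suffices to find `n` with `T ^ (n + 1) - T ∈ 𝔪`
  suffices hmain : ∃ n : ℕ, 0 < n ∧ T ^ (n + 1) - T ∈ 𝔪 by
    obtain ⟨n, hn, hmem⟩ := hmain
    exact ⟨n, hn, _, hmem, by push_cast; rfl⟩
  have hSB : Algebra.adjoin R {t} ≤ B := Algebra.adjoin_le (Set.singleton_subset_iff.mpr ht)
  let _ : Field (B ⧸ 𝔪) := Ideal.Quotient.field 𝔪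
  let _ : Field (R ⧸ (Ideal.span {π} : Ideal R)) := Ideal.Quotient.field _
  let _ : Algebra (Algebra.adjoin R {t}) B :=
    (Subalgebra.inclusion hSB : _ →ₐ[R] B).toRingHom.toAlgebra
  -- `B ⧸ 𝔪` is integral over `R[t]`
  have hintL : Algebra.IsIntegral (Algebra.adjoin R {t}) (B ⧸ 𝔪) := by
    refine ⟨fun l => ?_⟩
    obtain ⟨b, rfl⟩ := Ideal.Quotient.mk_surjective l
    have hb : IsIntegral (Algebra.adjoin R {t}) b :=
      Centre99.exists_monic_of_isIntegral hSB b.2 (hint b b.2)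
    exact hb.algebraMap
  -- the kernel of `R[t] → B ⧸ 𝔪` is maximal
  have hbot : (⊥ : Ideal (B ⧸ 𝔪)).IsMaximal := Ideal.bot_isMaximal
  have h𝔫 : ((⊥ : Ideal (B ⧸ 𝔪)).comap (algebraMap (Algebra.adjoin R {t}) (B ⧸ 𝔪))).IsMaximal :=
    Ideal.isMaximal_comap_of_isIntegral_of_isMaximal (R := Algebra.adjoin R {t}) ⊥
  set 𝔫 : Ideal (Algebra.adjoin R {t}) :=
    (⊥ : Ideal (B ⧸ 𝔪)).comap (algebraMap (Algebra.adjoin R {t}) (B ⧸ 𝔪)) with h𝔫def
  have hmem𝔫 : ∀ s : Algebra.adjoin R {t}, s ∈ 𝔫 ↔ (⟨(s : F), hSB s.2⟩ : B) ∈ 𝔪 := by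
    intro s
    rw [h𝔫def, Ideal.mem_comap, Ideal.mem_bot]
    show Ideal.Quotient.mk 𝔪 (algebraMap (Algebra.adjoin R {t}) B s) = 0 ↔ _
    rw [Ideal.Quotient.eq_zero_iff_mem]
    rfl
  set T' : Algebra.adjoin R {t} := ⟨t, Algebra.subset_adjoin (Set.mem_singleton t)⟩ with hT'
  by_cases hT𝔫 : T' ∈ 𝔫
  · -- `t ∈ 𝔪`
    have hT𝔪 : T ∈ 𝔪 := (hmem𝔫 T').mp hT𝔫
    refine ⟨1, one_pos, ?_⟩
    have : T ^ (1 + 1) - T = T * (T - 1) := by ring
    rw [this]; exact 𝔪.mul_mem_right _ hT𝔪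
  -- an inverse of `t` modulo `𝔫`, as a polynomial in `t`
  obtain ⟨s, i, hi, hsi⟩ := h𝔫.exists_inv hT𝔫
  have hs' : (s : F) ∈ (aeval (R := R) t).range := by
    rw [← Algebra.adjoin_singleton_eq_range_aeval]; exact s.2
  obtain ⟨Q, hQ⟩ := hs'
  -- `T * Q(T) - 1 ∈ 𝔪`
  have hrel : T * aeval T Q - 1 ∈ 𝔪 := by
    have hi' := (hmem𝔫 i).mp hi
    have e : T * aeval T Q - 1 = -(⟨(i : F), hSB i.2⟩ : B) := by
      apply Subtype.ext
      have h1 := congrArg (fun z : Algebra.adjoin R {t} => (z : F)) hsi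
      simp only [Subalgebra.coe_add, Subalgebra.coe_mul, Subalgebra.coe_one] at h1
      have h1' : (s : F) * t + (i : F) = 1 := h1
      have hQ' : aeval t Q = (s : F) := hQ
      push_cast
      show t * aeval t Q - 1 = -(i : F)
      rw [hQ']
      linear_combination h1'
    rw [e]; exact 𝔪.neg_mem hi'
  -- the `k`-algebra structure on `B ⧸ 𝔪`
  let φ : R →+* (B ⧸ 𝔪) := (Ideal.Quotient.mk 𝔪).comp (algebraMap R B)
  have hφ : ∀ a ∈ (Ideal.span {π} : Ideal R), φ a = 0 := by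
    intro a ha
    obtain ⟨c, rfl⟩ := Ideal.mem_span_singleton'.mp ha
    show (Ideal.Quotient.mk 𝔪) (algebraMap R B (c * π)) = 0
    rw [Ideal.Quotient.eq_zero_iff_mem, map_mul]
    exact 𝔪.mul_mem_left _ hπ𝔪
  let _ : Algebra (R ⧸ (Ideal.span {π} : Ideal R)) (B ⧸ 𝔪) :=
    (Ideal.Quotient.lift (Ideal.span {π}) φ hφ).toAlgebra
  have _ : IsScalarTower R (R ⧸ (Ideal.span {π} : Ideal R)) (B ⧸ 𝔪) :=
    IsScalarTower.of_algebraMap_eq (fun _ => rfl)
  -- `t̄` is algebraic over `k`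
  set tb : B ⧸ 𝔪 := Ideal.Quotient.mk 𝔪 T with htb
  set G : R[X] := X * Q - 1 with hG
  have hGt : aeval tb G = 0 := by
    have h1 : aeval tb G = (Ideal.Quotient.mkₐ R 𝔪) (aeval T G) :=
      aeval_algHom_apply (Ideal.Quotient.mkₐ R 𝔪) T G
    rw [h1]
    have h2 : aeval T G = T * aeval T Q - 1 := by
      rw [hG]; simp
    rw [h2]
    exact Ideal.Quotient.eq_zero_iff_mem.mpr hrel
  have halg : IsAlgebraic (R ⧸ (Ideal.span {π} : Ideal R)) tb := by
    refine ⟨G.map (algebraMap R (R ⧸ (Ideal.span {π} : Ideal R))), ?_, ?_⟩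
    · intro h0
      have hc := congrArg (fun p : (R ⧸ (Ideal.span {π} : Ideal R))[X] => p.coeff 0) h0
      simp only [coeff_map, coeff_zero] at hc
      have hG0 : G.coeff 0 = -1 := by
        rw [hG]; simp
      rw [hG0, map_neg, map_one] at hc
      exact one_ne_zero (neg_eq_zero.mp hc)
    · rw [aeval_map_algebraMap]; exact hGt
  obtain ⟨n, hn, hpow⟩ := exists_pow_succ_eq_of_isIntegral halg.isIntegral
  refine ⟨n, hn, ?_⟩
  rw [← Ideal.Quotient.eq_zero_iff_mem, map_sub, map_pow, ← htb, hpow, sub_self]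

end Chart

section Model

variable {R K F : Type*} [CommRing R] [Field K] [Field F] [Algebra R K] [Algebra K F]
  [Algebra R F] [IsScalarTower R K F]
variable {π : R} {t : F} {B0 B1 : Subalgebra R F} {O1 O2 : ValuationSubring F}

/-- `π` is not a unit of `R` in a nodal two-chart model. -/
theorem not_isUnit_pi (N : NodalNumData R K F π t B0 B1 O1 O2) : ¬ IsUnit π := by
  intro hu
  obtain ⟨u, hu⟩ := hu
  apply N.model.pi_nonunit1
  have h1 : algebraMap R F π * algebraMap R F (↑u⁻¹ : R) = 1 := by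
    rw [← map_mul, ← hu, Units.mul_inv, map_one]
  rw [inv_eq_of_mul_eq_one_right h1]
  exact N.model.le_O1_0 _ (B0.algebraMap_mem _)

/-- **Both residue-field hypotheses of the moving lemma** for a nodal two-chart model over a base
with finite residue field. -/
theorem hfin_of_numData (N : NodalNumData R K F π t B0 B1 O1 O2)
    [Finite (R ⧸ (Ideal.span {π} : Ideal R))] :
    (∀ 𝔪 : Ideal B0, 𝔪.IsMaximal → algebraMap R B0 π ∈ 𝔪 →
      ∃ n : ℕ, 0 < n ∧ ∃ b ∈ 𝔪, (b : F) = t ^ (n + 1) - t) ∧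
    (∀ 𝔪 : Ideal B1, 𝔪.IsMaximal → algebraMap R B1 π ∈ 𝔪 →
      ∃ n : ℕ, 0 < n ∧ ∃ b ∈ 𝔪, (b : F) = t⁻¹ ^ (n + 1) - t⁻¹) := by
  have hmax := CentreFin99.span_pi_isMaximal (not_isUnit_pi N) N.dvrR
  exact ⟨fun 𝔪 h𝔪 hπ𝔪 =>
      exists_pow_sub_mem_of_finite_base N.model.t_mem N.model.int0 hmax 𝔪 h𝔪 hπ𝔪,
    fun 𝔪 h𝔪 hπ𝔪 =>
      exists_pow_sub_mem_of_finite_base N.model.tinv_mem N.model.int1 hmax 𝔪 h𝔪 hπ𝔪⟩

/-- **ORD representative over a base with finite residue field** (`Moving53.exists_ord_rep` with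
`hfin0`, `hfin1` discharged). -/
theorem exists_ord_rep_of_finite [HasPrincipalDivisors K F]
    (N : NodalNumData R K F π t B0 B1 O1 O2) [Finite (R ⧸ (Ideal.span {π} : Ideal R))]
    {hπ1 : algebraMap R F π ∈ O1} {hπ2 : algebraMap R F π ∈ O2}
    (hnodes0 : {𝔪 : Ideal B0 | 𝔪.IsMaximal ∧ algebraMap R B0 π ∈ 𝔪 ∧ ¬ OffBranch π B0 O1 𝔪 ∧
      ¬ OffBranch π B0 O2 𝔪}.Finite)
    (hnodes1 : {𝔪 : Ideal B1 | 𝔪.IsMaximal ∧ algebraMap R B1 π ∈ 𝔪 ∧ ¬ OffBranch π B1 O1 𝔪 ∧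
      ¬ OffBranch π B1 O2 𝔪}.Finite)
    {x : Pic0 K F} (hx : x ∈ Cart π B0 B1 O1 O2 hπ1 hπ2 0) :
    ∃ D : Divisor.degZero (K := K) (F := F), Pic0.mk D = x ∧
      HasLevel π B0 B1 O1 O2 0 (D : Divisor K F) ∧
      ∀ (B : Subalgebra R F) (𝔪 : Ideal B), Fermat.Agent.M1.Mon.WildPL43.IsNode π B0 B1 O1 O2 B 𝔪 →
        ∀ P : Place K F, Through B 𝔪 P → (D : Divisor K F) P = 0 :=
  Moving53.exists_ord_rep N (hfin_of_numData N).1 (hfin_of_numData N).2 hnodes0 hnodes1 hx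

end Model

end Fermat.Agent.M1.Car.ResidueFin53
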