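/-
M1 (S44), chapter CAR (helper53): **the special fibre of a nodal two-chart model has finitely many
nodes** as soon as the two Gauss rings are different.

* `isMaximal_of_relation` : a prime `𝔮 ∋ π` of a chart `B ∋ t` (integral over `R[t]`) containing
  `G(t)` for some `G ∈ R[X]` which is nonzero modulo `π` is maximal.
* `isMaximal_of_branch_lt` : a prime strictly containing a branch ideal `𝔭_j = B ∩ π O_j` is maximal
  (the components of the special fibre are curves).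
* `finite_nodes_chart` : if `𝔭_1 ≠ 𝔭_2` the chart has finitely many nodes.
* `branchIdeal_ne_of_ne` : `O1 ≠ O2 ⟹ 𝔭_1 ≠ 𝔭_2` (`O_j = B_{𝔭_j}`).
* `finite_nodes_of_numData` : both hypotheses `hnodes0`, `hnodes1` of `Moving53.exists_ord_rep`.
* `exists_ord_rep_of_ne` : the ORD representative with all hypotheses discharged but `O1 ≠ O2` and
  `R / π` finite.
-/
import Mathlib
import Fermat.Agent.M1.Car.ResidueFin53
import Fermat.Agent.M1.Fib.Branch98

set_option autoImplicit false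
set_option linter.unusedSectionVars false
set_option linter.unusedVariables false

namespace Fermat.Agent.M1.Car.NodeFin53

open Polynomial AlgebraicCurve
open Fermat.Agent.ES.N34.NodalCore13 Fermat.Agent.ES.N34.NumData13
open Fermat.Agent.M1.Car.Defs43 Fermat.Agent.M1.Fib.Branch98

section Chart

variable {R F : Type*} [CommRing R] [Field F] [Algebra R F]

/-- **A prime of the chart containing `π` and a relation `G(t)`, `G ≢ 0 mod π`, is maximal.** -/
theorem isMaximal_of_relation {π : R} {B : Subalgebra R F} {t : F} (ht : t ∈ B)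
    (hint : ∀ x ∈ B, IsIntegral (Algebra.adjoin R {t}) x)
    (hπmax : (Ideal.span {π} : Ideal R).IsMaximal)
    (𝔮 : Ideal B) [h𝔮 : 𝔮.IsPrime] (hπ𝔮 : algebraMap R B π ∈ 𝔮)
    (G : R[X]) (hG0 : G.map (Ideal.Quotient.mk (Ideal.span {π} : Ideal R)) ≠ 0)
    (hG : aeval (⟨t, ht⟩ : B) G ∈ 𝔮) : 𝔮.IsMaximal := by
  classical
  set T : B := ⟨t, ht⟩ with hT
  have hSB : Algebra.adjoin R {t} ≤ B := Algebra.adjoin_le (Set.singleton_subset_iff.mpr ht)
  have hle : Ideal.span {π} ≤ 𝔮.comap (algebraMap R B) := by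
    rw [Ideal.span_singleton_le_iff_mem]
    exact hπ𝔮
  let _ : Field (R ⧸ (Ideal.span {π} : Ideal R)) := Ideal.Quotient.field _
  let _ : Algebra (R ⧸ (Ideal.span {π} : Ideal R)) (B ⧸ 𝔮) :=
    Ideal.Quotient.algebraQuotientOfLEComap hle
  have hmap : ∀ r : R, algebraMap (R ⧸ (Ideal.span {π} : Ideal R)) (B ⧸ 𝔮)
      (Ideal.Quotient.mk _ r) = Ideal.Quotient.mk 𝔮 (algebraMap R B r) := fun r => rfl
  have hc : (algebraMap (R ⧸ (Ideal.span {π} : Ideal R)) (B ⧸ 𝔮)).comp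
      (Ideal.Quotient.mk _) = (Ideal.Quotient.mk 𝔮).comp (algebraMap R B) := by
    ext r; exact hmap r
  have : IsDomain (B ⧸ 𝔮) := Ideal.Quotient.isDomain 𝔮
  set ρ : B →+* (B ⧸ 𝔮) := Ideal.Quotient.mk 𝔮 with hρ
  -- the class of `t` is algebraic over `k`
  have htalg : IsAlgebraic (R ⧸ (Ideal.span {π} : Ideal R)) (ρ T) := by
    refine ⟨G.map (Ideal.Quotient.mk _), hG0, ?_⟩
    rw [Polynomial.aeval_def, Polynomial.eval₂_map, hc, ← Polynomial.hom_eval₂,
      Ideal.Quotient.eq_zero_iff_mem]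
    have : G.eval₂ (algebraMap R B) T = aeval T G := rfl
    rw [this]; exact hG
  let A₀ : Subalgebra (R ⧸ (Ideal.span {π} : Ideal R)) (B ⧸ 𝔮) :=
    Algebra.adjoin (R ⧸ (Ideal.span {π} : Ideal R)) {ρ T}
  have hA₀ : Algebra.IsIntegral (R ⧸ (Ideal.span {π} : Ideal R)) A₀ :=
    Algebra.IsIntegral.adjoin (fun x hx => by
      rw [Set.mem_singleton_iff] at hx
      rw [hx]
      exact htalg.isIntegral)
  -- the image of `R[t]` lies in `A₀`
  have hSA : ∀ s (hs : s ∈ Algebra.adjoin R {t}), ρ ⟨s, hSB hs⟩ ∈ A₀ := by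
    intro s hs
    induction hs using Algebra.adjoin_induction with
    | mem x hx =>
      rw [Set.mem_singleton_iff] at hx
      subst hx
      exact Algebra.subset_adjoin (Set.mem_singleton _)
    | algebraMap r =>
      have h1 : (⟨algebraMap R F r, hSB (Subalgebra.algebraMap_mem _ r)⟩ : B) = algebraMap R B r :=
        rfl
      rw [h1, hρ, ← hmap]
      exact A₀.algebraMap_mem _
    | add x y hx hy hx' hy' =>
      have h1 : (⟨x + y, hSB (add_mem hx hy)⟩ : B) = ⟨x, hSB hx⟩ + ⟨y, hSB hy⟩ := rfl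
      rw [h1, map_add]
      exact A₀.add_mem hx' hy'
    | mul x y hx hy hx' hy' =>
      have h1 : (⟨x * y, hSB (mul_mem hx hy)⟩ : B) = ⟨x, hSB hx⟩ * ⟨y, hSB hy⟩ := rfl
      rw [h1, map_mul]
      exact A₀.mul_mem hx' hy'
  let ψS : (Algebra.adjoin R {t}) →+* A₀ :=
    (ρ.comp (Subalgebra.inclusion hSB : _ →ₐ[R] B).toRingHom).codRestrict A₀.toSubring
      (fun s => hSA s.1 s.2)
  have hint' : Algebra.IsIntegral (R ⧸ (Ideal.span {π} : Ideal R)) (B ⧸ 𝔮) := by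
    refine ⟨fun x => ?_⟩
    obtain ⟨b, rfl⟩ := Ideal.Quotient.mk_surjective x
    have hb := Centre99.exists_monic_of_isIntegral hSB b.2 (hint b b.2)
    have h1 : IsIntegral A₀ (ρ b) :=
      Centre99.isIntegral_of_monic_eval₂ (Subalgebra.inclusion hSB : _ →ₐ[R] B).toRingHom ρ ψS
        (by ext s; rfl) hb
    exact isIntegral_trans (R := R ⧸ (Ideal.span {π} : Ideal R)) (A := A₀) _ h1
  exact Ideal.Quotient.maximal_of_isField 𝔮
    (isField_of_isIntegral_of_isField' (R := R ⧸ (Ideal.span {π} : Ideal R))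
      (Field.toIsField (R ⧸ (Ideal.span {π} : Ideal R))))

/-- a polynomial which vanishes modulo `π` takes its values in every ideal containing `π`. -/
theorem aeval_mem_of_map_eq_zero {π : R} {B : Subalgebra R F} (I : Ideal B)
    (hπI : algebraMap R B π ∈ I) (T : B) (G : R[X])
    (hG0 : G.map (Ideal.Quotient.mk (Ideal.span {π} : Ideal R)) = 0) : aeval T G ∈ I := by
  rw [Polynomial.aeval_eq_sum_range]
  refine I.sum_mem fun i _ => ?_
  have hci : G.coeff i ∈ (Ideal.span {π} : Ideal R) := by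
    have h1 : (G.map (Ideal.Quotient.mk (Ideal.span {π} : Ideal R))).coeff i = 0 := by
      rw [hG0, Polynomial.coeff_zero]
    rw [Polynomial.coeff_map] at h1
    exact Ideal.Quotient.eq_zero_iff_mem.mp h1
  obtain ⟨c, hc⟩ := Ideal.mem_span_singleton'.mp hci
  rw [Algebra.smul_def, ← hc, map_mul, mul_assoc]
  exact I.mul_mem_left _ (I.mul_mem_right _ hπI)

/-- **The components of the special fibre are curves**: a prime of the chart strictly containing
a prime `𝔭 ∋ π` is maximal. -/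
theorem isMaximal_of_lt {π : R} {B : Subalgebra R F} {t : F} (ht : t ∈ B)
    (hint : ∀ x ∈ B, IsIntegral (Algebra.adjoin R {t}) x)
    (hπmax : (Ideal.span {π} : Ideal R).IsMaximal)
    (𝔭 𝔮 : Ideal B) [h𝔭 : 𝔭.IsPrime] [h𝔮 : 𝔮.IsPrime] (hπ𝔭 : algebraMap R B π ∈ 𝔭)
    (hle : 𝔭 ≤ 𝔮) {b₀ : B} (hb₀𝔮 : b₀ ∈ 𝔮) (hb₀𝔭 : b₀ ∉ 𝔭) : 𝔮.IsMaximal := by
  classical
  have hSB : Algebra.adjoin R {t} ≤ B := Algebra.adjoin_le (Set.singleton_subset_iff.mpr ht)
  let _ : Algebra (Algebra.adjoin R {t}) B :=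
    (Subalgebra.inclusion hSB : _ →ₐ[R] B).toRingHom.toAlgebra
  have hb₀int : IsIntegral (Algebra.adjoin R {t}) b₀ :=
    Centre99.exists_monic_of_isIntegral hSB b₀.2 (hint b₀ b₀.2)
  have hlt := Ideal.comap_lt_comap_of_integral_mem_sdiff hle ⟨hb₀𝔮, hb₀𝔭⟩ hb₀int
  obtain ⟨s, hs𝔮, hs𝔭⟩ := SetLike.exists_of_lt hlt
  rw [Ideal.mem_comap] at hs𝔮 hs𝔭
  have hs' : (s : F) ∈ (aeval (R := R) t).range := by
    rw [← Algebra.adjoin_singleton_eq_range_aeval]; exact s.2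
  obtain ⟨G, hGs⟩ := hs'
  have hGs' : aeval (⟨t, ht⟩ : B) G = algebraMap (Algebra.adjoin R {t}) B s := by
    apply Subtype.ext
    have h1 : ((aeval (⟨t, ht⟩ : B) G : B) : F) = aeval t G := by
      have := (aeval_algHom_apply B.val (⟨t, ht⟩ : B) G).symm
      exact this
    rw [h1]
    exact hGs
  refine isMaximal_of_relation ht hint hπmax 𝔮 (hle hπ𝔭) G ?_ (by rw [hGs']; exact hs𝔮)
  intro hG0
  apply hs𝔭
  rw [← hGs']
  exact aeval_mem_of_map_eq_zero 𝔭 hπ𝔭 _ G hG0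

variable {π : R} {B : Subalgebra R F} {O1 O2 : ValuationSubring F}

/-- **Finitely many nodes on a chart** whose two branch ideals are different. -/
theorem finite_nodes_chart {t : F} (ht : t ∈ B) (noethB : IsNoetherianRing B)
    (hint : ∀ x ∈ B, IsIntegral (Algebra.adjoin R {t}) x)
    (hπmax : (Ideal.span {π} : Ideal R).IsMaximal)
    (hG1 : IsGauss π O1) (hG2 : IsGauss π O2)
    (hle1 : ∀ x ∈ B, x ∈ O1) (hle2 : ∀ x ∈ B, x ∈ O2)
    (hne : branchIdeal π B O1 hle1 ≠ branchIdeal π B O2 hle2) :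
    {𝔪 : Ideal B | 𝔪.IsMaximal ∧ algebraMap R B π ∈ 𝔪 ∧ ¬ OffBranch π B O1 𝔪 ∧
      ¬ OffBranch π B O2 𝔪}.Finite := by
  classical
  have hp1 := branchIdeal_isPrime hG1 hle1
  have hp2 := branchIdeal_isPrime hG2 hle2
  refine (Ideal.finite_minimalPrimes_of_isNoetherianRing B
    (branchIdeal π B O1 hle1 ⊔ branchIdeal π B O2 hle2)).subset ?_
  rintro 𝔪 ⟨h𝔪, hπ𝔪, hon1, hon2⟩
  have h1 := (not_offBranch_iff hle1 𝔪).mp hon1
  have h2 := (not_offBranch_iff hle2 𝔪).mp hon2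
  have h𝔪p : 𝔪.IsPrime := h𝔪.isPrime
  obtain ⟨𝔮, h𝔮min, h𝔮𝔪⟩ := Ideal.exists_minimalPrimes_le (sup_le h1 h2)
  have h𝔮p : 𝔮.IsPrime := h𝔮min.1.1
  have h𝔮le : branchIdeal π B O1 hle1 ⊔ branchIdeal π B O2 hle2 ≤ 𝔮 := h𝔮min.1.2
  have h𝔮max : 𝔮.IsMaximal := by
    -- one of the two inclusions between the branch ideals fails
    by_cases h21 : branchIdeal π B O2 hle2 ≤ branchIdeal π B O1 hle1
    · have h12 : ¬ branchIdeal π B O1 hle1 ≤ branchIdeal π B O2 hle2 :=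
        fun h12 => hne (le_antisymm h12 h21)
      obtain ⟨b, hb1, hb2⟩ := SetLike.not_le_iff_exists.mp h12
      exact isMaximal_of_lt ht hint hπmax (branchIdeal π B O2 hle2) 𝔮 (pi_mem_branchIdeal hle2)
        (le_trans le_sup_right h𝔮le) (h𝔮le (Ideal.mem_sup_left hb1)) hb2
    · obtain ⟨b, hb2, hb1⟩ := SetLike.not_le_iff_exists.mp h21
      exact isMaximal_of_lt ht hint hπmax (branchIdeal π B O1 hle1) 𝔮 (pi_mem_branchIdeal hle1)
        (le_trans le_sup_left h𝔮le) (h𝔮le (Ideal.mem_sup_right hb2)) hb1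
  have : 𝔮 = 𝔪 := h𝔮max.eq_of_le h𝔪p.ne_top h𝔮𝔪
  rw [← this]
  exact h𝔮min

end Chart

section Distinct

variable {R F : Type*} [CommRing R] [Field F] [Algebra R F]
variable {π : R} {B : Subalgebra R F} {O1 O2 : ValuationSubring F}

/-- an element of `B` in `π O1 ∩ π O2` is `π` times an element of `B`. -/
theorem exists_eq_pi_mul (hG1 : IsGauss π O1)
    (sat : ∀ b ∈ B, ∀ c : F, c ∈ O1 → c ∈ O2 → b = algebraMap R F π * c → c ∈ B)
    {b : F} (hb : b ∈ B) (h1 : PiMem π O1 b) (h2 : PiMem π O2 b) :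
    ∃ c ∈ B, b = algebraMap R F π * c := by
  obtain ⟨c, hc1, hc2, hbc⟩ := (piO_iff hG1.pi_ne).2 ⟨h1, h2⟩
  exact ⟨c, sat b hb c hc1 hc2 hbc, hbc⟩

/-- if the two branch ideals coincide, every nonzero element of `B` is a power of `π` times an
element of `B` outside the branch ideal. -/
theorem exists_pow_mul_not_piMem (hG1 : IsGauss π O1)
    (hle1 : ∀ x ∈ B, x ∈ O1) (hle2 : ∀ x ∈ B, x ∈ O2)
    (sat : ∀ b ∈ B, ∀ c : F, c ∈ O1 → c ∈ O2 → b = algebraMap R F π * c → c ∈ B)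
    (heq : branchIdeal π B O1 hle1 = branchIdeal π B O2 hle2) :
    ∀ (k : ℕ) (b : F), b ∈ B → b ≠ 0 → algebraMap R F π ^ k * b⁻¹ ∈ O1 →
      ∃ (m : ℕ) (b' : F), b' ∈ B ∧ ¬ PiMem π O1 b' ∧ b = algebraMap R F π ^ m * b' := by
  intro k
  induction k with
  | zero =>
    intro b hb hb0 hk
    rw [pow_zero, one_mul] at hk
    refine ⟨0, b, hb, fun hpi => hG1.inv_notMem_of_piMem hpi hb0 hk, by simp⟩
  | succ k ih =>
    intro b hb hb0 hk
    by_cases hpi : PiMem π O1 b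
    · have hpi2 : PiMem π O2 b := by
        have h1 : (⟨b, hb⟩ : B) ∈ branchIdeal π B O1 hle1 := hpi
        rw [heq] at h1
        exact h1
      obtain ⟨c, hcB, hbc⟩ := exists_eq_pi_mul hG1 sat hb hpi hpi2
      have hc0 : c ≠ 0 := by
        rintro rfl
        exact hb0 (by rw [hbc, mul_zero])
      have hk' : algebraMap R F π ^ k * c⁻¹ ∈ O1 := by
        have : algebraMap R F π ^ k * c⁻¹ = algebraMap R F π ^ (k + 1) * b⁻¹ := by
          rw [hbc, mul_inv, pow_succ]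
          have := hG1.pi_ne
          field_simp
        rw [this]; exact hk
      obtain ⟨m, b', hb'B, hb'pi, hcb'⟩ := ih c hcB hc0 hk'
      exact ⟨m + 1, b', hb'B, hb'pi, by rw [hbc, hcb', pow_succ]; ring⟩
    · exact ⟨0, b, hb, hpi, by simp⟩

/-- if the two branch ideals coincide, `B ∩ π ^ m O1 = π ^ m B`. -/
theorem exists_eq_pow_mul (hG1 : IsGauss π O1)
    (hle1 : ∀ x ∈ B, x ∈ O1) (hle2 : ∀ x ∈ B, x ∈ O2)
    (sat : ∀ b ∈ B, ∀ c : F, c ∈ O1 → c ∈ O2 → b = algebraMap R F π * c → c ∈ B)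
    (heq : branchIdeal π B O1 hle1 = branchIdeal π B O2 hle2) :
    ∀ (m : ℕ) (a : F), a ∈ B → (∃ c ∈ O1, a = algebraMap R F π ^ m * c) →
      ∃ a' ∈ B, a = algebraMap R F π ^ m * a' := by
  intro m
  induction m with
  | zero =>
    intro a ha _
    exact ⟨a, ha, by simp⟩
  | succ m ih =>
    rintro a ha ⟨c, hc, hac⟩
    have hpi : PiMem π O1 a :=
      ⟨algebraMap R F π ^ m * c, O1.mul_mem _ _ (pow_mem hG1.pi_mem m) hc, by rw [hac, pow_succ]; ring⟩
    have hpi2 : PiMem π O2 a := by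
      have h1 : (⟨a, ha⟩ : B) ∈ branchIdeal π B O1 hle1 := hpi
      rw [heq] at h1
      exact h1
    obtain ⟨a₁, ha₁B, haa₁⟩ := exists_eq_pi_mul hG1 sat ha hpi hpi2
    have ha₁ : a₁ = algebraMap R F π ^ m * c := by
      apply mul_left_cancel₀ hG1.pi_ne
      rw [← haa₁, hac, pow_succ]; ring
    obtain ⟨a', ha'B, ha'⟩ := ih a₁ ha₁B ⟨c, hc, ha₁⟩
    exact ⟨a', ha'B, by rw [haa₁, ha', pow_succ]; ring⟩

/-- if the two branch ideals of a chart with `Frac B = F` coincide then `O1 ≤ O2`. -/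
theorem le_of_branchIdeal_eq (hG1 : IsGauss π O1) (hG2 : IsGauss π O2)
    (hle1 : ∀ x ∈ B, x ∈ O1) (hle2 : ∀ x ∈ B, x ∈ O2)
    (frac : ∀ x : F, ∃ a ∈ B, ∃ b ∈ B, b ≠ 0 ∧ x * b = a)
    (sat : ∀ b ∈ B, ∀ c : F, c ∈ O1 → c ∈ O2 → b = algebraMap R F π * c → c ∈ B)
    (heq : branchIdeal π B O1 hle1 = branchIdeal π B O2 hle2) : ∀ x ∈ O1, x ∈ O2 := by
  intro x hx
  obtain ⟨a, ha, b, hb, hb0, hab⟩ := frac x
  obtain ⟨k, hk⟩ := hG1.arch b⁻¹
  obtain ⟨m, b', hb'B, hb'pi, hbb'⟩ := exists_pow_mul_not_piMem hG1 hle1 hle2 sat heq k b hb hb0 hk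
  have hpm : algebraMap R F π ^ m ≠ 0 := pow_ne_zero _ hG1.pi_ne
  have hb'0 : b' ≠ 0 := by
    rintro rfl
    exact hb0 (by rw [hbb', mul_zero])
  obtain ⟨a', ha'B, haa'⟩ := exists_eq_pow_mul hG1 hle1 hle2 sat heq m a ha
    ⟨x * b', O1.mul_mem _ _ hx (hle1 _ hb'B), by rw [← hab, hbb']; ring⟩
  have hxa : x * b' = a' := by
    apply mul_left_cancel₀ hpm
    rw [← haa', ← hab, hbb']; ring
  have hb'pi2 : ¬ PiMem π O2 b' := by
    intro h2
    apply hb'pi
    have h1 : (⟨b', hb'B⟩ : B) ∈ branchIdeal π B O2 hle2 := h2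
    rw [← heq] at h1
    exact h1
  have hinv : b'⁻¹ ∈ O2 := hG2.inv_mem_of_not_piMem (hle2 _ hb'B) hb'pi2
  have : x = a' * b'⁻¹ := by rw [← hxa]; field_simp
  rw [this]
  exact O2.mul_mem _ _ (hle2 _ ha'B) hinv

/-- **Different Gauss rings have different branch ideals.** -/
theorem branchIdeal_ne_of_ne (hG1 : IsGauss π O1) (hG2 : IsGauss π O2)
    (hle1 : ∀ x ∈ B, x ∈ O1) (hle2 : ∀ x ∈ B, x ∈ O2)
    (frac : ∀ x : F, ∃ a ∈ B, ∃ b ∈ B, b ≠ 0 ∧ x * b = a)
    (sat : ∀ b ∈ B, ∀ c : F, c ∈ O1 → c ∈ O2 → b = algebraMap R F π * c → c ∈ B)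
    (hne : O1 ≠ O2) : branchIdeal π B O1 hle1 ≠ branchIdeal π B O2 hle2 := by
  intro heq
  apply hne
  apply le_antisymm
  · exact fun x hx => le_of_branchIdeal_eq hG1 hG2 hle1 hle2 frac sat heq x hx
  · exact fun x hx => le_of_branchIdeal_eq hG2 hG1 hle2 hle1 frac
      (fun b hb c hc2 hc1 hbc => sat b hb c hc1 hc2 hbc) heq.symm x hx

end Distinct

section Model

variable {R K F : Type*} [CommRing R] [Field K] [Field F] [Algebra R K] [Algebra K F]
  [Algebra R F] [IsScalarTower R K F]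
variable {π : R} {t : F} {B0 B1 : Subalgebra R F} {O1 O2 : ValuationSubring F}

/-- **A nodal two-chart model with `O1 ≠ O2` has finitely many nodes** (the hypotheses `hnodes0`,
`hnodes1` of `Moving53.exists_ord_rep`). -/
theorem finite_nodes_of_numData (N : NodalNumData R K F π t B0 B1 O1 O2) (hne : O1 ≠ O2) :
    {𝔪 : Ideal B0 | 𝔪.IsMaximal ∧ algebraMap R B0 π ∈ 𝔪 ∧ ¬ OffBranch π B0 O1 𝔪 ∧
      ¬ OffBranch π B0 O2 𝔪}.Finite ∧
    {𝔪 : Ideal B1 | 𝔪.IsMaximal ∧ algebraMap R B1 π ∈ 𝔪 ∧ ¬ OffBranch π B1 O1 𝔪 ∧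
      ¬ OffBranch π B1 O2 𝔪}.Finite := by
  have M := N.model
  have hG1 := isGauss1 M
  have hG2 := isGauss2 M
  have hmax := CentreFin99.span_pi_isMaximal (ResidueFin53.not_isUnit_pi N) N.dvrR
  exact ⟨finite_nodes_chart M.t_mem N.noeth0 M.int0 hmax hG1 hG2 M.le_O1_0 M.le_O2_0
      (branchIdeal_ne_of_ne hG1 hG2 M.le_O1_0 M.le_O2_0 N.frac0 M.sat0 hne),
    finite_nodes_chart M.tinv_mem N.noeth1 M.int1 hmax hG1 hG2 M.le_O1_1 M.le_O2_1
      (branchIdeal_ne_of_ne hG1 hG2 M.le_O1_1 M.le_O2_1 N.frac1 M.sat1 hne)⟩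

/-- **ORD representative, all model hypotheses discharged**: on a nodal two-chart model with
`O1 ≠ O2` over a base with finite residue field, every class of `Cart 0` has a representative of
level `0` whose support avoids all the nodes. -/
theorem exists_ord_rep_of_ne [HasPrincipalDivisors K F]
    (N : NodalNumData R K F π t B0 B1 O1 O2) [Finite (R ⧸ (Ideal.span {π} : Ideal R))]
    (hne : O1 ≠ O2)
    {hπ1 : algebraMap R F π ∈ O1} {hπ2 : algebraMap R F π ∈ O2}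
    {x : Pic0 K F} (hx : x ∈ Cart π B0 B1 O1 O2 hπ1 hπ2 0) :
    ∃ D : Divisor.degZero (K := K) (F := F), Pic0.mk D = x ∧
      HasLevel π B0 B1 O1 O2 0 (D : Divisor K F) ∧
      ∀ (B : Subalgebra R F) (𝔪 : Ideal B), Fermat.Agent.M1.Mon.WildPL43.IsNode π B0 B1 O1 O2 B 𝔪 →
        ∀ P : Place K F, Through B 𝔪 P → (D : Divisor K F) P = 0 :=
  ResidueFin53.exists_ord_rep_of_finite N (finite_nodes_of_numData N hne).1
    (finite_nodes_of_numData N hne).2 hx

end Model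

end Fermat.Agent.M1.Car.NodeFin53
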