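/-
M1 (S44), chapter CAR (helper43): **dictionary, Čech ⇒ adelic**.

helper60's Pic2 calculus (`Pic2/Defs60`) describes line bundles on the two-chart model by pairs
`P = (I₀, I₁)` of fractional ideals of the charts (`LinePair`), and the depth filtration by
trivialisations `(g₀, g₁)` with `g₁ - g₀ ∈ ϖ ^ n I₀₁` (`IsTriv ϖ n P g₀ g₁`, `Level ϖ n P`).
`Car/Defs43` describes it by divisors with local equations congruent to `1` modulo `ϖ ^ n` on the
components (`HasLevel`, `Cart n`).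

Here: if the pair `P` represents the divisor `D` (`Represents π P D`: near the special fibre of the
chart `i`, `D` is the divisor of the fractional ideal `I_i`) and `P` has level `n`, then the class of `D`
lies in `Cart n`: the divisor `D + div g₀` has the local equations `1` on the chart `0` and `g₀ / g₁`
on the chart `1`.
-/
import Mathlib
import Fermat.Agent.X0.FFPlace
import Fermat.Agent.M1.Car.Defs43
import Fermat.Agent.M1.Node.Thick25
import Fermat.Agent.M1.Pic2.Defs60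
import Fermat.Agent.M1.Mon.WildPL43

set_option autoImplicit false

namespace Fermat.Agent.M1.Car.CechToAdelic43

open AlgebraicCurve Fermat.Agent.ES.N34.NodalCore13 Fermat.Agent.M1.Car.Defs43
  Fermat.Agent.M1.Node.Thick25 Fermat.Agent.M1.Pic2.Defs60 Fermat.Agent.X0.FF

variable {R K F : Type*} [CommRing R] [Field K] [Field F] [Algebra K F] [Algebra R F]

/-- Near the special fibre of the chart `B`, the divisor `D` is the divisor of the fractional ideal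
`I`: `D(v) = - min {ord_v z | z ∈ I}` for every place `v` through a closed point of the chart
lying over `π`.  (Every place has its centre on one of the two charts, so a pair of fractional
ideals determines the divisor it represents.) -/
def RepresentsOn (π : R) (B : Subalgebra R F) (I : Submodule R F) (D : Divisor K F) : Prop :=
  ∀ 𝔪 : Ideal B, 𝔪.IsMaximal → algebraMap R B π ∈ 𝔪 → ∀ v : Place K F, Through B 𝔪 v →
    (∀ z ∈ I, z ≠ 0 → -D v ≤ v.ord z) ∧ ∃ z ∈ I, z ≠ 0 ∧ v.ord z = -D v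

/-- The pair `P` represents the divisor `D`. -/
def Represents (π : R) {B0 B1 B01 : Subalgebra R F} (P : LinePair B0 B1 B01)
    (D : Divisor K F) : Prop :=
  RepresentsOn π B0 P.I0 D ∧ RepresentsOn π B1 P.I1 D

/-- A unit of `O_v` has order `0`. -/
theorem ord_eq_zero_of_unit (v : Place K F) {w : F} (h1 : w ∈ v.toValuationSubring)
    (h2 : w⁻¹ ∈ v.toValuationSubring) : v.ord w = 0 := by
  have a1 := ffp_ord_nonneg_of_mem v h1
  have a2 := ffp_ord_nonneg_of_mem v h2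
  rw [v.ord_inv] at a2
  omega

/-- A generator modulo `π` generates at every closed point of the special fibre of the chart:
its order at a place through the point is minimal on `I`. -/
theorem Gen.ord_le {π : R} {B : Subalgebra R F} {I : Submodule R F} {g : F}
    (hG : Gen B I (algebraMap R F π) g) {𝔪 : Ideal B} (h𝔪 : 𝔪 ≠ ⊤) (hπ𝔪 : algebraMap R B π ∈ 𝔪)
    {v : Place K F} (hv : Through B 𝔪 v) :
    g ≠ 0 ∧ ∀ z ∈ I, z ≠ 0 → v.ord g ≤ v.ord z := by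
  obtain ⟨-, w, hw, b, hb, hgw⟩ := hG
  -- `g w = 1 + π b ∈ B ∖ 𝔪`
  set u : B := 1 + algebraMap R B π * ⟨b, hb⟩ with hu
  have huF : (u : F) = g * w := by
    rw [hu]; push_cast
    linear_combination -hgw
  have hu𝔪 : u ∉ 𝔪 := by
    intro hmem
    apply h𝔪
    rw [Ideal.eq_top_iff_one]
    have : (1 : B) = u - algebraMap R B π * ⟨b, hb⟩ := by rw [hu]; ring
    rw [this]
    exact 𝔪.sub_mem hmem (𝔪.mul_mem_right _ hπ𝔪)
  have hu1 : (u : F) ∈ v.toValuationSubring := hv.1 u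
  have hu2 : ((u : F))⁻¹ ∈ v.toValuationSubring := hv.2 u hu𝔪
  have hu0 : (u : F) ≠ 0 := by
    intro h0
    rw [h0, inv_zero] at hu2
    apply hu𝔪
    have : u = 0 := Subtype.ext h0
    rw [this]; exact 𝔪.zero_mem
  have hg0 : g ≠ 0 := by
    rintro rfl
    exact hu0 (by rw [huF, zero_mul])
  have hw0 : w ≠ 0 := by
    rintro rfl
    exact hu0 (by rw [huF, mul_zero])
  refine ⟨hg0, fun z hz hz0 => ?_⟩
  have hwz : w * z ∈ v.toValuationSubring := hv.1 ⟨w * z, hw z hz⟩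
  have e1 : z * (u : F) = g * (w * z) := by rw [huF]; ring
  have hord : v.ord z + v.ord (u : F) = v.ord g + v.ord (w * z) := by
    rw [← v.ord_mul hz0 hu0, ← v.ord_mul hg0 (mul_ne_zero hw0 hz0), e1]
  rw [ord_eq_zero_of_unit v hu1 hu2, add_zero] at hord
  have := ffp_ord_nonneg_of_mem v hwz
  omega

/-- If `I` is represented by `D` on the chart and `g` generates `I` modulo `π`, then
`D(v) = - ord_v g` at the places through the closed points of the special fibre. -/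
theorem RepresentsOn.eq_neg_ord {π : R} {B : Subalgebra R F} {I : Submodule R F} {g : F}
    {D : Divisor K F} (hD : RepresentsOn π B I D) (hG : Gen B I (algebraMap R F π) g)
    {𝔪 : Ideal B} (h𝔪 : 𝔪.IsMaximal) (hπ𝔪 : algebraMap R B π ∈ 𝔪) {v : Place K F}
    (hv : Through B 𝔪 v) : D v = -v.ord g := by
  obtain ⟨hg0, hmin⟩ := Gen.ord_le hG h𝔪.ne_top hπ𝔪 hv
  obtain ⟨h1, z, hz, hz0, hzv⟩ := hD 𝔪 h𝔪 hπ𝔪 v hv
  have a1 := h1 g hG.1 hg0
  have a2 := hmin z hz hz0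
  omega

/-- A generator modulo `ϖ` divides every element of `I` in the Gauss ring `O_j ⊇ B`. -/
theorem Gen.exists_eq_mul {ϖ : F} {B : Subalgebra R F} {I : Submodule R F} {g : F}
    (hG : Gen B I ϖ g) {Oj : ValuationSubring F} (hu : IsUnifOf Oj ϖ) (hϖ : ϖ ∈ Oj)
    (hB : ∀ b ∈ B, b ∈ Oj) : ∀ z ∈ I, ∃ c ∈ Oj, z = g * c := by
  obtain ⟨-, w, hw, b, hb, hgw⟩ := hG
  have hgw' : g * w = 1 + ϖ * b := by linear_combination hgw
  have hinv : (g * w)⁻¹ ∈ Oj := by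
    rw [hgw']
    exact Mon.WildPL43.one_add_inv_mem hu hϖ (hB b hb)
  have hgw0 : g * w ≠ 0 := by
    intro h0
    have h1 : (1 : F) + ϖ * b = 0 := by rw [← hgw', h0]
    apply hu.nonunit
    have hϖ0 := hu.ne_zero
    have h2 : ϖ * (-b) = 1 := by linear_combination -h1
    have : ϖ⁻¹ = -b := (eq_inv_of_mul_eq_one_right h2).symm
    rw [this]
    exact Oj.neg_mem _ (hB b hb)
  intro z hz
  refine ⟨(w * z) * (g * w)⁻¹, Oj.mul_mem _ _ (hB _ (hw z hz)) hinv, ?_⟩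
  have : g * (w * z * (g * w)⁻¹) = z * ((g * w) * (g * w)⁻¹) := by ring
  rw [this, mul_inv_cancel₀ hgw0, mul_one]

/-- The same over the overlap: every element of `B₀₁ I` is divisible by `g` in `O_j`. -/
theorem Gen.exists_eq_mul_overlap {ϖ : F} {B B01 : Subalgebra R F} {I : Submodule R F} {g : F}
    (hG : Gen B I ϖ g) {Oj : ValuationSubring F} (hu : IsUnifOf Oj ϖ) (hϖ : ϖ ∈ Oj)
    (hB : ∀ b ∈ B, b ∈ Oj) (hB01 : ∀ b ∈ B01, b ∈ Oj) :
    ∀ z ∈ sm B01 * I, ∃ c ∈ Oj, z = g * c := by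
  intro z hz
  refine Submodule.mul_induction_on hz ?_ ?_
  · intro m hm n hn
    obtain ⟨c, hc, rfl⟩ := Gen.exists_eq_mul hG hu hϖ hB n hn
    exact ⟨m * c, Oj.mul_mem _ _ (hB01 m hm) hc, by ring⟩
  · rintro x y ⟨c, hc, rfl⟩ ⟨c', hc', rfl⟩
    exact ⟨c + c', Oj.add_mem _ _ hc hc', by ring⟩

variable {π : R} {B0 B1 B01 : Subalgebra R F} {O1 O2 : ValuationSubring F}

/-- The branch part: `g₀ / g₁` is strict of level `n` on the component `j`. -/
theorem strictOn_div_of_isTriv {n : ℕ} {P : LinePair B0 B1 B01} {g0 g1 : F}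
    (hT : IsTriv (algebraMap R F π) n P g0 g1) {Oj : ValuationSubring F}
    (hu : IsUnifOf Oj (algebraMap R F π)) (hϖ : algebraMap R F π ∈ Oj)
    (h0 : ∀ b ∈ B0, b ∈ Oj) (h1 : ∀ b ∈ B1, b ∈ Oj) (h01 : ∀ b ∈ B01, b ∈ Oj)
    (hg0 : g0 ≠ 0) (hg1 : g1 ≠ 0) (B : Subalgebra R F) (𝔪 : Ideal B) :
    StrictOn π B Oj 𝔪 n (g0 / g1) := by
  obtain ⟨hG0, hG1, hd⟩ := hT
  obtain ⟨i, hi, hdi⟩ := mem_scale.mp hd
  obtain ⟨c0, hc0, hic0⟩ := Gen.exists_eq_mul_overlap hG0 hu hϖ h0 h01 i hi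
  obtain ⟨c1, hc1, hic1⟩ := Gen.exists_eq_mul_overlap hG1 hu hϖ h1 h01 i (P.I01_eq' ▸ hi)
  refine Or.inr ⟨div_ne_zero hg0 hg1, ?_, -c1, Oj.neg_mem _ hc1, ?_⟩
  · have : (g0 / g1)⁻¹ = 1 + algebraMap R F π ^ n * c0 := by
      rw [inv_div, div_eq_iff hg0]
      have : g1 = g0 + algebraMap R F π ^ n * i := by rw [hdi]; ring
      rw [this, hic0]; ring
    rw [this]
    exact Oj.add_mem _ _ Oj.one_mem (Oj.mul_mem _ _ (pow_mem hϖ n) hc0)
  · have : g0 = g1 - algebraMap R F π ^ n * i := by rw [hdi]; ring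
    rw [this, hic1]
    field_simp
    ring

/-- **Čech ⇒ adelic.**  If the pair `P` represents the degree-zero divisor `D` and admits a
trivialisation of level `n`, then `[D] ∈ Cart n`. -/
theorem mem_cart_of_level [HasPrincipalDivisors K F]
    {hπ1 : algebraMap R F π ∈ O1} {hπ2 : algebraMap R F π ∈ O2}
    (hu1 : IsUnifOf O1 (algebraMap R F π)) (hu2 : IsUnifOf O2 (algebraMap R F π))
    (h0_1 : ∀ b ∈ B0, b ∈ O1) (h0_2 : ∀ b ∈ B0, b ∈ O2)
    (h1_1 : ∀ b ∈ B1, b ∈ O1) (h1_2 : ∀ b ∈ B1, b ∈ O2)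
    (h01_1 : ∀ b ∈ B01, b ∈ O1) (h01_2 : ∀ b ∈ B01, b ∈ O2)
    (hne0 : ∃ 𝔪 : Ideal B0, 𝔪.IsMaximal ∧ algebraMap R B0 π ∈ 𝔪)
    (hne1 : ∃ 𝔪 : Ideal B1, 𝔪.IsMaximal ∧ algebraMap R B1 π ∈ 𝔪)
    {n : ℕ} (P : LinePair B0 B1 B01) (D : Divisor.degZero (K := K) (F := F))
    (hrep : Represents π P (D : Divisor K F)) (hlev : Level (algebraMap R F π) n P) :
    Pic0.mk D ∈ Cart π B0 B1 O1 O2 hπ1 hπ2 n := by
  obtain ⟨g0, g1, hT⟩ := hlev
  have hG0 := hT.1
  have hG1 := hT.2.1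
  -- `g₀, g₁ ≠ 0` because the special fibres of the charts are non-empty
  have hg0 : g0 ≠ 0 := by
    obtain ⟨𝔪, h𝔪, hπ𝔪⟩ := hne0
    obtain ⟨-, w, -, b, hb, hgw⟩ := hG0
    rintro rfl
    apply h𝔪.ne_top
    rw [Ideal.eq_top_iff_one]
    have : (1 : B0) = -(algebraMap R B0 π * ⟨b, hb⟩) := by
      apply Subtype.ext
      push_cast
      linear_combination -hgw
    rw [this]
    exact 𝔪.neg_mem (𝔪.mul_mem_right _ hπ𝔪)
  have hg1 : g1 ≠ 0 := by
    obtain ⟨𝔪, h𝔪, hπ𝔪⟩ := hne1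
    obtain ⟨-, w, -, b, hb, hgw⟩ := hG1
    rintro rfl
    apply h𝔪.ne_top
    rw [Ideal.eq_top_iff_one]
    have : (1 : B1) = -(algebraMap R B1 π * ⟨b, hb⟩) := by
      apply Subtype.ext
      push_cast
      linear_combination -hgw
    rw [this]
    exact 𝔪.neg_mem (𝔪.mul_mem_right _ hπ𝔪)
  obtain ⟨Dg, hDg, hdeg⟩ := HasPrincipalDivisors.exists_divisor (K := K) g0 hg0
  refine ⟨D + ⟨Dg, hdeg⟩, ?_, ?_, ?_⟩
  · rw [Pic0.mk_add]
    have : Pic0.mk (⟨Dg, hdeg⟩ : Divisor.degZero (K := K) (F := F)) = 0 :=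
      (QuotientAddGroup.eq_zero_iff _).mpr (AddSubgroup.mem_addSubgroupOf.mpr ⟨g0, hg0, hDg⟩)
    rw [this, add_zero]
  · -- chart `0`: local equation `1`
    intro 𝔪 h𝔪 hπ𝔪
    refine ⟨1, ⟨one_ne_zero, fun v hv => ?_⟩, StrictOn.one n, StrictOn.one n⟩
    have := hrep.1.eq_neg_ord hG0 h𝔪 hπ𝔪 hv
    show v.ord 1 = ((D : Divisor K F) + Dg) v
    rw [Finsupp.add_apply, this, hDg, v.ord_one]; ring
  · -- chart `1`: local equation `g₀ / g₁`
    intro 𝔪 h𝔪 hπ𝔪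
    refine ⟨g0 / g1, ⟨div_ne_zero hg0 hg1, fun v hv => ?_⟩,
      strictOn_div_of_isTriv hT hu1 hπ1 h0_1 h1_1 h01_1 hg0 hg1 B1 𝔪,
      strictOn_div_of_isTriv hT hu2 hπ2 h0_2 h1_2 h01_2 hg0 hg1 B1 𝔪⟩
    have := hrep.2.eq_neg_ord hG1 h𝔪 hπ𝔪 hv
    show v.ord (g0 / g1) = ((D : Divisor K F) + Dg) v
    rw [Finsupp.add_apply, this, hDg, div_eq_mul_inv, v.ord_mul hg0 (inv_ne_zero hg1), v.ord_inv]
    ring

/-- The Čech depth filtration: classes of degree-zero divisors represented by a pair of level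
`n`. -/
def CechLevel (π : R) (B0 B1 B01 : Subalgebra R F) (n : ℕ) : Set (Pic0 K F) :=
  {x | ∃ (P : LinePair B0 B1 B01) (D : Divisor.degZero (K := K) (F := F)),
    Pic0.mk D = x ∧ Represents π P (D : Divisor K F) ∧ Level (algebraMap R F π) n P}

/-- **Čech ⇒ adelic**, set form: the Čech filtration is contained in the adelic one. -/
theorem cechLevel_subset_cart [HasPrincipalDivisors K F]
    {hπ1 : algebraMap R F π ∈ O1} {hπ2 : algebraMap R F π ∈ O2}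
    (hu1 : IsUnifOf O1 (algebraMap R F π)) (hu2 : IsUnifOf O2 (algebraMap R F π))
    (h0_1 : ∀ b ∈ B0, b ∈ O1) (h0_2 : ∀ b ∈ B0, b ∈ O2)
    (h1_1 : ∀ b ∈ B1, b ∈ O1) (h1_2 : ∀ b ∈ B1, b ∈ O2)
    (h01_1 : ∀ b ∈ B01, b ∈ O1) (h01_2 : ∀ b ∈ B01, b ∈ O2)
    (hne0 : ∃ 𝔪 : Ideal B0, 𝔪.IsMaximal ∧ algebraMap R B0 π ∈ 𝔪)
    (hne1 : ∃ 𝔪 : Ideal B1, 𝔪.IsMaximal ∧ algebraMap R B1 π ∈ 𝔪) (n : ℕ) :
    CechLevel (K := K) π B0 B1 B01 n ⊆
      ((Cart (K := K) π B0 B1 O1 O2 hπ1 hπ2 n : AddSubgroup (Pic0 K F)) : Set (Pic0 K F)) := by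
  rintro x ⟨P, D, rfl, hrep, hlev⟩
  exact mem_cart_of_level hu1 hu2 h0_1 h0_2 h1_1 h1_2 h01_1 h01_2 hne0 hne1 P D hrep hlev

end Fermat.Agent.M1.Car.CechToAdelic43
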