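/-
M1 (S44), chapter CAR (helper43): **dictionary, adelic ⇒ Čech** (the reverse of
`Car/CechToAdelic43`).

For a divisor `D` of `F / K` and a chart `B` of the model, `secs B O1 O2 D` is the module of
sections of `O(D)` over the chart: functions without vertical poles whose horizontal poles on the
chart are bounded by `D`.  If `D` has level `n ≥ 1` on the chart (local equations `h_𝔪` at the closed
points over `π`, congruent to `1` modulo `π ^ n` on the branches), then there is a GLOBAL section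
`g ∈ secs B O1 O2 D` with `g h_𝔪 ≡ 1 mod π ^ n B_𝔪` at every closed point (`exists_global`): the
ideal of the `b ∈ B` that are congruent to a section is contained in no maximal ideal.
Consequently the pair `(secs B0 D, secs B1 D)` is a `LinePair` representing `D`, of `Level n`.
-/
import Mathlib
import Fermat.Agent.X0.FFPlace
import Fermat.Agent.X0.FFDict
import Fermat.Agent.M1.Car.Defs43
import Fermat.Agent.M1.Node.Thick25
import Fermat.Agent.M1.Pic2.Defs60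
import Fermat.Agent.M1.Mon.WildPL43
import Fermat.Agent.M1.Car.CechToAdelic43

set_option autoImplicit false

namespace Fermat.Agent.M1.Car.AdelicToCech43

open AlgebraicCurve Fermat.Agent.ES.N34.NodalCore13 Fermat.Agent.M1.Car.Defs43
  Fermat.Agent.M1.Node.Thick25 Fermat.Agent.M1.Pic2.Defs60 Fermat.Agent.X0.FF
  Fermat.Agent.M1.Mon.WildPL43 Fermat.Agent.M1.Car.CechToAdelic43

variable {R K F : Type*} [CommRing R] [Field K] [Field F] [Algebra K F] [Algebra R F]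

/-! ### Sections of `O(D)` over a chart -/

/-- The place `v` lies over the chart `B` (its generic point is a point of the generic fibre of the
chart). -/
def Over (B : Subalgebra R F) (v : Place K F) : Prop := ∀ b ∈ B, b ∈ v.toValuationSubring

theorem Through.over {B : Subalgebra R F} {𝔪 : Ideal B} {v : Place K F} (hv : Through B 𝔪 v) :
    Over B v := fun b hb => hv.1 ⟨b, hb⟩

/-- `ord` of a product with possibly vanishing factors: a lower bound. -/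
theorem le_ord_mul (v : Place K F) {x y : F} (hxy : x * y ≠ 0) :
    v.ord x + v.ord y = v.ord (x * y) :=
  (v.ord_mul (left_ne_zero_of_mul hxy) (right_ne_zero_of_mul hxy)).symm

/-- The sections of `O(D)` over the chart `B`: no vertical poles (in the `B`-stable form
`B z ⊆ O_j`), horizontal poles on the chart bounded by `D`. -/
def secs (B : Subalgebra R F) (O1 O2 : ValuationSubring F) (D : Divisor K F) : Submodule R F where
  carrier := {z | (∀ b ∈ B, b * z ∈ O1) ∧ (∀ b ∈ B, b * z ∈ O2) ∧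
    ∀ v : Place K F, Over B v → z ≠ 0 → -D v ≤ v.ord z}
  zero_mem' := ⟨fun b _ => by rw [mul_zero]; exact O1.zero_mem,
    fun b _ => by rw [mul_zero]; exact O2.zero_mem, fun v _ h => absurd rfl h⟩
  add_mem' := by
    rintro x y ⟨hx1, hx2, hxv⟩ ⟨hy1, hy2, hyv⟩
    refine ⟨fun b hb => by rw [mul_add]; exact O1.add_mem _ _ (hx1 b hb) (hy1 b hb),
      fun b hb => by rw [mul_add]; exact O2.add_mem _ _ (hx2 b hb) (hy2 b hb), fun v hv hxy => ?_⟩
    rcases eq_or_ne x 0 with rfl | hx0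
    · rw [zero_add] at hxy ⊢; exact hyv v hv hxy
    rcases eq_or_ne y 0 with rfl | hy0
    · rw [add_zero] at hxy ⊢; exact hxv v hv hxy
    have := ord_add_ge v hxy
    have h1 := hxv v hv hx0
    have h2 := hyv v hv hy0
    exact le_trans (le_min h1 h2) this
  smul_mem' := by
    rintro r x ⟨hx1, hx2, hxv⟩
    refine ⟨fun b hb => ?_, fun b hb => ?_, fun v hv hrx => ?_⟩
    · rw [Algebra.smul_def, ← mul_assoc]
      exact hx1 _ (B.mul_mem hb (B.algebraMap_mem r))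
    · rw [Algebra.smul_def, ← mul_assoc]
      exact hx2 _ (B.mul_mem hb (B.algebraMap_mem r))
    · rw [Algebra.smul_def] at hrx ⊢
      rw [← le_ord_mul v hrx]
      have h1 := hxv v hv (right_ne_zero_of_mul hrx)
      have h2 := ffp_ord_nonneg_of_mem v (hv _ (B.algebraMap_mem r))
      omega

variable {B : Subalgebra R F} {O1 O2 : ValuationSubring F}

theorem mem_secs {D : Divisor K F} {z : F} :
    z ∈ secs B O1 O2 D ↔ (∀ b ∈ B, b * z ∈ O1) ∧ (∀ b ∈ B, b * z ∈ O2) ∧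
      ∀ v : Place K F, Over B v → z ≠ 0 → -D v ≤ v.ord z := Iff.rfl

theorem secs_mem1 {D : Divisor K F} {z : F} (hz : z ∈ secs B O1 O2 D) : z ∈ O1 := by
  have := hz.1 1 B.one_mem
  rwa [one_mul] at this

theorem secs_mem2 {D : Divisor K F} {z : F} (hz : z ∈ secs B O1 O2 D) : z ∈ O2 := by
  have := hz.2.1 1 B.one_mem
  rwa [one_mul] at this

/-- `secs` is stable under the chart. -/
theorem secs_stable {D : Divisor K F} {b z : F} (hb : b ∈ B) (hz : z ∈ secs B O1 O2 D) :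
    b * z ∈ secs B O1 O2 D := by
  obtain ⟨h1, h2, hv⟩ := hz
  refine ⟨fun b' hb' => by rw [← mul_assoc]; exact h1 _ (B.mul_mem hb' hb),
    fun b' hb' => by rw [← mul_assoc]; exact h2 _ (B.mul_mem hb' hb), fun v hov hbz => ?_⟩
  rw [← le_ord_mul v hbz]
  have a1 := hv v hov (right_ne_zero_of_mul hbz)
  have a2 := ffp_ord_nonneg_of_mem v (hov b hb)
  omega

/-- Membership criterion when `B ⊆ O_j`. -/
theorem mem_secs_of (le1 : ∀ x ∈ B, x ∈ O1) (le2 : ∀ x ∈ B, x ∈ O2) {D : Divisor K F} {z : F}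
    (h1 : z ∈ O1) (h2 : z ∈ O2) (hv : ∀ v : Place K F, Over B v → z ≠ 0 → -D v ≤ v.ord z) :
    z ∈ secs B O1 O2 D :=
  ⟨fun b hb => O1.mul_mem _ _ (le1 b hb) h1, fun b hb => O2.mul_mem _ _ (le2 b hb) h2, hv⟩

/-! ### Local rings -/

theorem InLocal.mul {𝔪 : Ideal B} [h𝔪 : 𝔪.IsPrime] {w w' : F}
    (hw : InLocal B 𝔪 w) (hw' : InLocal B 𝔪 w') : InLocal B 𝔪 (w * w') := by
  obtain ⟨a, d, hd, h⟩ := hw
  obtain ⟨a', d', hd', h'⟩ := hw'
  refine ⟨a * a', d * d', fun hh => (h𝔪.mem_or_mem hh).elim hd hd', ?_⟩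
  push_cast
  rw [← h, ← h']; ring

/-- An element of `B_𝔪` lies in `O_j` for every branch `j` through `𝔪`. -/
theorem InLocal.mem_branch {π : R} {𝔪 : Ideal B} {Oj : ValuationSubring F}
    (hu : IsUnifOf Oj (algebraMap R F π)) (le : ∀ x ∈ B, x ∈ Oj)
    (hon : ¬ OffBranch π B Oj 𝔪) {c : F} (hc : InLocal B 𝔪 c) : c ∈ Oj := by
  obtain ⟨a, d, hd, had⟩ := hc
  have hdO : (d : F) ∈ Oj := le _ d.2
  have hdinv : ((d : F))⁻¹ ∈ Oj := by
    by_contra hnot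
    obtain ⟨c', hc', hdc⟩ := hu.unif _ hdO hnot
    exact hon ⟨d, hd, c', hc', hdc⟩
  have hd0 : (d : F) ≠ 0 := by
    intro h0
    apply hd
    have : d = 0 := Subtype.ext h0
    rw [this]; exact 𝔪.zero_mem
  have : c = (a : F) * ((d : F))⁻¹ := by
    rw [← had]; field_simp
  rw [this]
  exact Oj.mul_mem _ _ (le _ a.2) hdinv

/-- `1 + π ^ n c`, `c ∈ B_𝔪`, `n ≥ 1`, is a unit at every place through `𝔪`. -/
theorem ord_one_add_eq_zero {π : R} {𝔪 : Ideal B} (h𝔪 : 𝔪.IsMaximal)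
    (hπ𝔪 : algebraMap R B π ∈ 𝔪) {n : ℕ} (hn : 1 ≤ n) {c : F} (hc : InLocal B 𝔪 c)
    {v : Place K F} (hv : Through B 𝔪 v) : v.ord (1 + algebraMap R F π ^ n * c) = 0 := by
  have hp := h𝔪.isPrime
  obtain ⟨a, d, hd, had⟩ := hc
  set u : B := d + algebraMap R B π ^ n * a with hu
  have hu𝔪 : u ∉ 𝔪 := by
    intro hmem
    apply hd
    have : d = u - algebraMap R B π ^ n * a := by rw [hu]; ring
    rw [this]
    exact 𝔪.sub_mem hmem (𝔪.mul_mem_right _ (𝔪.pow_mem_of_mem hπ𝔪 n (by omega)))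
  have hd0 : (d : F) ≠ 0 := by
    intro h0
    apply hd
    have : d = 0 := Subtype.ext h0
    rw [this]; exact 𝔪.zero_mem
  have huF : (u : F) = (1 + algebraMap R F π ^ n * c) * (d : F) := by
    rw [hu]; push_cast
    have : ((algebraMap R B π : B) : F) = algebraMap R F π := rfl
    rw [add_mul, one_mul, mul_assoc, had]
  have e : 1 + algebraMap R F π ^ n * c = (u : F) * ((d : F))⁻¹ := by
    rw [huF]; field_simp
  rw [e]
  apply ord_eq_zero_of_unit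
  · exact v.toValuationSubring.mul_mem _ _ (hv.1 u) (hv.2 d hd)
  · rw [mul_inv, inv_inv]
    exact v.toValuationSubring.mul_mem _ _ (hv.2 u hu𝔪) (hv.1 d)

/-! ### Prime avoidance -/

/-- An element of the chart outside `𝔪` vanishing to order `≥ m` at finitely many given places not
through `𝔪`. -/
theorem exists_avoid {𝔪 : Ideal B} [h𝔪 : 𝔪.IsPrime] (S : Finset (Place K F)) (m : ℕ) :
    ∃ d : B, d ∉ 𝔪 ∧ ∀ v ∈ S, Over B v → ¬ Through B 𝔪 v → (m : ℤ) ≤ v.ord (d : F) := by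
  classical
  induction S using Finset.induction_on with
  | empty => exact ⟨1, fun h => h𝔪.ne_top ((Ideal.eq_top_iff_one 𝔪).mpr h), fun v hv => by simp at hv⟩
  | insert v S hvS ih =>
    obtain ⟨d, hd, hdS⟩ := ih
    have hd0 : (d : F) ≠ 0 := by
      intro h0
      apply hd
      have : d = 0 := Subtype.ext h0
      rw [this]; exact 𝔪.zero_mem
    by_cases hcase : Over B v ∧ ¬ Through B 𝔪 v
    · obtain ⟨hov, hnt⟩ := hcase
      -- an element of `B ∖ 𝔪` which is not a unit at `v`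
      have : ∃ b : B, b ∉ 𝔪 ∧ ((b : F))⁻¹ ∉ v.toValuationSubring := by
        by_contra hcon
        push_neg at hcon
        exact hnt ⟨fun b => hov _ b.2, fun b hb => hcon b hb⟩
      obtain ⟨b, hb, hbv⟩ := this
      have hb0 : (b : F) ≠ 0 := by
        intro h0
        apply hb
        have : b = 0 := Subtype.ext h0
        rw [this]; exact 𝔪.zero_mem
      have hbpos : 1 ≤ v.ord (b : F) := by
        have h1 := ffp_ord_nonneg_of_mem v (hov _ b.2)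
        by_contra hlt
        have h0 : v.ord (b : F) = 0 := by omega
        apply hbv
        apply ffp_mem_of_ord_nonneg
        rw [v.ord_inv, h0, neg_zero]
      refine ⟨d * b ^ m, fun hmem => ?_, fun w hw how hwt => ?_⟩
      · rcases h𝔪.mem_or_mem hmem with h | h
        · exact hd h
        · exact hb (h𝔪.mem_of_pow_mem m h)
      · have hpow0 : ((b : F)) ^ m ≠ 0 := pow_ne_zero m hb0
        have e : ((d * b ^ m : B) : F) = (d : F) * (b : F) ^ m := by push_cast; rfl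
        rw [e, w.ord_mul hd0 hpow0, ord_pow]
        rcases Finset.mem_insert.mp hw with rfl | hwS
        · have h1 := ffp_ord_nonneg_of_mem w (how _ d.2)
          nlinarith
        · have h1 := hdS w hwS how hwt
          have h2 := ffp_ord_nonneg_of_mem w (how _ b.2)
          nlinarith
    · refine ⟨d, hd, fun w hw how hwt => ?_⟩
      rcases Finset.mem_insert.mp hw with rfl | hwS
      · exact absurd ⟨how, hwt⟩ hcase
      · exact hdS w hwS how hwt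

/-! ### The frame of one chart -/

/-- The facts about one chart `B` of the model used by the local-to-global argument (all supplied
by NODE / FIB for the nodal two-chart model). -/
structure LocFrame (π : R) (B : Subalgebra R F) (O1 O2 : ValuationSubring F) : Prop where
  unif1 : IsUnifOf O1 (algebraMap R F π)
  unif2 : IsUnifOf O2 (algebraMap R F π)
  le1 : ∀ x ∈ B, x ∈ O1
  le2 : ∀ x ∈ B, x ∈ O2
  arch1 : ∀ x : F, ∃ k : ℕ, algebraMap R F π ^ k * x ∈ O1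
  arch2 : ∀ x : F, ∃ k : ℕ, algebraMap R F π ^ k * x ∈ O2
  /-- local saturation -/
  sat : ∀ 𝔪 : Ideal B, 𝔪.IsMaximal → algebraMap R B π ∈ 𝔪 → ∀ w : F, InLocal B 𝔪 w →
    (OffBranch π B O1 𝔪 ∨ ∃ c ∈ O1, w = algebraMap R F π * c) →
    (OffBranch π B O2 𝔪 ∨ ∃ c ∈ O2, w = algebraMap R F π * c) →
    ∃ w', InLocal B 𝔪 w' ∧ w = algebraMap R F π * w'
  /-- Hartogs at a closed point -/
  hart : ∀ 𝔪 : Ideal B, 𝔪.IsMaximal → algebraMap R B π ∈ 𝔪 → ∀ w : F, w ≠ 0 →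
    (∀ P : Place K F, Through B 𝔪 P → 0 ≤ P.ord w) →
    (OffBranch π B O1 𝔪 ∨ w ∈ O1) → (OffBranch π B O2 𝔪 ∨ w ∈ O2) → InLocal B 𝔪 w
  /-- Hartogs on the whole chart -/
  glob : ∀ x : F, x ∈ O1 → x ∈ O2 → (∀ v : Place K F, Over B v → x ≠ 0 → 0 ≤ v.ord x) → x ∈ B
  /-- each component meets the special fibre of the chart -/
  meet1 : ∃ 𝔪 : Ideal B, 𝔪.IsMaximal ∧ algebraMap R B π ∈ 𝔪 ∧ ¬ OffBranch π B O1 𝔪
  meet2 : ∃ 𝔪 : Ideal B, 𝔪.IsMaximal ∧ algebraMap R B π ∈ 𝔪 ∧ ¬ OffBranch π B O2 𝔪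

namespace LocFrame

variable {π : R}

theorem pi_mem1 (L : LocFrame (K := K) π B O1 O2) : algebraMap R F π ∈ O1 :=
  L.le1 _ (B.algebraMap_mem π)

theorem pi_mem2 (L : LocFrame (K := K) π B O1 O2) : algebraMap R F π ∈ O2 :=
  L.le2 _ (B.algebraMap_mem π)

/-- Iterated local saturation. -/
theorem sat_pow (L : LocFrame (K := K) π B O1 O2) {𝔪 : Ideal B} (h𝔪 : 𝔪.IsMaximal)
    (hπ𝔪 : algebraMap R B π ∈ 𝔪) :
    ∀ (m : ℕ) (z : F), InLocal B 𝔪 (algebraMap R F π ^ m * z) →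
      (OffBranch π B O1 𝔪 ∨ z ∈ O1) → (OffBranch π B O2 𝔪 ∨ z ∈ O2) → InLocal B 𝔪 z := by
  intro m
  induction m with
  | zero => intro z hz _ _; simpa using hz
  | succ m ih =>
    intro z hz h1 h2
    have hp0 : algebraMap R F π ≠ 0 := L.unif1.ne_zero
    have e : algebraMap R F π ^ (m + 1) * z = algebraMap R F π * (algebraMap R F π ^ m * z) := by
      ring
    obtain ⟨w', hw', hww⟩ := L.sat 𝔪 h𝔪 hπ𝔪 _ hz
      (h1.imp id fun hz1 => ⟨_, O1.mul_mem _ _ (pow_mem L.pi_mem1 m) hz1, e⟩)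
      (h2.imp id fun hz2 => ⟨_, O2.mul_mem _ _ (pow_mem L.pi_mem2 m) hz2, e⟩)
    have : w' = algebraMap R F π ^ m * z := by
      apply mul_left_cancel₀ hp0
      rw [← hww, e]
    rw [this] at hw'
    exact ih z hw' h1 h2

end LocFrame

/-! ### Local sections extend to the chart -/

/-- The vertical factor: an element of `B ∖ 𝔪` killing the vertical pole of `h⁻¹` along a branch
which does not pass through `𝔪`, to any prescribed order. -/
theorem exists_branch_factor {π : R} {𝔪 : Ideal B} [h𝔪 : 𝔪.IsPrime] {Oj : ValuationSubring F}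
    (le : ∀ x ∈ B, x ∈ Oj) (arch : ∀ x : F, ∃ k : ℕ, algebraMap R F π ^ k * x ∈ Oj)
    (hπj : algebraMap R F π ∈ Oj) {h : F} (hs : StrictOn π B Oj 𝔪 0 h) (N : ℕ) :
    ∃ f : B, f ∉ 𝔪 ∧ ∀ b : B, h⁻¹ * ((f : F) * (b : F)) ∈ Oj ∧
      (OffBranch π B Oj 𝔪 →
        (∃ c ∈ Oj, (f : F) * (b : F) = algebraMap R F π ^ N * c) ∧
        ∃ c ∈ Oj, h⁻¹ * ((f : F) * (b : F)) = algebraMap R F π ^ N * c) := by
  by_cases hoff : OffBranch π B Oj 𝔪
  · obtain ⟨e, he, c, hc, hec⟩ := hoff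
    obtain ⟨k, hk⟩ := arch h⁻¹
    refine ⟨e ^ (k + N), fun hmem => he (h𝔪.mem_of_pow_mem _ hmem), fun b => ?_⟩
    have e1 : ((e ^ (k + N) : B) : F) * (b : F) =
        algebraMap R F π ^ N * (algebraMap R F π ^ k * c ^ (k + N) * (b : F)) := by
      push_cast
      rw [hec]; ring
    have e2 : h⁻¹ * (((e ^ (k + N) : B) : F) * (b : F)) =
        algebraMap R F π ^ N * ((algebraMap R F π ^ k * h⁻¹) * c ^ (k + N) * (b : F)) := by
      rw [e1]; ring
    have m1 : algebraMap R F π ^ k * c ^ (k + N) * (b : F) ∈ Oj :=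
      Oj.mul_mem _ _ (Oj.mul_mem _ _ (pow_mem hπj k) (pow_mem hc _)) (le _ b.2)
    have m2 : (algebraMap R F π ^ k * h⁻¹) * c ^ (k + N) * (b : F) ∈ Oj :=
      Oj.mul_mem _ _ (Oj.mul_mem _ _ hk (pow_mem hc _)) (le _ b.2)
    refine ⟨?_, fun _ => ⟨⟨_, m1, e1⟩, ⟨_, m2, e2⟩⟩⟩
    rw [e2]
    exact Oj.mul_mem _ _ (pow_mem hπj N) m2
  · rcases hs with hoff' | ⟨-, hinv, -⟩
    · exact absurd hoff' hoff
    refine ⟨1, fun h1 => h𝔪.ne_top ((Ideal.eq_top_iff_one 𝔪).mpr h1), fun b => ⟨?_, fun h' => absurd h' hoff⟩⟩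
    push_cast
    rw [one_mul]
    exact Oj.mul_mem _ _ hinv (le _ b.2)

/-- **Local sections extend**: at a closed point `𝔪` with a Cartier local equation `h` of `D`,
there is `d ∈ B ∖ 𝔪` such that `h⁻¹ d` is a section of `O(D)` over the whole chart; moreover `d` and
`h⁻¹ d` vanish to order `N` along the branches which do not pass through `𝔪`. -/
theorem exists_section [HasPrincipalDivisors K F] {π : R} (L : LocFrame (K := K) π B O1 O2)
    {D : Divisor K F} {𝔪 : Ideal B} (h𝔪 : 𝔪.IsMaximal) {h : F} (hh : IsLocEq B 𝔪 D h)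
    (hs1 : StrictOn π B O1 𝔪 0 h) (hs2 : StrictOn π B O2 𝔪 0 h) (N : ℕ) :
    ∃ d : B, d ∉ 𝔪 ∧ h⁻¹ * (d : F) ∈ secs B O1 O2 D ∧
      (OffBranch π B O1 𝔪 → (∃ c ∈ O1, (d : F) = algebraMap R F π ^ N * c) ∧
        ∃ c ∈ O1, h⁻¹ * (d : F) = algebraMap R F π ^ N * c) ∧
      (OffBranch π B O2 𝔪 → (∃ c ∈ O2, (d : F) = algebraMap R F π ^ N * c) ∧
        ∃ c ∈ O2, h⁻¹ * (d : F) = algebraMap R F π ^ N * c) := by
  classical
  have hp := h𝔪.isPrime
  obtain ⟨Dh, hDh, -⟩ := HasPrincipalDivisors.exists_divisor (K := K) h hh.1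
  set E' : Divisor K F := D - Dh with hE'
  set m : ℕ := E'.support.sup (fun v => (-E' v).toNat) with hm
  obtain ⟨d0, hd0, hd0S⟩ := exists_avoid (B := B) (𝔪 := 𝔪) E'.support m
  obtain ⟨f1, hf1, hQ1⟩ := exists_branch_factor (π := π) (𝔪 := 𝔪) L.le1 L.arch1 L.pi_mem1 hs1 N
  obtain ⟨f2, hf2, hQ2⟩ := exists_branch_factor (π := π) (𝔪 := 𝔪) L.le2 L.arch2 L.pi_mem2 hs2 N
  have hd𝔪 : d0 * f1 * f2 ∉ 𝔪 := fun hmem =>
    (hp.mem_or_mem hmem).elim (fun h' => (hp.mem_or_mem h').elim hd0 hf1) hf2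
  have c1 : ((d0 * f1 * f2 : B) : F) = (f1 : F) * ((d0 * f2 : B) : F) := by push_cast; ring
  have c2 : ((d0 * f1 * f2 : B) : F) = (f2 : F) * ((d0 * f1 : B) : F) := by push_cast; ring
  have hne : ∀ x : B, x ∉ 𝔪 → (x : F) ≠ 0 := by
    intro x hx h0
    apply hx
    have : x = 0 := Subtype.ext h0
    rw [this]; exact 𝔪.zero_mem
  refine ⟨d0 * f1 * f2, hd𝔪, ?_, ?_, ?_⟩
  · refine mem_secs_of L.le1 L.le2 ?_ ?_ ?_
    · rw [c1]; exact (hQ1 _).1
    · rw [c2]; exact (hQ2 _).1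
    · intro v hov _
      have hd0F := hne d0 hd0
      have hf1F := hne f1 hf1
      have hf2F := hne f2 hf2
      have hdF : ((d0 * f1 * f2 : B) : F) ≠ 0 := hne _ hd𝔪
      have e : ((d0 * f1 * f2 : B) : F) = (d0 : F) * (f1 : F) * (f2 : F) := by push_cast; rfl
      have hord : v.ord ((d0 * f1 * f2 : B) : F) =
          v.ord (d0 : F) + v.ord (f1 : F) + v.ord (f2 : F) := by
        rw [e, v.ord_mul (mul_ne_zero hd0F hf1F) hf2F, v.ord_mul hd0F hf1F]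
      have n0 := ffp_ord_nonneg_of_mem v (hov _ d0.2)
      have n1 := ffp_ord_nonneg_of_mem v (hov _ f1.2)
      have n2 := ffp_ord_nonneg_of_mem v (hov _ f2.2)
      rw [v.ord_mul (inv_ne_zero hh.1) hdF, v.ord_inv, hord]
      by_cases hthr : Through B 𝔪 v
      · rw [hh.2 v hthr]; omega
      · by_cases hsupp : v ∈ E'.support
        · have h1 := hd0S v hsupp hov hthr
          have h2 : (-E' v).toNat ≤ m := Finset.le_sup (f := fun v => (-E' v).toNat) hsupp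
          have h3 : E' v = D v - v.ord h := by rw [hE', Finsupp.sub_apply, hDh]
          have h4 : -E' v ≤ ((-E' v).toNat : ℤ) := Int.self_le_toNat _
          have h5 : ((-E' v).toNat : ℤ) ≤ (m : ℤ) := by exact_mod_cast h2
          omega
        · have h3 : E' v = D v - v.ord h := by rw [hE', Finsupp.sub_apply, hDh]
          have h4 : E' v = 0 := Finsupp.notMem_support_iff.mp hsupp
          omega
  · intro hoff
    rw [c1]
    exact (hQ1 _).2 hoff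
  · intro hoff
    rw [c2]
    exact (hQ2 _).2 hoff

/-! ### The local-to-global argument -/

/-- The ideal of the `b ∈ B` which are congruent, modulo `π ^ n` at every closed point over `π`, to
`z h_𝔪` for a global section `z` of `O(D)`. -/
def conIdeal (π : R) (B : Subalgebra R F) (O1 O2 : ValuationSubring F) (D : Divisor K F) (n : ℕ)
    (h : Ideal B → F) : Ideal B where
  carrier := {b | ∃ z ∈ secs B O1 O2 D, ∀ 𝔪 : Ideal B, 𝔪.IsMaximal → algebraMap R B π ∈ 𝔪 →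
    ∃ c, InLocal B 𝔪 c ∧ z * h 𝔪 - (b : F) = algebraMap R F π ^ n * c}
  zero_mem' := ⟨0, zero_mem _, fun 𝔪 h𝔪 _ =>
    ⟨0, InLocal.of_mem h𝔪.ne_top B.zero_mem, by simp⟩⟩
  add_mem' := by
    rintro a b ⟨z, hz, hza⟩ ⟨z', hz', hzb⟩
    refine ⟨z + z', add_mem hz hz', fun 𝔪 h𝔪 hπ𝔪 => ?_⟩
    haveI := h𝔪.isPrime
    obtain ⟨c, hc, hce⟩ := hza 𝔪 h𝔪 hπ𝔪
    obtain ⟨c', hc', hce'⟩ := hzb 𝔪 h𝔪 hπ𝔪
    exact ⟨c + c', hc.add hc', by push_cast; linear_combination hce + hce'⟩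
  smul_mem' := by
    rintro a b ⟨z, hz, hzb⟩
    refine ⟨(a : F) * z, secs_stable a.2 hz, fun 𝔪 h𝔪 hπ𝔪 => ?_⟩
    haveI := h𝔪.isPrime
    obtain ⟨c, hc, hce⟩ := hzb 𝔪 h𝔪 hπ𝔪
    refine ⟨(a : F) * c, InLocal.mul (InLocal.of_mem h𝔪.ne_top a.2) hc, ?_⟩
    rw [smul_eq_mul]
    push_cast
    linear_combination (a : F) * hce

/-- **The global generator.**  If `D` has the local equations `h 𝔪`, strict of level `n`, at the
closed points of the chart over `π`, there is a section `g` of `O(D)` over the chart with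
`g · h 𝔪 ≡ 1 mod π ^ n B_𝔪` for all `𝔪`. -/
theorem exists_global [HasPrincipalDivisors K F] {π : R} (L : LocFrame (K := K) π B O1 O2)
    {n : ℕ} {D : Divisor K F} (h : Ideal B → F)
    (hh : ∀ 𝔪 : Ideal B, 𝔪.IsMaximal → algebraMap R B π ∈ 𝔪 →
      IsLocEq B 𝔪 D (h 𝔪) ∧ StrictOn π B O1 𝔪 n (h 𝔪) ∧ StrictOn π B O2 𝔪 n (h 𝔪)) :
    ∃ g ∈ secs B O1 O2 D, ∀ 𝔪 : Ideal B, 𝔪.IsMaximal → algebraMap R B π ∈ 𝔪 →
      ∃ c, InLocal B 𝔪 c ∧ g * h 𝔪 - 1 = algebraMap R F π ^ n * c := by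
  have hp0 : algebraMap R F π ≠ 0 := L.unif1.ne_zero
  have hpn0 : algebraMap R F π ^ n ≠ 0 := pow_ne_zero n hp0
  suffices h1 : (1 : B) ∈ conIdeal π B O1 O2 D n h by
    obtain ⟨g, hg, hgc⟩ := h1
    refine ⟨g, hg, fun 𝔪 h𝔪 hπ𝔪 => ?_⟩
    obtain ⟨c, hc, hce⟩ := hgc 𝔪 h𝔪 hπ𝔪
    exact ⟨c, hc, by rw [← hce]; push_cast; ring⟩
  by_contra hne
  have hJ : conIdeal π B O1 O2 D n h ≠ ⊤ := fun htop => hne ((Ideal.eq_top_iff_one _).mp htop)
  obtain ⟨𝔪, h𝔪, hJ𝔪⟩ := Ideal.exists_le_maximal _ hJ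
  have hp := h𝔪.isPrime
  by_cases hπ𝔪 : algebraMap R B π ∈ 𝔪
  · obtain ⟨hloc, hs1, hs2⟩ := hh 𝔪 h𝔪 hπ𝔪
    obtain ⟨d, hd, hz, hoff1, hoff2⟩ := exists_section L h𝔪 hloc
      (hs1.mono L.pi_mem1 (Nat.zero_le n)) (hs2.mono L.pi_mem2 (Nat.zero_le n)) n
    apply hd
    apply hJ𝔪
    have hd0 : (d : F) ≠ 0 := by
      intro h0
      apply hd
      have : d = 0 := Subtype.ext h0
      rw [this]; exact 𝔪.zero_mem
    set z : F := (h 𝔪)⁻¹ * (d : F) with hzdef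
    have hz0 : z ≠ 0 := mul_ne_zero (inv_ne_zero hloc.1) hd0
    refine ⟨z, hz, fun 𝔪' h𝔪' hπ𝔪' => ?_⟩
    have := h𝔪'.isPrime
    obtain ⟨hloc', hs1', hs2'⟩ := hh 𝔪' h𝔪' hπ𝔪'
    set h' : F := h 𝔪' with hh'
    set w : F := z * h' - (d : F) with hw
    -- `w ∈ B_𝔪'`
    have hzh' : InLocal B 𝔪' (z * h') := by
      refine L.hart 𝔪' h𝔪' hπ𝔪' _ (mul_ne_zero hz0 hloc'.1) (fun P hP => ?_) ?_ ?_
      · rw [P.ord_mul hz0 hloc'.1, hloc'.2 P hP]
        have := hz.2.2 P (Through.over hP) hz0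
        omega
      · rcases hs1' with hoff | hs
        · exact Or.inl hoff
        · exact Or.inr (O1.mul_mem _ _ (secs_mem1 hz) (StrictOn.mem L.pi_mem1 hs))
      · rcases hs2' with hoff | hs
        · exact Or.inl hoff
        · exact Or.inr (O2.mul_mem _ _ (secs_mem2 hz) (StrictOn.mem L.pi_mem2 hs))
    have hwloc : InLocal B 𝔪' w := hzh'.sub (InLocal.of_mem h𝔪'.ne_top d.2)
    -- the branches
    have key : ∀ (Oj : ValuationSubring F), (∀ x ∈ B, x ∈ Oj) → algebraMap R F π ∈ Oj →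
        z ∈ Oj → StrictOn π B Oj 𝔪 n (h 𝔪) → StrictOn π B Oj 𝔪' n h' →
        (OffBranch π B Oj 𝔪 → (∃ c ∈ Oj, (d : F) = algebraMap R F π ^ n * c) ∧
          ∃ c ∈ Oj, z = algebraMap R F π ^ n * c) →
        OffBranch π B Oj 𝔪' ∨ w / algebraMap R F π ^ n ∈ Oj := by
      intro Oj lej hπj hzj hsj hsj' hoffj
      rcases hsj' with hoff' | hsj'
      · exact Or.inl hoff'
      refine Or.inr ?_
      have hh'mem : h' ∈ Oj := StrictOn.mem hπj hsj'
      obtain ⟨-, -, c', hc', hc'e⟩ := hsj'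
      rcases hsj with hoff | ⟨hne0, hinv, c'', hc'', hc''e⟩
      · obtain ⟨⟨c1, hc1, hdc1⟩, c2, hc2, hzc2⟩ := hoffj hoff
        have : w / algebraMap R F π ^ n = c2 * h' - c1 := by
          rw [div_eq_iff hpn0, hw, hzc2, hdc1]; ring
        rw [this]
        exact sub_mem (Oj.mul_mem _ _ hc2 hh'mem) hc1
      · have : w / algebraMap R F π ^ n = (d : F) * (h 𝔪)⁻¹ * (c' - c'') := by
          rw [div_eq_iff hpn0, hw, hzdef]
          have e1 : h' = 1 + algebraMap R F π ^ n * c' := by rw [← hc'e]; ring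
          have e2 : h 𝔪 = 1 + algebraMap R F π ^ n * c'' := by rw [← hc''e]; ring
          have e3 : (h 𝔪)⁻¹ * h 𝔪 = 1 := inv_mul_cancel₀ hne0
          rw [e1]
          linear_combination (d : F) * e3 - (d : F) * (h 𝔪)⁻¹ * e2
        rw [this]
        exact Oj.mul_mem _ _ (Oj.mul_mem _ _ (lej _ d.2) hinv) (sub_mem hc' hc'')
    have k1 := key O1 L.le1 L.pi_mem1 (secs_mem1 hz) hs1 hs1' hoff1
    have k2 := key O2 L.le2 L.pi_mem2 (secs_mem2 hz) hs2 hs2' hoff2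
    have hwe : w = algebraMap R F π ^ n * (w / algebraMap R F π ^ n) := by
      field_simp
    refine ⟨w / algebraMap R F π ^ n, ?_, hwe⟩
    refine L.sat_pow h𝔪' hπ𝔪' n _ ?_ k1 k2
    rw [← hwe]
    exact hwloc
  · apply hπ𝔪
    apply hp.mem_of_pow_mem n
    apply hJ𝔪
    refine ⟨0, zero_mem _, fun 𝔪' h𝔪' _ => ⟨-1, InLocal.of_mem h𝔪'.ne_top (B.neg_mem B.one_mem), ?_⟩⟩
    push_cast
    ring

/-! ### Consequences on one chart -/

/-- The global generator is congruent to `1` modulo `π ^ n` on both components. -/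
theorem sub_one_mem_of_global {π : R} (L : LocFrame (K := K) π B O1 O2) {n : ℕ}
    {h : Ideal B → F} {g : F}
    (hs : ∀ 𝔪 : Ideal B, 𝔪.IsMaximal → algebraMap R B π ∈ 𝔪 →
      StrictOn π B O1 𝔪 n (h 𝔪) ∧ StrictOn π B O2 𝔪 n (h 𝔪))
    (hg : ∀ 𝔪 : Ideal B, 𝔪.IsMaximal → algebraMap R B π ∈ 𝔪 →
      ∃ c, InLocal B 𝔪 c ∧ g * h 𝔪 - 1 = algebraMap R F π ^ n * c) :
    (∃ c ∈ O1, g - 1 = algebraMap R F π ^ n * c) ∧
      (∃ c ∈ O2, g - 1 = algebraMap R F π ^ n * c) := by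
  have key : ∀ (Oj : ValuationSubring F), IsUnifOf Oj (algebraMap R F π) → (∀ x ∈ B, x ∈ Oj) →
      ∀ 𝔪 : Ideal B, 𝔪.IsMaximal → algebraMap R B π ∈ 𝔪 → ¬ OffBranch π B Oj 𝔪 →
      StrictOn π B Oj 𝔪 n (h 𝔪) → ∃ c ∈ Oj, g - 1 = algebraMap R F π ^ n * c := by
    intro Oj hu le 𝔪 h𝔪 hπ𝔪 hon hsj
    rcases hsj with hoff | ⟨hne0, hinv, c', hc', hc'e⟩
    · exact absurd hoff hon
    obtain ⟨c, hc, hce⟩ := hg 𝔪 h𝔪 hπ𝔪
    refine ⟨(h 𝔪)⁻¹ * (c - c'), Oj.mul_mem _ _ hinv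
      (sub_mem (InLocal.mem_branch hu le hon hc) hc'), ?_⟩
    have e3 : (h 𝔪)⁻¹ * h 𝔪 = 1 := inv_mul_cancel₀ hne0
    linear_combination (h 𝔪)⁻¹ * hce - (h 𝔪)⁻¹ * hc'e - (g - 1) * e3
  obtain ⟨𝔪1, h𝔪1, hπ𝔪1, hon1⟩ := L.meet1
  obtain ⟨𝔪2, h𝔪2, hπ𝔪2, hon2⟩ := L.meet2
  exact ⟨key O1 L.unif1 L.le1 𝔪1 h𝔪1 hπ𝔪1 hon1 (hs 𝔪1 h𝔪1 hπ𝔪1).1,
    key O2 L.unif2 L.le2 𝔪2 h𝔪2 hπ𝔪2 hon2 (hs 𝔪2 h𝔪2 hπ𝔪2).2⟩

/-- `π` does not divide `1` in `O_j`. -/
theorem ne_zero_of_sub_one_mem {π : R} {Oj : ValuationSubring F}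
    (hu : IsUnifOf Oj (algebraMap R F π)) (hπj : algebraMap R F π ∈ Oj) {n : ℕ} (hn : 1 ≤ n)
    {g : F} (hg : ∃ c ∈ Oj, g - 1 = algebraMap R F π ^ n * c) : g ≠ 0 := by
  rintro rfl
  obtain ⟨c, hc, hce⟩ := hg
  obtain ⟨k, rfl⟩ : ∃ k, n = k + 1 := ⟨n - 1, by omega⟩
  apply hu.nonunit
  have hp0 := hu.ne_zero
  have h2 : algebraMap R F π * (-(algebraMap R F π ^ k * c)) = 1 := by
    rw [pow_succ] at hce
    linear_combination hce
  have : (algebraMap R F π)⁻¹ = -(algebraMap R F π ^ k * c) := (eq_inv_of_mul_eq_one_right h2).symm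
  rw [this]
  exact Oj.neg_mem _ (Oj.mul_mem _ _ (pow_mem hπj k) hc)

/-- **One chart**: a divisor of level `n ≥ 1` on the chart has a section `g` of `O(D)` over the
chart generating it modulo `π` (in the sense of `Pic2.Defs60.Gen`), congruent to `1` modulo `π ^ n`
on both components, of exact order `-D` at the places through the closed points over `π`. -/
theorem gen_of_chartLevel [HasPrincipalDivisors K F] {π : R} (L : LocFrame (K := K) π B O1 O2)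
    (hvert : ∀ P : Place K F, P.ord (algebraMap R F π) = 0) {n : ℕ} (hn : 1 ≤ n)
    {D : Divisor K F} (hD : ChartLevel π B O1 O2 n D) :
    ∃ g : F, g ≠ 0 ∧ Gen B (secs B O1 O2 D) (algebraMap R F π) g ∧
      (∃ c ∈ O1, g - 1 = algebraMap R F π ^ n * c) ∧
      (∃ c ∈ O2, g - 1 = algebraMap R F π ^ n * c) ∧
      ∀ 𝔪 : Ideal B, 𝔪.IsMaximal → algebraMap R B π ∈ 𝔪 → ∀ v : Place K F, Through B 𝔪 v →
        v.ord g = -D v := by
  classical
  have hp0 : algebraMap R F π ≠ 0 := L.unif1.ne_zero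
  -- choose the local equations
  have hex : ∀ 𝔪 : Ideal B, ∃ h : F, 𝔪.IsMaximal → algebraMap R B π ∈ 𝔪 →
      IsLocEq B 𝔪 D h ∧ StrictOn π B O1 𝔪 n h ∧ StrictOn π B O2 𝔪 n h := by
    intro 𝔪
    by_cases hc : 𝔪.IsMaximal ∧ algebraMap R B π ∈ 𝔪
    · obtain ⟨h, hh⟩ := hD 𝔪 hc.1 hc.2
      exact ⟨h, fun _ _ => hh⟩
    · exact ⟨1, fun h1 h2 => absurd ⟨h1, h2⟩ hc⟩
  choose h hh using hex
  have hh' : ∀ 𝔪 : Ideal B, 𝔪.IsMaximal → algebraMap R B π ∈ 𝔪 →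
      IsLocEq B 𝔪 (-D) ((fun 𝔪 => (h 𝔪)⁻¹) 𝔪) ∧ StrictOn π B O1 𝔪 n ((fun 𝔪 => (h 𝔪)⁻¹) 𝔪) ∧
        StrictOn π B O2 𝔪 n ((fun 𝔪 => (h 𝔪)⁻¹) 𝔪) := fun 𝔪 h𝔪 hπ𝔪 =>
    ⟨(hh 𝔪 h𝔪 hπ𝔪).1.inv, (hh 𝔪 h𝔪 hπ𝔪).2.1.inv L.pi_mem1, (hh 𝔪 h𝔪 hπ𝔪).2.2.inv L.pi_mem2⟩
  obtain ⟨g, hg, hgc⟩ := exists_global L h hh
  obtain ⟨g', hg', hgc'⟩ := exists_global L (fun 𝔪 => (h 𝔪)⁻¹) hh'
  obtain ⟨⟨c1, hc1, hgc1⟩, ⟨c2, hc2, hgc2⟩⟩ := sub_one_mem_of_global L
    (fun 𝔪 h𝔪 hπ𝔪 => (hh 𝔪 h𝔪 hπ𝔪).2) hgc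
  obtain ⟨⟨c1', hc1', hgc1'⟩, ⟨c2', hc2', hgc2'⟩⟩ := sub_one_mem_of_global L
    (fun 𝔪 h𝔪 hπ𝔪 => (hh' 𝔪 h𝔪 hπ𝔪).2) hgc'
  have hg0 : g ≠ 0 := ne_zero_of_sub_one_mem L.unif1 L.pi_mem1 hn ⟨c1, hc1, hgc1⟩
  have hg0' : g' ≠ 0 := ne_zero_of_sub_one_mem L.unif1 L.pi_mem1 hn ⟨c1', hc1', hgc1'⟩
  -- the dual pairing lands in `B`
  have hdual : ∀ z ∈ secs B O1 O2 D, g' * z ∈ B := by
    intro z hz
    refine L.glob _ (O1.mul_mem _ _ (secs_mem1 hg') (secs_mem1 hz))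
      (O2.mul_mem _ _ (secs_mem2 hg') (secs_mem2 hz)) (fun v hov hne => ?_)
    rw [← le_ord_mul v hne]
    have a1 := hg'.2.2 v hov hg0'
    have a2 := hz.2.2 v hov (right_ne_zero_of_mul hne)
    rw [Finsupp.neg_apply] at a1
    omega
  obtain ⟨k, rfl⟩ : ∃ k, n = k + 1 := ⟨n - 1, by omega⟩
  refine ⟨g, hg0, ⟨hg, g', hdual, (g * g' - 1) / algebraMap R F π, ?_, by field_simp⟩,
    ⟨c1, hc1, hgc1⟩, ⟨c2, hc2, hgc2⟩, fun 𝔪 h𝔪 hπ𝔪 v hv => ?_⟩
  · -- `(g g' - 1) / π ∈ B`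
    have hgg' : g * g' ∈ B := by
      have := hdual g hg
      rwa [mul_comm] at this
    have hmemB : g * g' - 1 ∈ B := B.sub_mem hgg' B.one_mem
    have e1 : (g * g' - 1) / algebraMap R F π =
        algebraMap R F π ^ k * (c1 * g' + c1') := by
      rw [div_eq_iff hp0]
      linear_combination g' * hgc1 + hgc1'
    have e2 : (g * g' - 1) / algebraMap R F π =
        algebraMap R F π ^ k * (c2 * g' + c2') := by
      rw [div_eq_iff hp0]
      linear_combination g' * hgc2 + hgc2'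
    refine L.glob _ ?_ ?_ (fun v hov hne => ?_)
    · rw [e1]
      exact O1.mul_mem _ _ (pow_mem L.pi_mem1 k)
        (O1.add_mem _ _ (O1.mul_mem _ _ hc1 (secs_mem1 hg')) hc1')
    · rw [e2]
      exact O2.mul_mem _ _ (pow_mem L.pi_mem2 k)
        (O2.add_mem _ _ (O2.mul_mem _ _ hc2 (secs_mem2 hg')) hc2')
    · have hnum : g * g' - 1 ≠ 0 := fun h0 => hne (by rw [h0, zero_div])
      rw [div_eq_mul_inv, v.ord_mul hnum (inv_ne_zero hp0), v.ord_inv, hvert, neg_zero, add_zero]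
      exact ffp_ord_nonneg_of_mem v (hov _ hmemB)
  · -- exact order
    obtain ⟨c, hc, hce⟩ := hgc 𝔪 h𝔪 hπ𝔪
    have hloc := (hh 𝔪 h𝔪 hπ𝔪).1
    have e : g * h 𝔪 = 1 + algebraMap R F π ^ (k + 1) * c := by linear_combination hce
    have h0 := ord_one_add_eq_zero (K := K) h𝔪 hπ𝔪 hn hc hv
    rw [← e, v.ord_mul hg0 hloc.1, hloc.2 v hv] at h0
    omega

/-- **One chart**: `secs B O1 O2 D` represents `D` near the special fibre of the chart. -/
theorem representsOn_secs [HasPrincipalDivisors K F] {π : R} (L : LocFrame (K := K) π B O1 O2)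
    (hvert : ∀ P : Place K F, P.ord (algebraMap R F π) = 0) {n : ℕ} (hn : 1 ≤ n)
    {D : Divisor K F} (hD : ChartLevel π B O1 O2 n D) :
    RepresentsOn π B (secs B O1 O2 D) D := by
  obtain ⟨g, hg0, hG, -, -, hord⟩ := gen_of_chartLevel L hvert hn hD
  intro 𝔪 h𝔪 hπ𝔪 v hv
  exact ⟨fun z hz hz0 => hz.2.2 v (Through.over hv) hz0, g, hG.1, hg0, hord 𝔪 h𝔪 hπ𝔪 v hv⟩

/-! ### Two charts -/

/-- The combinatorics of the two charts `B0 ∋ t`, `B1 ∋ t⁻¹` inside the overlap ring `B01`. -/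
structure ChartPair (t : F) (B0 B1 B01 : Subalgebra R F) : Prop where
  t_ne : t ≠ 0
  t_mem : t ∈ B0
  tinv_mem : t⁻¹ ∈ B1
  le0 : B0 ≤ B01
  le1 : B1 ≤ B01
  /-- a place at which `t` is finite lies over the chart `0` -/
  over0 : ∀ v : Place K F, t ∈ v.toValuationSubring → Over B0 v
  over1 : ∀ v : Place K F, t⁻¹ ∈ v.toValuationSubring → Over B1 v

theorem ChartPair.symm {t : F} {B0 B1 B01 : Subalgebra R F}
    (T : ChartPair (K := K) t B0 B1 B01) : ChartPair (K := K) t⁻¹ B1 B0 B01 :=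
  ⟨inv_ne_zero T.t_ne, T.tinv_mem, by rw [inv_inv]; exact T.t_mem, T.le1, T.le0, T.over1,
    fun v hv => T.over0 v (by rwa [inv_inv] at hv)⟩

variable {B0 B1 B01 : Subalgebra R F}

/-- A function without vertical poles, with poles bounded by `D` at the places of the chart `0`
lying also over the chart `1`, becomes a section of `O(D)` over the chart `0` after multiplication
by a power of `t`. -/
theorem exists_pow_mul_mem_secs [HasPrincipalDivisors K F] {t : F}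
    (T : ChartPair (K := K) t B0 B1 B01) (le1 : ∀ x ∈ B0, x ∈ O1) (le2 : ∀ x ∈ B0, x ∈ O2)
    {D : Divisor K F} {y : F} (hy1 : y ∈ O1) (hy2 : y ∈ O2)
    (hy : ∀ v : Place K F, Over B0 v → t⁻¹ ∈ v.toValuationSubring → y ≠ 0 → -D v ≤ v.ord y) :
    ∃ k : ℕ, t ^ k * y ∈ secs B0 O1 O2 D := by
  classical
  obtain ⟨Dt, hDt, -⟩ := HasPrincipalDivisors.exists_divisor (K := K) t T.t_ne
  set k : ℕ := Dt.support.sup (fun v => (-D v - v.ord y).toNat) with hk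
  refine ⟨k, mem_secs_of le1 le2 (O1.mul_mem _ _ (pow_mem (le1 t T.t_mem) k) hy1)
    (O2.mul_mem _ _ (pow_mem (le2 t T.t_mem) k) hy2) (fun v hov hne => ?_)⟩
  have hy0 : y ≠ 0 := right_ne_zero_of_mul hne
  rw [← le_ord_mul v hne, ord_pow]
  have ht0 := ffp_ord_nonneg_of_mem v (hov t T.t_mem)
  rcases ht0.eq_or_lt with h0 | hpos
  · have htinv : t⁻¹ ∈ v.toValuationSubring := by
      apply ffp_mem_of_ord_nonneg
      rw [v.ord_inv, ← h0, neg_zero]
    have := hy v hov htinv hy0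
    rw [← h0, mul_zero, zero_add]
    exact this
  · have hsupp : v ∈ Dt.support := by
      rw [Finsupp.mem_support_iff, hDt]
      exact hpos.ne'
    have h2 : (-D v - v.ord y).toNat ≤ k := Finset.le_sup (f := fun v => (-D v - v.ord y).toNat) hsupp
    have h4 : -D v - v.ord y ≤ ((-D v - v.ord y).toNat : ℤ) := Int.self_le_toNat _
    have h5 : ((-D v - v.ord y).toNat : ℤ) ≤ (k : ℤ) := by exact_mod_cast h2
    have h6 : (k : ℤ) ≤ (k : ℤ) * v.ord t := by nlinarith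
    omega

/-- The two modules of sections agree over the overlap (one inclusion). -/
theorem secs_mul_le [HasPrincipalDivisors K F] {t : F} (T : ChartPair (K := K) t B0 B1 B01)
    (le1 : ∀ x ∈ B0, x ∈ O1) (le2 : ∀ x ∈ B0, x ∈ O2) (D : Divisor K F) :
    sm B01 * secs B1 O1 O2 D ≤ sm B01 * secs B0 O1 O2 D := by
  rw [Submodule.mul_le]
  intro b hb z hz
  obtain ⟨k, hk⟩ := exists_pow_mul_mem_secs T le1 le2 (D := D) (secs_mem1 hz) (secs_mem2 hz)
    (fun v _ htinv hz0 => hz.2.2 v (T.over1 v htinv) hz0)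
  have h1 : t⁻¹ ^ k * t ^ k = 1 := by rw [inv_pow, inv_mul_cancel₀ (pow_ne_zero k T.t_ne)]
  have e : b * z = (b * t⁻¹ ^ k) * (t ^ k * z) := by linear_combination (-(b * z)) * h1
  rw [e]
  exact Submodule.mul_mem_mul (B01.mul_mem hb (pow_mem (T.le1 T.tinv_mem) k)) hk

/-- The canonical pair of a divisor: the sections of `O(D)` over the two charts. -/
def pairOf [HasPrincipalDivisors K F] {t : F} (T : ChartPair (K := K) t B0 B1 B01)
    (le01 : ∀ x ∈ B0, x ∈ O1) (le02 : ∀ x ∈ B0, x ∈ O2) (le11 : ∀ x ∈ B1, x ∈ O1)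
    (le12 : ∀ x ∈ B1, x ∈ O2) (D : Divisor K F) : LinePair B0 B1 B01 where
  I0 := secs B0 O1 O2 D
  I1 := secs B1 O1 O2 D
  stable0 := fun _ hb _ hz => secs_stable hb hz
  stable1 := fun _ hb _ hz => secs_stable hb hz
  compat := le_antisymm
    (by
      have := secs_mul_le (O1 := O1) (O2 := O2) T.symm le11 le12 D
      exact this)
    (secs_mul_le T le01 le02 D)

/-- **Adelic ⇒ Čech.**  If the divisor `D` has level `n ≥ 1` in the adelic sense, its canonical pair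
represents `D` and has level `n` in the Čech sense. -/
theorem level_pairOf [HasPrincipalDivisors K F] {π : R} {t : F}
    (T : ChartPair (K := K) t B0 B1 B01)
    (L0 : LocFrame (K := K) π B0 O1 O2) (L1 : LocFrame (K := K) π B1 O1 O2)
    (hvert : ∀ P : Place K F, P.ord (algebraMap R F π) = 0) {n : ℕ} (hn : 1 ≤ n)
    {D : Divisor K F} (hD : HasLevel π B0 B1 O1 O2 n D) :
    Represents π (pairOf T L0.le1 L0.le2 L1.le1 L1.le2 D) D ∧
      Level (algebraMap R F π) n (pairOf T L0.le1 L0.le2 L1.le1 L1.le2 D) := by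
  have hp0 : algebraMap R F π ≠ 0 := L0.unif1.ne_zero
  have hpn0 : algebraMap R F π ^ n ≠ 0 := pow_ne_zero n hp0
  refine ⟨⟨representsOn_secs L0 hvert hn hD.1, representsOn_secs L1 hvert hn hD.2⟩, ?_⟩
  obtain ⟨g0, hg00, hG0, ⟨a1, ha1, hga1⟩, ⟨a2, ha2, hga2⟩, -⟩ := gen_of_chartLevel L0 hvert hn hD.1
  obtain ⟨g1, hg10, hG1, ⟨b1, hb1, hgb1⟩, ⟨b2, hb2, hgb2⟩, -⟩ := gen_of_chartLevel L1 hvert hn hD.2
  refine ⟨g0, g1, hG0, hG1, ?_⟩
  -- `y = (g1 - g0) / π ^ n` is a section over the overlap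
  set y : F := (g1 - g0) / algebraMap R F π ^ n with hy
  have hy1 : y ∈ O1 := by
    have : y = b1 - a1 := by
      rw [hy, div_eq_iff hpn0]; linear_combination hgb1 - hga1
    rw [this]; exact sub_mem hb1 ha1
  have hy2 : y ∈ O2 := by
    have : y = b2 - a2 := by
      rw [hy, div_eq_iff hpn0]; linear_combination hgb2 - hga2
    rw [this]; exact sub_mem hb2 ha2
  obtain ⟨k, hk⟩ := exists_pow_mul_mem_secs T L0.le1 L0.le2 (D := D) hy1 hy2 (by
    intro v hov htinv hy0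
    have hne : g1 - g0 ≠ 0 := fun h0 => hy0 (by rw [hy, h0, zero_div])
    have e : v.ord y = v.ord (g1 - g0) := by
      rw [hy, div_eq_mul_inv, v.ord_mul hne (inv_ne_zero hpn0), v.ord_inv, ord_pow, hvert,
        mul_zero, neg_zero, add_zero]
    rw [e]
    have c0 := hG0.1.2.2 v hov hg00
    have c1 := hG1.1.2.2 v (T.over1 v htinv) hg10
    exact le_trans (le_min c1 c0) (ord_sub_ge v hne))
  apply mem_scale.mpr
  refine ⟨y, ?_, by rw [hy]; field_simp⟩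
  have h1 : t⁻¹ ^ k * t ^ k = 1 := by rw [inv_pow, inv_mul_cancel₀ (pow_ne_zero k T.t_ne)]
  have e : y = t⁻¹ ^ k * (t ^ k * y) := by linear_combination (-y) * h1
  rw [e]
  exact Submodule.mul_mem_mul (pow_mem (T.le1 T.tinv_mem) k) hk

/-- **Adelic ⇒ Čech**, set form: for `n ≥ 1` the adelic filtration is contained in the Čech one. -/
theorem cart_subset_cechLevel [HasPrincipalDivisors K F] {π : R} {t : F}
    {hπ1 : algebraMap R F π ∈ O1} {hπ2 : algebraMap R F π ∈ O2}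
    (T : ChartPair (K := K) t B0 B1 B01)
    (L0 : LocFrame (K := K) π B0 O1 O2) (L1 : LocFrame (K := K) π B1 O1 O2)
    (hvert : ∀ P : Place K F, P.ord (algebraMap R F π) = 0) {n : ℕ} (hn : 1 ≤ n) :
    ((Cart (K := K) π B0 B1 O1 O2 hπ1 hπ2 n : AddSubgroup (Pic0 K F)) : Set (Pic0 K F)) ⊆
      CechLevel (K := K) π B0 B1 B01 n := by
  rintro x ⟨D, rfl, hD⟩
  obtain ⟨hrep, hlev⟩ := level_pairOf T L0 L1 hvert hn hD
  exact ⟨_, D, rfl, hrep, hlev⟩

/-- **The dictionary**: for `n ≥ 1`, the adelic and the Čech depth filtrations coincide. -/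
theorem cart_eq_cechLevel [HasPrincipalDivisors K F] {π : R} {t : F}
    {hπ1 : algebraMap R F π ∈ O1} {hπ2 : algebraMap R F π ∈ O2}
    (T : ChartPair (K := K) t B0 B1 B01)
    (L0 : LocFrame (K := K) π B0 O1 O2) (L1 : LocFrame (K := K) π B1 O1 O2)
    (h01_1 : ∀ b ∈ B01, b ∈ O1) (h01_2 : ∀ b ∈ B01, b ∈ O2)
    (hvert : ∀ P : Place K F, P.ord (algebraMap R F π) = 0) {n : ℕ} (hn : 1 ≤ n) :
    ((Cart (K := K) π B0 B1 O1 O2 hπ1 hπ2 n : AddSubgroup (Pic0 K F)) : Set (Pic0 K F)) =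
      CechLevel (K := K) π B0 B1 B01 n := by
  apply Set.Subset.antisymm (cart_subset_cechLevel T L0 L1 hvert hn)
  obtain ⟨𝔪0, h𝔪0, hπ𝔪0, -⟩ := L0.meet1
  obtain ⟨𝔪1, h𝔪1, hπ𝔪1, -⟩ := L1.meet1
  exact cechLevel_subset_cart L0.unif1 L0.unif2 L0.le1 L0.le2 L1.le1 L1.le2 h01_1 h01_2
    ⟨𝔪0, h𝔪0, hπ𝔪0⟩ ⟨𝔪1, h𝔪1, hπ𝔪1⟩ n

/-- `LocFrame` from the global frame of `Mon/WildPL43` plus the chart Hartogs property. -/
theorem locFrame_of_frame {π : R} {B0 B1 : Subalgebra R F}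
    (M : Frame (K := K) π B0 B1 O1 O2) (hB : B = B0 ∨ B = B1)
    (glob : ∀ x : F, x ∈ O1 → x ∈ O2 →
      (∀ v : Place K F, Over B v → x ≠ 0 → 0 ≤ v.ord x) → x ∈ B)
    (meet1 : ∃ 𝔪 : Ideal B, 𝔪.IsMaximal ∧ algebraMap R B π ∈ 𝔪 ∧ ¬ OffBranch π B O1 𝔪)
    (meet2 : ∃ 𝔪 : Ideal B, 𝔪.IsMaximal ∧ algebraMap R B π ∈ 𝔪 ∧ ¬ OffBranch π B O2 𝔪) :
    LocFrame (K := K) π B O1 O2 := by
  have arch : ∀ (Oj : ValuationSubring F), algebraMap R F π ∈ Oj → algebraMap R F π ≠ 0 →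
      (∀ z : F, z ≠ 0 → ∃ (a : ℤ) (u : F), u ∈ Oj ∧ u⁻¹ ∈ Oj ∧ z = algebraMap R F π ^ a * u) →
      ∀ x : F, ∃ k : ℕ, algebraMap R F π ^ k * x ∈ Oj := by
    intro Oj hπj hp0 hvals x
    rcases eq_or_ne x 0 with rfl | hx
    · exact ⟨0, by simp [Oj.zero_mem]⟩
    obtain ⟨a, u, hu, -, rfl⟩ := hvals x hx
    refine ⟨(-a).toNat, ?_⟩
    obtain ⟨m, hm⟩ : ∃ m : ℕ, ((-a).toNat : ℤ) + a = m :=
      ⟨(((-a).toNat : ℤ) + a).toNat, by have := Int.self_le_toNat (-a); omega⟩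
    have : algebraMap R F π ^ (-a).toNat * (algebraMap R F π ^ a * u) = algebraMap R F π ^ m * u := by
      rw [← mul_assoc, ← zpow_natCast, ← zpow_add₀ hp0, hm, zpow_natCast]
    rw [this]
    exact Oj.mul_mem _ _ (pow_mem hπj m) hu
  exact
    { unif1 := M.unif1, unif2 := M.unif2, le1 := M.le1 B hB, le2 := M.le2 B hB
      arch1 := arch O1 M.pi_mem1 M.unif1.ne_zero M.vals1
      arch2 := arch O2 M.pi_mem2 M.unif2.ne_zero M.vals2
      sat := M.sat B hB, hart := M.hart B hB, glob := glob, meet1 := meet1, meet2 := meet2 }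

end Fermat.Agent.M1.Car.AdelicToCech43
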