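/-
M1 (S44), chapter CAR, brick CAR-5 (helper43): **slopes, the CRT step, and
"constant slopes ⇒ Cartier after a vertical shift"**, in the adelic language of `Car/Defs43`.

For a divisor `D` of `F / K` and a node `s = (B, 𝔪)` of the special fibre, the slope of `D` at `s`
is `λ_s(D) = a₂ - a₁` where `v_j(h) = a_j` for a local equation `h` (up to vertical components) of
`D` at `s`; it is well defined modulo the thickness `e` of the nodes (`SlopeFrame.wd`, supplied by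
`Node/SlopeAdapter25`).

* `SlopeFrame.dvd_mul_slope_sub` : if `p • [D] = 0` then `e ∣ p (λ_s - λ_s')` for any two nodes;
* `slopes_const_of_coprime` : `p ∤ e` (the tame field `K₁`) ⇒ all slopes are congruent modulo `e`;
* `slopes_const_of_crt` : `e = p e'`, `(p, e') = 1`, slopes congruent modulo `p` (the output of the
  wild Picard–Lefschetz theorem `Mon/WildPL43`) ⇒ all slopes are congruent modulo `e`;
* `mem_cart_zero_of_slopes` : all slopes congruent to `c` modulo `e` ⇒ `[D] ∈ Cart 0`: the divisor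
  `D + div g`, `g` a function with `(v₁, v₂)(g) = (0, -c)`, is Cartier with no vertical part.
* `exists_val_pair` : the two-valuation approximation producing `g`.
-/
import Mathlib
import Fermat.Agent.M1.Car.Defs43
import Fermat.Agent.M1.Node.Thick25
import Fermat.Agent.M1.Mon.WildPL43

set_option autoImplicit false

namespace Fermat.Agent.M1.Car.Slope43

open AlgebraicCurve Fermat.Agent.ES.N34.NodalCore13 Fermat.Agent.M1.Car.Defs43
  Fermat.Agent.M1.Node.Thick25 Fermat.Agent.M1.Mon.WildPL43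

section Val

variable {F : Type*} [Field F]

/-- An element of valuation `1` is a unit of the valuation ring. -/
theorem unit_of_val_eq_one {O : ValuationSubring F} {h : F} (hv : O.valuation h = 1) :
    h ≠ 0 ∧ h ∈ O ∧ h⁻¹ ∈ O := by
  have h0 : h ≠ 0 := by
    rintro rfl
    rw [map_zero] at hv
    exact zero_ne_one hv
  refine ⟨h0, (O.valuation_le_one_iff _).mp hv.le, ?_⟩
  rw [← O.valuation_le_one_iff, map_inv₀, hv, inv_one]

/-- A unit of the valuation ring has valuation `1`. -/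
theorem val_eq_one_of_unit {O : ValuationSubring F} {h : F} (h0 : h ≠ 0) (h1 : h ∈ O)
    (h2 : h⁻¹ ∈ O) : O.valuation h = 1 := by
  apply le_antisymm ((O.valuation_le_one_iff _).mpr h1)
  have h3 : O.valuation h⁻¹ ≤ 1 := (O.valuation_le_one_iff _).mpr h2
  rw [map_inv₀] at h3
  have hpos : 0 < O.valuation h := by
    rw [pos_iff_ne_zero, Valuation.ne_zero_iff]; exact h0
  exact (inv_le_one₀ hpos).mp h3

/-- Auxiliary functions with valuations `(v(ϖ) ^ n, 1)`. -/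
theorem exists_val_pair_nat {O1 O2 : ValuationSubring F} {ϖ : F} (hu1 : IsUnifOf O1 ϖ)
    (hu2 : IsUnifOf O2 ϖ) {z : F} (hz1 : ∃ c ∈ O1, z = ϖ * c) (hz2 : z ∈ O2) (hz2' : z⁻¹ ∈ O2)
    (hz0 : z ≠ 0) (n : ℕ) :
    ∃ u : F, u ≠ 0 ∧ O1.valuation u = O1.valuation ϖ ^ n ∧ O2.valuation u = 1 := by
  rcases Nat.eq_zero_or_pos n with rfl | hn
  · exact ⟨1, one_ne_zero, by simp, by simp⟩
  have hvz2 : O2.valuation z = 1 := val_eq_one_of_unit hz0 hz2 hz2'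
  have hvz1 : O1.valuation z ≤ O1.valuation ϖ :=
    hu1.val_le_of_lt_one ((hu1.mem_pi_iff z).mp hz1)
  have h1 : O1.valuation (z ^ (n + 1)) < O1.valuation (ϖ ^ n) := by
    rw [map_pow, map_pow]
    calc O1.valuation z ^ (n + 1) ≤ O1.valuation ϖ ^ (n + 1) := pow_le_pow_left₀ zero_le hvz1 _
      _ = O1.valuation ϖ ^ n * O1.valuation ϖ := pow_succ _ _
      _ < O1.valuation ϖ ^ n * 1 :=
        mul_lt_mul_of_pos_left hu1.val_lt_one (pow_pos hu1.val_pos n)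
      _ = O1.valuation ϖ ^ n := mul_one _
  have h2 : O2.valuation (ϖ ^ n) < O2.valuation (z ^ (n + 1)) := by
    rw [map_pow, map_pow, hvz2, one_pow]
    exact pow_lt_one₀ zero_le hu2.val_lt_one hn.ne'
  have hv1 : O1.valuation (ϖ ^ n + z ^ (n + 1)) = O1.valuation ϖ ^ n := by
    rw [Valuation.map_add_eq_of_lt_left _ h1, map_pow]
  have hv2 : O2.valuation (ϖ ^ n + z ^ (n + 1)) = 1 := by
    rw [Valuation.map_add_eq_of_lt_right _ h2, map_pow, hvz2, one_pow]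
  refine ⟨ϖ ^ n + z ^ (n + 1), ?_, hv1, hv2⟩
  intro h0
  rw [h0, map_zero] at hv2
  exact zero_ne_one hv2

/-- **Two-valuation approximation**: if some function `z` vanishes on the component `1` and is a
unit on the component `2`, then every pair of valuations `(0, m)` is realised. -/
theorem exists_val_pair {O1 O2 : ValuationSubring F} {ϖ : F} (hu1 : IsUnifOf O1 ϖ)
    (hu2 : IsUnifOf O2 ϖ) {z : F} (hz1 : ∃ c ∈ O1, z = ϖ * c) (hz2 : z ∈ O2) (hz2' : z⁻¹ ∈ O2)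
    (hz0 : z ≠ 0) (m : ℤ) :
    ∃ g : F, g ≠ 0 ∧ O1.valuation g = 1 ∧ O2.valuation g = O2.valuation ϖ ^ m := by
  have hϖ0 : ϖ ≠ 0 := hu1.ne_zero
  obtain ⟨n, rfl | rfl⟩ := m.eq_nat_or_neg
  · obtain ⟨u, hu0, hv1, hv2⟩ := exists_val_pair_nat hu1 hu2 hz1 hz2 hz2' hz0 n
    refine ⟨ϖ ^ n / u, div_ne_zero (pow_ne_zero n hϖ0) hu0, ?_, ?_⟩
    · rw [map_div₀, map_pow, hv1]
      exact div_self (pow_ne_zero n hu1.val_ne_zero)
    · rw [map_div₀, map_pow, hv2, div_one, zpow_natCast]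
  · obtain ⟨u, hu0, hv1, hv2⟩ := exists_val_pair_nat hu1 hu2 hz1 hz2 hz2' hz0 n
    refine ⟨u / ϖ ^ n, div_ne_zero hu0 (pow_ne_zero n hϖ0), ?_, ?_⟩
    · rw [map_div₀, map_pow, hv1]
      exact div_self (pow_ne_zero n hu1.val_ne_zero)
    · rw [map_div₀, map_pow, hv2, zpow_neg, zpow_natCast, one_div]

end Val

section Global

variable {R K F : Type*} [CommRing R] [Field K] [Field F] [Algebra K F] [Algebra R F]

/-- Valuation `1` gives strictness of level `0`. -/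
theorem strictOn_zero_of_val {π : R} {B : Subalgebra R F} {Oj : ValuationSubring F}
    {𝔪 : Ideal B} {h : F} (hv : Oj.valuation h = 1) : StrictOn π B Oj 𝔪 0 h := by
  obtain ⟨h0, h1, h2⟩ := unit_of_val_eq_one hv
  exact Or.inr ⟨h0, h2, h - 1, sub_mem h1 Oj.one_mem, by rw [pow_zero, one_mul]⟩

/-- The facts about the nodes used by the slope calculus (supplied by `Node/SlopeAdapter25`:
`exists_vals`, `thickness_dvd_of_isLocEq_zero`, `cartier_shift`). -/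
structure SlopeFrame (π : R) (B0 B1 : Subalgebra R F) (O1 O2 : ValuationSubring F) (e : ℕ) :
    Prop where
  unif1 : IsUnifOf O1 (algebraMap R F π)
  unif2 : IsUnifOf O2 (algebraMap R F π)
  vals1 : ∀ z : F, z ≠ 0 → ∃ a : ℤ, O1.valuation z = O1.valuation (algebraMap R F π) ^ a
  vals2 : ∀ z : F, z ≠ 0 → ∃ a : ℤ, O2.valuation z = O2.valuation (algebraMap R F π) ^ a
  /-- the slope of the zero divisor is divisible by the thickness -/
  wd : ∀ (B : Subalgebra R F) (𝔪 : Ideal B), IsNode π B0 B1 O1 O2 B 𝔪 → ∀ (h : F) (a1 a2 : ℤ),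
    IsLocEq B 𝔪 (0 : Divisor K F) h →
    O1.valuation h = O1.valuation (algebraMap R F π) ^ a1 →
    O2.valuation h = O2.valuation (algebraMap R F π) ^ a2 → (e : ℤ) ∣ a2 - a1
  /-- Cartier shift: a local equation with prescribed valuations `(0, m)`, `m ≡ λ mod e` -/
  shift : ∀ (B : Subalgebra R F) (𝔪 : Ideal B), IsNode π B0 B1 O1 O2 B 𝔪 →
    ∀ (D : Divisor K F) (h : F) (a1 a2 m : ℤ), IsLocEq B 𝔪 D h →
    O1.valuation h = O1.valuation (algebraMap R F π) ^ a1 →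
    O2.valuation h = O2.valuation (algebraMap R F π) ^ a2 → (e : ℤ) ∣ (a2 - a1) - m →
    ∃ h' : F, IsLocEq B 𝔪 D h' ∧ O1.valuation h' = 1 ∧
      O2.valuation h' = O2.valuation (algebraMap R F π) ^ m

variable {π : R} {B0 B1 : Subalgebra R F} {O1 O2 : ValuationSubring F} {e : ℕ}

/-- A torsion class is represented by a divisor a multiple of which is principal. -/
theorem exists_principal_of_nsmul_eq_zero {p : ℕ} (D : Divisor.degZero (K := K) (F := F))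
    (hp : p • Pic0.mk D = 0) :
    ∃ f : F, f ≠ 0 ∧ ∀ v : Place K F, (p • (D : Divisor K F)) v = v.ord f := by
  have h1 : Pic0.mk (p • D) = 0 := hp
  have h2 := (QuotientAddGroup.eq_zero_iff _).mp h1
  exact AddSubgroup.mem_addSubgroupOf.mp h2

/-- **Slopes of a `p`-torsion class**: `e ∣ p (λ_s - λ_s')` for any two nodes `s`, `s'`. -/
theorem SlopeFrame.dvd_mul_slope_sub (M : SlopeFrame (K := K) π B0 B1 O1 O2 e) {p : ℕ}
    (D : Divisor.degZero (K := K) (F := F)) (hp : p • Pic0.mk D = 0)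
    {B : Subalgebra R F} {𝔪 : Ideal B} (hs : IsNode π B0 B1 O1 O2 B 𝔪)
    {B' : Subalgebra R F} {𝔪' : Ideal B'} (hs' : IsNode π B0 B1 O1 O2 B' 𝔪')
    {h : F} {a1 a2 : ℤ} (hh : IsLocEq B 𝔪 (D : Divisor K F) h)
    (hv1 : O1.valuation h = O1.valuation (algebraMap R F π) ^ a1)
    (hv2 : O2.valuation h = O2.valuation (algebraMap R F π) ^ a2)
    {h' : F} {a1' a2' : ℤ} (hh' : IsLocEq B' 𝔪' (D : Divisor K F) h')
    (hv1' : O1.valuation h' = O1.valuation (algebraMap R F π) ^ a1')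
    (hv2' : O2.valuation h' = O2.valuation (algebraMap R F π) ^ a2') :
    (e : ℤ) ∣ p * ((a2 - a1) - (a2' - a1')) := by
  obtain ⟨f, hf0, hf⟩ := exists_principal_of_nsmul_eq_zero D hp
  obtain ⟨α1, hα1⟩ := M.vals1 f hf0
  obtain ⟨α2, hα2⟩ := M.vals2 f hf0
  have key : ∀ {B : Subalgebra R F} {𝔪 : Ideal B}, IsNode π B0 B1 O1 O2 B 𝔪 → ∀ {h : F}
      {a1 a2 : ℤ}, IsLocEq B 𝔪 (D : Divisor K F) h →
      O1.valuation h = O1.valuation (algebraMap R F π) ^ a1 →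
      O2.valuation h = O2.valuation (algebraMap R F π) ^ a2 →
      (e : ℤ) ∣ (p * a2 - α2) - (p * a1 - α1) := by
    intro B 𝔪 hs h a1 a2 hh hv1 hv2
    have hk : IsLocEq B 𝔪 (0 : Divisor K F) (h ^ p / f) := by
      have := (hh.pow p).div (IsLocEq.of_principal B 𝔪 hf0 hf)
      rwa [sub_self] at this
    refine M.wd B 𝔪 hs _ _ _ hk ?_ ?_
    · rw [map_div₀, map_pow, hv1, hα1, zpow_sub₀ M.unif1.val_ne_zero, ← zpow_natCast, ← zpow_mul,
        mul_comm]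
    · rw [map_div₀, map_pow, hv2, hα2, zpow_sub₀ M.unif2.val_ne_zero, ← zpow_natCast, ← zpow_mul,
        mul_comm]
  have k1 := key hs hh hv1 hv2
  have k2 := key hs' hh' hv1' hv2'
  have := dvd_sub k1 k2
  have e1 : (p * a2 - α2) - (p * a1 - α1) - ((p * a2' - α2) - (p * a1' - α1)) =
      p * ((a2 - a1) - (a2' - a1')) := by ring
  rwa [e1] at this

/-- The shape of the statement "all slopes of `D` are congruent to `c` modulo `n`". -/
def SlopesConst (π : R) (B0 B1 : Subalgebra R F) (O1 O2 : ValuationSubring F) (D : Divisor K F)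
    (n : ℤ) (c : ℤ) : Prop :=
  ∀ (B : Subalgebra R F) (𝔪 : Ideal B), IsNode π B0 B1 O1 O2 B 𝔪 →
    ∀ (h : F) (a1 a2 : ℤ), IsLocEq B 𝔪 D h →
      O1.valuation h = O1.valuation (algebraMap R F π) ^ a1 →
      O2.valuation h = O2.valuation (algebraMap R F π) ^ a2 → n ∣ (a2 - a1) - c

/-- From pairwise congruences to a common constant. -/
theorem slopesConst_of_pairwise (M : SlopeFrame (K := K) π B0 B1 O1 O2 e) {D : Divisor K F}
    (locN : ∀ (B : Subalgebra R F) (𝔪 : Ideal B), IsNode π B0 B1 O1 O2 B 𝔪 →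
      ∃ h, IsLocEq B 𝔪 D h) {n : ℤ}
    (hpair : ∀ (B : Subalgebra R F) (𝔪 : Ideal B), IsNode π B0 B1 O1 O2 B 𝔪 →
      ∀ (B' : Subalgebra R F) (𝔪' : Ideal B'), IsNode π B0 B1 O1 O2 B' 𝔪' →
      ∀ (h : F) (a1 a2 : ℤ), IsLocEq B 𝔪 D h →
        O1.valuation h = O1.valuation (algebraMap R F π) ^ a1 →
        O2.valuation h = O2.valuation (algebraMap R F π) ^ a2 →
      ∀ (h' : F) (a1' a2' : ℤ), IsLocEq B' 𝔪' D h' →
        O1.valuation h' = O1.valuation (algebraMap R F π) ^ a1' →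
        O2.valuation h' = O2.valuation (algebraMap R F π) ^ a2' →
        n ∣ (a2 - a1) - (a2' - a1')) :
    ∃ c : ℤ, SlopesConst π B0 B1 O1 O2 D n c := by
  by_cases hex : ∃ (B : Subalgebra R F) (𝔪 : Ideal B), IsNode π B0 B1 O1 O2 B 𝔪
  swap
  · exact ⟨0, fun B 𝔪 hs => absurd ⟨B, 𝔪, hs⟩ hex⟩
  obtain ⟨Bs, 𝔪s, hs⟩ := hex
  obtain ⟨h0, hh0⟩ := locN Bs 𝔪s hs
  obtain ⟨a10, hv10⟩ := M.vals1 h0 hh0.1
  obtain ⟨a20, hv20⟩ := M.vals2 h0 hh0.1
  exact ⟨a20 - a10, fun B 𝔪 hn h a1 a2 hh hv1 hv2 =>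
    hpair B 𝔪 hn Bs 𝔪s hs h a1 a2 hh hv1 hv2 h0 a10 a20 hh0 hv10 hv20⟩

/-- **Tame case** (`K₁`, `e = p - 1`): the slopes of a `p`-torsion class are all congruent modulo
`e` when `p` is prime to `e`. -/
theorem slopes_const_of_coprime (M : SlopeFrame (K := K) π B0 B1 O1 O2 e) {p : ℕ}
    (hcop : IsCoprime (e : ℤ) (p : ℤ)) (D : Divisor.degZero (K := K) (F := F))
    (hp : p • Pic0.mk D = 0)
    (locN : ∀ (B : Subalgebra R F) (𝔪 : Ideal B), IsNode π B0 B1 O1 O2 B 𝔪 →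
      ∃ h, IsLocEq B 𝔪 (D : Divisor K F) h) :
    ∃ c : ℤ, SlopesConst π B0 B1 O1 O2 (D : Divisor K F) (e : ℤ) c :=
  slopesConst_of_pairwise M locN fun _ _ hs _ _ hs' _ _ _ hh hv1 hv2 _ _ _ hh' hv1' hv2' =>
    hcop.dvd_of_dvd_mul_left (M.dvd_mul_slope_sub D hp hs hs' hh hv1 hv2 hh' hv1' hv2')

/-- **Wild case, the CRT step** (`L`, `e = p (p - 1)`): if the slopes of a `p`-torsion class are
all congruent modulo `p` and `e = p e'` with `(p, e') = 1`, they are all congruent modulo `e`. -/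
theorem slopes_const_of_crt (M : SlopeFrame (K := K) π B0 B1 O1 O2 e) {p e' : ℕ}
    (he : e = p * e') (hcop : Nat.Coprime p e') (D : Divisor.degZero (K := K) (F := F))
    (hp : p • Pic0.mk D = 0)
    (locN : ∀ (B : Subalgebra R F) (𝔪 : Ideal B), IsNode π B0 B1 O1 O2 B 𝔪 →
      ∃ h, IsLocEq B 𝔪 (D : Divisor K F) h)
    (hc : ∃ c : ℤ, SlopesConst π B0 B1 O1 O2 (D : Divisor K F) (p : ℤ) c) :
    ∃ c : ℤ, SlopesConst π B0 B1 O1 O2 (D : Divisor K F) (e : ℤ) c := by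
  obtain ⟨c, hc⟩ := hc
  refine slopesConst_of_pairwise M locN
    fun B 𝔪 hs B' 𝔪' hs' h a1 a2 hh hv1 hv2 h' a1' a2' hh' hv1' hv2' => ?_
  have h1 := M.dvd_mul_slope_sub D hp hs hs' hh hv1 hv2 hh' hv1' hv2'
  have h2 : (p : ℤ) ∣ (a2 - a1) - (a2' - a1') := by
    have := dvd_sub (hc B 𝔪 hs h a1 a2 hh hv1 hv2) (hc B' 𝔪' hs' h' a1' a2' hh' hv1' hv2')
    have e1 : (a2 - a1 - c) - (a2' - a1' - c) = (a2 - a1) - (a2' - a1') := by ring
    rwa [e1] at this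
  rcases Nat.eq_zero_or_pos p with hp0 | hppos
  · -- `p = 0`: then `p ∣ x` means `x = 0`
    subst hp0
    have : (a2 - a1) - (a2' - a1') = 0 := by simpa using h2
    rw [this]; exact dvd_zero _
  have h3 : (e' : ℤ) ∣ (a2 - a1) - (a2' - a1') := by
    rw [he] at h1
    push_cast at h1
    exact (mul_dvd_mul_iff_left (by exact_mod_cast hppos.ne')).mp h1
  have hcop' : IsCoprime (p : ℤ) (e' : ℤ) := Nat.isCoprime_iff_coprime.mpr hcop
  rw [he]
  push_cast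
  exact hcop'.mul_dvd h2 h3

/-- **Constant slopes ⇒ Cartier after a vertical shift**: if all slopes of `D` are congruent to
`c` modulo the thickness, `[D] ∈ Cart 0`. -/
theorem mem_cart_zero_of_slopes [HasPrincipalDivisors K F]
    (M : SlopeFrame (K := K) π B0 B1 O1 O2 e)
    {hπ1 : algebraMap R F π ∈ O1} {hπ2 : algebraMap R F π ∈ O2}
    (hvert : ∀ P : Place K F, P.ord (algebraMap R F π) = 0)
    (approx : ∀ m : ℤ, ∃ g : F, g ≠ 0 ∧ O1.valuation g = 1 ∧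
      O2.valuation g = O2.valuation (algebraMap R F π) ^ m)
    (D : Divisor.degZero (K := K) (F := F))
    (smooth : ∀ B : Subalgebra R F, B = B0 ∨ B = B1 → ∀ 𝔪 : Ideal B, 𝔪.IsMaximal →
      algebraMap R B π ∈ 𝔪 → (OffBranch π B O1 𝔪 ∨ OffBranch π B O2 𝔪) →
      ∃ h, IsLocEq B 𝔪 (D : Divisor K F) h ∧ StrictOn π B O1 𝔪 0 h ∧ StrictOn π B O2 𝔪 0 h)
    (locN : ∀ (B : Subalgebra R F) (𝔪 : Ideal B), IsNode π B0 B1 O1 O2 B 𝔪 →
      ∃ h, IsLocEq B 𝔪 (D : Divisor K F) h)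
    (hc : ∃ c : ℤ, SlopesConst π B0 B1 O1 O2 (D : Divisor K F) (e : ℤ) c) :
    Pic0.mk D ∈ Cart π B0 B1 O1 O2 hπ1 hπ2 0 := by
  obtain ⟨c, hc⟩ := hc
  have hp0 : algebraMap R F π ≠ 0 := M.unif1.ne_zero
  obtain ⟨g, hg0, hg1, hg2⟩ := approx (-c)
  obtain ⟨Dg, hDg, hdeg⟩ := HasPrincipalDivisors.exists_divisor (K := K) g hg0
  have hgL : ∀ (B : Subalgebra R F) (𝔪 : Ideal B), IsLocEq B 𝔪 Dg g := fun B 𝔪 =>
    IsLocEq.of_principal B 𝔪 hg0 hDg
  -- the second local equation of `div g`: `g π ^ c`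
  have hg0' : g * algebraMap R F π ^ c ≠ 0 := mul_ne_zero hg0 (zpow_ne_zero c hp0)
  have hgL' : ∀ (B : Subalgebra R F) (𝔪 : Ideal B), IsLocEq B 𝔪 Dg (g * algebraMap R F π ^ c) :=
    fun B 𝔪 => ⟨hg0', fun P _ => by
      rw [P.ord_mul hg0 (zpow_ne_zero c hp0), P.ord_zpow, hvert, mul_zero, add_zero, hDg]⟩
  have hg2' : O2.valuation (g * algebraMap R F π ^ c) = 1 := by
    rw [map_mul, map_zpow₀, hg2, ← zpow_add₀ M.unif2.val_ne_zero, neg_add_cancel, zpow_zero]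
  -- chart-wise level
  have hlev : ∀ B : Subalgebra R F, B = B0 ∨ B = B1 →
      ChartLevel π B O1 O2 0 ((D : Divisor K F) + Dg) := by
    intro B hB 𝔪 h𝔪 hπ𝔪
    by_cases hoff2 : OffBranch π B O2 𝔪
    · obtain ⟨h, hh, hs1, -⟩ := smooth B hB 𝔪 h𝔪 hπ𝔪 (Or.inr hoff2)
      exact ⟨h * g, hh.mul (hgL B 𝔪), hs1.mul hπ1 (strictOn_zero_of_val hg1), Or.inl hoff2⟩
    by_cases hoff1 : OffBranch π B O1 𝔪
    · obtain ⟨h, hh, -, hs2⟩ := smooth B hB 𝔪 h𝔪 hπ𝔪 (Or.inl hoff1)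
      exact ⟨h * (g * algebraMap R F π ^ c), hh.mul (hgL' B 𝔪), Or.inl hoff1,
        hs2.mul hπ2 (strictOn_zero_of_val hg2')⟩
    · -- a node
      have hs : IsNode π B0 B1 O1 O2 B 𝔪 := ⟨hB, h𝔪, hπ𝔪, hoff1, hoff2⟩
      obtain ⟨h, hh⟩ := locN B 𝔪 hs
      obtain ⟨a1, hv1⟩ := M.vals1 h hh.1
      obtain ⟨a2, hv2⟩ := M.vals2 h hh.1
      obtain ⟨h', hh', hv1', hv2'⟩ := M.shift B 𝔪 hs _ h a1 a2 c hh hv1 hv2
        (hc B 𝔪 hs h a1 a2 hh hv1 hv2)
      refine ⟨h' * g, hh'.mul (hgL B 𝔪), strictOn_zero_of_val ?_, strictOn_zero_of_val ?_⟩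
      · rw [map_mul, hv1', hg1, mul_one]
      · rw [map_mul, hv2', hg2, ← zpow_add₀ M.unif2.val_ne_zero, add_neg_cancel, zpow_zero]
  refine ⟨D + ⟨Dg, hdeg⟩, ?_, hlev B0 (Or.inl rfl), hlev B1 (Or.inr rfl)⟩
  rw [Pic0.mk_add]
  have : Pic0.mk (⟨Dg, hdeg⟩ : Divisor.degZero (K := K) (F := F)) = 0 :=
    (QuotientAddGroup.eq_zero_iff _).mpr (AddSubgroup.mem_addSubgroupOf.mpr ⟨g, hg0, hDg⟩)
  rw [this, add_zero]

/-- **(T1), Cartier part**: over the tame field (`p ∤ e`) every `p`-torsion class with local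
equations lies in `Cart 0`. -/
theorem mem_cart_zero_of_tame [HasPrincipalDivisors K F]
    (M : SlopeFrame (K := K) π B0 B1 O1 O2 e)
    {hπ1 : algebraMap R F π ∈ O1} {hπ2 : algebraMap R F π ∈ O2}
    (hvert : ∀ P : Place K F, P.ord (algebraMap R F π) = 0)
    (approx : ∀ m : ℤ, ∃ g : F, g ≠ 0 ∧ O1.valuation g = 1 ∧
      O2.valuation g = O2.valuation (algebraMap R F π) ^ m)
    {p : ℕ} (hcop : IsCoprime (e : ℤ) (p : ℤ)) (D : Divisor.degZero (K := K) (F := F))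
    (hp : p • Pic0.mk D = 0)
    (smooth : ∀ B : Subalgebra R F, B = B0 ∨ B = B1 → ∀ 𝔪 : Ideal B, 𝔪.IsMaximal →
      algebraMap R B π ∈ 𝔪 → (OffBranch π B O1 𝔪 ∨ OffBranch π B O2 𝔪) →
      ∃ h, IsLocEq B 𝔪 (D : Divisor K F) h ∧ StrictOn π B O1 𝔪 0 h ∧ StrictOn π B O2 𝔪 0 h)
    (locN : ∀ (B : Subalgebra R F) (𝔪 : Ideal B), IsNode π B0 B1 O1 O2 B 𝔪 →
      ∃ h, IsLocEq B 𝔪 (D : Divisor K F) h) :
    Pic0.mk D ∈ Cart π B0 B1 O1 O2 hπ1 hπ2 0 :=
  mem_cart_zero_of_slopes M hvert approx D smooth locN (slopes_const_of_coprime M hcop D hp locN)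

/-- **(T3), Cartier part**: over `L` (`e = p e'`, `(p, e') = 1`), a `p`-torsion class `x` with
`σ x - x ∈ Cart (b + 1)` for a wild automorphism `σ` of break `b` lies in `Cart 0`. -/
theorem mem_cart_zero_of_wild [HasPrincipalDivisors K F]
    (M : SlopeFrame (K := K) π B0 B1 O1 O2 e) (N : Frame (K := K) π B0 B1 O1 O2)
    {hπ1 : algebraMap R F π ∈ O1} {hπ2 : algebraMap R F π ∈ O2}
    (hvert : ∀ P : Place K F, P.ord (algebraMap R F π) = 0)
    (approx : ∀ m : ℤ, ∃ g : F, g ≠ 0 ∧ O1.valuation g = 1 ∧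
      O2.valuation g = O2.valuation (algebraMap R F π) ^ m)
    {σ : SemilinearAut K F}
    (pres : ∀ B : Subalgebra R F, B = B0 ∨ B = B1 →
      PreservesChart π B σ ∧ PreservesChart π B σ⁻¹)
    {b : ℕ} (hb : 1 ≤ b)
    (ram1 : ∀ x ∈ O1, ∃ c ∈ O1, σ • x - x = algebraMap R F π ^ (b + 1) * c)
    (ram2 : ∀ x ∈ O2, ∃ c ∈ O2, σ • x - x = algebraMap R F π ^ (b + 1) * c)
    {θ₀ : R} (smul_pi : σ • (algebraMap R F π) =
      algebraMap R F π * (1 + algebraMap R F θ₀ * algebraMap R F π ^ b))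
    (hθ₀ : ¬ π ∣ θ₀) {p : ℕ} (hchar : ∀ n : ℤ, π ∣ (n : R) → (p : ℤ) ∣ n)
    {e' : ℕ} (he : e = p * e') (hcop : Nat.Coprime p e')
    (D : Divisor.degZero (K := K) (F := F)) (hp : p • Pic0.mk D = 0)
    (smooth : ∀ B : Subalgebra R F, B = B0 ∨ B = B1 → ∀ 𝔪 : Ideal B, 𝔪.IsMaximal →
      algebraMap R B π ∈ 𝔪 → (OffBranch π B O1 𝔪 ∨ OffBranch π B O2 𝔪) →
      ∃ h, IsLocEq B 𝔪 (D : Divisor K F) h ∧ StrictOn π B O1 𝔪 0 h ∧ StrictOn π B O2 𝔪 0 h)
    (locN : ∀ (B : Subalgebra R F) (𝔪 : Ideal B), IsNode π B0 B1 O1 O2 B 𝔪 →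
      ∃ h, IsLocEq B 𝔪 (D : Divisor K F) h)
    (hmem : σ • Pic0.mk D - Pic0.mk D ∈ Cart π B0 B1 O1 O2 hπ1 hπ2 (b + 1)) :
    Pic0.mk D ∈ Cart π B0 B1 O1 O2 hπ1 hπ2 0 := by
  have loc : ∀ B : Subalgebra R F, B = B0 ∨ B = B1 → ∀ 𝔪 : Ideal B, 𝔪.IsMaximal →
      algebraMap R B π ∈ 𝔪 → ∃ h, IsLocEq B 𝔪 (D : Divisor K F) h := by
    intro B hB 𝔪 h𝔪 hπ𝔪
    by_cases hoff2 : OffBranch π B O2 𝔪
    · obtain ⟨h, hh, -, -⟩ := smooth B hB 𝔪 h𝔪 hπ𝔪 (Or.inr hoff2)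
      exact ⟨h, hh⟩
    by_cases hoff1 : OffBranch π B O1 𝔪
    · obtain ⟨h, hh, -, -⟩ := smooth B hB 𝔪 h𝔪 hπ𝔪 (Or.inl hoff1)
      exact ⟨h, hh⟩
    · exact locN B 𝔪 ⟨hB, h𝔪, hπ𝔪, hoff1, hoff2⟩
  have hcp : ∃ c : ℤ, SlopesConst π B0 B1 O1 O2 (D : Divisor K F) (p : ℤ) c :=
    slopes_const_of_mem_cart N pres hb ram1 ram2 smul_pi hθ₀ hchar hvert D loc hmem
  exact mem_cart_zero_of_slopes M hvert approx D smooth locN
    (slopes_const_of_crt M he hcop D hp locN hcp)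

end Global

end Fermat.Agent.M1.Car.Slope43
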