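/-
M1 (S44), chapter CAR (helper73): the approximation hypotheses `approx` (of
`Slope43.mem_cart_zero_of_slopes` and friends) and `approx2` (of
`DepthZero58.mem_cart_one_of_red_trivial`) for a `Frame` / `SlopeFrame`, from the single extra fact
`O1 ≠ O2` (no node is needed).
-/
import Mathlib
import Fermat.Agent.M1.Mod.TwoValNe73
import Fermat.Agent.M1.Car.Slope43

set_option autoImplicit false

namespace Fermat.Agent.M1.Car.ApproxFrame73

open AlgebraicCurve Fermat.Agent.M1.Car.Defs43 Fermat.Agent.M1.Node.Thick25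
  Fermat.Agent.M1.Mon.WildPL43 Fermat.Agent.M1.Car.Slope43 Fermat.Agent.M1.Mod.TwoValNe73

section Val

variable {F : Type*} [Field F] {O1 O2 : ValuationSubring F} {ϖ : F}

/-- The hypothesis `approx` of `Slope43.mem_cart_zero_of_slopes` from `O1 ≠ O2`. -/
theorem approx_of_ne (hu1 : IsUnifOf O1 ϖ) (hu2 : IsUnifOf O2 ϖ) (hne : O1 ≠ O2) :
    ∀ m : ℤ, ∃ g : F, g ≠ 0 ∧ O1.valuation g = 1 ∧ O2.valuation g = O2.valuation ϖ ^ m := by
  obtain ⟨z, hz1, hz2, hz2', hz0⟩ := exists_z hu1 hu2 hne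
  exact fun m => exists_val_pair hu1 hu2 hz1 hz2 hz2' hz0 m

end Val

section Global

variable {R K F : Type*} [CommRing R] [Field K] [Field F] [Algebra K F] [Algebra R F]
variable {π : R} {B0 B1 : Subalgebra R F} {O1 O2 : ValuationSubring F} {e : ℕ}

/-- `approx` for a `SlopeFrame`. -/
theorem approx_of_slopeFrame (M : SlopeFrame (K := K) π B0 B1 O1 O2 e) (hne : O1 ≠ O2) :
    ∀ m : ℤ, ∃ g : F, g ≠ 0 ∧ O1.valuation g = 1 ∧
      O2.valuation g = O2.valuation (algebraMap R F π) ^ m :=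
  approx_of_ne M.unif1 M.unif2 hne

/-- `approx` for a `Frame`. -/
theorem approx_of_frame (M : Frame (K := K) π B0 B1 O1 O2) (hne : O1 ≠ O2) :
    ∀ m : ℤ, ∃ g : F, g ≠ 0 ∧ O1.valuation g = 1 ∧
      O2.valuation g = O2.valuation (algebraMap R F π) ^ m :=
  approx_of_ne M.unif1 M.unif2 hne

/-- `approx2` for a `Frame`: the literal hypothesis of
`DepthZero58.mem_cart_one_of_red_trivial`. -/
theorem approx2_of_frame (M : Frame (K := K) π B0 B1 O1 O2) (hne : O1 ≠ O2) :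
    ∀ φ1 φ2 : F, φ1 ∈ O1 → φ2 ∈ O2 →
      ∃ φ, (∃ c ∈ O1, φ - φ1 = algebraMap R F π * c) ∧
        (∃ c ∈ O2, φ - φ2 = algebraMap R F π * c) :=
  approx2_of_ne M.unif1 M.unif2 hne M.vals1 M.vals2

end Global

end Fermat.Agent.M1.Car.ApproxFrame73
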