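/-
M1 (S44), chapter CAR, brick (U2-T) (helper53): **ORD representatives avoiding, besides the nodes,
finitely many further closed points of the special fibre** (the points over the cusp values of the
`t`-line).

* `finite_zeros_chart` : for `G ∈ R[X]` nonzero modulo `π`, the chart `B ∋ τ` (integral over `R[τ]`,
  noetherian) has finitely many closed points of the special fibre at which `G(τ)` vanishes.
* `exists_ord_rep_avoiding_sets` : every class of `Cart 0` has a representative of level `0` whose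
  support avoids all the nodes and two given finite sets of closed points of the two charts.
* `exists_ord_rep_avoiding` : the same with the zeros of `G0(t)` on `B0` and of `G1(t⁻¹)` on `B1`.
-/
import Mathlib
import Fermat.Agent.M1.Car.NodeFin53

set_option autoImplicit false
set_option linter.unusedSectionVars false
set_option linter.unusedVariables false

namespace Fermat.Agent.M1.Car.AvoidCusp53

open Polynomial AlgebraicCurve
open Fermat.Agent.ES.N34.NodalCore13 Fermat.Agent.ES.N34.NumData13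
open Fermat.Agent.M1.Car.Defs43 Fermat.Agent.M1.Fib.Branch98

section Chart

variable {R F : Type*} [CommRing R] [Field F] [Algebra R F]

/-- **Finitely many closed points of the special fibre of a chart over the zeros of `G`**,
`G ∈ R[X]` nonzero modulo `π`. -/
theorem finite_zeros_chart {π : R} {B : Subalgebra R F} {τ : F} (hτ : τ ∈ B)
    (noethB : IsNoetherianRing B)
    (hint : ∀ x ∈ B, IsIntegral (Algebra.adjoin R {τ}) x)
    (hπmax : (Ideal.span {π} : Ideal R).IsMaximal)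
    {G : R[X]} (hG0 : G.map (Ideal.Quotient.mk (Ideal.span {π} : Ideal R)) ≠ 0) :
    {𝔪 : Ideal B | 𝔪.IsMaximal ∧ algebraMap R B π ∈ 𝔪 ∧ aeval (⟨τ, hτ⟩ : B) G ∈ 𝔪}.Finite := by
  classical
  set I : Ideal B := Ideal.span {algebraMap R B π, aeval (⟨τ, hτ⟩ : B) G} with hI
  refine (Ideal.finite_minimalPrimes_of_isNoetherianRing B I).subset ?_
  rintro 𝔪 ⟨h𝔪, hπ𝔪, hG𝔪⟩
  have h𝔪p : 𝔪.IsPrime := h𝔪.isPrime
  have hI𝔪 : I ≤ 𝔪 := by
    rw [hI, Ideal.span_le]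
    rintro x (rfl | rfl)
    · exact hπ𝔪
    · exact hG𝔪
  obtain ⟨𝔮, h𝔮min, h𝔮𝔪⟩ := Ideal.exists_minimalPrimes_le hI𝔪
  have h𝔮p : 𝔮.IsPrime := h𝔮min.1.1
  have h𝔮le : I ≤ 𝔮 := h𝔮min.1.2
  have h𝔮max : 𝔮.IsMaximal :=
    NodeFin53.isMaximal_of_relation hτ hint hπmax 𝔮
      (h𝔮le (Ideal.subset_span (by simp))) G hG0 (h𝔮le (Ideal.subset_span (by simp)))
  have : 𝔮 = 𝔪 := h𝔮max.eq_of_le h𝔪p.ne_top h𝔮𝔪
  rw [← this]
  exact h𝔮min

end Chart

section Model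

variable {R K F : Type*} [CommRing R] [Field K] [Field F] [Algebra R K] [Algebra K F]
  [Algebra R F] [IsScalarTower R K F]
variable {π : R} {t : F} {B0 B1 : Subalgebra R F} {O1 O2 : ValuationSubring F}

/-- **ORD representative avoiding the nodes and two finite sets of closed points.** -/
theorem exists_ord_rep_avoiding_sets [HasPrincipalDivisors K F]
    (N : NodalNumData R K F π t B0 B1 O1 O2) [Finite (R ⧸ (Ideal.span {π} : Ideal R))]
    (hne : O1 ≠ O2)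
    {hπ1 : algebraMap R F π ∈ O1} {hπ2 : algebraMap R F π ∈ O2}
    {T0 : Set (Ideal B0)} {T1 : Set (Ideal B1)} (hT0 : T0.Finite) (hT1 : T1.Finite)
    (hT0m : ∀ 𝔪 ∈ T0, 𝔪.IsMaximal ∧ algebraMap R B0 π ∈ 𝔪)
    (hT1m : ∀ 𝔪 ∈ T1, 𝔪.IsMaximal ∧ algebraMap R B1 π ∈ 𝔪)
    {x : Pic0 K F} (hx : x ∈ Cart π B0 B1 O1 O2 hπ1 hπ2 0) :
    ∃ D : Divisor.degZero (K := K) (F := F), Pic0.mk D = x ∧
      HasLevel π B0 B1 O1 O2 0 (D : Divisor K F) ∧
      (∀ (B : Subalgebra R F) (𝔪 : Ideal B),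
        Fermat.Agent.M1.Mon.WildPL43.IsNode π B0 B1 O1 O2 B 𝔪 →
        ∀ P : Place K F, Through B 𝔪 P → (D : Divisor K F) P = 0) ∧
      (∀ 𝔪 ∈ T0, ∀ P : Place K F, Through B0 𝔪 P → (D : Divisor K F) P = 0) ∧
      (∀ 𝔪 ∈ T1, ∀ P : Place K F, Through B1 𝔪 P → (D : Divisor K F) P = 0) := by
  classical
  obtain ⟨hnodes0, hnodes1⟩ := NodeFin53.finite_nodes_of_numData N hne
  obtain ⟨hfin0, hfin1⟩ := ResidueFin53.hfin_of_numData N
  obtain ⟨D, hD, hlev, h0, h1⟩ := Moving53.exists_rep_avoiding_gen N hfin0 hfin1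
    (hnodes0.toFinset ∪ hT0.toFinset) (hnodes1.toFinset ∪ hT1.toFinset)
    (fun 𝔪 h => by
      rcases Finset.mem_union.mp h with h | h
      · have := (Set.Finite.mem_toFinset _).mp h
        exact ⟨this.1, this.2.1⟩
      · exact hT0m 𝔪 ((Set.Finite.mem_toFinset _).mp h))
    (fun 𝔪 h => by
      rcases Finset.mem_union.mp h with h | h
      · have := (Set.Finite.mem_toFinset _).mp h
        exact ⟨this.1, this.2.1⟩
      · exact hT1m 𝔪 ((Set.Finite.mem_toFinset _).mp h)) hx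
  refine ⟨D, hD, hlev, fun B 𝔪 hs P hP => ?_, fun 𝔪 h𝔪 P hP => ?_, fun 𝔪 h𝔪 P hP => ?_⟩
  · obtain ⟨hchart, hmax, hπ𝔪, hon1, hon2⟩ := hs
    rcases hchart with rfl | rfl
    · exact h0 𝔪 (Finset.mem_union_left _
        ((Set.Finite.mem_toFinset _).mpr ⟨hmax, hπ𝔪, hon1, hon2⟩)) P hP
    · exact h1 𝔪 (Finset.mem_union_left _
        ((Set.Finite.mem_toFinset _).mpr ⟨hmax, hπ𝔪, hon1, hon2⟩)) P hP
  · exact h0 𝔪 (Finset.mem_union_right _ ((Set.Finite.mem_toFinset _).mpr h𝔪)) P hP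
  · exact h1 𝔪 (Finset.mem_union_right _ ((Set.Finite.mem_toFinset _).mpr h𝔪)) P hP

/-- **ORD representative avoiding the nodes and the closed points over the zeros of `G0(t)`,
`G1(t⁻¹)`** (`G0, G1 ∈ R[X]` nonzero modulo `π`). -/
theorem exists_ord_rep_avoiding [HasPrincipalDivisors K F]
    (N : NodalNumData R K F π t B0 B1 O1 O2) [Finite (R ⧸ (Ideal.span {π} : Ideal R))]
    (hne : O1 ≠ O2)
    {hπ1 : algebraMap R F π ∈ O1} {hπ2 : algebraMap R F π ∈ O2}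
    {G0 G1 : R[X]}
    (hG0 : G0.map (Ideal.Quotient.mk (Ideal.span {π} : Ideal R)) ≠ 0)
    (hG1 : G1.map (Ideal.Quotient.mk (Ideal.span {π} : Ideal R)) ≠ 0)
    {x : Pic0 K F} (hx : x ∈ Cart π B0 B1 O1 O2 hπ1 hπ2 0) :
    ∃ D : Divisor.degZero (K := K) (F := F), Pic0.mk D = x ∧
      HasLevel π B0 B1 O1 O2 0 (D : Divisor K F) ∧
      (∀ (B : Subalgebra R F) (𝔪 : Ideal B),
        Fermat.Agent.M1.Mon.WildPL43.IsNode π B0 B1 O1 O2 B 𝔪 →
        ∀ P : Place K F, Through B 𝔪 P → (D : Divisor K F) P = 0) ∧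
      (∀ 𝔪 : Ideal B0, 𝔪.IsMaximal → algebraMap R B0 π ∈ 𝔪 →
        aeval (⟨t, N.model.t_mem⟩ : B0) G0 ∈ 𝔪 →
        ∀ P : Place K F, Through B0 𝔪 P → (D : Divisor K F) P = 0) ∧
      (∀ 𝔪 : Ideal B1, 𝔪.IsMaximal → algebraMap R B1 π ∈ 𝔪 →
        aeval (⟨t⁻¹, N.model.tinv_mem⟩ : B1) G1 ∈ 𝔪 →
        ∀ P : Place K F, Through B1 𝔪 P → (D : Divisor K F) P = 0) := by
  have M := N.model
  have hmax := CentreFin99.span_pi_isMaximal (ResidueFin53.not_isUnit_pi N) N.dvrR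
  have hT0 := finite_zeros_chart M.t_mem N.noeth0 M.int0 hmax hG0
  have hT1 := finite_zeros_chart M.tinv_mem N.noeth1 M.int1 hmax hG1
  obtain ⟨D, hD, hlev, hnode, h0, h1⟩ := exists_ord_rep_avoiding_sets N hne hT0 hT1
    (fun 𝔪 h => ⟨h.1, h.2.1⟩) (fun 𝔪 h => ⟨h.1, h.2.1⟩) hx
  exact ⟨D, hD, hlev, hnode, fun 𝔪 hm hπ hG => h0 𝔪 ⟨hm, hπ, hG⟩,
    fun 𝔪 hm hπ hG => h1 𝔪 ⟨hm, hπ, hG⟩⟩

end Model

end Fermat.Agent.M1.Car.AvoidCusp53
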