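/-
Program M1 (S44), chapter CAR, brick CAR-BC (helper13): **base change of the filtration `Cart`
along an extension of the base** — the abstract form of (T2) `J_1(K₁) ⊆ J_p(L)`.

Two frames in the vocabulary of `Car/Defs43`: `(R, K, F, π, B0, B1, O1, O2)` and
`(R', K', F', π', B0', B1', O1', O2')`, related by a field embedding `ι : F →+* F'` (think
`F = K₁·F_N ⊆ F' = L·F_N` for number fields `K₁ ⊆ L`) with

* `PlaceRes ι res` : a restriction map `res` on places with `O_{res P'} = ι⁻¹ O_{P'}` and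
  `ord_{P'} (ι f) = ord_{res P'} f` (a constant field extension is unramified: `e = 1`);
* `ChartOver ι π π' B B'` : `ι B ⊆ B'` and every closed point of `B'` (maximal ideal containing
  `π'`) contracts to a closed point of `B`;
* `ι O_j ⊆ O_j'`, and `ι π = π' ^ m * υ` with `υ ∈ O_1' ⊓ O_2'`, `m ≥ 1` (`m = e(L/K₁)`).

Then a local equation stays a local equation (`isLocEq_map`), a congruence modulo `π ^ n` becomes a
congruence modulo `π' ^ (m n)` (`strictOn_map`), hence level `n` becomes level `m * n`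
(`chartLevel_map`, `hasLevel_map`), and for every additive map `bc : Pic0 K F →+ Pic0 K' F'` which
is the conorm on representatives, `(Cart n).map bc ≤ Cart' (m * n)` (`cart_map_le`).
-/
import Mathlib
import Fermat.Agent.M1.Car.Defs43

set_option autoImplicit false

namespace Fermat.Agent.M1.Car.BaseChange13

open AlgebraicCurve Fermat.Agent.ES.N34.NodalCore13 Fermat.Agent.M1.Car.Defs43

variable {R K F : Type*} [CommRing R] [Field K] [Field F] [Algebra K F] [Algebra R F]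
variable {R' K' F' : Type*} [CommRing R'] [Field K'] [Field F'] [Algebra K' F'] [Algebra R' F']

/-- `res` restricts the places of `F' / K'` to places of `F / K` along `ι`, without ramification. -/
structure PlaceRes (ι : F →+* F') (res : Place K' F' → Place K F) : Prop where
  mem_iff : ∀ (P' : Place K' F') (f : F),
    f ∈ (res P').toValuationSubring ↔ ι f ∈ P'.toValuationSubring
  ord_eq : ∀ (P' : Place K' F') (f : F), f ≠ 0 → P'.ord (ι f) = (res P').ord f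

/-- the chart `B'` lies over the chart `B`, and closed points contract to closed points. -/
structure ChartOver (ι : F →+* F') (π : R) (π' : R') (B : Subalgebra R F)
    (B' : Subalgebra R' F') : Prop where
  map_mem : ∀ b ∈ B, ι b ∈ B'
  contract : ∀ 𝔪' : Ideal B', 𝔪'.IsMaximal → algebraMap R' B' π' ∈ 𝔪' →
    ∃ 𝔪 : Ideal B, 𝔪.IsMaximal ∧ algebraMap R B π ∈ 𝔪 ∧
      ∀ b : B, b ∈ 𝔪 ↔ ∀ hb : ι (b : F) ∈ B', (⟨ι (b : F), hb⟩ : B') ∈ 𝔪'

variable {ι : F →+* F'} {res : Place K' F' → Place K F}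
variable {π : R} {π' : R'} {B : Subalgebra R F} {B' : Subalgebra R' F'}

/-- a place through a closed point of `B'` restricts to a place through its contraction. -/
theorem through_res (hres : PlaceRes ι res) (hB : ∀ b ∈ B, ι b ∈ B') {𝔪 : Ideal B}
    {𝔪' : Ideal B'}
    (hc : ∀ b : B, b ∈ 𝔪 ↔ ∀ hb : ι (b : F) ∈ B', (⟨ι (b : F), hb⟩ : B') ∈ 𝔪')
    {P' : Place K' F'} (hP' : Through B' 𝔪' P') : Through B 𝔪 (res P') := by
  refine ⟨fun b => (hres.mem_iff P' b).mpr (hP'.1 ⟨ι b, hB b b.2⟩), fun b hb => ?_⟩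
  rw [hres.mem_iff, map_inv₀]
  refine hP'.2 ⟨ι b, hB b b.2⟩ fun hin => hb ((hc b).mpr fun _ => hin)

/-- a local equation stays a local equation of the conorm divisor. -/
theorem isLocEq_map (hres : PlaceRes ι res) (hB : ∀ b ∈ B, ι b ∈ B') {𝔪 : Ideal B}
    {𝔪' : Ideal B'}
    (hc : ∀ b : B, b ∈ 𝔪 ↔ ∀ hb : ι (b : F) ∈ B', (⟨ι (b : F), hb⟩ : B') ∈ 𝔪')
    {D : Divisor K F} {E : Divisor K' F'} (hE : ∀ P', E P' = D (res P')) {h : F}
    (hh : IsLocEq B 𝔪 D h) : IsLocEq B' 𝔪' E (ι h) :=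
  ⟨(map_ne_zero ι).mpr hh.1, fun P' hP' => by
    rw [hres.ord_eq P' h hh.1, hh.2 _ (through_res hres hB hc hP'), hE]⟩

/-- a congruence modulo `π ^ n` on the component `j` becomes a congruence modulo `π' ^ (m n)`. -/
theorem strictOn_map (hB : ∀ b ∈ B, ι b ∈ B') {𝔪 : Ideal B} {𝔪' : Ideal B'}
    (hc : ∀ b : B, b ∈ 𝔪 ↔ ∀ hb : ι (b : F) ∈ B', (⟨ι (b : F), hb⟩ : B') ∈ 𝔪')
    {Oj : ValuationSubring F} {Oj' : ValuationSubring F'} (hO : ∀ x ∈ Oj, ι x ∈ Oj')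
    (hπ' : algebraMap R' F' π' ∈ Oj') {m : ℕ} (hm : 1 ≤ m) {υ : F'} (hυ : υ ∈ Oj')
    (hπ : ι (algebraMap R F π) = algebraMap R' F' π' ^ m * υ) {n : ℕ} {h : F}
    (hh : StrictOn π B Oj 𝔪 n h) : StrictOn π' B' Oj' 𝔪' (m * n) (ι h) := by
  rcases hh with ⟨e, he, c, hc', hec⟩ | ⟨h0, hhi, c, hc', hhc⟩
  · obtain ⟨k, rfl⟩ : ∃ k, m = k + 1 := ⟨m - 1, by omega⟩
    refine Or.inl ⟨⟨ι (e : F), hB e e.2⟩, fun hin => he ((hc e).mpr fun _ => hin),
      algebraMap R' F' π' ^ k * υ * ι c,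
      Oj'.mul_mem _ _ (Oj'.mul_mem _ _ (pow_mem hπ' k) hυ) (hO c hc'), ?_⟩
    show ι (e : F) = _
    rw [hec, map_mul, hπ, pow_succ]
    ring
  · refine Or.inr ⟨(map_ne_zero ι).mpr h0, by rw [← map_inv₀]; exact hO _ hhi,
      υ ^ n * ι c, Oj'.mul_mem _ _ (pow_mem hυ n) (hO c hc'), ?_⟩
    have h1 : ι h - 1 = ι (h - 1) := by rw [map_sub, map_one]
    rw [h1, hhc, map_mul, map_pow, hπ]
    ring

variable {O1 O2 : ValuationSubring F} {O1' O2' : ValuationSubring F'}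

/-- level `n` on a chart becomes level `m * n` on the chart above it. -/
theorem chartLevel_map (hres : PlaceRes ι res) (hBB : ChartOver ι π π' B B')
    (hO1 : ∀ x ∈ O1, ι x ∈ O1') (hO2 : ∀ x ∈ O2, ι x ∈ O2')
    (hπ1' : algebraMap R' F' π' ∈ O1') (hπ2' : algebraMap R' F' π' ∈ O2') {m : ℕ} (hm : 1 ≤ m)
    {υ : F'} (hυ1 : υ ∈ O1') (hυ2 : υ ∈ O2')
    (hπ : ι (algebraMap R F π) = algebraMap R' F' π' ^ m * υ) {n : ℕ}
    {D : Divisor K F} {E : Divisor K' F'} (hE : ∀ P', E P' = D (res P'))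
    (hD : ChartLevel π B O1 O2 n D) : ChartLevel π' B' O1' O2' (m * n) E := by
  intro 𝔪' h𝔪' hπ𝔪'
  obtain ⟨𝔪, h𝔪, hπ𝔪, hc⟩ := hBB.contract 𝔪' h𝔪' hπ𝔪'
  obtain ⟨h, hh, h1, h2⟩ := hD 𝔪 h𝔪 hπ𝔪
  exact ⟨ι h, isLocEq_map hres hBB.map_mem hc hE hh,
    strictOn_map hBB.map_mem hc hO1 hπ1' hm hυ1 hπ h1,
    strictOn_map hBB.map_mem hc hO2 hπ2' hm hυ2 hπ h2⟩

variable {B0 B1 : Subalgebra R F} {B0' B1' : Subalgebra R' F'}

/-- a rigidified divisor of level `n` becomes a rigidified divisor of level `m * n`. -/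
theorem hasLevel_map (hres : PlaceRes ι res) (hB0 : ChartOver ι π π' B0 B0')
    (hB1 : ChartOver ι π π' B1 B1')
    (hO1 : ∀ x ∈ O1, ι x ∈ O1') (hO2 : ∀ x ∈ O2, ι x ∈ O2')
    (hπ1' : algebraMap R' F' π' ∈ O1') (hπ2' : algebraMap R' F' π' ∈ O2') {m : ℕ} (hm : 1 ≤ m)
    {υ : F'} (hυ1 : υ ∈ O1') (hυ2 : υ ∈ O2')
    (hπ : ι (algebraMap R F π) = algebraMap R' F' π' ^ m * υ) {n : ℕ}
    {D : Divisor K F} {E : Divisor K' F'} (hE : ∀ P', E P' = D (res P'))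
    (hD : HasLevel π B0 B1 O1 O2 n D) : HasLevel π' B0' B1' O1' O2' (m * n) E :=
  ⟨chartLevel_map hres hB0 hO1 hO2 hπ1' hπ2' hm hυ1 hυ2 hπ hE hD.1,
    chartLevel_map hres hB1 hO1 hO2 hπ1' hπ2' hm hυ1 hυ2 hπ hE hD.2⟩

/-- **(T2), abstract form**: the base change map on classes maps `Cart n` into `Cart' (m * n)`. -/
theorem cart_map_le (hres : PlaceRes ι res) (hB0 : ChartOver ι π π' B0 B0')
    (hB1 : ChartOver ι π π' B1 B1')
    (hO1 : ∀ x ∈ O1, ι x ∈ O1') (hO2 : ∀ x ∈ O2, ι x ∈ O2')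
    {hπ1 : algebraMap R F π ∈ O1} {hπ2 : algebraMap R F π ∈ O2}
    {hπ1' : algebraMap R' F' π' ∈ O1'} {hπ2' : algebraMap R' F' π' ∈ O2'} {m : ℕ} (hm : 1 ≤ m)
    {υ : F'} (hυ1 : υ ∈ O1') (hυ2 : υ ∈ O2')
    (hπ : ι (algebraMap R F π) = algebraMap R' F' π' ^ m * υ)
    (bc : Pic0 K F →+ Pic0 K' F')
    (hbc : ∀ D : Divisor.degZero (K := K) (F := F),
      ∃ E : Divisor.degZero (K := K') (F := F'), bc (Pic0.mk D) = Pic0.mk E ∧
        ∀ P', (E : Divisor K' F') P' = (D : Divisor K F) (res P')) (n : ℕ) :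
    (Cart π B0 B1 O1 O2 hπ1 hπ2 n).map bc ≤ Cart π' B0' B1' O1' O2' hπ1' hπ2' (m * n) := by
  rintro y ⟨x, ⟨D, rfl, hD⟩, rfl⟩
  obtain ⟨E, hE, hEP⟩ := hbc D
  exact ⟨E, hE.symm, hasLevel_map hres hB0 hB1 hO1 hO2 hπ1' hπ2' hm hυ1 hυ2 hπ hEP hD⟩

end Fermat.Agent.M1.Car.BaseChange13
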