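/-
M1 (row 38, S44), chapter CAR — helper43.

CLASS-LEVEL forms of (T7) and (T5) of the TRI contract, from the pair-level statements of chapter PIC
(helper60 `Pic2/Final60`, helper15 `Pic2/SeparatedPic15`, `Pic2/ToricPic15`) through the dictionary
`Car/AdelicToCech43`.

* `hart_horiz`      : Hartogs at a closed point of the chart which does not lie on the special fibre
                      (from the chart Hartogs property and prime avoidance);
* `LocPrin`         : the divisor is locally principal at EVERY closed point of the chart;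
* `secs_mul`        : `secs D * secs D' = secs (D + D')` for locally principal divisors (invertibility
                      of the module of sections), `secs_zero`, `secs_of_principal`, `npow_pairOf`;
* `unit2_of_unit1`  : a function whose divisor is Cartier of level `2`, unit along `C₁`, is a unit
                      along `C₂` (the special fibre is connected);
* `exists_normalized` : normalisation of `f` with `p D = div f`;
* `level_npow_pairOf` : `P_D ^ p` has every level when `p D` is principal;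
* `eq_zero_of_pairOf_principal` : `P_D` principal ⟹ `[D] = 0`;
* `cart_torsion_free` : **(T7), class level**;
* `cart_succ_of_toric` : **(T5), class level**.
-/
import Mathlib
import Fermat.Agent.M1.Car.AdelicToCech43
import Fermat.Agent.M1.Car.Slope43
import Fermat.Agent.M1.Pic2.Final60
import Fermat.Agent.M1.Pic2.SeparatedPic15
import Fermat.Agent.M1.Pic2.ToricPic15

set_option autoImplicit false

namespace Fermat.Agent.M1.Car.TorsClass43

open AlgebraicCurve Fermat.Agent.ES.N34.NodalCore13 Fermat.Agent.M1.Car.Defs43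
  Fermat.Agent.M1.Node.Thick25 Fermat.Agent.M1.Pic2.Defs60 Fermat.Agent.X0.FF
  Fermat.Agent.M1.Mon.WildPL43 Fermat.Agent.M1.Car.CechToAdelic43
  Fermat.Agent.M1.Car.AdelicToCech43

variable {R K F : Type*} [CommRing R] [Field K] [Field F] [Algebra K F] [Algebra R F]
variable {B : Subalgebra R F} {O1 O2 : ValuationSubring F} {π : R}

/-! ### Closed points off the special fibre -/

/-- A closed point of the chart off the special fibre lies on no component. -/
theorem offBranch_of_not_mem {Oj : ValuationSubring F} {𝔪 : Ideal B}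
    (h : algebraMap R B π ∉ 𝔪) : OffBranch π B Oj 𝔪 :=
  ⟨algebraMap R B π, h, 1, Oj.one_mem, by rw [mul_one]; rfl⟩

/-- **Hartogs at a horizontal closed point**: a function regular at all places through a closed
point `𝔪 ∌ π` of the chart lies in `B_𝔪`. -/
theorem hart_horiz [HasPrincipalDivisors K F] (L : LocFrame (K := K) π B O1 O2) {𝔪 : Ideal B}
    (h𝔪 : 𝔪.IsMaximal) (hπ𝔪 : algebraMap R B π ∉ 𝔪) {w : F} (hw : w ≠ 0)
    (hP : ∀ P : Place K F, Through B 𝔪 P → 0 ≤ P.ord w) : InLocal B 𝔪 w := by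
  classical
  have hp := h𝔪.isPrime
  obtain ⟨Dw, hDw, -⟩ := HasPrincipalDivisors.exists_divisor (K := K) w hw
  set m : ℕ := Dw.support.sup (fun v => (-Dw v).toNat) with hm
  obtain ⟨d, hd, hdS⟩ := exists_avoid (B := B) (𝔪 := 𝔪) Dw.support m
  obtain ⟨k1, hk1⟩ := L.arch1 (w * (d : F))
  obtain ⟨k2, hk2⟩ := L.arch2 (w * (d : F))
  have hmem : algebraMap R F π ^ (k1 + k2) * (w * (d : F)) ∈ B := by
    apply L.glob
    · have : algebraMap R F π ^ (k1 + k2) * (w * (d : F)) =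
          algebraMap R F π ^ k2 * (algebraMap R F π ^ k1 * (w * (d : F))) := by ring
      rw [this]
      exact O1.mul_mem _ _ (pow_mem L.pi_mem1 k2) hk1
    · have : algebraMap R F π ^ (k1 + k2) * (w * (d : F)) =
          algebraMap R F π ^ k1 * (algebraMap R F π ^ k2 * (w * (d : F))) := by ring
      rw [this]
      exact O2.mul_mem _ _ (pow_mem L.pi_mem2 k1) hk2
    · intro v hov hne
      have hne2 : w * (d : F) ≠ 0 := right_ne_zero_of_mul hne
      rw [← le_ord_mul v hne, ← le_ord_mul v hne2]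
      have a1 : 0 ≤ v.ord (algebraMap R F π ^ (k1 + k2)) :=
        ffp_ord_nonneg_of_mem v (hov _ (B.pow_mem (B.algebraMap_mem π) _))
      have a2 : 0 ≤ v.ord (d : F) := ffp_ord_nonneg_of_mem v (hov _ d.2)
      by_cases hth : Through B 𝔪 v
      · have := hP v hth
        omega
      · by_cases hsupp : v ∈ Dw.support
        · have h1 := hdS v hsupp hov hth
          have h2 : (-Dw v).toNat ≤ m := Finset.le_sup (f := fun v => (-Dw v).toNat) hsupp
          have h3 : -Dw v ≤ ((-Dw v).toNat : ℤ) := Int.self_le_toNat _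
          have h4 : ((-Dw v).toNat : ℤ) ≤ (m : ℤ) := by exact_mod_cast h2
          rw [hDw] at h3 h4
          omega
        · have h0 : Dw v = 0 := Finsupp.notMem_support_iff.mp hsupp
          rw [hDw] at h0
          omega
  refine ⟨⟨_, hmem⟩, algebraMap R B π ^ (k1 + k2) * d, fun hcon => ?_, ?_⟩
  · rcases hp.mem_or_mem hcon with h | h
    · exact hπ𝔪 (hp.mem_of_pow_mem _ h)
    · exact hd h
  · push_cast
    ring

/-- Hartogs at an arbitrary closed point of the chart. -/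
theorem hart_all [HasPrincipalDivisors K F] (L : LocFrame (K := K) π B O1 O2) {𝔪 : Ideal B}
    (h𝔪 : 𝔪.IsMaximal) {w : F} (hw : w ≠ 0)
    (hP : ∀ P : Place K F, Through B 𝔪 P → 0 ≤ P.ord w)
    (h1 : OffBranch π B O1 𝔪 ∨ w ∈ O1) (h2 : OffBranch π B O2 𝔪 ∨ w ∈ O2) : InLocal B 𝔪 w := by
  by_cases hπ𝔪 : algebraMap R B π ∈ 𝔪
  · exact L.hart 𝔪 h𝔪 hπ𝔪 w hw hP h1 h2
  · exact hart_horiz L h𝔪 hπ𝔪 hw hP

/-! ### Locally principal divisors -/

/-- `D` is locally principal (Cartier, of level `0`) at EVERY closed point of the chart `B`,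
including those off the special fibre. -/
def LocPrin (π : R) (B : Subalgebra R F) (O1 O2 : ValuationSubring F) (D : Divisor K F) : Prop :=
  ∀ 𝔪 : Ideal B, 𝔪.IsMaximal → LevelAt π B O1 O2 0 D 𝔪

theorem locPrin_of_chartLevel (hπ1 : algebraMap R F π ∈ O1) (hπ2 : algebraMap R F π ∈ O2) {n : ℕ}
    {D : Divisor K F} (hD : ChartLevel π B O1 O2 n D)
    (horiz : ∀ 𝔪 : Ideal B, 𝔪.IsMaximal → algebraMap R B π ∉ 𝔪 → ∃ h, IsLocEq B 𝔪 D h) :
    LocPrin π B O1 O2 D := by
  intro 𝔪 h𝔪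
  by_cases hπ𝔪 : algebraMap R B π ∈ 𝔪
  · obtain ⟨h, hh, h1, h2⟩ := hD 𝔪 h𝔪 hπ𝔪
    exact ⟨h, hh, h1.mono hπ1 (Nat.zero_le n), h2.mono hπ2 (Nat.zero_le n)⟩
  · obtain ⟨h, hh⟩ := horiz 𝔪 h𝔪 hπ𝔪
    exact ⟨h, hh, Or.inl (offBranch_of_not_mem hπ𝔪), Or.inl (offBranch_of_not_mem hπ𝔪)⟩

theorem LocPrin.zero : LocPrin π B O1 O2 (0 : Divisor K F) := fun 𝔪 _ =>
  ⟨1, IsLocEq.one B 𝔪, StrictOn.one 0, StrictOn.one 0⟩

theorem LocPrin.add (hπ1 : algebraMap R F π ∈ O1) (hπ2 : algebraMap R F π ∈ O2)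
    {D D' : Divisor K F} (hD : LocPrin π B O1 O2 D) (hD' : LocPrin π B O1 O2 D') :
    LocPrin π B O1 O2 (D + D') := fun 𝔪 h𝔪 => by
  obtain ⟨h, hh, h1, h2⟩ := hD 𝔪 h𝔪
  obtain ⟨g, hg, g1, g2⟩ := hD' 𝔪 h𝔪
  exact ⟨h * g, hh.mul hg, h1.mul hπ1 g1, h2.mul hπ2 g2⟩

theorem LocPrin.nsmul (hπ1 : algebraMap R F π ∈ O1) (hπ2 : algebraMap R F π ∈ O2)
    {D : Divisor K F} (hD : LocPrin π B O1 O2 D) (k : ℕ) : LocPrin π B O1 O2 (k • D) := by
  induction k with
  | zero => rw [zero_smul]; exact LocPrin.zero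
  | succ k ih => rw [succ_nsmul]; exact ih.add hπ1 hπ2 hD

/-! ### Invertibility of the module of sections -/

theorem secs_mul_le_add (D D' : Divisor K F) :
    secs B O1 O2 D * secs B O1 O2 D' ≤ secs B O1 O2 (D + D') := by
  rw [Submodule.mul_le]
  intro z hz z' hz'
  refine ⟨fun b hb => ?_, fun b hb => ?_, fun v hov hne => ?_⟩
  · rw [← mul_assoc]; exact O1.mul_mem _ _ (hz.1 b hb) (secs_mem1 hz')
  · rw [← mul_assoc]; exact O2.mul_mem _ _ (hz.2.1 b hb) (secs_mem2 hz')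
  · rw [← le_ord_mul v hne, Finsupp.add_apply]
    have a1 := hz.2.2 v hov (left_ne_zero_of_mul hne)
    have a2 := hz'.2.2 v hov (right_ne_zero_of_mul hne)
    omega

/-- The product of two modules of sections is stable under the chart. -/
theorem secs_mul_stable (D D' : Divisor K F) {b x : F} (hb : b ∈ B)
    (hx : x ∈ secs B O1 O2 D * secs B O1 O2 D') : b * x ∈ secs B O1 O2 D * secs B O1 O2 D' := by
  refine Submodule.mul_induction_on hx ?_ ?_
  · intro m hm n hn
    rw [← mul_assoc]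
    exact Submodule.mul_mem_mul (secs_stable hb hm) hn
  · intro x y hx hy
    rw [mul_add]; exact Submodule.add_mem _ hx hy

/-- **Invertibility**: a section of `O(D + D')` is a sum of products of sections of `O(D)` and
`O(D')`, for locally principal `D`, `D'`. -/
theorem secs_add_le_mul [HasPrincipalDivisors K F] (L : LocFrame (K := K) π B O1 O2)
    {D D' : Divisor K F} (hD : LocPrin π B O1 O2 D) (hD' : LocPrin π B O1 O2 D') :
    secs B O1 O2 (D + D') ≤ secs B O1 O2 D * secs B O1 O2 D' := by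
  intro z hz
  rcases eq_or_ne z 0 with rfl | hz0
  · exact zero_mem _
  let J : Ideal B :=
    { carrier := {b | (b : F) * z ∈ secs B O1 O2 D * secs B O1 O2 D'}
      zero_mem' := by
        show ((0 : B) : F) * z ∈ secs B O1 O2 D * secs B O1 O2 D'
        push_cast
        rw [zero_mul]; exact zero_mem _
      add_mem' := by
        intro a b ha hb
        show ((a + b : B) : F) * z ∈ secs B O1 O2 D * secs B O1 O2 D'
        push_cast
        rw [add_mul]; exact add_mem ha hb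
      smul_mem' := by
        intro c b hb
        show ((c • b : B) : F) * z ∈ secs B O1 O2 D * secs B O1 O2 D'
        rw [smul_eq_mul]
        push_cast
        rw [mul_assoc]
        exact secs_mul_stable D D' c.2 hb }
  suffices h1 : (1 : B) ∈ J by
    have : ((1 : B) : F) * z ∈ secs B O1 O2 D * secs B O1 O2 D' := h1
    push_cast at this
    rwa [one_mul] at this
  by_contra hne
  have hJ : J ≠ ⊤ := fun htop => hne ((Ideal.eq_top_iff_one _).mp htop)
  obtain ⟨𝔪, h𝔪, hJ𝔪⟩ := Ideal.exists_le_maximal _ hJ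
  have hp := h𝔪.isPrime
  obtain ⟨h, hh, hs1, hs2⟩ := hD 𝔪 h𝔪
  obtain ⟨h', hh', hs1', hs2'⟩ := hD' 𝔪 h𝔪
  obtain ⟨d, hd, hdz, -, -⟩ := exists_section L h𝔪 hh hs1 hs2 0
  obtain ⟨d', hd', hdz', -, -⟩ := exists_section L h𝔪 hh' hs1' hs2' 0
  have hu0 : z * h * h' ≠ 0 := mul_ne_zero (mul_ne_zero hz0 hh.1) hh'.1
  have hu : InLocal B 𝔪 (z * h * h') := by
    refine hart_all L h𝔪 hu0 (fun P hP => ?_) ?_ ?_
    · rw [P.ord_mul (mul_ne_zero hz0 hh.1) hh'.1, P.ord_mul hz0 hh.1, hh.2 P hP, hh'.2 P hP]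
      have := hz.2.2 P (Through.over hP) hz0
      have e : (D + D') P = D P + D' P := Finsupp.add_apply _ _ _
      rw [e] at this
      omega
    · rcases hs1 with hoff | hs
      · exact Or.inl hoff
      rcases hs1' with hoff | hs'
      · exact Or.inl hoff
      exact Or.inr (O1.mul_mem _ _ (O1.mul_mem _ _ (secs_mem1 hz) (StrictOn.mem L.pi_mem1 hs))
        (StrictOn.mem L.pi_mem1 hs'))
    · rcases hs2 with hoff | hs
      · exact Or.inl hoff
      rcases hs2' with hoff | hs'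
      · exact Or.inl hoff
      exact Or.inr (O2.mul_mem _ _ (O2.mul_mem _ _ (secs_mem2 hz) (StrictOn.mem L.pi_mem2 hs))
        (StrictOn.mem L.pi_mem2 hs'))
  obtain ⟨a, s, hs, has⟩ := hu
  have hmemJ : d * d' * s ∈ J := by
    show ((d * d' * s : B) : F) * z ∈ secs B O1 O2 D * secs B O1 O2 D'
    have e : ((d * d' * s : B) : F) * z = (a : F) * ((h⁻¹ * (d : F)) * (h'⁻¹ * (d' : F))) := by
      push_cast
      rw [← has]
      have e1 : h⁻¹ * h = 1 := inv_mul_cancel₀ hh.1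
      have e2 : h'⁻¹ * h' = 1 := inv_mul_cancel₀ hh'.1
      linear_combination (-(z * (d : F) * (d' : F) * (s : F)) * (h'⁻¹ * h')) * e1 +
        (-(z * (d : F) * (d' : F) * (s : F))) * e2
    rw [e]
    exact secs_mul_stable D D' a.2 (Submodule.mul_mem_mul hdz hdz')
  have := hJ𝔪 hmemJ
  rcases hp.mem_or_mem this with h1 | h1
  · rcases hp.mem_or_mem h1 with h2 | h2
    · exact hd h2
    · exact hd' h2
  · exact hs h1

theorem secs_mul [HasPrincipalDivisors K F] (L : LocFrame (K := K) π B O1 O2)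
    {D D' : Divisor K F} (hD : LocPrin π B O1 O2 D) (hD' : LocPrin π B O1 O2 D') :
    secs B O1 O2 D * secs B O1 O2 D' = secs B O1 O2 (D + D') :=
  le_antisymm (secs_mul_le_add D D') (secs_add_le_mul L hD hD')

theorem secs_zero (L : LocFrame (K := K) π B O1 O2) :
    secs B O1 O2 (0 : Divisor K F) = sm B := by
  ext z
  constructor
  · intro hz
    exact L.glob z (secs_mem1 hz) (secs_mem2 hz) (fun v hov hne => by
      have := hz.2.2 v hov hne
      simpa using this)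
  · intro hz
    have hz' : z ∈ B := hz
    exact mem_secs_of L.le1 L.le2 (L.le1 z hz') (L.le2 z hz') (fun v hov _ => by
      have := ffp_ord_nonneg_of_mem v (hov z hz')
      simpa using this)

/-- The sections of a principal divisor `div f`, `f` a unit along both components. -/
theorem secs_of_principal (L : LocFrame (K := K) π B O1 O2) {D : Divisor K F} {f : F}
    (hf : f ≠ 0) (hf1 : f ∈ O1) (hf1' : f⁻¹ ∈ O1) (hf2 : f ∈ O2) (hf2' : f⁻¹ ∈ O2)
    (hD : ∀ P : Place K F, D P = P.ord f) : secs B O1 O2 D = scale f⁻¹ (sm B) := by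
  ext z
  rw [mem_scale]
  constructor
  · intro hz
    refine ⟨f * z, ?_, by rw [← mul_assoc, inv_mul_cancel₀ hf, one_mul]⟩
    show f * z ∈ B
    refine L.glob _ (O1.mul_mem _ _ hf1 (secs_mem1 hz)) (O2.mul_mem _ _ hf2 (secs_mem2 hz))
      (fun v hov hne => ?_)
    rw [← le_ord_mul v hne]
    have := hz.2.2 v hov (right_ne_zero_of_mul hne)
    rw [hD] at this
    omega
  · rintro ⟨b, hb, rfl⟩
    have hb' : b ∈ B := hb
    refine mem_secs_of L.le1 L.le2 (O1.mul_mem _ _ hf1' (L.le1 b hb'))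
      (O2.mul_mem _ _ hf2' (L.le2 b hb')) (fun v hov hne => ?_)
    rw [← le_ord_mul v hne, v.ord_inv, hD]
    have := ffp_ord_nonneg_of_mem v (hov b hb')
    omega

/-! ### Powers of the canonical pair -/

section Pair

variable {B0 B1 B01 : Subalgebra R F}

/-- **Powers of the canonical pair**: `P_D ^ k = P_{k D}` for a locally principal divisor. -/
theorem npow_pairOf [HasPrincipalDivisors K F] {t : F} (T : ChartPair (K := K) t B0 B1 B01)
    (L0 : LocFrame (K := K) π B0 O1 O2) (L1 : LocFrame (K := K) π B1 O1 O2)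
    {D : Divisor K F} (hD0 : LocPrin π B0 O1 O2 D) (hD1 : LocPrin π B1 O1 O2 D) (k : ℕ) :
    (LinePair.npow T.le0 T.le1 (pairOf T L0.le1 L0.le2 L1.le1 L1.le2 D) k).I0 =
        secs B0 O1 O2 (k • D) ∧
      (LinePair.npow T.le0 T.le1 (pairOf T L0.le1 L0.le2 L1.le1 L1.le2 D) k).I1 =
        secs B1 O1 O2 (k • D) := by
  induction k with
  | zero =>
    rw [zero_smul, secs_zero L0, secs_zero L1]
    exact ⟨rfl, rfl⟩
  | succ k ih =>
    have e0 : (LinePair.npow T.le0 T.le1 (pairOf T L0.le1 L0.le2 L1.le1 L1.le2 D) (k + 1)).I0 =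
        (LinePair.npow T.le0 T.le1 (pairOf T L0.le1 L0.le2 L1.le1 L1.le2 D) k).I0 *
          secs B0 O1 O2 D := rfl
    have e1 : (LinePair.npow T.le0 T.le1 (pairOf T L0.le1 L0.le2 L1.le1 L1.le2 D) (k + 1)).I1 =
        (LinePair.npow T.le0 T.le1 (pairOf T L0.le1 L0.le2 L1.le1 L1.le2 D) k).I1 *
          secs B1 O1 O2 D := rfl
    rw [e0, e1, ih.1, ih.2, succ_nsmul,
      secs_mul L0 (hD0.nsmul L0.pi_mem1 L0.pi_mem2 k) hD0,
      secs_mul L1 (hD1.nsmul L1.pi_mem1 L1.pi_mem2 k) hD1]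
    exact ⟨rfl, rfl⟩

/-! ### Normalisation of a function with Cartier divisor -/

/-- A function whose divisor is Cartier of level `1`, unit along `C₁` and regular along `C₂`, does
not vanish along `C₂` (the two components meet). -/
theorem not_pi_dvd_of_unit1 (M : Frame (K := K) π B0 B1 O1 O2) {Bs : Subalgebra R F}
    {𝔪s : Ideal Bs} (hs : IsNode π B0 B1 O1 O2 Bs 𝔪s) {E : Divisor K F}
    (hE : ∀ B : Subalgebra R F, B = B0 ∨ B = B1 → ChartLevel π B O1 O2 1 E)
    {f : F} (hf : f ≠ 0) (hf1 : f ∈ O1) (hf1' : f⁻¹ ∈ O1) (hf2 : f ∈ O2)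
    (hdiv : ∀ P : Place K F, P.ord f = -E P) : ¬ ∃ c ∈ O2, f = algebraMap R F π * c := by
  rintro ⟨c, hc, hfc⟩
  have hp0 : algebraMap R F π ≠ 0 := M.unif1.ne_zero
  have hloc : ∀ (B : Subalgebra R F) (_ : B = B0 ∨ B = B1) (𝔪 : Ideal B), 𝔪.IsMaximal →
      algebraMap R B π ∈ 𝔪 →
      ∃ e, InLocal B 𝔪 (f * e) ∧ StrictOn π B O1 𝔪 1 e ∧ StrictOn π B O2 𝔪 1 e := by
    intro B hB 𝔪 h𝔪 hπ𝔪
    obtain ⟨e, heE, he1, he2⟩ := hE B hB 𝔪 h𝔪 hπ𝔪
    refine ⟨e, ?_, he1, he2⟩
    refine M.hart B hB 𝔪 h𝔪 hπ𝔪 _ (mul_ne_zero hf heE.1) (fun P hP => ?_) ?_ ?_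
    · rw [P.ord_mul hf heE.1, hdiv, heE.2 P hP]; omega
    · rcases he1 with hoff | he1'
      · exact Or.inl hoff
      · exact Or.inr (O1.mul_mem _ _ hf1 (StrictOn.mem M.pi_mem1 he1'))
    · rcases he2 with hoff | he2'
      · exact Or.inl hoff
      · exact Or.inr (O2.mul_mem _ _ hf2 (StrictOn.mem M.pi_mem2 he2'))
  obtain ⟨r, c1, hc1, hfr⟩ := M.const1 f hf1 (by
    intro B hB 𝔪 h𝔪 hπ𝔪 hon
    obtain ⟨e, hw, he1, -⟩ := hloc B hB 𝔪 h𝔪 hπ𝔪
    refine ⟨_, hw, ?_⟩
    rcases he1 with hoff | ⟨-, -, c', hc', hec⟩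
    · exact absurd hoff hon
    · refine ⟨-(f * c'), O1.neg_mem _ (O1.mul_mem _ _ hf1 hc'), ?_⟩
      rw [pow_one] at hec
      linear_combination (-f) * hec)
  obtain ⟨e, hw, he1, he2⟩ := hloc Bs hs.chart 𝔪s hs.max hs.pi_mem
  rcases he1 with hoff | ⟨-, -, c', hc', hec⟩
  · exact absurd hoff hs.on1
  rcases he2 with hoff | he2'
  · exact absurd hoff hs.on2
  have hem2 : e ∈ O2 := StrictOn.mem M.pi_mem2 he2'
  rw [pow_one] at hec
  have hdvd : π ∣ r - 0 :=
    node_compare hs.max M.dvrR (M.le1 Bs hs.chart) (M.le2 Bs hs.chart) hs.on1 hs.on2 hw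
      ⟨c1 + f * c', O1.add_mem _ _ hc1 (O1.mul_mem _ _ hf1 hc'), by
        linear_combination hfr + f * hec⟩
      ⟨c * e, O2.mul_mem _ _ hc hem2, by
        rw [map_zero, sub_zero]; linear_combination e * hfc⟩
  rw [sub_zero] at hdvd
  obtain ⟨r', rfl⟩ := hdvd
  apply M.unif1.nonunit
  have hf' : f = algebraMap R F π * (algebraMap R F r' + c1) := by
    rw [map_mul] at hfr
    linear_combination hfr
  have : (algebraMap R F π)⁻¹ = f⁻¹ * (algebraMap R F r' + c1) := by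
    field_simp
    linear_combination hf'
  rw [this]
  exact O1.mul_mem _ _ hf1' (O1.add_mem _ _ (M.algebraMap_mem1 r') hc1)

/-- A function whose divisor is Cartier of level `1` and which is a unit along `C₁` is a unit
along `C₂`. -/
theorem unit2_of_unit1 (M : Frame (K := K) π B0 B1 O1 O2) {Bs : Subalgebra R F}
    {𝔪s : Ideal Bs} (hs : IsNode π B0 B1 O1 O2 Bs 𝔪s) {E : Divisor K F}
    (hE : ∀ B : Subalgebra R F, B = B0 ∨ B = B1 → ChartLevel π B O1 O2 1 E)
    {f : F} (hf : f ≠ 0) (hf1 : f ∈ O1) (hf1' : f⁻¹ ∈ O1)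
    (hdiv : ∀ P : Place K F, P.ord f = -E P) : f ∈ O2 ∧ f⁻¹ ∈ O2 := by
  by_cases hf2 : f ∈ O2
  · refine ⟨hf2, ?_⟩
    by_contra hinv
    exact not_pi_dvd_of_unit1 M hs hE hf hf1 hf1' hf2 hdiv (M.unif2.unif f hf2 hinv)
  · exfalso
    have hinv : f⁻¹ ∈ O2 := (O2.mem_or_inv_mem f).resolve_left hf2
    have hE' : ∀ B : Subalgebra R F, B = B0 ∨ B = B1 → ChartLevel π B O1 O2 1 (-E) :=
      fun B hB => (hE B hB).neg M.pi_mem1 M.pi_mem2
    refine not_pi_dvd_of_unit1 M hs hE' (inv_ne_zero hf) hf1' (by rwa [inv_inv]) hinv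
      (fun P => by rw [P.ord_inv, hdiv, Finsupp.neg_apply]) ?_
    exact M.unif2.unif f⁻¹ hinv (by rwa [inv_inv])

theorem chartLevel_nsmul (hπ1 : algebraMap R F π ∈ O1) (hπ2 : algebraMap R F π ∈ O2) {n : ℕ}
    {D : Divisor K F} (hD : ChartLevel π B O1 O2 n D) (k : ℕ) :
    ChartLevel π B O1 O2 n (k • D) := by
  induction k with
  | zero => rw [zero_smul]; exact ChartLevel.zero π B O1 O2 n
  | succ k ih => rw [succ_nsmul]; exact ih.add hπ1 hπ2 hD

/-- **Normalisation**: if `p [D] = 0` with `D` of level `≥ 1`, then `p D = div f` with `f` a unit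
along both components. -/
theorem exists_normalized (M : Frame (K := K) π B0 B1 O1 O2)
    (hnode : ∃ (Bs : Subalgebra R F) (𝔪s : Ideal Bs), IsNode π B0 B1 O1 O2 Bs 𝔪s)
    (hvert : ∀ P : Place K F, P.ord (algebraMap R F π) = 0) {p n : ℕ} (hn : 1 ≤ n)
    (D : Divisor.degZero (K := K) (F := F)) (hpD : p • Pic0.mk D = 0)
    (hD : HasLevel π B0 B1 O1 O2 n (D : Divisor K F)) :
    ∃ f : F, f ≠ 0 ∧ f ∈ O1 ∧ f⁻¹ ∈ O1 ∧ f ∈ O2 ∧ f⁻¹ ∈ O2 ∧
      ∀ P : Place K F, (p • (D : Divisor K F)) P = P.ord f := by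
  obtain ⟨Bs, 𝔪s, hs⟩ := hnode
  obtain ⟨f₀, hf₀, hdiv₀⟩ := Slope43.exists_principal_of_nsmul_eq_zero D hpD
  obtain ⟨a, u, hu1, hu1', hfu⟩ := M.vals1 f₀ hf₀
  have hp0 : algebraMap R F π ≠ 0 := M.unif1.ne_zero
  have hu0 : u ≠ 0 := by
    rintro rfl
    exact hf₀ (by rw [hfu, mul_zero])
  have hordu : ∀ P : Place K F, P.ord u = P.ord f₀ := by
    intro P
    rw [hfu, P.ord_mul (zpow_ne_zero a hp0) hu0, P.ord_zpow, hvert, mul_zero, zero_add]
  have hdiv : ∀ P : Place K F, (p • (D : Divisor K F)) P = P.ord u := fun P => by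
    rw [hdiv₀, hordu]
  have hE : ∀ B : Subalgebra R F, B = B0 ∨ B = B1 →
      ChartLevel π B O1 O2 1 (-(p • (D : Divisor K F))) := by
    intro B hB
    have h1 : ChartLevel π B O1 O2 n (D : Divisor K F) := by
      rcases hB with rfl | rfl
      · exact hD.1
      · exact hD.2
    exact ((chartLevel_nsmul M.pi_mem1 M.pi_mem2 h1 p).mono M.pi_mem1 M.pi_mem2 hn).neg
      M.pi_mem1 M.pi_mem2
  obtain ⟨h2, h2'⟩ := unit2_of_unit1 M hs hE hu0 hu1 hu1' (fun P => by
    rw [Finsupp.neg_apply, neg_neg, hdiv])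
  exact ⟨u, hu0, hu1, hu1', h2, h2', hdiv⟩

/-- If `p D = div f` with `f` a unit along both components, `P_D ^ p` has every level. -/
theorem level_npow_pairOf [HasPrincipalDivisors K F] {t : F} (T : ChartPair (K := K) t B0 B1 B01)
    (L0 : LocFrame (K := K) π B0 O1 O2) (L1 : LocFrame (K := K) π B1 O1 O2)
    {D : Divisor K F} (hD0 : LocPrin π B0 O1 O2 D) (hD1 : LocPrin π B1 O1 O2 D) {p : ℕ} {f : F}
    (hf : f ≠ 0) (hf1 : f ∈ O1) (hf1' : f⁻¹ ∈ O1) (hf2 : f ∈ O2) (hf2' : f⁻¹ ∈ O2)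
    (hdiv : ∀ P : Place K F, (p • D) P = P.ord f) (N : ℕ) :
    Level (algebraMap R F π) N
      (LinePair.npow T.le0 T.le1 (pairOf T L0.le1 L0.le2 L1.le1 L1.le2 D) p) := by
  obtain ⟨e0, e1⟩ := npow_pairOf T L0 L1 hD0 hD1 p
  refine Pic2.Final60.level_of_principal (inv_ne_zero hf) _ ?_ ?_ N
  · rw [e0]; exact secs_of_principal L0 hf hf1 hf1' hf2 hf2' hdiv
  · rw [e1]; exact secs_of_principal L1 hf hf1 hf1' hf2 hf2' hdiv

/-! ### A principal pair is the pair of a principal divisor -/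

/-- Every place over the chart passes through a closed point of the chart. -/
theorem exists_through {P : Place K F} (hBP : Over B P) :
    ∃ 𝔪 : Ideal B, 𝔪.IsMaximal ∧ Through B 𝔪 P := by
  let φ : B →+* P.toValuationSubring :=
    B.val.toRingHom.codRestrict P.toValuationSubring.toSubring (fun b => hBP b b.2)
  have hne : (IsLocalRing.maximalIdeal P.toValuationSubring).comap φ ≠ ⊤ :=
    (Ideal.comap_isPrime φ _).ne_top
  obtain ⟨𝔪, h𝔪, hle⟩ := Ideal.exists_le_maximal _ hne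
  refine ⟨𝔪, h𝔪, fun b => hBP b b.2, fun b hb => ?_⟩
  have hnm : b ∉ (IsLocalRing.maximalIdeal P.toValuationSubring).comap φ := fun h => hb (hle h)
  rw [Ideal.mem_comap, IsLocalRing.mem_maximalIdeal, mem_nonunits_iff, not_not] at hnm
  have h1 : P.toValuationSubring.valuation (b : F) = 1 :=
    (P.toValuationSubring.valuation_eq_one_iff (φ b)).mp hnm
  rw [← P.toValuationSubring.valuation_le_one_iff, map_inv₀, h1, inv_one]

/-- If the sections of `O(D)` over the chart are `a B`, then `ord_P a = - D P` at the places over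
the chart. -/
theorem ord_of_secs_eq_scale [HasPrincipalDivisors K F] (L : LocFrame (K := K) π B O1 O2)
    {D : Divisor K F} (hD : LocPrin π B O1 O2 D) {a : F} (ha : a ≠ 0)
    (h : secs B O1 O2 D = scale a (sm B)) {P : Place K F} (hP : Over B P) :
    P.ord a = -D P := by
  obtain ⟨𝔪, h𝔪, hth⟩ := exists_through hP
  obtain ⟨g, hg, hs1, hs2⟩ := hD 𝔪 h𝔪
  obtain ⟨d, hd, hdz, -, -⟩ := exists_section L h𝔪 hg hs1 hs2 0
  have ha_mem : a ∈ secs B O1 O2 D := by
    rw [h]; exact mem_scale.mpr ⟨1, B.one_mem, mul_one a⟩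
  have h1 : -D P ≤ P.ord a := ha_mem.2.2 P hP ha
  rw [h] at hdz
  obtain ⟨b, hb, hbe⟩ := mem_scale.mp hdz
  have hb' : b ∈ B := hb
  have hd0 : (d : F) ≠ 0 := by
    intro h0
    apply hd
    have : d = 0 := Subtype.ext h0
    rw [this]; exact 𝔪.zero_mem
  have hdord : P.ord (d : F) = 0 := ord_eq_zero_of_unit P (hth.1 d) (hth.2 d hd)
  have hne : g⁻¹ * (d : F) ≠ 0 := mul_ne_zero (inv_ne_zero hg.1) hd0
  have hb0 : b ≠ 0 := by
    rintro rfl
    rw [mul_zero] at hbe
    exact hne hbe.symm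
  have h2 : P.ord (a * b) = -D P := by
    rw [hbe, P.ord_mul (inv_ne_zero hg.1) hd0, P.ord_inv, hg.2 P hth, hdord, add_zero]
  rw [P.ord_mul ha hb0] at h2
  have h3 : 0 ≤ P.ord b := ffp_ord_nonneg_of_mem P (hP b hb')
  omega

/-- **A principal pair comes from a principal divisor.** -/
theorem eq_zero_of_secs_eq_scale [HasPrincipalDivisors K F] {t : F}
    (T : ChartPair (K := K) t B0 B1 B01)
    (L0 : LocFrame (K := K) π B0 O1 O2) (L1 : LocFrame (K := K) π B1 O1 O2)
    (D : Divisor.degZero (K := K) (F := F))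
    (hD0 : LocPrin π B0 O1 O2 (D : Divisor K F)) (hD1 : LocPrin π B1 O1 O2 (D : Divisor K F))
    {a : F} (ha : a ≠ 0) (h0 : secs B0 O1 O2 (D : Divisor K F) = scale a (sm B0))
    (h1 : secs B1 O1 O2 (D : Divisor K F) = scale a (sm B1)) : Pic0.mk D = 0 := by
  have key : ∀ P : Place K F, (D : Divisor K F) P = P.ord a⁻¹ := by
    intro P
    rw [P.ord_inv]
    rcases P.toValuationSubring.mem_or_inv_mem t with ht | ht
    · have := ord_of_secs_eq_scale L0 hD0 ha h0 (T.over0 P ht)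
      omega
    · have := ord_of_secs_eq_scale L1 hD1 ha h1 (T.over1 P ht)
      omega
  exact (QuotientAddGroup.eq_zero_iff _).mpr
    (AddSubgroup.mem_addSubgroupOf.mpr ⟨a⁻¹, inv_ne_zero ha, key⟩)

end Pair

/-! ### The class-level statements -/

section Final

open Polynomial

variable {B0 B1 B01 : Subalgebra R F}

/-- Levels go down. -/
theorem level_of_le {ϖ : F} (hϖ01 : ϖ ∈ B01) {P : LinePair B0 B1 B01} {m n : ℕ} (hmn : m ≤ n)
    (h : Level ϖ n P) : Level ϖ m P := by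
  obtain ⟨k, rfl⟩ := Nat.exists_eq_add_of_le hmn
  clear hmn
  induction k with
  | zero => exact h
  | succ k ih => exact ih (Pic2.LeadOps60.Level.of_succ hϖ01 h)

/-- The facts about the two-chart model used by the class-level forms of (T5) and (T7). -/
structure TorsFrame (π : R) (t : F) (B0 B1 B01 : Subalgebra R F) (O1 O2 : ValuationSubring F) :
    Prop where
  chart : ChartPair (K := K) t B0 B1 B01
  loc0 : LocFrame (K := K) π B0 O1 O2
  loc1 : LocFrame (K := K) π B1 O1 O2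
  frame : Frame (K := K) π B0 B1 O1 O2
  /-- the two components meet -/
  node : ∃ (Bs : Subalgebra R F) (𝔪s : Ideal Bs), IsNode π B0 B1 O1 O2 Bs 𝔪s
  vert : ∀ P : Place K F, P.ord (algebraMap R F π) = 0
  /-- the generic fibre of each chart is regular: every divisor is principal at the closed points
  off the special fibre -/
  horiz0 : ∀ (D : Divisor K F) (𝔪 : Ideal B0), 𝔪.IsMaximal → algebraMap R B0 π ∉ 𝔪 →
    ∃ h, IsLocEq B0 𝔪 D h
  horiz1 : ∀ (D : Divisor K F) (𝔪 : Ideal B1), 𝔪.IsMaximal → algebraMap R B1 π ∉ 𝔪 →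
    ∃ h, IsLocEq B1 𝔪 D h
  two : TwoChart (algebraMap R F π) B0 B1 B01
  le01_1 : ∀ b ∈ B01, b ∈ O1
  le01_2 : ∀ b ∈ B01, b ∈ O2

namespace TorsFrame

variable {t : F}

/-- The canonical pair of a divisor on the model. -/
noncomputable def pair [HasPrincipalDivisors K F] (W : TorsFrame (K := K) π t B0 B1 B01 O1 O2)
    (D : Divisor K F) : LinePair B0 B1 B01 :=
  pairOf W.chart W.loc0.le1 W.loc0.le2 W.loc1.le1 W.loc1.le2 D

theorem locPrin0 (W : TorsFrame (K := K) π t B0 B1 B01 O1 O2) {n : ℕ} {D : Divisor K F}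
    (hD : HasLevel π B0 B1 O1 O2 n D) : LocPrin π B0 O1 O2 D :=
  locPrin_of_chartLevel W.loc0.pi_mem1 W.loc0.pi_mem2 hD.1 (W.horiz0 D)

theorem locPrin1 (W : TorsFrame (K := K) π t B0 B1 B01 O1 O2) {n : ℕ} {D : Divisor K F}
    (hD : HasLevel π B0 B1 O1 O2 n D) : LocPrin π B1 O1 O2 D :=
  locPrin_of_chartLevel W.loc1.pi_mem1 W.loc1.pi_mem2 hD.2 (W.horiz1 D)

/-- The canonical pair of a divisor of level `n ≥ 1` has level `n`. -/
theorem level_pair [HasPrincipalDivisors K F] (W : TorsFrame (K := K) π t B0 B1 B01 O1 O2)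
    {n : ℕ} (hn : 1 ≤ n) {D : Divisor K F} (hD : HasLevel π B0 B1 O1 O2 n D) :
    Level (algebraMap R F π) n (W.pair D) :=
  (level_pairOf W.chart W.loc0 W.loc1 W.vert hn hD).2

/-- If `p [D] = 0` with `D` of level `n ≥ 1`, the `p`-th power of the canonical pair has every
level. -/
theorem level_npow_pair [HasPrincipalDivisors K F] (W : TorsFrame (K := K) π t B0 B1 B01 O1 O2)
    {p n : ℕ} (hn : 1 ≤ n) (D : Divisor.degZero (K := K) (F := F))
    (hD : HasLevel π B0 B1 O1 O2 n (D : Divisor K F)) (hpD : p • Pic0.mk D = 0) (N : ℕ) :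
    Level (algebraMap R F π) N
      (LinePair.npow W.two.le0 W.two.le1 (W.pair (D : Divisor K F)) p) := by
  obtain ⟨f, hf, hf1, hf1', hf2, hf2', hdiv⟩ := exists_normalized W.frame W.node W.vert hn D hpD hD
  exact level_npow_pairOf W.chart W.loc0 W.loc1 (W.locPrin0 hD) (W.locPrin1 hD) hf hf1 hf1' hf2 hf2'
    hdiv N

/-- **(T5), class level, Frobenius form.**  In the Frobenius regime `p n < n + e`, a `p`-torsion
class `[D]` of level `n ≥ 1` whose leading coefficient `c` satisfies `c ^ p ∈ Bdry → c ∈ Bdry`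
(Frobenius is injective on the class of `c` in `H¹(X_k, O)`) has level `n + 1`. -/
theorem cart_succ_of_frob [HasPrincipalDivisors K F]
    {hπ1 : algebraMap R F π ∈ O1} {hπ2 : algebraMap R F π ∈ O2}
    (W : TorsFrame (K := K) π t B0 B1 B01 O1 O2) {p e n : ℕ} (hp : p.Prime) {υ : F}
    (hpe : (p : F) = algebraMap R F π ^ e * υ) (hυ : υ ∈ B01) (hn : 1 ≤ n)
    (hlt : p * n < n + e) (D : Divisor.degZero (K := K) (F := F))
    (hD : HasLevel π B0 B1 O1 O2 n (D : Divisor K F)) (hpD : p • Pic0.mk D = 0)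
    (hfrob : ∃ c, HasLead (algebraMap R F π) n (W.pair (D : Divisor K F)) c ∧
      (c ^ p ∈ Bdry (algebraMap R F π) B0 B1 B01 → c ∈ Bdry (algebraMap R F π) B0 B1 B01)) :
    Pic0.mk D ∈ Cart π B0 B1 O1 O2 hπ1 hπ2 (n + 1) := by
  obtain ⟨c, hc, hfr⟩ := hfrob
  have hrep := (level_pairOf W.chart W.loc0 W.loc1 W.vert hn hD).1
  have hlev : Level (algebraMap R F π) (n + 1) (W.pair (D : Divisor K F)) :=
    Pic2.Final60.Level.succ_of_pow_lt W.two hp hpe hυ hn hlt hc
      (W.level_npow_pair hn D hD hpD _) hfr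
  obtain ⟨𝔪0, h𝔪0, hπ𝔪0, -⟩ := W.loc0.meet1
  obtain ⟨𝔪1, h𝔪1, hπ𝔪1, -⟩ := W.loc1.meet1
  exact mem_cart_of_level W.loc0.unif1 W.loc0.unif2 W.loc0.le1 W.loc0.le2 W.loc1.le1 W.loc1.le2
    W.le01_1 W.le01_2 ⟨𝔪0, h𝔪0, hπ𝔪0⟩ ⟨𝔪1, h𝔪1, hπ𝔪1⟩ _ D hrep hlev

/-- **(T5), class level, toric form.**  In the Frobenius regime, a `p`-torsion class of level
`n ≥ 1` with TORIC leading coefficient has level `n + 1`. -/
theorem cart_succ_of_toric [HasPrincipalDivisors K F]
    {hπ1 : algebraMap R F π ∈ O1} {hπ2 : algebraMap R F π ∈ O2}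
    (W : TorsFrame (K := K) π t B0 B1 B01 O1 O2) {p e n : ℕ} (hp : p.Prime) {υ : F}
    (hpe : (p : F) = algebraMap R F π ^ e * υ) (hυ : υ ∈ B01) (hn : 1 ≤ n)
    (hlt : p * n < n + e)
    (TS : Pic2.Toric15.ToricSetup p B0.toSubring B1.toSubring B01.toSubring (algebraMap R F).range
      (Pic2.ToricField15.mulSub (algebraMap R F π) B01.toSubring.toAddSubgroup)
      (Pic2.ToricField15.mulSub (algebraMap R F π) O1.toAddSubgroup)
      (Pic2.ToricField15.mulSub (algebraMap R F π) O2.toAddSubgroup))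
    (D : Divisor.degZero (K := K) (F := F))
    (hD : HasLevel π B0 B1 O1 O2 n (D : Divisor K F)) (hpD : p • Pic0.mk D = 0)
    (htor : ∃ c, HasLead (algebraMap R F π) n (W.pair (D : Divisor K F)) c ∧
      Pic2.ToricPic15.IsToric π B0 B1 O1 O2 c) :
    Pic0.mk D ∈ Cart π B0 B1 O1 O2 hπ1 hπ2 (n + 1) := by
  obtain ⟨c, hc, hct⟩ := htor
  exact W.cart_succ_of_frob hp hpe hυ hn hlt D hD hpD
    ⟨c, hc, Pic2.ToricPic15.pow_mem_Bdry_imp TS (Pic2.LeadOps60.HasLead.mem hc) hct⟩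

/-- **(T7), class level.**  Above the critical level (`n + e < p n`, i.e. `n > e / (p - 1)`), the
group `Cart n` has no `p`-torsion. -/
theorem cart_torsion_free [HasPrincipalDivisors K F] [IsLocalRing R] [IsNoetherianRing R]
    {hπ1 : algebraMap R F π ∈ O1} {hπ2 : algebraMap R F π ∈ O2}
    (W : TorsFrame (K := K) π t B0 B1 B01 O1 O2) (hπ : π ∈ IsLocalRing.maximalIdeal R)
    (int0 : ∀ x ∈ B0, IsIntegral (Algebra.adjoin R {t}) x)
    (int1 : ∀ x ∈ B1, IsIntegral (Algebra.adjoin R {t⁻¹}) x)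
    (ov0 : ∀ x ∈ B01, ∃ k : ℕ, t ^ k * x ∈ B0)
    (ov1 : ∀ x ∈ B01, ∃ k : ℕ, t⁻¹ ^ k * x ∈ B1)
    [IsNoetherianRing B0] [IsNoetherianRing B1]
    (fin0 : ∃ (r : ℕ) (e : Fin r → F), (∀ i, e i ∈ B0) ∧
      ∀ x ∈ B0, ∃ P : Fin r → R[X], x = ∑ i, aeval t (P i) * e i)
    {p e n : ℕ} (hp : p.Prime) (u : Rˣ) (hpe : (p : R) = π ^ e * u) (hn : 1 ≤ n)
    (hgt : n + e < p * n) {x : Pic0 K F} (hx : x ∈ Cart π B0 B1 O1 O2 hπ1 hπ2 n)
    (hpx : p • x = 0) : x = 0 := by
  obtain ⟨D, rfl, hD⟩ := hx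
  have hlev := W.level_pair hn hD
  have hpow := W.level_npow_pair hn D hD hpx
  have hpeF : (p : F) = algebraMap R F π ^ e * algebraMap R F (u : R) := by
    rw [← map_pow, ← map_mul, ← hpe, map_natCast]
  have hall : ∀ m : ℕ, Level (algebraMap R F π) m (W.pair (D : Divisor K F)) := by
    intro m
    rcases le_total m n with hmn | hnm
    · exact level_of_le (Pic2.Lead60.pi_mem_of_range B01 W.two.pi_mem) hmn hlev
    · obtain ⟨k, rfl⟩ := Nat.exists_eq_add_of_le hnm
      exact Pic2.Final60.Level.all_of_pow_gt W.two hp hpeF (B01.algebraMap_mem _)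
        (fun c _ hc => Pic2.Final60.unit_mul_mem_Bdry u.isUnit hc) hn hgt hlev hpow k
  obtain ⟨a, ha, e0, e1⟩ := Pic2.SeparatedPic15.exists_smul_one_of_forall_level π hπ W.two t
    W.chart.t_ne W.chart.t_mem W.chart.tinv_mem int0 int1 ov0 ov1 fin0 _ hall
  exact eq_zero_of_secs_eq_scale W.chart W.loc0 W.loc1 D (W.locPrin0 hD) (W.locPrin1 hD) ha e0 e1

end TorsFrame

end Final

end Fermat.Agent.M1.Car.TorsClass43
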