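/-
M1 (row 38, S44), chapters CAR / TRI — helper43.

THE TRI CONTRACT OVER THE MODEL.  For a function field `F / K` with a nodal two-chart model
(`K = L` the field of rationality of `V`, `R = A ∩ L`, `π = ϖ_L`), the filtration
`JL n := Cart π B0 B1 O1 O2 n` of `Pic0 K F` satisfies the contracts `WildContract` / `TameContract`
of `Tri/ContractL20`, given

* the model facts (`TorsFrame`, `SlopeFrame`, the chart hypotheses of the separatedness theorem),
* the ramification data of the inertia elements (`InertiaAut`, `CycAt`),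
* the two global inputs: (T4) `V ∩ Cart 0 ⊆ Cart 1` (OLD / LINK / depth zero) and the toric-ness of
  the leading coefficients of the vectors of `V` (NRM, HK4).

Everything else — (T1), (T1'), (T3), (T5), (T6), (T7), monotonicity — is discharged here from the
landed CAR / PIC theorems.  Conclusion: `τ v = c v` for `v ∈ V` whenever `τ` acts on `μ_p` through
`ζ ↦ ζ ^ c`.
-/
import Mathlib
import Fermat.Agent.M1.Car.TorsClass43
import Fermat.Agent.M1.Tri.ContractL20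

set_option autoImplicit false

namespace Fermat.Agent.M1.Car.ContractInst43

open AlgebraicCurve Polynomial Fermat.Agent.ES.N34.NodalCore13 Fermat.Agent.M1.Car.Defs43
  Fermat.Agent.M1.Node.Thick25 Fermat.Agent.M1.Pic2.Defs60 Fermat.Agent.X0.FF
  Fermat.Agent.M1.Mon.WildPL43 Fermat.Agent.M1.Car.CechToAdelic43
  Fermat.Agent.M1.Car.AdelicToCech43 Fermat.Agent.M1.Car.TorsClass43
  Fermat.Agent.M1.Tri.ContractL20

variable {R K F : Type*} [CommRing R] [Field K] [Field F] [Algebra K F] [Algebra R F]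
variable {B0 B1 B01 : Subalgebra R F} {O1 O2 : ValuationSubring F} {π : R} {t : F}

/-- `σ` acts on the model as an element of the inertia group of depth `m`: it preserves both charts
and their closed points over `π`, and is the identity modulo `π ^ m` on both Gauss rings. -/
structure InertiaAut (π : R) (B0 B1 : Subalgebra R F) (O1 O2 : ValuationSubring F)
    (σ : SemilinearAut K F) (m : ℕ) : Prop where
  pres0 : PreservesChart π B0 σ
  pres0' : PreservesChart π B0 σ⁻¹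
  pres1 : PreservesChart π B1 σ
  pres1' : PreservesChart π B1 σ⁻¹
  ram1 : ∀ x ∈ O1, ∃ c ∈ O1, σ • x - x = algebraMap R F π ^ m * c
  ram2 : ∀ x ∈ O2, ∃ c ∈ O2, σ • x - x = algebraMap R F π ^ m * c

theorem InertiaAut.pres {σ : SemilinearAut K F} {m : ℕ} (h : InertiaAut π B0 B1 O1 O2 σ m) :
    ∀ B : Subalgebra R F, B = B0 ∨ B = B1 → PreservesChart π B σ ∧ PreservesChart π B σ⁻¹ := by
  rintro B (rfl | rfl)
  · exact ⟨h.pres0, h.pres0'⟩
  · exact ⟨h.pres1, h.pres1'⟩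

/-- `τ` is an inertia element acting on `π` through `ε` with `ε ^ m ≡ c mod π` (so that it acts on
`gr^m` through the scalar `c`). -/
def CycAt (π : R) (B0 B1 : Subalgebra R F) (O1 O2 : ValuationSubring F) (m : ℕ)
    (τ : SemilinearAut K F) (c : ℕ) : Prop :=
  InertiaAut π B0 B1 O1 O2 τ 1 ∧ ∃ ε : F, ε ∈ O1 ∧ ε ∈ O2 ∧
    τ • algebraMap R F π = algebraMap R F π * ε ∧
    (∃ d ∈ O1, ε ^ m - (c : F) = algebraMap R F π * d) ∧
    (∃ d ∈ O2, ε ^ m - (c : F) = algebraMap R F π * d)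

/-- (T1') at depth `m` from `CycAt`. -/
theorem cycAt_smul_sub [HasPrincipalDivisors K F]
    {hπ1 : algebraMap R F π ∈ O1} {hπ2 : algebraMap R F π ∈ O2} {m : ℕ} (hm : 1 ≤ m)
    {τ : SemilinearAut K F} {c : ℕ} (h : CycAt π B0 B1 O1 O2 m τ c) {x : Pic0 K F}
    (hx : x ∈ Cart π B0 B1 O1 O2 hπ1 hπ2 m) :
    τ • x - c • x ∈ Cart π B0 B1 O1 O2 hπ1 hπ2 (m + 1) := by
  obtain ⟨hI, ε, hε1, hε2, hτπ, hc1, hc2⟩ := h
  refine smul_sub_nsmul_mem_cart hI.pres0 hI.pres0' hI.pres1 hI.pres1' ?_ ?_ hε1 hε2 hτπ hm hc1 hc2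
    hx
  · intro x hx
    obtain ⟨c', hc', e⟩ := hI.ram1 x hx
    exact ⟨c', hc', by rw [e, pow_one]⟩
  · intro x hx
    obtain ⟨c', hc', e⟩ := hI.ram2 x hx
    exact ⟨c', hc', by rw [e, pow_one]⟩

section Wild

variable [HasPrincipalDivisors K F] [IsLocalRing R] [IsNoetherianRing R]

/-- **The wild TRI contract over the model** (`e = p (p - 1)`, wild generator `g₀` of break `1`). -/
theorem wildContract_of_cart
    {hπ1 : algebraMap R F π ∈ O1} {hπ2 : algebraMap R F π ∈ O2}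
    (W : TorsFrame (K := K) π t B0 B1 B01 O1 O2) {e : ℕ}
    (SF : Slope43.SlopeFrame (K := K) π B0 B1 O1 O2 e)
    (hπ : π ∈ IsLocalRing.maximalIdeal R)
    (int0 : ∀ x ∈ B0, IsIntegral (Algebra.adjoin R {t}) x)
    (int1 : ∀ x ∈ B1, IsIntegral (Algebra.adjoin R {t⁻¹}) x)
    (ov0 : ∀ x ∈ B01, ∃ k : ℕ, t ^ k * x ∈ B0)
    (ov1 : ∀ x ∈ B01, ∃ k : ℕ, t⁻¹ ^ k * x ∈ B1)
    [IsNoetherianRing B0] [IsNoetherianRing B1]
    (fin0 : ∃ (r : ℕ) (f : Fin r → F), (∀ i, f i ∈ B0) ∧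
      ∀ x ∈ B0, ∃ P : Fin r → R[X], x = ∑ i, aeval t (P i) * f i)
    {p : ℕ} (hp : p.Prime) (he : e = p * (p - 1)) (u : Rˣ) (hpe : (p : R) = π ^ e * u)
    (hchar : ∀ n : ℤ, π ∣ (n : R) → (p : ℤ) ∣ n)
    (approx : ∀ m : ℤ, ∃ g : F, g ≠ 0 ∧ O1.valuation g = 1 ∧
      O2.valuation g = O2.valuation (algebraMap R F π) ^ m)
    (smooth : ∀ D : Divisor K F, ∀ B : Subalgebra R F, B = B0 ∨ B = B1 → ∀ 𝔪 : Ideal B,
      𝔪.IsMaximal → algebraMap R B π ∈ 𝔪 → (OffBranch π B O1 𝔪 ∨ OffBranch π B O2 𝔪) →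
      ∃ h, IsLocEq B 𝔪 D h ∧ StrictOn π B O1 𝔪 0 h ∧ StrictOn π B O2 𝔪 0 h)
    (locN : ∀ D : Divisor K F, ∀ (B : Subalgebra R F) (𝔪 : Ideal B), IsNode π B0 B1 O1 O2 B 𝔪 →
      ∃ h, IsLocEq B 𝔪 D h)
    (V : AddSubgroup (Pic0 K F)) (tors : ∀ v ∈ V, p • v = 0)
    {g₀ : SemilinearAut K F} (stable : ∀ v ∈ V, g₀ • v ∈ V) (order : ∀ v ∈ V, g₀ ^ p • v = v)
    (hg₀ : InertiaAut π B0 B1 O1 O2 g₀ 2) {θ₀ : R}
    (hθ : g₀ • algebraMap R F π =
      algebraMap R F π * (1 + algebraMap R F θ₀ * algebraMap R F π ^ 1))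
    (hθ₀ : ¬ π ∣ θ₀)
    (T4 : ∀ v ∈ V, v ∈ Cart π B0 B1 O1 O2 hπ1 hπ2 0 → v ∈ Cart π B0 B1 O1 O2 hπ1 hπ2 1)
    (TS : Pic2.Toric15.ToricSetup p B0.toSubring B1.toSubring B01.toSubring (algebraMap R F).range
      (Pic2.ToricField15.mulSub (algebraMap R F π) B01.toSubring.toAddSubgroup)
      (Pic2.ToricField15.mulSub (algebraMap R F π) O1.toAddSubgroup)
      (Pic2.ToricField15.mulSub (algebraMap R F π) O2.toAddSubgroup))
    (htor : ∀ n : ℕ, 1 ≤ n → n < p → ∀ v ∈ V, v ∈ Cart π B0 B1 O1 O2 hπ1 hπ2 n →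
      ∃ D : Divisor.degZero (K := K) (F := F), Pic0.mk D = v ∧
        HasLevel π B0 B1 O1 O2 n (D : Divisor K F) ∧
        ∃ c, HasLead (algebraMap R F π) n (W.pair (D : Divisor K F)) c ∧
          Pic2.ToricPic15.IsToric π B0 B1 O1 O2 c) :
    WildContract p V (CycAt π B0 B1 O1 O2 p) g₀ (Cart π B0 B1 O1 O2 hπ1 hπ2 0)
      (fun n => Cart π B0 B1 O1 O2 hπ1 hπ2 n) := by
  have hp1 : 1 ≤ p - 1 := by have := hp.two_le; omega
  have hpeF : (p : F) = algebraMap R F π ^ e * algebraMap R F (u : R) := by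
    rw [← map_pow, ← map_mul, ← hpe, map_natCast]
  refine
    { tors := tors, stable := stable, order := order
      anti := fun n => cart_anti (Nat.le_succ n)
      T3 := ?_, T4L := T4, T5 := ?_, T6 := ?_, T7L := ?_, T1' := ?_ }
  · -- (T3)
    intro v hv hmem
    obtain ⟨D, rfl⟩ := Pic0.mk_surjective v
    exact Slope43.mem_cart_zero_of_wild SF W.frame W.vert approx hg₀.pres le_rfl hg₀.ram1 hg₀.ram2
      hθ hθ₀ hchar he (by
        have : p = (p - 1) + 1 := by omega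
        rw [Nat.coprime_comm, this]
        simp) D (tors _ hv) (smooth D) (locN D) hmem
  · -- (T5)
    intro n hn hnp v hv hvn
    obtain ⟨D, rfl, hD, htorD⟩ := htor n hn hnp v hv hvn
    refine W.cart_succ_of_toric hp hpeF (B01.algebraMap_mem _) hn ?_ TS D hD (tors _ hv) htorD
    rw [he]
    have h1 : n * (p - 1) < p * (p - 1) := Nat.mul_lt_mul_of_pos_right hnp (by omega)
    have h2 : p * n = n * (p - 1) + n := by
      have : p = (p - 1) + 1 := by omega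
      nlinarith
    omega
  · -- (T6)
    intro v hv
    have := smul_sub_mem_cart (b := 1) hg₀.pres0 hg₀.pres0' hg₀.pres1 hg₀.pres1' hg₀.ram1 hg₀.ram2
      (W.frame.algebraMap_mem1 θ₀) (W.frame.algebraMap_mem2 θ₀) hθ hv
    exact this
  · -- (T7)
    intro x hx hpx
    refine W.cart_torsion_free hπ int0 int1 ov0 ov1 fin0 hp u hpe (by omega) ?_ hx hpx
    rw [he]
    have : p * (p + 1) = p * (p - 1) + 2 * p := by
      have : p = (p - 1) + 1 := by omega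
      nlinarith
    have := hp.two_le
    omega
  · -- (T1')
    intro τ c hτ v hv
    exact cycAt_smul_sub hp.one_lt.le hτ hv

/-- **TRI over the model, wild case**: every inertia element acting on `μ_p` through `ζ ↦ ζ ^ c`
acts on `V` by the scalar `c`. -/
theorem inertia_smul_eq_of_wild
    {hπ1 : algebraMap R F π ∈ O1} {hπ2 : algebraMap R F π ∈ O2} {p : ℕ} (hp : p.Prime)
    (hp2 : p ≠ 2) {V : AddSubgroup (Pic0 K F)} {g₀ : SemilinearAut K F}
    (C : WildContract p V (CycAt π B0 B1 O1 O2 p) g₀ (Cart π B0 B1 O1 O2 hπ1 hπ2 0)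
      (fun n => Cart π B0 B1 O1 O2 hπ1 hπ2 n)) (τ : SemilinearAut K F) (c : ℕ)
    (hτ : CycAt π B0 B1 O1 O2 p τ c) : ∀ v ∈ V, τ • v = c • v :=
  C.inertia_smul_eq hp hp2 τ c hτ

end Wild

section Tame

variable [HasPrincipalDivisors K F] [IsLocalRing R] [IsNoetherianRing R]

/-- **The tame TRI contract over the model** (`e = p - 1`). -/
theorem tameContract_of_cart
    {hπ1 : algebraMap R F π ∈ O1} {hπ2 : algebraMap R F π ∈ O2}
    (W : TorsFrame (K := K) π t B0 B1 B01 O1 O2) {e : ℕ}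
    (SF : Slope43.SlopeFrame (K := K) π B0 B1 O1 O2 e)
    (hπ : π ∈ IsLocalRing.maximalIdeal R)
    (int0 : ∀ x ∈ B0, IsIntegral (Algebra.adjoin R {t}) x)
    (int1 : ∀ x ∈ B1, IsIntegral (Algebra.adjoin R {t⁻¹}) x)
    (ov0 : ∀ x ∈ B01, ∃ k : ℕ, t ^ k * x ∈ B0)
    (ov1 : ∀ x ∈ B01, ∃ k : ℕ, t⁻¹ ^ k * x ∈ B1)
    [IsNoetherianRing B0] [IsNoetherianRing B1]
    (fin0 : ∃ (r : ℕ) (f : Fin r → F), (∀ i, f i ∈ B0) ∧
      ∀ x ∈ B0, ∃ P : Fin r → R[X], x = ∑ i, aeval t (P i) * f i)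
    {p : ℕ} (hp : p.Prime) (he : e = p - 1) (u : Rˣ) (hpe : (p : R) = π ^ e * u)
    (approx : ∀ m : ℤ, ∃ g : F, g ≠ 0 ∧ O1.valuation g = 1 ∧
      O2.valuation g = O2.valuation (algebraMap R F π) ^ m)
    (smooth : ∀ D : Divisor K F, ∀ B : Subalgebra R F, B = B0 ∨ B = B1 → ∀ 𝔪 : Ideal B,
      𝔪.IsMaximal → algebraMap R B π ∈ 𝔪 → (OffBranch π B O1 𝔪 ∨ OffBranch π B O2 𝔪) →
      ∃ h, IsLocEq B 𝔪 D h ∧ StrictOn π B O1 𝔪 0 h ∧ StrictOn π B O2 𝔪 0 h)
    (locN : ∀ D : Divisor K F, ∀ (B : Subalgebra R F) (𝔪 : Ideal B), IsNode π B0 B1 O1 O2 B 𝔪 →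
      ∃ h, IsLocEq B 𝔪 D h)
    (V : AddSubgroup (Pic0 K F)) (tors : ∀ v ∈ V, p • v = 0)
    (T4 : ∀ v ∈ V, v ∈ Cart π B0 B1 O1 O2 hπ1 hπ2 0 → v ∈ Cart π B0 B1 O1 O2 hπ1 hπ2 1) :
    TameContract p V (CycAt (K := K) π B0 B1 O1 O2 1) (Cart π B0 B1 O1 O2 hπ1 hπ2 0)
      (fun n => Cart π B0 B1 O1 O2 hπ1 hπ2 n) := by
  have h2 := hp.two_le
  refine { tors := tors, T1 := ?_, T4 := T4, T1' := ?_, T7 := ?_ }
  · intro v hv
    obtain ⟨D, rfl⟩ := Pic0.mk_surjective v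
    refine Slope43.mem_cart_zero_of_tame SF W.vert approx ?_ D (tors _ hv) (smooth D) (locN D)
    rw [he]
    have : ((p : ℤ)) = ((p - 1 : ℕ) : ℤ) + 1 := by
      have : p = (p - 1) + 1 := by omega
      exact_mod_cast this
    rw [this]
    exact ⟨-1, 1, by ring⟩
  · intro τ c hτ v hv
    exact cycAt_smul_sub le_rfl hτ hv
  · intro x hx hpx
    refine W.cart_torsion_free hπ int0 int1 ov0 ov1 fin0 hp u hpe (by norm_num) ?_ hx hpx
    rw [he]
    omega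

/-- **TRI over the model, tame case.** -/
theorem inertia_smul_eq_of_tame
    {hπ1 : algebraMap R F π ∈ O1} {hπ2 : algebraMap R F π ∈ O2} {p : ℕ}
    {V : AddSubgroup (Pic0 K F)}
    (C : TameContract p V (CycAt (K := K) π B0 B1 O1 O2 1) (Cart π B0 B1 O1 O2 hπ1 hπ2 0)
      (fun n => Cart π B0 B1 O1 O2 hπ1 hπ2 n)) (τ : SemilinearAut K F) (c : ℕ)
    (hτ : CycAt π B0 B1 O1 O2 1 τ c) : ∀ v ∈ V, τ • v = c • v :=
  C.inertia_smul_eq τ c hτ

end Tame

end Fermat.Agent.M1.Car.ContractInst43
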