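/-
M1 (S44), chapter CAR (helper53): **the instances making the dictionary
`AdelicToCech43.cart_eq_cechLevel` unconditional for a `NodalNumData`.**

* `glob_of_chart` : CHART HARTOGS.  A function in `O1 ⊓ O2` which is regular at every place of
  `F / K` lying over the chart `B` belongs to `B` (its denominator ideal is not contained in any
  maximal ideal: at `𝔪 ∋ π` by the Hartogs lemma at a closed point, at `𝔪 ∌ π` because
  `B_𝔪 = O_v` for the place `v` of the horizontal prime `𝔪`).
* `locFrame_of_numData` : `LocFrame π B_i O1 O2` for both charts (no residue-field hypothesis).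
* `chartPair_of_numData` : `ChartPair t B0 B1 (overlap t B0 _)`.
* `ord_pi_eq_zero` : `hvert`.
* `cart_eq_cechLevel_of_numData` : `Cart n = CechLevel n` for `n ≥ 1`.
-/
import Mathlib
import Fermat.Agent.M1.Car.AdelicToCech43
import Fermat.Agent.M1.Fib.FrameInst98
import Fermat.Agent.M1.Car.Moving53

set_option autoImplicit false
set_option linter.unusedSectionVars false
set_option linter.unusedVariables false

namespace Fermat.Agent.M1.Car.LocFrameInst53

open AlgebraicCurve
open Fermat.Agent.ES.N34.NodalCore13 Fermat.Agent.ES.N34.NumData13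
open Fermat.Agent.M1.Car.Defs43 Fermat.Agent.M1.Car.AdelicToCech43

section Chart

variable {R K F : Type*} [CommRing R] [Field K] [Field F] [Algebra R K] [Algebra K F]
  [Algebra R F] [IsScalarTower R K F]

variable (π : R) (t : F) (B : Subalgebra R F) (O1 O2 : ValuationSubring F)
  (ht : t ∈ B) (noethB : IsNoetherianRing B) (fracR : IsFractionRing R K)
  (dvrR : ∀ r : R, r ≠ 0 → ∃ (k : ℕ) (v : Rˣ), r = π ^ k * v)
  (pi_ne : algebraMap R F π ≠ 0)
  (intcl : ∀ x : F, IsIntegral B x → x ∈ B)
  (int0 : ∀ x ∈ B, IsIntegral (Algebra.adjoin R {t}) x)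
  (frac : ∀ x : F, ∃ a ∈ B, ∃ b ∈ B, b ≠ 0 ∧ x * b = a)
  (leO1 : ∀ x ∈ B, x ∈ O1) (leO2 : ∀ x ∈ B, x ∈ O2)
  (arch1 : ∀ x : F, ∃ k : ℕ, algebraMap R F π ^ k * x ∈ O1)
  (arch2 : ∀ x : F, ∃ k : ℕ, algebraMap R F π ^ k * x ∈ O2)
  (sat : ∀ b ∈ B, ∀ c : F, c ∈ O1 → c ∈ O2 → b = algebraMap R F π * c → c ∈ B)

include ht noethB fracR dvrR pi_ne intcl int0 frac leO1 leO2 arch1 arch2 sat in
/-- **Chart Hartogs**: a function without vertical poles which is regular at every place over the
chart belongs to the chart. -/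
theorem glob_of_chart (pi_nonunit1 : (algebraMap R F π)⁻¹ ∉ O1) :
    ∀ x : F, x ∈ O1 → x ∈ O2 → (∀ v : Place K F, Over B v → x ≠ 0 → 0 ≤ v.ord x) → x ∈ B := by
  intro x hx1 hx2 hx
  by_cases hx0 : x = 0
  · rw [hx0]; exact B.zero_mem
  -- local denominators at every maximal ideal
  have key : ∀ 𝔪 : Ideal B, 𝔪.IsMaximal → ∃ a d : B, d ∉ 𝔪 ∧ x * (d : F) = (a : F) := by
    intro 𝔪 h𝔪
    have h𝔪p : 𝔪.IsPrime := h𝔪.isPrime
    by_cases hπ𝔪 : algebraMap R B π ∈ 𝔪
    · have hhor := Fermat.Agent.ES.N34.HorizPlace13.hhor_of_places (K := K) π t B ht noethB fracR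
        dvrR pi_ne intcl int0 frac 𝔪 x
        (fun v hvB _ => Fermat.Agent.M1.Fib.FrameInst98.mem_place_of_ord_nonneg v hx0
          (hx v hvB hx0))
      exact Fermat.Agent.ES.N34.NodalStart13.exists_den_of_horizontal π B O1 O2 leO1 leO2 arch1
        arch2 sat frac 𝔪 x hhor (Or.inl hx1) (Or.inl hx2)
    · have hne : 𝔪 ≠ ⊥ := by
        intro hbot
        have hπ0 : algebraMap R B π ≠ 0 := fun h0 => pi_ne (by
          have := congrArg (fun z : B => (z : F)) h0
          simpa using this)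
        have hspan : Ideal.span {algebraMap R B π} = ⊤ := by
          by_contra hnt
          have hmax := h𝔪
          rw [hbot] at hmax
          have := hmax.eq_of_le hnt bot_le
          exact hπ0 (Ideal.span_singleton_eq_bot.mp this.symm)
        have h1 : (1 : B) ∈ Ideal.span {algebraMap R B π} := by rw [hspan]; exact Submodule.mem_top
        obtain ⟨c, hc⟩ := Ideal.mem_span_singleton'.mp h1
        apply pi_nonunit1
        have hc' : (c : F) * algebraMap R F π = 1 := by
          have := congrArg (fun z : B => (z : F)) hc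
          simpa using this
        have : (algebraMap R F π)⁻¹ = (c : F) := by
          rw [mul_comm] at hc'
          exact inv_eq_of_mul_eq_one_right hc'
        rw [this]; exact leO1 _ c.2
      obtain ⟨v, hv⟩ := Fermat.Agent.ES.N34.HorizPlace13.exists_place_of_horizontal (K := K) π t B ht
        noethB fracR dvrR pi_ne intcl int0 frac 𝔪 hne hπ𝔪
      have hvB : Over B v := fun b hb =>
        (hv b).mpr ⟨⟨b, hb⟩, 1, fun h1 => h𝔪p.ne_top ((Ideal.eq_top_iff_one 𝔪).mpr h1), by simp⟩
      exact (hv x).mp (Fermat.Agent.M1.Fib.FrameInst98.mem_place_of_ord_nonneg v hx0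
        (hx v hvB hx0))
  -- the denominator ideal
  let I : Ideal B :=
    { carrier := {b | (b : F) * x ∈ B}
      zero_mem' := by simp [B.zero_mem]
      add_mem' := by
        rintro a b ha hb
        show ((a + b : B) : F) * x ∈ B
        push_cast; rw [add_mul]; exact B.add_mem ha hb
      smul_mem' := by
        rintro c b hb
        show ((c • b : B) : F) * x ∈ B
        rw [smul_eq_mul]; push_cast; rw [mul_assoc]; exact B.mul_mem c.2 hb }
  by_contra hxB
  have hI : I ≠ ⊤ := by
    intro h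
    apply hxB
    have h1 : (1 : B) ∈ I := by rw [h]; exact Submodule.mem_top
    have h2 : ((1 : B) : F) * x ∈ B := h1
    simpa using h2
  obtain ⟨𝔪, h𝔪, hI𝔪⟩ := Ideal.exists_le_maximal I hI
  obtain ⟨a, d, hd, had⟩ := key 𝔪 h𝔪
  exact hd (hI𝔪 (show (d : F) * x ∈ B by rw [mul_comm, had]; exact a.2))

end Chart

section Model

variable {R K F : Type*} [CommRing R] [Field K] [Field F] [Algebra R K] [Algebra K F]
  [Algebra R F] [IsScalarTower R K F]
variable {π : R} {t : F} {B0 B1 : Subalgebra R F} {O1 O2 : ValuationSubring F}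

/-- `hvert`: `π` is a unit at every place of `F / K`. -/
theorem ord_pi_eq_zero (π : R) (P : Place K F) : P.ord (algebraMap R F π) = 0 :=
  SmoothEq53.ord_eq_zero_of_mem_of_inv_mem P (Centre99.algebraMap_mem_place P π)
    (Centre99.algebraMap_inv_mem_place P π)

/-- **Both charts of a nodal two-chart model are `LocFrame`s.** -/
theorem locFrame_of_numData (N : NodalNumData R K F π t B0 B1 O1 O2) :
    LocFrame (K := K) π B0 O1 O2 ∧ LocFrame (K := K) π B1 O1 O2 := by
  have M := N.model
  have hG1 := Fermat.Agent.M1.Fib.Branch98.isGauss1 M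
  have hG2 := Fermat.Agent.M1.Fib.Branch98.isGauss2 M
  constructor
  · exact
      { unif1 := Fermat.Agent.M1.Fib.FrameInst98.IsGauss.isUnifOf hG1
        unif2 := Fermat.Agent.M1.Fib.FrameInst98.IsGauss.isUnifOf hG2
        le1 := M.le_O1_0
        le2 := M.le_O2_0
        arch1 := M.arch1
        arch2 := M.arch2
        sat := fun 𝔪 h𝔪 _ w hw h1 h2 =>
          Fermat.Agent.M1.Fib.FrameInst98.chart_sat π B0 O1 O2 M.pi_ne M.le_O1_0 M.le_O2_0 M.arch1
            M.arch2 M.sat0 𝔪 h𝔪 w hw h1 h2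
        hart := fun 𝔪 h𝔪 _ w hw0 hw h1 h2 =>
          Fermat.Agent.M1.Fib.FrameInst98.chart_hart (K := K) π t B0 O1 O2 M.t_mem N.noeth0 N.fracR
            N.dvrR M.pi_ne M.intcl0 M.int0 N.frac0 M.le_O1_0 M.le_O2_0 M.arch1 M.arch2 M.sat0 𝔪 h𝔪
            w hw0 hw h1 h2
        glob := glob_of_chart (K := K) π t B0 O1 O2 M.t_mem N.noeth0 N.fracR N.dvrR M.pi_ne
          M.intcl0 M.int0 N.frac0 M.le_O1_0 M.le_O2_0 M.arch1 M.arch2 M.sat0 M.pi_nonunit1
        meet1 := Moving53.exists_point_on M.le_O1_0 M.pi_nonunit1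
        meet2 := Moving53.exists_point_on M.le_O2_0 M.pi_nonunit2 }
  · exact
      { unif1 := Fermat.Agent.M1.Fib.FrameInst98.IsGauss.isUnifOf hG1
        unif2 := Fermat.Agent.M1.Fib.FrameInst98.IsGauss.isUnifOf hG2
        le1 := M.le_O1_1
        le2 := M.le_O2_1
        arch1 := M.arch1
        arch2 := M.arch2
        sat := fun 𝔪 h𝔪 _ w hw h1 h2 =>
          Fermat.Agent.M1.Fib.FrameInst98.chart_sat π B1 O1 O2 M.pi_ne M.le_O1_1 M.le_O2_1 M.arch1
            M.arch2 M.sat1 𝔪 h𝔪 w hw h1 h2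
        hart := fun 𝔪 h𝔪 _ w hw0 hw h1 h2 =>
          Fermat.Agent.M1.Fib.FrameInst98.chart_hart (K := K) π t⁻¹ B1 O1 O2 M.tinv_mem N.noeth1
            N.fracR N.dvrR M.pi_ne M.intcl1 M.int1 N.frac1 M.le_O1_1 M.le_O2_1 M.arch1 M.arch2 M.sat1
            𝔪 h𝔪 w hw0 hw h1 h2
        glob := glob_of_chart (K := K) π t⁻¹ B1 O1 O2 M.tinv_mem N.noeth1 N.fracR N.dvrR M.pi_ne
          M.intcl1 M.int1 N.frac1 M.le_O1_1 M.le_O2_1 M.arch1 M.arch2 M.sat1 M.pi_nonunit1
        meet1 := Moving53.exists_point_on M.le_O1_1 M.pi_nonunit1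
        meet2 := Moving53.exists_point_on M.le_O2_1 M.pi_nonunit2 }

/-- **The two charts form a `ChartPair`** inside the overlap ring `B0[1/t]`. -/
theorem chartPair_of_numData (N : NodalNumData R K F π t B0 B1 O1 O2) :
    ChartPair (K := K) t B0 B1 (Fermat.Agent.M1.Fib.Branch98.overlap t B0 N.model.t_mem) := by
  have M := N.model
  exact
    { t_ne := M.t_ne
      t_mem := M.t_mem
      tinv_mem := M.tinv_mem
      le0 := Fermat.Agent.M1.Fib.Branch98.le_overlap
      le1 := fun x hx => M.ov0 x hx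
      over0 := fun v hv => Centre99.chart_le_of_mem M.int0 v.toValuationSubring
        (fun r => Centre99.algebraMap_mem_place v r) hv
      over1 := fun v hv => Centre99.chart_le_of_mem M.int1 v.toValuationSubring
        (fun r => Centre99.algebraMap_mem_place v r) hv }

/-- **The dictionary for a nodal two-chart model**: for `n ≥ 1` the adelic filtration `Cart n` and
the Čech filtration `CechLevel n` of `Pic0 K F` coincide. -/
theorem cart_eq_cechLevel_of_numData [HasPrincipalDivisors K F]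
    (N : NodalNumData R K F π t B0 B1 O1 O2)
    {hπ1 : algebraMap R F π ∈ O1} {hπ2 : algebraMap R F π ∈ O2} {n : ℕ} (hn : 1 ≤ n) :
    ((Cart (K := K) π B0 B1 O1 O2 hπ1 hπ2 n : AddSubgroup (Pic0 K F)) : Set (Pic0 K F)) =
      CechToAdelic43.CechLevel (K := K) π B0 B1
        (Fermat.Agent.M1.Fib.Branch98.overlap t B0 N.model.t_mem) n :=
  cart_eq_cechLevel (chartPair_of_numData N) (locFrame_of_numData N).1 (locFrame_of_numData N).2
    (fun b hb => Fermat.Agent.M1.Fib.Branch98.overlap_le_O1 N.model hb)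
    (fun b hb => Fermat.Agent.M1.Fib.Branch98.overlap_le_O2 N.model hb)
    (ord_pi_eq_zero π) hn

end Model

end Fermat.Agent.M1.Car.LocFrameInst53
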