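/-
M1 (S44), chapter CAR (helper58), brick CAR-N part 2: **the closed fibre of a horizontal prime
divisor is finite**, in the form needed by NCG.

`B ∋ t` a chart integral over `R[t]`, `R` a discrete valuation ring (elementwise form `dvrR`) with
uniformiser `π`.

* `isMaximal_of_mem` : a prime of `R[X]` containing `π` and a polynomial which is nonzero modulo `π`
  is maximal (`k[X]` is a PID).
* `isMaximal_of_horizontal_le` : a prime of `B` containing `π` and a nonzero prime `𝔭 ∌ π` is maximal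
  (incomparability for the integral extension `R[t] ⊆ B`).
* `exists_mul_pow_mem` : hence every `z ∈ 𝔪` is nilpotent modulo `𝔭 B_𝔪 + π B_𝔪`:
  `s z ^ m ∈ 𝔭 + π B` for some `s ∉ 𝔪`.
-/
import Mathlib
import Fermat.Agent.ES.N34.HorizPlace13
import Fermat.Agent.M1.Node.NCGFree58

set_option autoImplicit false

namespace Fermat.Agent.M1.Car.FibreNil58

open Polynomial Fermat.Agent.ES.N34.HorizPlace13 Fermat.Agent.M1.Node.NCGFree58

section Poly

variable {R : Type*} [CommRing R] [IsDomain R]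

/-- A nonzero prime of `R[X]` not containing `π` contains a polynomial which is nonzero modulo
`π`. -/
theorem exists_mem_not_mem_span (π : R)
    (dvrR : ∀ r : R, r ≠ 0 → ∃ (k : ℕ) (v : Rˣ), r = π ^ k * v) (hπu : ¬ IsUnit π)
    (P : Ideal R[X]) [hP : P.IsPrime] (hP0 : P ≠ ⊥) (hπP : C π ∉ P) :
    ∃ f ∈ P, f ∉ Ideal.span {(C π : R[X])} := by
  by_contra hcon
  push Not at hcon
  have hπ0 : π ≠ 0 := by
    rintro rfl
    exact hπP (by rw [map_zero]; exact P.zero_mem)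
  obtain ⟨f, hfP, hf0⟩ : ∃ f ∈ P, f ≠ 0 := by
    by_contra h
    push Not at h
    exact hP0 ((Submodule.eq_bot_iff P).mpr h)
  have key : ∀ n : ℕ, ∃ g ∈ P, f = C π ^ n * g := by
    intro n
    induction n with
    | zero => exact ⟨f, hfP, by simp⟩
    | succ n ih =>
      obtain ⟨g, hgP, hfg⟩ := ih
      obtain ⟨g', hg'⟩ := Ideal.mem_span_singleton'.mp (hcon g hgP)
      have hg'P : g' ∈ P := by
        have : g' * C π ∈ P := by rw [hg']; exact hgP
        exact (hP.mem_or_mem this).resolve_right hπP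
      exact ⟨g', hg'P, by rw [hfg, ← hg', pow_succ]; ring⟩
  obtain ⟨i, hi⟩ : ∃ i, f.coeff i ≠ 0 := by
    by_contra h
    push Not at h
    exact hf0 (Polynomial.ext fun i => by rw [h i, coeff_zero])
  obtain ⟨k, v, hkv⟩ := dvrR _ hi
  obtain ⟨g, -, hg⟩ := key (k + 1)
  have hcoeff : f.coeff i = π ^ (k + 1) * g.coeff i := by
    rw [hg, ← map_pow, coeff_C_mul]
  rw [hkv, pow_succ, mul_assoc] at hcoeff
  have hv : (v : R) = π * g.coeff i := mul_left_cancel₀ (pow_ne_zero k hπ0) hcoeff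
  apply hπu
  refine IsUnit.of_mul_eq_one (g.coeff i * ((v⁻¹ : Rˣ) : R)) ?_
  rw [← mul_assoc, ← hv, Units.mul_inv]

/-- **Primes of `R[X]` over the closed point which are not the generic point of the special fibre
are maximal.** -/
theorem isMaximal_of_mem (π : R)
    (dvrR : ∀ r : R, r ≠ 0 → ∃ (k : ℕ) (v : Rˣ), r = π ^ k * v) (hπu : ¬ IsUnit π)
    (Q : Ideal R[X]) [hQ : Q.IsPrime] (hπQ : C π ∈ Q) {f : R[X]} (hfQ : f ∈ Q)
    (hf : f ∉ Ideal.span {(C π : R[X])}) : Q.IsMaximal := by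
  have hI : (Ideal.span {π} : Ideal R).IsMaximal := isMaximal_span_of_dvr dvrR hπu
  let _ : Field (R ⧸ (Ideal.span {π} : Ideal R)) := Ideal.Quotient.field _
  set φ : R[X] →+* (R ⧸ (Ideal.span {π} : Ideal R))[X] :=
    mapRingHom (Ideal.Quotient.mk (Ideal.span {π} : Ideal R)) with hφdef
  have hφ : Function.Surjective φ := map_surjective _ Ideal.Quotient.mk_surjective
  have hker : RingHom.ker φ = Ideal.span {(C π : R[X])} := by
    rw [hφdef, ker_mapRingHom, Ideal.mk_ker, Ideal.map_span, Set.image_singleton]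
  have hkerQ : RingHom.ker φ ≤ Q := by
    rw [hker, Ideal.span_le, Set.singleton_subset_iff]
    exact hπQ
  have hQ1 : (Q.map φ).IsPrime := Ideal.map_isPrime_of_surjective hφ hkerQ
  have hQ1ne : Q.map φ ≠ ⊥ := by
    intro hbot
    have h1 : φ f ∈ Q.map φ := Ideal.mem_map_of_mem φ hfQ
    rw [hbot, Ideal.mem_bot] at h1
    apply hf
    rw [← hker]
    exact (RingHom.mem_ker).mpr h1
  have hQ1max : (Q.map φ).IsMaximal := Ideal.IsPrime.isMaximal hQ1 hQ1ne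
  have hQeq : Q = (Q.map φ).comap φ := by
    rw [Ideal.comap_map_of_surjective' φ hφ, sup_eq_left.mpr hkerQ]
  rw [hQeq]
  exact Ideal.comap_isMaximal_of_surjective φ hφ

end Poly

section Chart

variable {R K F : Type*} [CommRing R] [Field K] [Field F] [Algebra R K] [Algebra R F]

variable (π : R) (t : F) (B : Subalgebra R F) (ht : t ∈ B) (fracR : IsFractionRing R K)
  (dvrR : ∀ r : R, r ≠ 0 → ∃ (k : ℕ) (v : Rˣ), r = π ^ k * v) (hπu : ¬ IsUnit π)
  (int0 : ∀ x ∈ B, IsIntegral (Algebra.adjoin R {t}) x)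

include ht fracR dvrR hπu int0

/-- **A prime of the chart containing `π` and a nonzero horizontal prime is maximal.** -/
theorem isMaximal_of_horizontal_le (𝔭 : Ideal B) [h𝔭 : 𝔭.IsPrime] (hne : 𝔭 ≠ ⊥)
    (hπ𝔭 : algebraMap R B π ∉ 𝔭) (𝔫 : Ideal B) [h𝔫 : 𝔫.IsPrime] (h𝔭𝔫 : 𝔭 ≤ 𝔫)
    (hπ𝔫 : algebraMap R B π ∈ 𝔫) : 𝔫.IsMaximal := by
  classical
  have hinj : Function.Injective (algebraMap R K) := IsFractionRing.injective R K
  have : Nontrivial R := (algebraMap R K).domain_nontrivial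
  have : IsDomain R := hinj.isDomain (algebraMap R K)
  let _ : Algebra R[X] B := (aeval (⟨t, ht⟩ : B) : R[X] →ₐ[R] B).toRingHom.toAlgebra
  have hint : Algebra.IsIntegral R[X] B := ⟨fun x => isIntegral_aeval t B ht int0 x⟩
  have hCπ : algebraMap R[X] B (C π) = algebraMap R B π := by
    show (aeval (⟨t, ht⟩ : B)) (C π) = algebraMap R B π
    rw [aeval_C]
  obtain ⟨x, hx, hx0⟩ : ∃ x ∈ 𝔭, x ≠ 0 := by
    by_contra h
    push Not at h
    exact hne ((Submodule.eq_bot_iff 𝔭).mpr h)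
  have h𝔭0ne : 𝔭.comap (algebraMap R[X] B) ≠ ⊥ :=
    Ideal.comap_ne_bot_of_integral_mem hx0 hx (hint.isIntegral x)
  have h𝔭0π : C π ∉ 𝔭.comap (algebraMap R[X] B) := by
    rw [Ideal.mem_comap, hCπ]; exact hπ𝔭
  have h𝔭0prime : (𝔭.comap (algebraMap R[X] B)).IsPrime := Ideal.comap_isPrime _ _
  obtain ⟨f, hf𝔭, hfnot⟩ := exists_mem_not_mem_span π dvrR hπu _ h𝔭0ne h𝔭0π
  have h𝔫0prime : (𝔫.comap (algebraMap R[X] B)).IsPrime := Ideal.comap_isPrime _ _
  have hmax : (𝔫.comap (algebraMap R[X] B)).IsMaximal :=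
    isMaximal_of_mem π dvrR hπu _ (by rw [Ideal.mem_comap, hCπ]; exact hπ𝔫)
      (Ideal.comap_mono h𝔭𝔫 hf𝔭) hfnot
  exact Ideal.isMaximal_of_isIntegral_of_isMaximal_comap 𝔫 hmax

/-- **Nilpotency modulo a horizontal prime and `π`, at a closed point**: for `z ∈ 𝔪` there are `m`
and `s ∉ 𝔪` with `s z ^ m ∈ 𝔭 + π B`. -/
theorem exists_mul_pow_mem (𝔪 : Ideal B) [h𝔪 : 𝔪.IsPrime] (𝔭 : Ideal B) [h𝔭 : 𝔭.IsPrime]
    (hne : 𝔭 ≠ ⊥) (hπ𝔭 : algebraMap R B π ∉ 𝔭) {z : B} (hz : z ∈ 𝔪) :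
    ∃ (m : ℕ) (s : B), s ∉ 𝔪 ∧ s * z ^ m ∈ 𝔭 ⊔ Ideal.span {algebraMap R B π} := by
  by_contra hcon
  set J : Ideal B := 𝔭 ⊔ Ideal.span {algebraMap R B π} with hJ
  set S : Submonoid B := 𝔪.primeCompl ⊔ Submonoid.powers z with hS
  have hdisj : Disjoint (J : Set B) (S : Set B) := by
    rw [Set.disjoint_left]
    intro b hbJ hbS
    obtain ⟨s, hs, w, ⟨m, rfl⟩, rfl⟩ := Submonoid.mem_sup.mp hbS
    exact hcon ⟨m, s, hs, hbJ⟩
  obtain ⟨𝔫, h𝔫prime, hJ𝔫, h𝔫S⟩ := Ideal.exists_le_prime_disjoint J S hdisj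
  have h𝔫max : 𝔫.IsMaximal :=
    isMaximal_of_horizontal_le (K := K) π t B ht fracR dvrR hπu int0 𝔭 hne hπ𝔭 𝔫
      (le_trans le_sup_left hJ𝔫)
      (hJ𝔫 (Ideal.mem_sup_right (Ideal.subset_span rfl)))
  have h𝔫𝔪 : 𝔫 ≤ 𝔪 := by
    intro b hb
    by_contra hb𝔪
    exact Set.disjoint_left.mp h𝔫S hb (Submonoid.mem_sup_left (show b ∈ 𝔪.primeCompl from hb𝔪))
  have heq : 𝔫 = 𝔪 := h𝔫max.eq_of_le h𝔪.ne_top h𝔫𝔪
  have hz𝔫 : z ∈ 𝔫 := heq ▸ hz
  exact Set.disjoint_left.mp h𝔫S hz𝔫 (Submonoid.mem_sup_right (Submonoid.mem_powers z))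

end Chart

end Fermat.Agent.M1.Car.FibreNil58
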