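/-
M1 (S44), chapter CAR (helper58), brick CAR-N part 1: **the dictionary "place whose valuation ring
contains the chart `B`" ↦ "horizontal prime of `B`"**, in the vocabulary of `Car/Defs43`
(`Through`) and `ES/N34/HorizPlace13`.

* `eq_of_le` : `O_v ≤ O_P ⟹ v = P` for places of `F / K` (a DVR is a maximal proper subring).
* `primeOf B P hB` : the prime `𝔪_P ∩ B` of the chart `B ⊆ O_P`; it is prime, does not contain `π`,
  is nonzero, lies in `𝔪` when `P` passes through `(B, 𝔪)`.
* `mem_place_iff` : `O_P = B_{𝔭_P}` (chart integral over `R[t]`, noetherian, integrally closed).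
* `eq_of_primeOf_le` : `𝔭_P ≤ 𝔭_P' ⟹ P = P'` (height one).
-/
import Mathlib
import Fermat.Agent.ES.N34.HorizPlace13
import Fermat.Agent.M1.Car.Defs43
import Fermat.Agent.M1.Car.Centre99

set_option autoImplicit false

namespace Fermat.Agent.M1.Car.PlacePrime58

open AlgebraicCurve Fermat.Agent.ES.N34.NodalCore13 Fermat.Agent.ES.N34.NodalSmooth13
  Fermat.Agent.ES.N34.HorizPlace13 Fermat.Agent.M1.Car.Defs43 Fermat.Agent.M1.Car.Centre99

section Places

variable {K F : Type*} [Field K] [Field F] [Algebra K F]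

/-- **A discrete valuation ring is a maximal proper subring**: `O_v ≤ O_P ⟹ v = P`. -/
theorem eq_of_le {v P : Place K F} (h : v.toValuationSubring ≤ P.toValuationSubring) : v = P := by
  apply Place.ext
  refine le_antisymm h ?_
  intro x hx
  by_contra hxv
  have hx0 : x ≠ 0 := fun h0 => hxv (h0 ▸ v.toValuationSubring.zero_mem)
  obtain ⟨ϖ, hϖ⟩ := IsDiscreteValuationRing.exists_irreducible v.toValuationSubring
  have hϖ0 : (ϖ : F) ≠ 0 := by
    intro h0
    exact hϖ.ne_zero (Subtype.ext h0)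
  have hϖP : (ϖ : F) ∈ P.toValuationSubring := h ϖ.2
  -- `ϖ⁻¹ ∈ O_P`
  have hinv : ((ϖ : F))⁻¹ ∈ P.toValuationSubring := by
    obtain ⟨u, hu⟩ := v.exists_unit_mul_zpow hx0 hϖ
    have hneg : v.ord x < 0 := by
      by_contra hge
      push Not at hge
      apply hxv
      rw [hu]
      refine v.toValuationSubring.mul_mem _ _ (u : v.toValuationSubring).2 ?_
      obtain ⟨n, hn⟩ := Int.eq_ofNat_of_zero_le hge
      rw [hn, zpow_natCast]
      exact pow_mem ϖ.2 n
    have hu0 : ((u : v.toValuationSubring) : F) ≠ 0 := by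
      intro h0
      exact u.ne_zero (Subtype.ext h0)
    have huinv : (((u⁻¹ : (v.toValuationSubring)ˣ) : v.toValuationSubring) : F)
        = (((u : v.toValuationSubring) : F))⁻¹ := by
      have h1 : ((u : v.toValuationSubring) : F) *
          (((u⁻¹ : (v.toValuationSubring)ˣ) : v.toValuationSubring) : F) = 1 :=
        congrArg (fun z : v.toValuationSubring => (z : F)) u.mul_inv
      exact eq_inv_of_mul_eq_one_right h1
    have hpow : (ϖ : F) ^ (v.ord x) ∈ P.toValuationSubring := by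
      have : (ϖ : F) ^ (v.ord x) = (((u : v.toValuationSubring) : F))⁻¹ * x := by
        rw [eq_inv_mul_iff_mul_eq₀ hu0]
        exact hu.symm
      rw [this, ← huinv]
      exact P.toValuationSubring.mul_mem _ _ (h (↑u⁻¹ : v.toValuationSubring).2) hx
    obtain ⟨m, hm⟩ : ∃ m : ℕ, v.ord x = -((m : ℤ) + 1) := by
      obtain ⟨m, hm⟩ := Int.eq_ofNat_of_zero_le (show 0 ≤ -v.ord x - 1 by omega)
      exact ⟨m, by omega⟩
    have : ((ϖ : F))⁻¹ = (ϖ : F) ^ m * (ϖ : F) ^ (v.ord x) := by
      rw [hm, ← zpow_natCast, ← zpow_add₀ hϖ0]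
      have : (m : ℤ) + -((m : ℤ) + 1) = -1 := by ring
      rw [this, zpow_neg_one]
    rw [this]
    exact P.toValuationSubring.mul_mem _ _ (pow_mem hϖP m) hpow
  -- hence `O_P = ⊤`
  apply P.ne_top'
  refine SetLike.ext fun f => ⟨fun _ => ValuationSubring.mem_top f, fun _ => ?_⟩
  by_cases hf0 : f = 0
  · rw [hf0]; exact P.toValuationSubring.zero_mem
  obtain ⟨u, hu⟩ := v.exists_unit_mul_zpow hf0 hϖ
  rw [hu]
  refine P.toValuationSubring.mul_mem _ _ (h (u : v.toValuationSubring).2) ?_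
  rcases le_total 0 (v.ord f) with hge | hle
  · obtain ⟨n, hn⟩ := Int.eq_ofNat_of_zero_le hge
    rw [hn, zpow_natCast]
    exact pow_mem hϖP n
  · obtain ⟨n, hn⟩ := Int.eq_ofNat_of_zero_le (neg_nonneg.mpr hle)
    have : v.ord f = -(n : ℤ) := by omega
    rw [this, zpow_neg, zpow_natCast, ← inv_pow]
    exact pow_mem hinv n

end Places

section Dict

variable {R K F : Type*} [CommRing R] [Field K] [Field F] [Algebra K F] [Algebra R F]

/-- The ring homomorphism `B → O_P` for a chart `B ⊆ O_P`. -/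
def toPlace (B : Subalgebra R F) (P : Place K F)
    (hB : ∀ b : B, (b : F) ∈ P.toValuationSubring) : B →+* P.toValuationSubring :=
  B.val.toRingHom.codRestrict P.toValuationSubring.toSubring (fun b => hB b)

/-- **The horizontal prime `𝔪_P ∩ B` of a place `P` with `B ⊆ O_P`.** -/
def primeOf (B : Subalgebra R F) (P : Place K F)
    (hB : ∀ b : B, (b : F) ∈ P.toValuationSubring) : Ideal B :=
  (IsLocalRing.maximalIdeal P.toValuationSubring).comap (toPlace B P hB)

variable {B : Subalgebra R F} {P : Place K F} (hB : ∀ b : B, (b : F) ∈ P.toValuationSubring)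

theorem mem_primeOf (b : B) :
    b ∈ primeOf B P hB ↔ (b : F) ∈ P.toValuationSubring.nonunits := by
  rw [primeOf, Ideal.mem_comap, IsLocalRing.mem_maximalIdeal, mem_nonunits_iff,
    ValuationSubring.mem_nonunits_iff_exists_mem_maximalIdeal]
  constructor
  · intro hb
    exact ⟨hB b, by rw [IsLocalRing.mem_maximalIdeal, mem_nonunits_iff]; exact hb⟩
  · rintro ⟨hb', hb⟩
    rw [IsLocalRing.mem_maximalIdeal, mem_nonunits_iff] at hb
    exact hb

instance primeOf_isPrime : (primeOf B P hB).IsPrime := Ideal.comap_isPrime _ _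

/-- Elements of the chart outside `𝔭_P` are units of `O_P`. -/
theorem inv_mem_of_not_mem_primeOf {b : B} (hb : b ∉ primeOf B P hB) :
    ((b : F))⁻¹ ∈ P.toValuationSubring := by
  rw [mem_primeOf, ValuationSubring.mem_nonunits_iff] at hb
  have h1 := (ValuationSubring.valuation_le_one_iff _ _).mpr (hB b)
  have h2 : P.toValuationSubring.valuation (b : F) = 1 := le_antisymm h1 (not_lt.mp hb)
  rw [← ValuationSubring.valuation_le_one_iff, map_inv₀, h2, inv_one]

/-- Elements of `𝔭_P` are not units of `O_P`. -/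
theorem inv_not_mem_of_mem_primeOf {b : B} (hb : b ∈ primeOf B P hB) (hb0 : (b : F) ≠ 0) :
    ((b : F))⁻¹ ∉ P.toValuationSubring :=
  inv_not_mem_of_mem_nonunits _ hb0 ((mem_primeOf hB b).mp hb)

theorem primeOf_le_of_through {𝔪 : Ideal B} (hP : Through B 𝔪 P) : primeOf B P hP.1 ≤ 𝔪 := by
  intro b hb
  by_contra hb𝔪
  have hb0 : (b : F) ≠ 0 := by
    intro h0
    have : b = 0 := Subtype.ext h0
    exact hb𝔪 (this ▸ 𝔪.zero_mem)
  exact inv_not_mem_of_mem_primeOf hP.1 hb hb0 (hP.2 b hb𝔪)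

theorem through_of_primeOf_le {𝔪 : Ideal B} (h : primeOf B P hB ≤ 𝔪) : Through B 𝔪 P :=
  ⟨hB, fun _ hb => inv_mem_of_not_mem_primeOf hB (fun hb' => hb (h hb'))⟩

/-- `π ∉ 𝔭_P`: the prime of a place is horizontal. -/
theorem pi_not_mem_primeOf {π : R} (hπ0 : algebraMap R F π ≠ 0)
    (hπP : (algebraMap R F π)⁻¹ ∈ P.toValuationSubring) : algebraMap R B π ∉ primeOf B P hB :=
  fun hπ => inv_not_mem_of_mem_primeOf hB hπ hπ0 hπP

/-- `𝔭_P ≠ ⊥` when `F = Frac B`. -/
theorem primeOf_ne_bot (frac : ∀ x : F, ∃ a ∈ B, ∃ b ∈ B, b ≠ 0 ∧ x * b = a) :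
    primeOf B P hB ≠ ⊥ := by
  obtain ⟨ϖ, hϖ⟩ := IsDiscreteValuationRing.exists_irreducible P.toValuationSubring
  have hϖ0 : (ϖ : F) ≠ 0 := fun h0 => hϖ.ne_zero (Subtype.ext h0)
  obtain ⟨a, ha, b, hb, hb0, hab⟩ := frac (ϖ : F)
  intro hbot
  have hmem : (⟨a, ha⟩ : B) ∈ primeOf B P hB := by
    rw [mem_primeOf, ValuationSubring.mem_nonunits_iff]
    show P.toValuationSubring.valuation a < 1
    rw [← hab, map_mul]
    have h1 : P.toValuationSubring.valuation (ϖ : F) < 1 := by
      rw [← ValuationSubring.mem_nonunits_iff,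
        ValuationSubring.mem_nonunits_iff_exists_mem_maximalIdeal]
      exact ⟨ϖ.2, by
        rw [IsLocalRing.mem_maximalIdeal, mem_nonunits_iff]
        exact hϖ.not_isUnit⟩
    have h2 := (ValuationSubring.valuation_le_one_iff _ _).mpr (hB ⟨b, hb⟩)
    calc _ ≤ P.toValuationSubring.valuation (ϖ : F) * 1 := by gcongr
      _ < 1 := by rwa [mul_one]
  rw [hbot, Ideal.mem_bot] at hmem
  have ha0 : a = 0 := congrArg Subtype.val hmem
  rw [ha0] at hab
  exact (mul_ne_zero hϖ0 hb0) hab

end Dict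

section Chart

variable {R K F : Type*} [CommRing R] [Field K] [Field F] [Algebra R K] [Algebra K F]
  [Algebra R F] [IsScalarTower R K F]

variable (π : R) (t : F) (B : Subalgebra R F)
  (ht : t ∈ B) (noethB : IsNoetherianRing B) (fracR : IsFractionRing R K)
  (dvrR : ∀ r : R, r ≠ 0 → ∃ (k : ℕ) (v : Rˣ), r = π ^ k * v)
  (pi_ne : algebraMap R F π ≠ 0)
  (intcl : ∀ x : F, IsIntegral B x → x ∈ B)
  (int0 : ∀ x ∈ B, IsIntegral (Algebra.adjoin R {t}) x)
  (frac : ∀ x : F, ∃ a ∈ B, ∃ b ∈ B, b ≠ 0 ∧ x * b = a)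

/-- `π` is a unit at every place of `F / K`. -/
theorem pi_inv_mem_place (P : Place K F) : (algebraMap R F π)⁻¹ ∈ P.toValuationSubring := by
  rw [IsScalarTower.algebraMap_apply R K F, ← map_inv₀]
  exact P.algebraMap_mem' _

include ht noethB fracR dvrR pi_ne intcl int0 frac

/-- **`O_P = B_{𝔭_P}`** for a place `P` of `F / K` whose valuation ring contains the chart `B`. -/
theorem mem_place_iff {P : Place K F} (hB : ∀ b : B, (b : F) ∈ P.toValuationSubring) (z : F) :
    z ∈ P.toValuationSubring ↔ ∃ a s : B, s ∉ primeOf B P hB ∧ z * (s : F) = (a : F) := by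
  have hπ𝔭 : algebraMap R B π ∉ primeOf B P hB :=
    pi_not_mem_primeOf hB pi_ne (pi_inv_mem_place π P)
  obtain ⟨v, hv⟩ := exists_place_of_horizontal (K := K) π t B ht noethB fracR dvrR pi_ne intcl int0
    frac (primeOf B P hB) (primeOf_ne_bot hB frac) hπ𝔭
  have hback : ∀ z : F, (∃ a s : B, s ∉ primeOf B P hB ∧ z * (s : F) = (a : F)) →
      z ∈ P.toValuationSubring := by
    rintro z ⟨a, s, hs, hzs⟩
    have hs0 : (s : F) ≠ 0 := by
      intro h0
      have : s = 0 := Subtype.ext h0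
      exact hs (this ▸ (primeOf B P hB).zero_mem)
    have : z = (a : F) * ((s : F))⁻¹ := by rw [← hzs]; field_simp
    rw [this]
    exact P.toValuationSubring.mul_mem _ _ (hB a) (inv_mem_of_not_mem_primeOf hB hs)
  have hle : v.toValuationSubring ≤ P.toValuationSubring := fun z hz => hback z ((hv z).mp hz)
  have hvP : v = P := eq_of_le hle
  subst hvP
  exact hv z

/-- **Height one**: `𝔭_P ≤ 𝔭_P' ⟹ P = P'`. -/
theorem eq_of_primeOf_le {P P' : Place K F} (hB : ∀ b : B, (b : F) ∈ P.toValuationSubring)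
    (hB' : ∀ b : B, (b : F) ∈ P'.toValuationSubring) (hle : primeOf B P hB ≤ primeOf B P' hB') :
    P = P' := by
  have hπ𝔭' : algebraMap R B π ∉ primeOf B P' hB' :=
    pi_not_mem_primeOf hB' pi_ne (pi_inv_mem_place π P')
  have heq : primeOf B P hB = primeOf B P' hB' := by
    rcases height_one_of_integral (K := K) π t B ht fracR dvrR pi_ne int0 (primeOf B P' hB') hπ𝔭'
      (primeOf B P hB) inferInstance hle with h0 | h1
    · exact absurd h0 (primeOf_ne_bot hB frac)
    · exact h1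
  apply Place.ext
  ext z
  rw [mem_place_iff π t B ht noethB fracR dvrR pi_ne intcl int0 frac hB z,
    mem_place_iff π t B ht noethB fracR dvrR pi_ne intcl int0 frac hB' z, heq]

end Chart

end Fermat.Agent.M1.Car.PlacePrime58
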