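/-
M1 (S44), chapter CAR (helper58), brick **CAR-N**: every divisor of `F / K` has a local equation up
to vertical components at every NODE of the model (vocabulary of `Car/Defs43`).

Setting = the `Chart` block of `Node/SlopeAdapter25`: a chart `B ∋ t` of the nodal model
(noetherian, integrally closed in `F = Frac B`, integral over `R[t]`, `π`-saturated in `O1 ⊓ O2`), a
prime `𝔪` of `B` whose local ring `C = B_𝔪` is a `Thick25.ThickNode`, with residue field equal to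
that of `R` (`hres`).

* `exists_isLocEq_place` : for a place `P` through `(B, 𝔪)` there is `h ∈ B_𝔪` with
  `IsLocEq B 𝔪 (single P 1) h`, `v₁(h) = 0`, `v₂(h) = ρ`, `1 ≤ ρ < e l` (NCG applied to the prime
  `𝔪_P ∩ B_𝔪`).
* `exists_isLocEq_node` : **CAR-N**, `∀ D, ∃ h, IsLocEq B 𝔪 D h`.
* `NodalNumData` forms for the two charts.
-/
import Mathlib
import Fermat.Agent.M1.Car.PlacePrime58
import Fermat.Agent.M1.Car.FibreNil58
import Fermat.Agent.M1.Node.SlopeAdapter25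
import Fermat.Agent.M1.Node.NCGThick58
import Fermat.Agent.ES.N34.NumData13

set_option autoImplicit false
set_option linter.unusedSectionVars false
set_option linter.unusedVariables false

namespace Fermat.Agent.M1.Car.NodeEq58

open AlgebraicCurve Fermat.Agent.ES.N34.NodalCore13 Fermat.Agent.ES.N34.NodalSmooth13
  Fermat.Agent.ES.N34.HorizPlace13 Fermat.Agent.M1.Car.Defs43 Fermat.Agent.M1.Car.Centre99
  Fermat.Agent.M1.Car.PlacePrime58 Fermat.Agent.M1.Car.FibreNil58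
  Fermat.Agent.M1.Node.Thick25 Fermat.Agent.M1.Node.SlopeAdapter25
  Fermat.Agent.M1.Node.NCGThick58

/-! ### Valuation subrings and `ord` -/

section Val

variable {F : Type*} [Field F] (A : ValuationSubring F)

theorem val_eq_one_of_mem_of_inv_mem {z : F} (hz0 : z ≠ 0) (hz : z ∈ A) (hz' : z⁻¹ ∈ A) :
    A.valuation z = 1 := by
  have h1 := (A.valuation_le_one_iff z).mpr hz
  have h2 := (A.valuation_le_one_iff z⁻¹).mpr hz'
  rw [map_inv₀] at h2
  have hpos : 0 < A.valuation z := by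
    rw [pos_iff_ne_zero, Valuation.ne_zero_iff]; exact hz0
  exact le_antisymm h1 ((inv_le_one₀ hpos).mp h2)

theorem mem_nonunits_of_mem_of_inv_not_mem {z : F} (hz : z ∈ A) (hz' : z⁻¹ ∉ A) :
    z ∈ A.nonunits := by
  rw [ValuationSubring.mem_nonunits_iff]
  have h1 := (A.valuation_le_one_iff z).mpr hz
  rcases lt_or_eq_of_le h1 with h | h
  · exact h
  · exfalso
    apply hz'
    rw [← A.valuation_le_one_iff, map_inv₀, h, inv_one]

theorem mem_of_mem_nonunits {z : F} (hz : z ∈ A.nonunits) : z ∈ A :=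
  (A.valuation_le_one_iff z).mp (le_of_lt ((ValuationSubring.mem_nonunits_iff A).mp hz))

theorem mul_mem_nonunits_left {z w : F} (hz : z ∈ A.nonunits) (hw : w ∈ A) :
    z * w ∈ A.nonunits := by
  rw [ValuationSubring.mem_nonunits_iff] at hz ⊢
  rw [map_mul]
  have h2 := (A.valuation_le_one_iff w).mpr hw
  calc _ ≤ A.valuation z * 1 := by gcongr
    _ < 1 := by rwa [mul_one]

theorem mem_nonunits_of_unit_mul {u z : F} (hu0 : u ≠ 0) (hu : u ∈ A) (hu' : u⁻¹ ∈ A)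
    (h : u * z ∈ A.nonunits) : z ∈ A.nonunits := by
  rw [ValuationSubring.mem_nonunits_iff] at h ⊢
  rwa [map_mul, val_eq_one_of_mem_of_inv_mem A hu0 hu hu', one_mul] at h

end Val

section Ord

variable {K F : Type*} [Field K] [Field F] [Algebra K F] (v : Place K F)

theorem ord_nonneg_of_mem {f : F} (h : f ∈ v.toValuationSubring) : 0 ≤ v.ord f := by
  rcases eq_or_ne f 0 with rfl | hf
  · simp
  have h1 : v.adicValuation f ≤ 1 := by
    have := v.adicValuation_coe ⟨f, h⟩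
    rw [show ((⟨f, h⟩ : v.toValuationSubring) : F) = f from rfl] at this
    rw [this]
    exact IsDedekindDomain.HeightOneSpectrum.intValuation_le_one _ _
  have h2 : WithZero.log (v.adicValuation f) ≤ 0 := by
    rw [← WithZero.log_one (M := ℤ)]
    exact (WithZero.log_le_log (v.adicValuation_ne_zero hf) one_ne_zero).mpr h1
  unfold Place.ord
  omega

theorem ord_pos_of_mem_nonunits {f : F} (hf0 : f ≠ 0) (h : f ∈ v.toValuationSubring.nonunits) :
    1 ≤ v.ord f := by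
  have hmem := mem_of_mem_nonunits _ h
  have h0 := ord_nonneg_of_mem v hmem
  rcases h0.lt_or_eq with hlt | heq
  · omega
  · exfalso
    have := (ord_eq_zero_iff v hf0).mp heq.symm
    exact inv_not_mem_of_mem_nonunits _ hf0 h this.2

theorem IsLocEq_zpow {R : Type*} [CommRing R] [Algebra R F] {B : Subalgebra R F} {𝔪 : Ideal B}
    {D : Divisor K F} {h : F} (hh : IsLocEq B 𝔪 D h) (n : ℤ) : IsLocEq B 𝔪 (n • D) (h ^ n) :=
  ⟨zpow_ne_zero n hh.1, fun P hP => by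
    rw [P.ord_zpow, hh.2 P hP, Finsupp.smul_apply, smul_eq_mul]⟩

end Ord

/-! ### The ideal of a place in a subring of its valuation ring -/

section IdealOf

variable {K F : Type*} [Field K] [Field F] [Algebra K F]

/-- The prime `𝔪_P ∩ C` of a subring `C ⊆ O_P`. -/
def idealOf (C : Subring F) (P : Place K F) (hC : ∀ c ∈ C, c ∈ P.toValuationSubring) :
    Ideal ↥C :=
  (IsLocalRing.maximalIdeal P.toValuationSubring).comap
    (C.subtype.codRestrict P.toValuationSubring.toSubring (fun c => hC c c.2))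

theorem mem_idealOf {C : Subring F} {P : Place K F} (hC : ∀ c ∈ C, c ∈ P.toValuationSubring)
    (c : ↥C) : c ∈ idealOf C P hC ↔ (c : F) ∈ P.toValuationSubring.nonunits := by
  rw [idealOf, Ideal.mem_comap, IsLocalRing.mem_maximalIdeal, mem_nonunits_iff,
    ValuationSubring.mem_nonunits_iff_exists_mem_maximalIdeal]
  constructor
  · intro hb
    exact ⟨hC c c.2, by rw [IsLocalRing.mem_maximalIdeal, mem_nonunits_iff]; exact hb⟩
  · rintro ⟨hb', hb⟩
    rw [IsLocalRing.mem_maximalIdeal, mem_nonunits_iff] at hb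
    exact hb

end IdealOf

/-! ### CAR-N -/

section Chart

variable {R K F : Type*} [CommRing R] [Field K] [Field F] [Algebra R K] [Algebra K F]
  [Algebra R F] [IsScalarTower R K F]

variable (π : R) (t : F) (B : Subalgebra R F) (O1 O2 : ValuationSubring F)
  (ht : t ∈ B) (noethB : IsNoetherianRing B) (fracR : IsFractionRing R K)
  (dvrR : ∀ r : R, r ≠ 0 → ∃ (k : ℕ) (v : Rˣ), r = π ^ k * v)
  (pi_ne : algebraMap R F π ≠ 0)
  (intcl : ∀ x : F, IsIntegral B x → x ∈ B)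
  (int0 : ∀ x ∈ B, IsIntegral (Algebra.adjoin R {t}) x)
  (frac : ∀ x : F, ∃ a ∈ B, ∃ b ∈ B, b ≠ 0 ∧ x * b = a)
  (𝔪 : Ideal B) [h𝔪 : 𝔪.IsPrime]
  {x y : F} {e : ℕ}
  (hT : ThickNode (locSub B 𝔪).toSubring O1 O2 (algebraMap R F π) x y e)
  (hres : ∀ c ∈ locSub B 𝔪, ∃ r : R, ∃ a ∈ locSub B 𝔪, ∃ b ∈ locSub B 𝔪, ∃ d ∈ locSub B 𝔪,
    c = algebraMap R F r + a * algebraMap R F π + b * x + d * y)

/-- The constants `R → B_𝔪` form a `Consts` structure at a node with residue field `R / π`. -/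
theorem consts_range
    (dvrR : ∀ r : R, r ≠ 0 → ∃ (k : ℕ) (v : Rˣ), r = π ^ k * v)
    (hres : ∀ c ∈ locSub B 𝔪, ∃ r : R, ∃ a ∈ locSub B 𝔪, ∃ b ∈ locSub B 𝔪, ∃ d ∈ locSub B 𝔪,
      c = algebraMap R F r + a * algebraMap R F π + b * x + d * y) :
    Consts (locSub B 𝔪).toSubring (algebraMap R F π) x y (algebraMap R F).range where
  le := by
    rintro _ ⟨r, rfl⟩
    exact (locSub B 𝔪).algebraMap_mem r
  pi_mem := ⟨π, rfl⟩
  dvr := by
    rintro _ ⟨r, rfl⟩ hr0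
    have hr : r ≠ 0 := fun h => hr0 (by rw [h, map_zero])
    obtain ⟨k, v, hkv⟩ := dvrR r hr
    refine ⟨k, algebraMap R F v, ⟨v, rfl⟩, ⟨((v⁻¹ : Rˣ) : R), ?_⟩, ?_⟩
    · have h1 : algebraMap R F v * algebraMap R F ((v⁻¹ : Rˣ) : R) = 1 := by
        rw [← map_mul, Units.mul_inv, map_one]
      exact eq_inv_of_mul_eq_one_right h1
    · rw [hkv, map_mul, map_pow]
  res := by
    intro c hc
    obtain ⟨r, a, ha, b, hb, d, hd, hcr⟩ := hres c hc
    exact ⟨algebraMap R F r, ⟨r, rfl⟩, a, ha, b, hb, d, hd, hcr⟩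

include hT in
/-- `π` is not a unit of `R` (it is not a unit of `O1 ⊇ B`). -/
theorem not_isUnit_pi : ¬ IsUnit π := by
  intro hu
  obtain ⟨r, hr⟩ := hu.exists_right_inv
  have h1 : algebraMap R F π * algebraMap R F r = 1 := by rw [← map_mul, hr, map_one]
  have h2 : algebraMap R F r = (algebraMap R F π)⁻¹ := eq_inv_of_mul_eq_one_right h1
  exact hT.unif1.nonunit (h2 ▸ hT.le1 _ ((locSub B 𝔪).algebraMap_mem r))

include ht noethB fracR dvrR pi_ne intcl int0 frac hT hres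

/-- **CAR-N, one place.**  A prime horizontal divisor through a thick node has a local equation up
to vertical components, normalised by `v₁ = 0`, `v₂ = ρ` with `1 ≤ ρ < e l`. -/
theorem exists_isLocEq_place (P : Place K F) (hP : Through B 𝔪 P) :
    ∃ h ∈ locSub B 𝔪, ∃ ρ l : ℕ, IsLocEq B 𝔪 (Finsupp.single P (1 : ℤ)) h ∧ 1 ≤ ρ ∧
      ρ + 1 ≤ e * l ∧ O1.valuation h = 1 ∧
      O2.valuation h = O2.valuation (algebraMap R F π) ^ ρ := by
  classical
  set p : F := algebraMap R F π with hp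
  set C : Subring F := (locSub B 𝔪).toSubring with hC
  have hB := hP.1
  have hCP : ∀ c ∈ C, c ∈ P.toValuationSubring := fun c hc => locSub_le_of_through hP hc
  have hpP : p ∈ P.toValuationSubring := (pi_mem_place (K := K) π P).1
  have hpP' : p⁻¹ ∈ P.toValuationSubring := (pi_mem_place (K := K) π P).2
  have hπu : ¬ IsUnit π := not_isUnit_pi π B O1 O2 𝔪 hT
  -- the horizontal prime of `P`
  set 𝔭 : Ideal B := primeOf B P hB with h𝔭
  have h𝔭𝔪 : 𝔭 ≤ 𝔪 := primeOf_le_of_through hP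
  have hπ𝔭 : algebraMap R B π ∉ 𝔭 := pi_not_mem_primeOf hB pi_ne hpP'
  have h𝔭ne : 𝔭 ≠ ⊥ := primeOf_ne_bot hB frac
  set 𝔮 : Ideal ↥C := idealOf C P hCP with h𝔮
  have hnoeth : IsNoetherianRing ↥C :=
    IsLocalization.isNoetherianRing 𝔪.primeCompl ↥(locSub B 𝔪) noethB
  have hR := consts_range π B 𝔪 (x := x) (y := y) dvrR hres
  -- `C / 𝔮` is `π`-torsion-free
  have htf : ∀ a : ↥C, (⟨p, hT.pi_mem⟩ : ↥C) * a ∈ 𝔮 → a ∈ 𝔮 := by
    intro a ha
    rw [mem_idealOf] at ha ⊢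
    exact mem_nonunits_of_unit_mul _ pi_ne hpP hpP' ha
  -- nilpotency modulo `𝔮 + π C`
  have hnil : ∀ z ∈ C, (∃ a ∈ C, ∃ b ∈ C, ∃ d ∈ C, z = a * p + b * x + d * y) →
      ∃ m : ℕ, ∃ q ∈ 𝔮, ∃ c : ↥C, z ^ m = (q : F) + p * (c : F) := by
    intro z hz hzrep
    obtain ⟨a, d, hd, hzd⟩ := hz
    have hd0 : (d : F) ≠ 0 := coe_ne_zero_of_notMem B 𝔪 hd
    have ha𝔪 : a ∈ 𝔪 := by
      by_contra ha
      have ha0 : (a : F) ≠ 0 := coe_ne_zero_of_notMem B 𝔪 ha
      obtain ⟨a', ha', b', hb', d', hd', hrep⟩ := hzrep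
      refine hT.not_unit_of_mem (c := z) (c' := (d : F) * ((a : F))⁻¹) ?_ ?_ ha' hb' hd' hrep
      · exact C.mul_mem (le_locSub B 𝔪 d.2) (inv_mem_locSub B 𝔪 ha)
      · rw [← mul_assoc, hzd, mul_inv_cancel₀ ha0]
    obtain ⟨m, s, hs, hsm⟩ := exists_mul_pow_mem (K := K) π t B ht fracR dvrR hπu int0 𝔪 𝔭 h𝔭ne
      hπ𝔭 ha𝔪
    obtain ⟨p0, hp0, w, hw, hp0w⟩ := Submodule.mem_sup.mp hsm
    obtain ⟨b, hb⟩ := Ideal.mem_span_singleton'.mp hw
    have hD : s * d ^ m ∉ 𝔪 := fun h =>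
      (h𝔪.mem_or_mem h).elim hs (fun h' => hd (h𝔪.mem_of_pow_mem _ h'))
    have hD0 : ((s * d ^ m : B) : F) ≠ 0 := coe_ne_zero_of_notMem B 𝔪 hD
    have hDinv : (((s * d ^ m : B) : F))⁻¹ ∈ C := inv_mem_locSub B 𝔪 hD
    refine ⟨m, ⟨(p0 : F) * (((s * d ^ m : B) : F))⁻¹, C.mul_mem (le_locSub B 𝔪 p0.2) hDinv⟩, ?_,
      ⟨(b : F) * (((s * d ^ m : B) : F))⁻¹, C.mul_mem (le_locSub B 𝔪 b.2) hDinv⟩, ?_⟩
    · rw [mem_idealOf]
      exact mul_mem_nonunits_left _ ((mem_primeOf hB p0).mp hp0) (hCP _ hDinv)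
    · have h1 : ((s * a ^ m : B) : F) = (p0 : F) + (b : F) * p := by
        rw [← hp0w, ← hb]
        push_cast
        rfl
      have h2 : z ^ m * ((s * d ^ m : B) : F) = ((s * a ^ m : B) : F) := by
        push_cast
        rw [← hzd]
        ring
      show z ^ m = (p0 : F) * (((s * d ^ m : B) : F))⁻¹
        + p * ((b : F) * (((s * d ^ m : B) : F))⁻¹)
      rw [eq_comm, ← sub_eq_zero]
      have h3 : (p0 : F) * (((s * d ^ m : B) : F))⁻¹
          + p * ((b : F) * (((s * d ^ m : B) : F))⁻¹) - z ^ m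
          = (((p0 : F) + (b : F) * p) - z ^ m * ((s * d ^ m : B) : F))
            * (((s * d ^ m : B) : F))⁻¹ := by
        field_simp
      rw [h3, h2, h1, sub_self, zero_mul]
  have hnilx := hnil x hT.x_mem ⟨0, C.zero_mem, 1, C.one_mem, 0, C.zero_mem, by ring⟩
  have hnily := hnil y hT.y_mem ⟨0, C.zero_mem, 0, C.zero_mem, 1, C.one_mem, by ring⟩
  -- properness
  have hne : ¬ ∃ q ∈ 𝔮, ∃ c : ↥C, (1 : F) = (q : F) + p * (c : F) := by
    rintro ⟨q, hq, c, hqc⟩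
    rw [mem_idealOf] at hq
    have hrep : ∃ a ∈ C, ∃ b ∈ C, ∃ d ∈ C, (q : F) = a * p + b * x + d * y := by
      by_cases hq0 : (q : F) = 0
      · exact ⟨0, C.zero_mem, 0, C.zero_mem, 0, C.zero_mem, by rw [hq0]; ring⟩
      · exact hT.nonunit q q.2
          (fun hinv => inv_not_mem_of_mem_nonunits _ hq0 hq (hCP _ hinv))
    obtain ⟨a, ha, b, hb, d, hd, hrep⟩ := hrep
    exact hT.proper (a + c) (C.add_mem ha c.2) b hb d hd
      (by linear_combination (-1 : F) * hrep - hqc)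
  -- NCG
  obtain ⟨hh, ρ, l, hh𝔮, hsat, hρ1, hρ2, hv1, hv2⟩ :=
    exists_local_equation_thick hT hR 𝔮 htf hnilx hnily hne
  have hhC : (hh : F) ∈ locSub B 𝔪 := hh.2
  have hh0 : (hh : F) ≠ 0 := by
    intro h0
    rw [h0, map_zero] at hv1
    exact zero_ne_one hv1
  have hhP : (hh : F) ∈ P.toValuationSubring.nonunits := (mem_idealOf hCP hh).mp hh𝔮
  have hkey : ∀ b : B, b ∈ 𝔭 → ∃ n : ℕ, ∃ c ∈ C, p ^ n * (b : F) = c * (hh : F) := by
    intro b hb
    have hb𝔮 : (⟨(b : F), le_locSub B 𝔪 b.2⟩ : ↥C) ∈ 𝔮 := by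
      rw [mem_idealOf]
      exact (mem_primeOf hB b).mp hb
    obtain ⟨n, hn⟩ := hsat _ hb𝔮
    obtain ⟨c, hc⟩ := Ideal.mem_span_singleton'.mp hn
    refine ⟨n, c, c.2, ?_⟩
    have := congrArg Subtype.val hc
    simpa using this.symm
  refine ⟨hh, hhC, ρ, l, ⟨hh0, fun P' hP' => ?_⟩, hρ1, hρ2, hv1, hv2⟩
  by_cases hPP : P' = P
  · rw [hPP, Finsupp.single_eq_same]
    obtain ⟨ϖ, hϖ⟩ := IsDiscreteValuationRing.exists_irreducible P.toValuationSubring
    have hϖ0 : (ϖ : F) ≠ 0 := fun h0 => hϖ.ne_zero (Subtype.ext h0)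
    have hϖnu : (ϖ : F) ∈ P.toValuationSubring.nonunits := by
      rw [ValuationSubring.mem_nonunits_iff_exists_mem_maximalIdeal]
      exact ⟨ϖ.2, by
        rw [IsLocalRing.mem_maximalIdeal, mem_nonunits_iff]
        exact hϖ.not_isUnit⟩
    obtain ⟨a, s, hs, hϖs⟩ :=
      (mem_place_iff π t B ht noethB fracR dvrR pi_ne intcl int0 frac hB (ϖ : F)).mp ϖ.2
    have hs0 : (s : F) ≠ 0 := by
      intro h0
      have : s = 0 := Subtype.ext h0
      exact hs (this ▸ 𝔭.zero_mem)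
    have hsinv := inv_mem_of_not_mem_primeOf hB hs
    have ha𝔭 : a ∈ 𝔭 := by
      rw [mem_primeOf, ← hϖs]
      exact mul_mem_nonunits_left _ hϖnu (hB s)
    obtain ⟨n, c, hc, hnc⟩ := hkey a ha𝔭
    set w : F := c * ((p⁻¹) ^ n * ((s : F))⁻¹) with hw
    have hwP : w ∈ P.toValuationSubring :=
      P.toValuationSubring.mul_mem _ _ (hCP c hc)
        (P.toValuationSubring.mul_mem _ _ (pow_mem hpP' n) hsinv)
    have hϖw : (ϖ : F) = w * (hh : F) := by
      have hpn : p ^ n ≠ 0 := pow_ne_zero n pi_ne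
      have : w * (hh : F) = (c * (hh : F)) * ((p⁻¹) ^ n * ((s : F))⁻¹) := by rw [hw]; ring
      rw [this, ← hnc, ← hϖs, inv_pow]
      field_simp
    have hw0 : w ≠ 0 := by
      intro h0
      rw [h0, zero_mul] at hϖw
      exact hϖ0 hϖw
    have h1 : P.ord (ϖ : F) = 1 := P.ord_coe_irreducible hϖ
    rw [hϖw, P.ord_mul hw0 hh0] at h1
    have h2 := ord_nonneg_of_mem P hwP
    have h3 := ord_pos_of_mem_nonunits P hh0 hhP
    omega
  · rw [Finsupp.single_eq_of_ne hPP, ord_eq_zero_iff P' hh0]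
    have hhP' : (hh : F) ∈ P'.toValuationSubring := locSub_le_of_through hP' hhC
    refine ⟨hhP', ?_⟩
    by_contra hinv
    have hnu : (hh : F) ∈ P'.toValuationSubring.nonunits :=
      mem_nonunits_of_mem_of_inv_not_mem _ hhP' hinv
    apply hPP
    symm
    apply eq_of_primeOf_le π t B ht noethB fracR dvrR pi_ne intcl int0 frac hB hP'.1
    intro b hb
    obtain ⟨n, c, hc, hnc⟩ := hkey b hb
    rw [mem_primeOf]
    have h1 : p ^ n * (b : F) ∈ P'.toValuationSubring.nonunits := by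
      rw [hnc, mul_comm]
      exact mul_mem_nonunits_left _ hnu (locSub_le_of_through hP' hc)
    exact mem_nonunits_of_unit_mul _ (pow_ne_zero n pi_ne)
      (pow_mem (pi_mem_place (K := K) π P').1 n)
      (by rw [← inv_pow]; exact pow_mem (pi_mem_place (K := K) π P').2 n) h1

/-- A multiple of a single place has a local equation at the node. -/
theorem exists_isLocEq_single (P : Place K F) (n : ℤ) :
    ∃ h : F, IsLocEq B 𝔪 (Finsupp.single P n) h := by
  by_cases hP : Through B 𝔪 P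
  · obtain ⟨h, -, ρ, l, hh, -⟩ := exists_isLocEq_place π t B O1 O2 ht noethB fracR dvrR pi_ne intcl
      int0 frac 𝔪 hT hres P hP
    refine ⟨h ^ n, ?_⟩
    have := IsLocEq_zpow hh n
    rwa [Finsupp.smul_single, smul_eq_mul, mul_one] at this
  · refine ⟨1, one_ne_zero, fun P' hP' => ?_⟩
    have hne : P' ≠ P := fun h => hP (h ▸ hP')
    rw [Finsupp.single_eq_of_ne hne, Place.ord_one]

/-- **CAR-N.**  Every divisor of `F / K` has a local equation up to vertical components at a thick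
node of the model. -/
theorem exists_isLocEq_node (D : Divisor K F) : ∃ h : F, IsLocEq B 𝔪 D h := by
  induction D using Finsupp.induction_linear with
  | zero => exact ⟨1, IsLocEq.one B 𝔪⟩
  | add D E hD hE =>
    obtain ⟨h, hh⟩ := hD
    obtain ⟨g, hg⟩ := hE
    exact ⟨h * g, hh.mul hg⟩
  | single P n =>
    exact exists_isLocEq_single π t B O1 O2 ht noethB fracR dvrR pi_ne intcl int0 frac 𝔪 hT hres P n

end Chart

/-! ### `NodalNumData` forms -/

section NumData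

open Fermat.Agent.ES.N34.NumData13

variable {R K F : Type*} [CommRing R] [Field K] [Field F] [Algebra R K] [Algebra K F]
  [Algebra R F] [IsScalarTower R K F]
  {π : R} {t : F} {B0 B1 : Subalgebra R F} {O1 O2 : ValuationSubring F}

/-- **CAR-N on the chart `B0`.** -/
theorem exists_isLocEq_node0 (D : NodalNumData R K F π t B0 B1 O1 O2) (𝔪 : Ideal B0)
    [h𝔪 : 𝔪.IsPrime] {x y : F} {e : ℕ}
    (hT : ThickNode (locSub B0 𝔪).toSubring O1 O2 (algebraMap R F π) x y e)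
    (hres : ∀ c ∈ locSub B0 𝔪, ∃ r : R, ∃ a ∈ locSub B0 𝔪, ∃ b ∈ locSub B0 𝔪,
      ∃ d ∈ locSub B0 𝔪, c = algebraMap R F r + a * algebraMap R F π + b * x + d * y)
    (D' : Divisor K F) : ∃ h : F, IsLocEq B0 𝔪 D' h :=
  exists_isLocEq_node π t B0 O1 O2 D.model.t_mem D.noeth0 D.fracR D.dvrR D.model.pi_ne
    D.model.intcl0 D.model.int0 D.frac0 𝔪 hT hres D'

/-- **CAR-N on the chart `B1`.** -/
theorem exists_isLocEq_node1 (D : NodalNumData R K F π t B0 B1 O1 O2) (𝔪 : Ideal B1)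
    [h𝔪 : 𝔪.IsPrime] {x y : F} {e : ℕ}
    (hT : ThickNode (locSub B1 𝔪).toSubring O1 O2 (algebraMap R F π) x y e)
    (hres : ∀ c ∈ locSub B1 𝔪, ∃ r : R, ∃ a ∈ locSub B1 𝔪, ∃ b ∈ locSub B1 𝔪,
      ∃ d ∈ locSub B1 𝔪, c = algebraMap R F r + a * algebraMap R F π + b * x + d * y)
    (D' : Divisor K F) : ∃ h : F, IsLocEq B1 𝔪 D' h :=
  exists_isLocEq_node π t⁻¹ B1 O1 O2 D.model.tinv_mem D.noeth1 D.fracR D.dvrR D.model.pi_ne
    D.model.intcl1 D.model.int1 D.frac1 𝔪 hT hres D'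

/-- One-place form on the chart `B0`, with the slope data. -/
theorem exists_isLocEq_place0 (D : NodalNumData R K F π t B0 B1 O1 O2) (𝔪 : Ideal B0)
    [h𝔪 : 𝔪.IsPrime] {x y : F} {e : ℕ}
    (hT : ThickNode (locSub B0 𝔪).toSubring O1 O2 (algebraMap R F π) x y e)
    (hres : ∀ c ∈ locSub B0 𝔪, ∃ r : R, ∃ a ∈ locSub B0 𝔪, ∃ b ∈ locSub B0 𝔪,
      ∃ d ∈ locSub B0 𝔪, c = algebraMap R F r + a * algebraMap R F π + b * x + d * y)
    (P : Place K F) (hP : Through B0 𝔪 P) :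
    ∃ h ∈ locSub B0 𝔪, ∃ ρ l : ℕ, IsLocEq B0 𝔪 (Finsupp.single P (1 : ℤ)) h ∧ 1 ≤ ρ ∧
      ρ + 1 ≤ e * l ∧ O1.valuation h = 1 ∧
      O2.valuation h = O2.valuation (algebraMap R F π) ^ ρ :=
  exists_isLocEq_place π t B0 O1 O2 D.model.t_mem D.noeth0 D.fracR D.dvrR D.model.pi_ne
    D.model.intcl0 D.model.int0 D.frac0 𝔪 hT hres P hP

/-- One-place form on the chart `B1`, with the slope data. -/
theorem exists_isLocEq_place1 (D : NodalNumData R K F π t B0 B1 O1 O2) (𝔪 : Ideal B1)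
    [h𝔪 : 𝔪.IsPrime] {x y : F} {e : ℕ}
    (hT : ThickNode (locSub B1 𝔪).toSubring O1 O2 (algebraMap R F π) x y e)
    (hres : ∀ c ∈ locSub B1 𝔪, ∃ r : R, ∃ a ∈ locSub B1 𝔪, ∃ b ∈ locSub B1 𝔪,
      ∃ d ∈ locSub B1 𝔪, c = algebraMap R F r + a * algebraMap R F π + b * x + d * y)
    (P : Place K F) (hP : Through B1 𝔪 P) :
    ∃ h ∈ locSub B1 𝔪, ∃ ρ l : ℕ, IsLocEq B1 𝔪 (Finsupp.single P (1 : ℤ)) h ∧ 1 ≤ ρ ∧
      ρ + 1 ≤ e * l ∧ O1.valuation h = 1 ∧
      O2.valuation h = O2.valuation (algebraMap R F π) ^ ρ :=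
  exists_isLocEq_place π t⁻¹ B1 O1 O2 D.model.tinv_mem D.noeth1 D.fracR D.dvrR D.model.pi_ne
    D.model.intcl1 D.model.int1 D.frac1 𝔪 hT hres P hP

end NumData

end Fermat.Agent.M1.Car.NodeEq58
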