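/-
M1 (S44), chapter CAR (helper58): **the node inputs of `Car/Slope43` for a `NodalNumData` all of
whose nodes are thick nodes of the same thickness `e`** (glue NODE → CAR).

`ThickNodes D e` : at every node `(B, 𝔪)` (`Mon/WildPL43.IsNode`) of the two charts the local ring
`B_𝔪` is a `Thick25.ThickNode` of thickness `e` whose residue field is that of `R` (the output of
`Node/BridgeL25.thickNode_locSub` over the ramified base, resp. `e = 1` over the inertial base).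

* `slopeFrame_of_thickNodes` : `Slope43.SlopeFrame π B0 B1 O1 O2 e` (from `SlopeAdapter25`
  `exists_vals`, `thickness_dvd_of_isLocEq_zero`, `cartier_shift`);
* `locN_of_thickNodes` : the hypothesis `locN` of `Slope43.mem_cart_zero_of_tame / _of_wild`
  (CAR-N, `NodeEq58.exists_isLocEq_node`).
-/
import Mathlib
import Fermat.Agent.M1.Car.NodeEq58
import Fermat.Agent.M1.Car.Slope43

set_option autoImplicit false

namespace Fermat.Agent.M1.Car.NodeFrame58

open AlgebraicCurve Fermat.Agent.ES.N34.NodalCore13 Fermat.Agent.ES.N34.NodalSmooth13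
  Fermat.Agent.ES.N34.NumData13 Fermat.Agent.M1.Car.Defs43 Fermat.Agent.M1.Node.Thick25
  Fermat.Agent.M1.Node.SlopeAdapter25 Fermat.Agent.M1.Mon.WildPL43 Fermat.Agent.M1.Car.Slope43
  Fermat.Agent.M1.Car.NodeEq58

variable {R K F : Type*} [CommRing R] [Field K] [Field F] [Algebra R K] [Algebra K F]
  [Algebra R F] [IsScalarTower R K F]
  {π : R} {t : F} {B0 B1 : Subalgebra R F} {O1 O2 : ValuationSubring F}

/-- The local ring at the prime `𝔪` of the chart `B` is a thick node of thickness `e` with residue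
field `R / π`. -/
def ThickAt (π : R) (B : Subalgebra R F) (O1 O2 : ValuationSubring F) (e : ℕ) (𝔪 : Ideal B)
    [𝔪.IsPrime] : Prop :=
  ∃ x y : F, ThickNode (locSub B 𝔪).toSubring O1 O2 (algebraMap R F π) x y e ∧
    ∀ c ∈ locSub B 𝔪, ∃ r : R, ∃ a ∈ locSub B 𝔪, ∃ b ∈ locSub B 𝔪, ∃ d ∈ locSub B 𝔪,
      c = algebraMap R F r + a * algebraMap R F π + b * x + d * y

/-- Every node of the two charts is a thick node of thickness `e`. -/
def ThickNodes (π : R) (B0 B1 : Subalgebra R F) (O1 O2 : ValuationSubring F) (e : ℕ) : Prop :=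
  (∀ 𝔪 : Ideal B0, ∀ h𝔪 : 𝔪.IsMaximal, algebraMap R B0 π ∈ 𝔪 → ¬ OffBranch π B0 O1 𝔪 →
      ¬ OffBranch π B0 O2 𝔪 → (haveI := h𝔪.isPrime; ThickAt π B0 O1 O2 e 𝔪)) ∧
    (∀ 𝔪 : Ideal B1, ∀ h𝔪 : 𝔪.IsMaximal, algebraMap R B1 π ∈ 𝔪 → ¬ OffBranch π B1 O1 𝔪 →
      ¬ OffBranch π B1 O2 𝔪 → (haveI := h𝔪.isPrime; ThickAt π B1 O1 O2 e 𝔪))

omit [IsScalarTower R K F] in
/-- Every nonzero function has integral valuations on the two components. -/
theorem exists_val (D : NodalNumData R K F π t B0 B1 O1 O2) {z : F} (hz : z ≠ 0) :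
    (∃ a : ℤ, O1.valuation z = O1.valuation (algebraMap R F π) ^ a) ∧
      ∃ a : ℤ, O2.valuation z = O2.valuation (algebraMap R F π) ^ a := by
  have hu1 : IsUnifOf O1 (algebraMap R F π) := ⟨D.model.pi_nonunit1, D.model.unif1⟩
  have hu2 : IsUnifOf O2 (algebraMap R F π) := ⟨D.model.pi_nonunit2, D.model.unif2⟩
  obtain ⟨k1, hk1⟩ := D.model.arch1 z
  obtain ⟨k1', hk1'⟩ := D.model.arch1 z⁻¹
  obtain ⟨k2, hk2⟩ := D.model.arch2 z
  obtain ⟨k2', hk2'⟩ := D.model.arch2 z⁻¹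
  exact ⟨hu1.exists_zpow hz hk1 hk1', hu2.exists_zpow hz hk2 hk2'⟩

/-- **`SlopeFrame` from thick nodes.** -/
theorem slopeFrame_of_thickNodes (D : NodalNumData R K F π t B0 B1 O1 O2) {e : ℕ}
    (hth : ThickNodes π B0 B1 O1 O2 e) : SlopeFrame (K := K) π B0 B1 O1 O2 e where
  unif1 := ⟨D.model.pi_nonunit1, D.model.unif1⟩
  unif2 := ⟨D.model.pi_nonunit2, D.model.unif2⟩
  vals1 := fun z hz => (exists_val D hz).1
  vals2 := fun z hz => (exists_val D hz).2
  wd := by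
    intro B 𝔪 hs h a1 a2 hh h1 h2
    have hprime : 𝔪.IsPrime := hs.max.isPrime
    rcases hs.chart with rfl | rfl
    · obtain ⟨x, y, hT, -⟩ := hth.1 𝔪 hs.max hs.pi_mem hs.on1 hs.on2
      exact thickness_dvd_of_isLocEq_zero (K := K) π t B O1 O2 D.model.t_mem D.noeth0 D.fracR
        D.dvrR D.model.pi_ne D.model.intcl0 D.model.int0 D.frac0 D.model.le_O1_0 D.model.le_O2_0
        D.model.arch1 D.model.arch2 D.model.sat0 𝔪 hT hh h1 h2
    · obtain ⟨x, y, hT, -⟩ := hth.2 𝔪 hs.max hs.pi_mem hs.on1 hs.on2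
      exact thickness_dvd_of_isLocEq_zero (K := K) π t⁻¹ B O1 O2 D.model.tinv_mem D.noeth1 D.fracR
        D.dvrR D.model.pi_ne D.model.intcl1 D.model.int1 D.frac1 D.model.le_O1_1 D.model.le_O2_1
        D.model.arch1 D.model.arch2 D.model.sat1 𝔪 hT hh h1 h2
  shift := by
    intro B 𝔪 hs D' h a1 a2 m hh h1 h2 hm
    have hprime : 𝔪.IsPrime := hs.max.isPrime
    rcases hs.chart with rfl | rfl
    · obtain ⟨x, y, hT, -⟩ := hth.1 𝔪 hs.max hs.pi_mem hs.on1 hs.on2
      exact cartier_shift (K := K) π B O1 O2 D.model.pi_ne 𝔪 hT hh h1 h2 hm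
    · obtain ⟨x, y, hT, -⟩ := hth.2 𝔪 hs.max hs.pi_mem hs.on1 hs.on2
      exact cartier_shift (K := K) π B O1 O2 D.model.pi_ne 𝔪 hT hh h1 h2 hm

/-- **`locN` from thick nodes (CAR-N)**: every divisor has a local equation up to vertical components
at every node. -/
theorem locN_of_thickNodes (D : NodalNumData R K F π t B0 B1 O1 O2) {e : ℕ}
    (hth : ThickNodes π B0 B1 O1 O2 e) (D' : Divisor K F) (B : Subalgebra R F) (𝔪 : Ideal B)
    (hs : IsNode π B0 B1 O1 O2 B 𝔪) : ∃ h : F, IsLocEq B 𝔪 D' h := by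
  have hprime : 𝔪.IsPrime := hs.max.isPrime
  rcases hs.chart with rfl | rfl
  · obtain ⟨x, y, hT, hres⟩ := hth.1 𝔪 hs.max hs.pi_mem hs.on1 hs.on2
    exact exists_isLocEq_node0 D 𝔪 hT hres D'
  · obtain ⟨x, y, hT, hres⟩ := hth.2 𝔪 hs.max hs.pi_mem hs.on1 hs.on2
    exact exists_isLocEq_node1 D 𝔪 hT hres D'

omit [Algebra R K] [Algebra K F] [IsScalarTower R K F] [Field K] in
/-- **`approx` from one thick node**: the coordinate `y` vanishes on the component `1` and is a unit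
on the component `2`, so every pair of valuations `(0, m)` is realised (`Slope43.exists_val_pair`). -/
theorem approx_of_thickNode {C : Subring F} {ϖ x y : F} {e : ℕ}
    (hT : ThickNode C O1 O2 ϖ x y e) (m : ℤ) :
    ∃ g : F, g ≠ 0 ∧ O1.valuation g = 1 ∧ O2.valuation g = O2.valuation ϖ ^ m := by
  have hy1 : ∃ c ∈ O1, y = ϖ * c := by
    rw [hT.unif1.mem_pi_iff, hT.val1_y]
    exact pow_lt_one₀ zero_le hT.unif1.val_lt_one hT.e_pos.ne'
  have hy2 : y ∈ O2 := hT.le2 y hT.y_mem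
  have hy2' : y⁻¹ ∈ O2 := by
    rw [← O2.valuation_le_one_iff, map_inv₀, hT.val2_y, inv_one]
  exact exists_val_pair hT.unif1 hT.unif2 hy1 hy2 hy2' hT.y_ne_zero m

/-- **`approx` of `Slope43.mem_cart_zero_of_slopes`** for a model with thick nodes and at least one
node. -/
theorem approx_of_thickNodes {e : ℕ} (hth : ThickNodes π B0 B1 O1 O2 e)
    (hnode : ∃ (B : Subalgebra R F) (𝔪 : Ideal B), IsNode π B0 B1 O1 O2 B 𝔪) (m : ℤ) :
    ∃ g : F, g ≠ 0 ∧ O1.valuation g = 1 ∧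
      O2.valuation g = O2.valuation (algebraMap R F π) ^ m := by
  obtain ⟨B, 𝔪, hs⟩ := hnode
  have hprime : 𝔪.IsPrime := hs.max.isPrime
  rcases hs.chart with rfl | rfl
  · obtain ⟨x, y, hT, -⟩ := hth.1 𝔪 hs.max hs.pi_mem hs.on1 hs.on2
    exact approx_of_thickNode hT m
  · obtain ⟨x, y, hT, -⟩ := hth.2 𝔪 hs.max hs.pi_mem hs.on1 hs.on2
    exact approx_of_thickNode hT m

end Fermat.Agent.M1.Car.NodeFrame58
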