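/-
Programme M1 (S44, row 38) / ORD (S33, chapter G), chapter CAR: **the class-level (T5) and (T7) of
`Car/TorsClass43` for a nodal two-chart model** (`ES/N34/NumData13.NodalNumData`).
Owner: helper15 (assignment 1 of report #1523).

* `torsFrame_of_numData` : `TorsClass43.TorsFrame π t B0 B1 (overlap t B0 _) O1 O2` from a
  `NodalNumData`, algebraically closed residue fields of the two components and a node.  Pure
  assembly: `LocFrameInst53` (helper53: charts, local frames, `hvert`), `FrameInst98` (helper98: the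
  global frame), `HorizEq53` (helper53: local equations at the closed points off the special fibre),
  `PicInst98` (helper98: the `TwoChart` structure), `Branch98` (overlap `⊆ O_j`).
* `cart_torsion_free_of_numData` : **(T7)** `Cart n [p] = 0` for `n ≥ 1`, `n + e < p n`.
* `cart_succ_of_toric_of_numData`, `cart_succ_of_frob_of_numData` : **(T5)** in the Frobenius
  regime `p n < n + e`.
-/
import Mathlib
import Fermat.Agent.M1.Car.TorsClass43
import Fermat.Agent.M1.Car.LocFrameInst53
import Fermat.Agent.M1.Car.HorizEq53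
import Fermat.Agent.M1.Fib.PicInst98

set_option autoImplicit false

namespace Fermat.Agent.M1.Car.TorsInst15

open AlgebraicCurve Fermat.Agent.ES.N34.NodalCore13 Fermat.Agent.ES.N34.NumData13
  Fermat.Agent.M1.Car.Defs43 Fermat.Agent.M1.Car.AdelicToCech43 Fermat.Agent.M1.Car.TorsClass43
  Fermat.Agent.M1.Fib.Branch98 Fermat.Agent.M1.Fib.Constants98 Fermat.Agent.M1.Fib.H0k98
  Fermat.Agent.M1.Fib.Seminormal98 Fermat.Agent.M1.Pic2.Defs60

variable {R K F : Type*} [CommRing R] [Field K] [Field F] [Algebra R K] [Algebra K F]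
  [Algebra R F] [IsScalarTower R K F]
variable {π : R} {t : F} {B0 B1 : Subalgebra R F} {O1 O2 : ValuationSubring F}

/-- A node in the sense of FIB is a node in the sense of MON. -/
theorem node_of_hasNode (hnode : HasNode π B0 B1 O1 O2) :
    ∃ (Bs : Subalgebra R F) (𝔪s : Ideal Bs),
      Fermat.Agent.M1.Mon.WildPL43.IsNode π B0 B1 O1 O2 Bs 𝔪s := by
  rcases hnode with ⟨𝔪, h1, h2, h3, h4⟩ | ⟨𝔪, h1, h2, h3, h4⟩
  · exact ⟨B0, 𝔪, ⟨Or.inl rfl, h1, h2, h3, h4⟩⟩
  · exact ⟨B1, 𝔪, ⟨Or.inr rfl, h1, h2, h3, h4⟩⟩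

/-- **The frame of the class-level (T5)/(T7) for a nodal two-chart model.** -/
theorem torsFrame_of_numData (N : NodalNumData R K F π t B0 B1 O1 O2)
    (hac1 : ResidueAlgClosed π O1) (hac2 : ResidueAlgClosed π O2)
    (hnode : HasNode π B0 B1 O1 O2) :
    TorsFrame (K := K) π t B0 B1 (overlap t B0 N.model.t_mem) O1 O2 :=
  { chart := LocFrameInst53.chartPair_of_numData N
    loc0 := (LocFrameInst53.locFrame_of_numData N).1
    loc1 := (LocFrameInst53.locFrame_of_numData N).2
    frame := Fermat.Agent.M1.Fib.FrameInst98.frame_of_numData N hac1 hac2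
    node := node_of_hasNode hnode
    vert := LocFrameInst53.ord_pi_eq_zero π
    horiz0 := fun D => (HorizEq53.horiz_of_numData N D).1
    horiz1 := fun D => (HorizEq53.horiz_of_numData N D).2
    two := Fermat.Agent.M1.Fib.PicInst98.twoChart_of_numData N hac1 hac2 hnode
    le01_1 := fun _ hb => overlap_le_O1 N.model hb
    le01_2 := fun _ hb => overlap_le_O2 N.model hb }

/-- **(T7) for a nodal two-chart model**: for `n ≥ 1` with `n + e < p n` (i.e. `n > e / (p - 1)`),
`Cart n` has no `p`-torsion. -/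
theorem cart_torsion_free_of_numData [HasPrincipalDivisors K F]
    (N : NodalNumData R K F π t B0 B1 O1 O2)
    (hac1 : ResidueAlgClosed π O1) (hac2 : ResidueAlgClosed π O2)
    (hnode : HasNode π B0 B1 O1 O2)
    {hπ1 : algebraMap R F π ∈ O1} {hπ2 : algebraMap R F π ∈ O2}
    {p e n : ℕ} (hp : p.Prime) (u : Rˣ) (hpe : (p : R) = π ^ e * u) (hn : 1 ≤ n)
    (hgt : n + e < p * n) {x : Pic0 K F} (hx : x ∈ Cart π B0 B1 O1 O2 hπ1 hπ2 n)
    (hpx : p • x = 0) : x = 0 := by
  have M := N.model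
  have := Fermat.Agent.M1.Fib.PicInst98.isLocalRing_of_numData N
  have := M.noethR
  have := N.noeth0
  have := N.noeth1
  refine (torsFrame_of_numData N hac1 hac2 hnode).cart_torsion_free
    (Fermat.Agent.M1.Fib.PicInst98.pi_mem_maximalIdeal N) M.int0 M.int1 (fun x hx => hx) ?_
    M.fin0 hp u hpe hn hgt hx hpx
  intro x hx
  have hx' : x ∈ overlap t⁻¹ B1 M.tinv_mem := by
    rw [← overlap_eq M]; exact hx
  exact hx'

/-- **(T5) for a nodal two-chart model, Frobenius form.** -/
theorem cart_succ_of_frob_of_numData [HasPrincipalDivisors K F]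
    (N : NodalNumData R K F π t B0 B1 O1 O2)
    (hac1 : ResidueAlgClosed π O1) (hac2 : ResidueAlgClosed π O2)
    (hnode : HasNode π B0 B1 O1 O2)
    {hπ1 : algebraMap R F π ∈ O1} {hπ2 : algebraMap R F π ∈ O2}
    {p e n : ℕ} (hp : p.Prime) (u : Rˣ) (hpe : (p : R) = π ^ e * u) (hn : 1 ≤ n)
    (hlt : p * n < n + e) (D : Divisor.degZero (K := K) (F := F))
    (hD : HasLevel π B0 B1 O1 O2 n (D : Divisor K F)) (hpD : p • Pic0.mk D = 0)
    (hfrob : ∃ c, HasLead (algebraMap R F π) n
        ((torsFrame_of_numData N hac1 hac2 hnode).pair (D : Divisor K F)) c ∧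
      (c ^ p ∈ Bdry (algebraMap R F π) B0 B1 (overlap t B0 N.model.t_mem) →
        c ∈ Bdry (algebraMap R F π) B0 B1 (overlap t B0 N.model.t_mem))) :
    Pic0.mk D ∈ Cart π B0 B1 O1 O2 hπ1 hπ2 (n + 1) := by
  have hpeF : (p : F) = algebraMap R F π ^ e * algebraMap R F (u : R) := by
    rw [← map_pow, ← map_mul, ← hpe, map_natCast]
  exact (torsFrame_of_numData N hac1 hac2 hnode).cart_succ_of_frob hp hpeF
    ((overlap t B0 N.model.t_mem).algebraMap_mem _) hn hlt D hD hpD hfrob

/-- **(T5) for a nodal two-chart model, toric form**: in the Frobenius regime `p n < n + e`, a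
`p`-torsion class of level `n ≥ 1` with toric leading coefficient has level `n + 1`.  The hypotheses
`hnodes0`, `hnodes1` (the nodes are seminormal: `SemiLocal98.nodeSumAt_of_thickNodes` or
`Seminormal98.nodeSumAt_of_strong`) and `hperf` (the residue field of `R` is perfect) are those of
`PicInst98.toricSetup_field_of_model`. -/
theorem cart_succ_of_toric_of_numData [HasPrincipalDivisors K F]
    (N : NodalNumData R K F π t B0 B1 O1 O2)
    (hac1 : ResidueAlgClosed π O1) (hac2 : ResidueAlgClosed π O2)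
    (hnode : HasNode π B0 B1 O1 O2)
    (hnodes0 : ∀ 𝔪 : Ideal B0, IsNode π B0 O1 O2 𝔪 → NodeSumAt π B0 O1 O2 𝔪)
    (hnodes1 : ∀ 𝔪 : Ideal B1, IsNode π B1 O1 O2 𝔪 → NodeSumAt π B1 O1 O2 𝔪)
    {hπ1 : algebraMap R F π ∈ O1} {hπ2 : algebraMap R F π ∈ O2}
    {p e n : ℕ} (hp : p.Prime) (u : Rˣ) (hpe : (p : R) = π ^ e * u)
    (hperf : ∀ r : R, ∃ ρ : R, π ∣ ρ ^ p - r) (hn : 1 ≤ n)
    (hlt : p * n < n + e) (D : Divisor.degZero (K := K) (F := F))
    (hD : HasLevel π B0 B1 O1 O2 n (D : Divisor K F)) (hpD : p • Pic0.mk D = 0)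
    (htor : ∃ c, HasLead (algebraMap R F π) n
        ((torsFrame_of_numData N hac1 hac2 hnode).pair (D : Divisor K F)) c ∧
      Fermat.Agent.M1.Pic2.ToricPic15.IsToric π B0 B1 O1 O2 c) :
    Pic0.mk D ∈ Cart π B0 B1 O1 O2 hπ1 hπ2 (n + 1) := by
  have hpeF : (p : F) = algebraMap R F π ^ e * algebraMap R F (u : R) := by
    rw [← map_pow, ← map_mul, ← hpe, map_natCast]
  have he : 1 ≤ e := by
    have h2 : 2 ≤ p := hp.two_le
    by_contra h0
    have : e = 0 := by omega
    subst this
    nlinarith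
  have hpπ : π ∣ (p : R) := by
    rw [hpe]
    exact Dvd.dvd.mul_right (dvd_pow_self π (by omega)) _
  exact (torsFrame_of_numData N hac1 hac2 hnode).cart_succ_of_toric hp hpeF
    ((overlap t B0 N.model.t_mem).algebraMap_mem _) hn hlt
    (Fermat.Agent.M1.Fib.PicInst98.toricSetup_field_of_model N.model hac1 hac2 hnodes0 hnodes1 hp
      hpπ hperf) D hD hpD htor

end Fermat.Agent.M1.Car.TorsInst15
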