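/-
Programme M1 (S44, row 38), chapters CAR / TRI — helper15 (assignment (2) of report #1751,
"TRI-INST part 1").

**The TRI contracts of `Car/ContractInst43` with every model input discharged from a
`NodalNumData`.**  For a nodal two-chart model `N : NodalNumData R K F π t B0 B1 O1 O2` whose two
components have algebraically closed residue fields (`hac1`, `hac2`), all of whose nodes are thick
of thickness `e` (`hth : NodeFrame58.ThickNodes π B0 B1 O1 O2 e`) and which has a node (`hnode`;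
unconditional by `NodeExists61.hasNode_of_numData`, see the primed versions), the filtration
`Cart π B0 B1 O1 O2 n` of `Pic0 K F` satisfies `WildContract` (`e = p (p - 1)`) resp.
`TameContract` (`e = p - 1`).

Suppliers (pure assembly, no new mathematics):
* `W := TorsInst15.torsFrame_of_numData` (helper53 `LocFrameInst53`/`HorizEq53`, helper98
  `FrameInst98`/`PicInst98`);
* `SF := NodeFrame58.slopeFrame_of_thickNodes`, `approx := NodeFrame58.approx_of_thickNodes`,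
  `locN := NodeFrame58.locN_of_thickNodes` (helper58);
* `smooth := SmoothEq53.smooth_of_numData` (helper53);
* `TS := PicInst98.toricSetup_field_of_model` with `hnodes0/1 := SemiLocal98.nodeSumAt_of_thickNodes`
  (helper98);
* `int0/int1/ov0/ov1/fin0`, noetherianity, locality of `R` : fields of `N` / `N.model`.

The REMAINING hypotheses are: `N`, `hac1`, `hac2`, `hth`, `hnode`, the arithmetic
(`hp`, `he`, `u`, `hpe`, `hchar`, `hperf`), the Galois data (`g₀`, `hg₀`, `hθ`, `hθ₀`), the data of `V`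
(`tors`, `stable`, `order`), (T4) and `htor`.
-/
import Mathlib
import Fermat.Agent.M1.Car.ContractInst43
import Fermat.Agent.M1.Car.TorsInst15
import Fermat.Agent.M1.Car.NodeFrame58
import Fermat.Agent.M1.Car.LocFrameInst53
import Fermat.Agent.M1.Car.SmoothEq53
import Fermat.Agent.M1.Fib.FrameInst98
import Fermat.Agent.M1.Fib.PicInst98
import Fermat.Agent.M1.Fib.SemiLocal98
import Fermat.Agent.M1.Fib.NodeExists61

set_option autoImplicit false

namespace Fermat.Agent.M1.Car.ContractNum15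

open AlgebraicCurve Polynomial Fermat.Agent.ES.N34.NodalCore13 Fermat.Agent.ES.N34.NumData13
  Fermat.Agent.M1.Car.Defs43 Fermat.Agent.M1.Pic2.Defs60 Fermat.Agent.X0.FF
  Fermat.Agent.M1.Mon.WildPL43 Fermat.Agent.M1.Car.TorsClass43
  Fermat.Agent.M1.Car.ContractInst43 Fermat.Agent.M1.Car.TorsInst15
  Fermat.Agent.M1.Car.NodeFrame58 Fermat.Agent.M1.Tri.ContractL20
  Fermat.Agent.M1.Fib.Branch98 Fermat.Agent.M1.Fib.Constants98 Fermat.Agent.M1.Fib.H0k98

variable {R K F : Type*} [CommRing R] [Field K] [Field F] [Algebra R K] [Algebra K F]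
  [Algebra R F] [IsScalarTower R K F]
variable {π : R} {t : F} {B0 B1 : Subalgebra R F} {O1 O2 : ValuationSubring F}

/-- `π ∣ p` from `p = π ^ e u`, `e ≥ 1`. -/
theorem pi_dvd_of_eq {p e : ℕ} (he : 1 ≤ e) (u : Rˣ) (hpe : (p : R) = π ^ e * u) :
    π ∣ (p : R) := by
  rw [hpe]
  exact Dvd.dvd.mul_right (dvd_pow_self π (by omega)) _

/-- **The wild TRI contract for a nodal two-chart model with thick nodes** (`e = p (p - 1)`, wild
generator `g₀` of break `1`): `ContractInst43.wildContract_of_cart` with all the model inputs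
discharged. -/
theorem wildContract_of_numData [HasPrincipalDivisors K F]
    (N : NodalNumData R K F π t B0 B1 O1 O2)
    (hac1 : ResidueAlgClosed π O1) (hac2 : ResidueAlgClosed π O2) {e : ℕ}
    (hth : ThickNodes π B0 B1 O1 O2 e) (hnode : HasNode π B0 B1 O1 O2)
    {hπ1 : algebraMap R F π ∈ O1} {hπ2 : algebraMap R F π ∈ O2}
    {p : ℕ} (hp : p.Prime) (he : e = p * (p - 1)) (u : Rˣ) (hpe : (p : R) = π ^ e * u)
    (hchar : ∀ n : ℤ, π ∣ (n : R) → (p : ℤ) ∣ n)
    (hperf : ∀ r : R, ∃ ρ : R, π ∣ ρ ^ p - r)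
    (V : AddSubgroup (Pic0 K F)) (tors : ∀ v ∈ V, p • v = 0)
    {g₀ : SemilinearAut K F} (stable : ∀ v ∈ V, g₀ • v ∈ V) (order : ∀ v ∈ V, g₀ ^ p • v = v)
    (hg₀ : InertiaAut π B0 B1 O1 O2 g₀ 2) {θ₀ : R}
    (hθ : g₀ • algebraMap R F π =
      algebraMap R F π * (1 + algebraMap R F θ₀ * algebraMap R F π ^ 1))
    (hθ₀ : ¬ π ∣ θ₀)
    (T4 : ∀ v ∈ V, v ∈ Cart π B0 B1 O1 O2 hπ1 hπ2 0 → v ∈ Cart π B0 B1 O1 O2 hπ1 hπ2 1)
    (htor : ∀ n : ℕ, 1 ≤ n → n < p → ∀ v ∈ V, v ∈ Cart π B0 B1 O1 O2 hπ1 hπ2 n →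
      ∃ D : Divisor.degZero (K := K) (F := F), Pic0.mk D = v ∧
        HasLevel π B0 B1 O1 O2 n (D : Divisor K F) ∧
        ∃ c, HasLead (algebraMap R F π) n
          ((torsFrame_of_numData N hac1 hac2 hnode).pair (D : Divisor K F)) c ∧
          Pic2.ToricPic15.IsToric π B0 B1 O1 O2 c) :
    WildContract p V (CycAt π B0 B1 O1 O2 p) g₀ (Cart π B0 B1 O1 O2 hπ1 hπ2 0)
      (fun n => Cart π B0 B1 O1 O2 hπ1 hπ2 n) := by
  have M := N.model
  have := Fermat.Agent.M1.Fib.PicInst98.isLocalRing_of_numData N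
  have := M.noethR
  have := N.noeth0
  have := N.noeth1
  have h2 := hp.two_le
  have he1 : 1 ≤ e := by
    rw [he]
    exact Nat.mul_pos (by omega) (by omega)
  have hns := Fermat.Agent.M1.Fib.SemiLocal98.nodeSumAt_of_thickNodes hth
  refine wildContract_of_cart (torsFrame_of_numData N hac1 hac2 hnode)
    (slopeFrame_of_thickNodes N hth) (Fermat.Agent.M1.Fib.PicInst98.pi_mem_maximalIdeal N)
    M.int0 M.int1 (fun x hx => hx) ?_ M.fin0 hp he u hpe hchar
    (approx_of_thickNodes hth (node_of_hasNode hnode))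
    (fun D => SmoothEq53.smooth_of_numData N D) (fun D => locN_of_thickNodes N hth D)
    V tors stable order hg₀ hθ hθ₀ T4
    (Fermat.Agent.M1.Fib.PicInst98.toricSetup_field_of_model M hac1 hac2 hns.1 hns.2 hp
      (pi_dvd_of_eq he1 u hpe) hperf) htor
  intro x hx
  have hx' : x ∈ overlap t⁻¹ B1 M.tinv_mem := by
    rw [← overlap_eq M]; exact hx
  exact hx'

/-- **The tame TRI contract for a nodal two-chart model with thick nodes** (`e = p - 1`):
`ContractInst43.tameContract_of_cart` with all the model inputs discharged. -/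
theorem tameContract_of_numData [HasPrincipalDivisors K F]
    (N : NodalNumData R K F π t B0 B1 O1 O2)
    (hac1 : ResidueAlgClosed π O1) (hac2 : ResidueAlgClosed π O2) {e : ℕ}
    (hth : ThickNodes π B0 B1 O1 O2 e) (hnode : HasNode π B0 B1 O1 O2)
    {hπ1 : algebraMap R F π ∈ O1} {hπ2 : algebraMap R F π ∈ O2}
    {p : ℕ} (hp : p.Prime) (he : e = p - 1) (u : Rˣ) (hpe : (p : R) = π ^ e * u)
    (V : AddSubgroup (Pic0 K F)) (tors : ∀ v ∈ V, p • v = 0)
    (T4 : ∀ v ∈ V, v ∈ Cart π B0 B1 O1 O2 hπ1 hπ2 0 → v ∈ Cart π B0 B1 O1 O2 hπ1 hπ2 1) :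
    TameContract p V (CycAt (K := K) π B0 B1 O1 O2 1) (Cart π B0 B1 O1 O2 hπ1 hπ2 0)
      (fun n => Cart π B0 B1 O1 O2 hπ1 hπ2 n) := by
  have M := N.model
  have := Fermat.Agent.M1.Fib.PicInst98.isLocalRing_of_numData N
  have := M.noethR
  have := N.noeth0
  have := N.noeth1
  refine tameContract_of_cart (torsFrame_of_numData N hac1 hac2 hnode)
    (slopeFrame_of_thickNodes N hth) (Fermat.Agent.M1.Fib.PicInst98.pi_mem_maximalIdeal N)
    M.int0 M.int1 (fun x hx => hx) ?_ M.fin0 hp he u hpe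
    (approx_of_thickNodes hth (node_of_hasNode hnode))
    (fun D => SmoothEq53.smooth_of_numData N D) (fun D => locN_of_thickNodes N hth D)
    V tors T4
  intro x hx
  have hx' : x ∈ overlap t⁻¹ B1 M.tinv_mem := by
    rw [← overlap_eq M]; exact hx
  exact hx'

/-- `wildContract_of_numData` with the existence of a node discharged
(`NodeExists61.hasNode_of_numData`). -/
theorem wildContract_of_numData' [HasPrincipalDivisors K F]
    (N : NodalNumData R K F π t B0 B1 O1 O2)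
    (hac1 : ResidueAlgClosed π O1) (hac2 : ResidueAlgClosed π O2) {e : ℕ}
    (hth : ThickNodes π B0 B1 O1 O2 e)
    {hπ1 : algebraMap R F π ∈ O1} {hπ2 : algebraMap R F π ∈ O2}
    {p : ℕ} (hp : p.Prime) (he : e = p * (p - 1)) (u : Rˣ) (hpe : (p : R) = π ^ e * u)
    (hchar : ∀ n : ℤ, π ∣ (n : R) → (p : ℤ) ∣ n)
    (hperf : ∀ r : R, ∃ ρ : R, π ∣ ρ ^ p - r)
    (V : AddSubgroup (Pic0 K F)) (tors : ∀ v ∈ V, p • v = 0)
    {g₀ : SemilinearAut K F} (stable : ∀ v ∈ V, g₀ • v ∈ V) (order : ∀ v ∈ V, g₀ ^ p • v = v)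
    (hg₀ : InertiaAut π B0 B1 O1 O2 g₀ 2) {θ₀ : R}
    (hθ : g₀ • algebraMap R F π =
      algebraMap R F π * (1 + algebraMap R F θ₀ * algebraMap R F π ^ 1))
    (hθ₀ : ¬ π ∣ θ₀)
    (T4 : ∀ v ∈ V, v ∈ Cart π B0 B1 O1 O2 hπ1 hπ2 0 → v ∈ Cart π B0 B1 O1 O2 hπ1 hπ2 1)
    (htor : ∀ n : ℕ, 1 ≤ n → n < p → ∀ v ∈ V, v ∈ Cart π B0 B1 O1 O2 hπ1 hπ2 n →
      ∃ D : Divisor.degZero (K := K) (F := F), Pic0.mk D = v ∧
        HasLevel π B0 B1 O1 O2 n (D : Divisor K F) ∧
        ∃ c, HasLead (algebraMap R F π) n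
          ((torsFrame_of_numData N hac1 hac2
            (Fermat.Agent.M1.Fib.NodeExists61.hasNode_of_numData N)).pair (D : Divisor K F)) c ∧
          Pic2.ToricPic15.IsToric π B0 B1 O1 O2 c) :
    WildContract p V (CycAt π B0 B1 O1 O2 p) g₀ (Cart π B0 B1 O1 O2 hπ1 hπ2 0)
      (fun n => Cart π B0 B1 O1 O2 hπ1 hπ2 n) :=
  wildContract_of_numData N hac1 hac2 hth (Fermat.Agent.M1.Fib.NodeExists61.hasNode_of_numData N)
    hp he u hpe hchar hperf V tors stable order hg₀ hθ hθ₀ T4 htor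

/-- `tameContract_of_numData` with the existence of a node discharged. -/
theorem tameContract_of_numData' [HasPrincipalDivisors K F]
    (N : NodalNumData R K F π t B0 B1 O1 O2)
    (hac1 : ResidueAlgClosed π O1) (hac2 : ResidueAlgClosed π O2) {e : ℕ}
    (hth : ThickNodes π B0 B1 O1 O2 e)
    {hπ1 : algebraMap R F π ∈ O1} {hπ2 : algebraMap R F π ∈ O2}
    {p : ℕ} (hp : p.Prime) (he : e = p - 1) (u : Rˣ) (hpe : (p : R) = π ^ e * u)
    (V : AddSubgroup (Pic0 K F)) (tors : ∀ v ∈ V, p • v = 0)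
    (T4 : ∀ v ∈ V, v ∈ Cart π B0 B1 O1 O2 hπ1 hπ2 0 → v ∈ Cart π B0 B1 O1 O2 hπ1 hπ2 1) :
    TameContract p V (CycAt (K := K) π B0 B1 O1 O2 1) (Cart π B0 B1 O1 O2 hπ1 hπ2 0)
      (fun n => Cart π B0 B1 O1 O2 hπ1 hπ2 n) :=
  tameContract_of_numData N hac1 hac2 hth (Fermat.Agent.M1.Fib.NodeExists61.hasNode_of_numData N)
    hp he u hpe V tors T4

/-- **TRI over a nodal two-chart model, wild case**: every inertia element acting on `μ_p`
through `ζ ↦ ζ ^ c` acts on `V` by the scalar `c`. -/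
theorem inertia_smul_eq_of_wild_numData [HasPrincipalDivisors K F]
    (N : NodalNumData R K F π t B0 B1 O1 O2)
    (hac1 : ResidueAlgClosed π O1) (hac2 : ResidueAlgClosed π O2) {e : ℕ}
    (hth : ThickNodes π B0 B1 O1 O2 e)
    {hπ1 : algebraMap R F π ∈ O1} {hπ2 : algebraMap R F π ∈ O2}
    {p : ℕ} (hp : p.Prime) (hp2 : p ≠ 2) (he : e = p * (p - 1)) (u : Rˣ)
    (hpe : (p : R) = π ^ e * u)
    (hchar : ∀ n : ℤ, π ∣ (n : R) → (p : ℤ) ∣ n)
    (hperf : ∀ r : R, ∃ ρ : R, π ∣ ρ ^ p - r)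
    (V : AddSubgroup (Pic0 K F)) (tors : ∀ v ∈ V, p • v = 0)
    {g₀ : SemilinearAut K F} (stable : ∀ v ∈ V, g₀ • v ∈ V) (order : ∀ v ∈ V, g₀ ^ p • v = v)
    (hg₀ : InertiaAut π B0 B1 O1 O2 g₀ 2) {θ₀ : R}
    (hθ : g₀ • algebraMap R F π =
      algebraMap R F π * (1 + algebraMap R F θ₀ * algebraMap R F π ^ 1))
    (hθ₀ : ¬ π ∣ θ₀)
    (T4 : ∀ v ∈ V, v ∈ Cart π B0 B1 O1 O2 hπ1 hπ2 0 → v ∈ Cart π B0 B1 O1 O2 hπ1 hπ2 1)
    (htor : ∀ n : ℕ, 1 ≤ n → n < p → ∀ v ∈ V, v ∈ Cart π B0 B1 O1 O2 hπ1 hπ2 n →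
      ∃ D : Divisor.degZero (K := K) (F := F), Pic0.mk D = v ∧
        HasLevel π B0 B1 O1 O2 n (D : Divisor K F) ∧
        ∃ c, HasLead (algebraMap R F π) n
          ((torsFrame_of_numData N hac1 hac2
            (Fermat.Agent.M1.Fib.NodeExists61.hasNode_of_numData N)).pair (D : Divisor K F)) c ∧
          Pic2.ToricPic15.IsToric π B0 B1 O1 O2 c)
    (τ : SemilinearAut K F) (c : ℕ) (hτ : CycAt π B0 B1 O1 O2 p τ c) :
    ∀ v ∈ V, τ • v = c • v := by
  have := Fermat.Agent.M1.Fib.PicInst98.isLocalRing_of_numData N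
  have := N.model.noethR
  exact inertia_smul_eq_of_wild hp hp2
    (wildContract_of_numData' N hac1 hac2 hth (hπ1 := hπ1) (hπ2 := hπ2) hp he u hpe hchar hperf V
      tors stable order hg₀ hθ hθ₀ T4 htor) τ c hτ

/-- **TRI over a nodal two-chart model, tame case.** -/
theorem inertia_smul_eq_of_tame_numData [HasPrincipalDivisors K F]
    (N : NodalNumData R K F π t B0 B1 O1 O2)
    (hac1 : ResidueAlgClosed π O1) (hac2 : ResidueAlgClosed π O2) {e : ℕ}
    (hth : ThickNodes π B0 B1 O1 O2 e)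
    {hπ1 : algebraMap R F π ∈ O1} {hπ2 : algebraMap R F π ∈ O2}
    {p : ℕ} (hp : p.Prime) (he : e = p - 1) (u : Rˣ) (hpe : (p : R) = π ^ e * u)
    (V : AddSubgroup (Pic0 K F)) (tors : ∀ v ∈ V, p • v = 0)
    (T4 : ∀ v ∈ V, v ∈ Cart π B0 B1 O1 O2 hπ1 hπ2 0 → v ∈ Cart π B0 B1 O1 O2 hπ1 hπ2 1)
    (τ : SemilinearAut K F) (c : ℕ) (hτ : CycAt π B0 B1 O1 O2 1 τ c) :
    ∀ v ∈ V, τ • v = c • v := by
  have := Fermat.Agent.M1.Fib.PicInst98.isLocalRing_of_numData N
  have := N.model.noethR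
  exact inertia_smul_eq_of_tame
    (tameContract_of_numData' N hac1 hac2 hth (hπ1 := hπ1) (hπ2 := hπ2) hp he u hpe V tors T4)
    τ c hτ

end Fermat.Agent.M1.Car.ContractNum15
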