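/-
M1 (row 38, S44), chapter CAR, brick CAR-1 (helper45): DEPTH-0 VOCABULARY, definitions + formal lemmas.

Setting (plan v2 = report #593 §1; "depth 0 lives over `(ℚ̄, A)`"): `K` a field (think `ℚ̄`) with a
valuation subring `A` (think: the fixed place over `p`), `F/K` a function field (think `ℚ̄·F_N`),
the two charts `B0 B1 ⊆ F` of the model over `A` (think: unions over all number fields of the
N34/P36 charts), the Hauptmodul `t`, and the two Gauss valuation rings `O1` (cusp `∞`, component
`C_∞`) and `O2` (cusp `0`, component `C_0`).

All places of `F/K` are thought of as `K`-rational (`K` algebraically closed): a function `b` regular at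
`v` has a VALUE `c ∈ K` at `v` (`ValEq v b c : b - c ∈ 𝔪_v`).

* `OnSide S O v` : the centre of `v` on the model lies on the component with Gauss ring `O`
  (every function regular on the chart containing the centre and vanishing identically on the
  component has a value in `𝔪_A` at `v`);
* `IsNodePlace S v` : the centre lies on both components; `IsOrd S v` : it does not;
* `IsOrdDiv S D`, `sidePart S O D`, `degSide S O D`;
* `J0 S : AddSubgroup (Pic0 K F)` : classes having an ORD representative of degree `0` whose
  `O1`-part has degree `0`.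
-/
import Mathlib
import Fermat.Prelude.Def_AlgebraicCurve_DivisorClassGroup

set_option autoImplicit false

noncomputable section

namespace Fermat.Agent.M1.Car.Defs45

open AlgebraicCurve

variable {K F : Type*} [Field K] [Field F] [Algebra K F]

/-- `b` takes the value `c ∈ K` at the place `v`. -/
def ValEq (v : Place K F) (b : F) (c : K) : Prop :=
  b - algebraMap K F c ∈ v.toValuationSubring.nonunits

/-- `b` has a value in `A` at `v`. -/
def IntAt (A : ValuationSubring K) (v : Place K F) (b : F) : Prop :=
  ∃ c : K, c ∈ A ∧ ValEq v b c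

/-- `b` has a value in the maximal ideal of `A` at `v`. -/
def SmallAt (A : ValuationSubring K) (v : Place K F) (b : F) : Prop :=
  ∃ c : K, c ∈ A.nonunits ∧ ValEq v b c

theorem ValEq.mem {v : Place K F} {b : F} {c : K} (h : ValEq v b c) :
    b ∈ v.toValuationSubring := by
  have h1 : b - algebraMap K F c ∈ v.toValuationSubring :=
    ValuationSubring.nonunits_le h
  have h2 : algebraMap K F c ∈ v.toValuationSubring := v.algebraMap_mem' c
  have : b = (b - algebraMap K F c) + algebraMap K F c := by ring
  rw [this]
  exact v.toValuationSubring.add_mem _ _ h1 h2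

theorem SmallAt.intAt {A : ValuationSubring K} {v : Place K F} {b : F} (h : SmallAt A v b) :
    IntAt A v b := by
  obtain ⟨c, hc, hv⟩ := h
  exact ⟨c, ValuationSubring.nonunits_le hc, hv⟩

/-- The data of the model over `(K, A)` used at depth `0`. -/
structure SurfaceDatum (K F : Type*) [Field K] [Field F] [Algebra K F] where
  /-- the place of the constant field -/
  A : ValuationSubring K
  /-- the Hauptmodul -/
  t : F
  /-- chart `t ≠ ∞` -/
  B0 : Subring F
  /-- chart `t ≠ 0` -/
  B1 : Subring F
  /-- Gauss valuation ring of the component `C_∞` -/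
  O1 : ValuationSubring F
  /-- Gauss valuation ring of the component `C_0` -/
  O2 : ValuationSubring F

variable (S : SurfaceDatum K F)

/-- The centre of `v` lies on the component whose Gauss valuation ring is `O`. -/
def OnSide (O : ValuationSubring F) (v : Place K F) : Prop :=
  (IntAt S.A v S.t → ∀ b ∈ S.B0, b ∈ O.nonunits → SmallAt S.A v b) ∧
  (IntAt S.A v S.t⁻¹ → ∀ b ∈ S.B1, b ∈ O.nonunits → SmallAt S.A v b)

/-- The centre of `v` is a node (lies on both components). -/
def IsNodePlace (v : Place K F) : Prop := OnSide S S.O1 v ∧ OnSide S S.O2 v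

/-- The centre of `v` lies on at most one component. -/
def IsOrd (v : Place K F) : Prop := ¬ IsNodePlace S v

/-- All points of `D` are ORD. -/
def IsOrdDiv (D : Divisor K F) : Prop := ∀ v ∈ D.support, IsOrd S v

open Classical in
/-- The part of `D` supported on places whose centre lies on the component of `O`. -/
def sidePart (O : ValuationSubring F) (D : Divisor K F) : Divisor K F :=
  D.filter (fun v => OnSide S O v)

/-- The degree of the `O`-part. -/
def degSide (O : ValuationSubring F) (D : Divisor K F) : ℤ :=
  Divisor.degree (sidePart S O D)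

theorem isOrdDiv_zero : IsOrdDiv S (0 : Divisor K F) := by
  intro v hv
  simp at hv

theorem IsOrdDiv.add {D E : Divisor K F} (hD : IsOrdDiv S D) (hE : IsOrdDiv S E) :
    IsOrdDiv S (D + E) := by
  classical
  intro v hv
  rcases Finset.mem_union.mp (Finsupp.support_add hv) with h | h
  · exact hD v h
  · exact hE v h

theorem IsOrdDiv.neg {D : Divisor K F} (hD : IsOrdDiv S D) : IsOrdDiv S (-D) := by
  intro v hv
  rw [Finsupp.support_neg] at hv
  exact hD v hv

theorem IsOrdDiv.sub {D E : Divisor K F} (hD : IsOrdDiv S D) (hE : IsOrdDiv S E) :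
    IsOrdDiv S (D - E) := by
  rw [sub_eq_add_neg]
  exact hD.add S (hE.neg S)

theorem IsOrdDiv.smul {D : Divisor K F} (hD : IsOrdDiv S D) (n : ℤ) : IsOrdDiv S (n • D) := by
  intro v hv
  exact hD v (Finsupp.support_smul hv)

theorem IsOrdDiv.sidePart {D : Divisor K F} (hD : IsOrdDiv S D) (O : ValuationSubring F) :
    IsOrdDiv S (sidePart S O D) := by
  classical
  intro v hv
  apply hD v
  unfold Defs45.sidePart at hv
  rw [Finsupp.support_filter] at hv
  exact (Finset.mem_filter.mp hv).1

@[simp] theorem sidePart_zero (O : ValuationSubring F) : sidePart S O (0 : Divisor K F) = 0 := by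
  classical
  unfold sidePart
  exact Finsupp.filter_zero _

theorem sidePart_add (O : ValuationSubring F) (D E : Divisor K F) :
    sidePart S O (D + E) = sidePart S O D + sidePart S O E := by
  classical
  unfold sidePart
  exact Finsupp.filter_add

theorem sidePart_neg (O : ValuationSubring F) (D : Divisor K F) :
    sidePart S O (-D) = -sidePart S O D := by
  classical
  unfold sidePart
  exact Finsupp.filter_neg _ D

theorem sidePart_sub (O : ValuationSubring F) (D E : Divisor K F) :
    sidePart S O (D - E) = sidePart S O D - sidePart S O E := by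
  rw [sub_eq_add_neg, sidePart_add, sidePart_neg, sub_eq_add_neg]

theorem sidePart_sidePart (O : ValuationSubring F) (D : Divisor K F) :
    sidePart S O (sidePart S O D) = sidePart S O D := by
  classical
  unfold sidePart
  ext v
  by_cases h : OnSide S O v
  · simp [h]
  · simp [h]

/-- The side-part as an additive map. -/
def sidePartHom (O : ValuationSubring F) : Divisor K F →+ Divisor K F where
  toFun := sidePart S O
  map_zero' := sidePart_zero S O
  map_add' := sidePart_add S O

@[simp] theorem degSide_zero (O : ValuationSubring F) : degSide S O (0 : Divisor K F) = 0 := by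
  simp [degSide]

theorem degSide_add (O : ValuationSubring F) (D E : Divisor K F) :
    degSide S O (D + E) = degSide S O D + degSide S O E := by
  simp [degSide, sidePart_add]

theorem degSide_neg (O : ValuationSubring F) (D : Divisor K F) :
    degSide S O (-D) = -degSide S O D := by
  simp [degSide, sidePart_neg]

/-- An ORD divisor is the sum of its two side-parts as soon as every place lies on some side. -/
theorem sidePart_add_sidePart (hcover : ∀ v : Place K F, OnSide S S.O1 v ∨ OnSide S S.O2 v)
    {D : Divisor K F} (hD : IsOrdDiv S D) :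
    sidePart S S.O1 D + sidePart S S.O2 D = D := by
  classical
  ext v
  unfold sidePart
  rw [Finsupp.add_apply, Finsupp.filter_apply, Finsupp.filter_apply]
  by_cases hv : v ∈ D.support
  · have hord := hD v hv
    rcases hcover v with h1 | h2
    · have h2 : ¬ OnSide S S.O2 v := fun h2 => hord ⟨h1, h2⟩
      simp [h1, h2]
    · have h1 : ¬ OnSide S S.O1 v := fun h1 => hord ⟨h1, h2⟩
      simp [h1, h2]
  · have : D v = 0 := Finsupp.notMem_support_iff.mp hv
    simp [this]

theorem degSide_add_degSide (hcover : ∀ v : Place K F, OnSide S S.O1 v ∨ OnSide S S.O2 v)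
    {D : Divisor K F} (hD : IsOrdDiv S D) :
    degSide S S.O1 D + degSide S S.O2 D = Divisor.degree D := by
  unfold degSide
  rw [← map_add, sidePart_add_sidePart S hcover hD]

/-- `D` is an ORD divisor of bidegree `(0, 0)`. -/
structure IsOrdZero (D : Divisor K F) : Prop where
  ord : IsOrdDiv S D
  deg : Divisor.degree D = 0
  deg1 : degSide S S.O1 D = 0

theorem isOrdZero_zero : IsOrdZero S (0 : Divisor K F) :=
  ⟨isOrdDiv_zero S, map_zero _, degSide_zero S _⟩

theorem IsOrdZero.add {D E : Divisor K F} (hD : IsOrdZero S D) (hE : IsOrdZero S E) :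
    IsOrdZero S (D + E) :=
  ⟨hD.ord.add S hE.ord, by rw [map_add, hD.deg, hE.deg, add_zero],
    by rw [degSide_add, hD.deg1, hE.deg1, add_zero]⟩

theorem IsOrdZero.neg {D : Divisor K F} (hD : IsOrdZero S D) : IsOrdZero S (-D) :=
  ⟨hD.ord.neg S, by rw [map_neg, hD.deg, neg_zero], by rw [degSide_neg, hD.deg1, neg_zero]⟩

theorem IsOrdZero.mem_degZero {D : Divisor K F} (hD : IsOrdZero S D) :
    D ∈ Divisor.degZero (K := K) (F := F) := hD.deg

/-- **`J⁰`**: the classes having an ORD representative of bidegree `(0, 0)`. -/
def J0 : AddSubgroup (Pic0 K F) where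
  carrier := {y | ∃ (D : Divisor K F) (hD : IsOrdZero S D), y = Pic0.mk ⟨D, hD.mem_degZero S⟩}
  zero_mem' := ⟨0, isOrdZero_zero S, rfl⟩
  add_mem' := by
    rintro y z ⟨D, hD, rfl⟩ ⟨E, hE, rfl⟩
    exact ⟨D + E, hD.add S hE, rfl⟩
  neg_mem' := by
    rintro y ⟨D, hD, rfl⟩
    exact ⟨-D, hD.neg S, rfl⟩

theorem mem_J0 {y : Pic0 K F} :
    y ∈ J0 S ↔ ∃ (D : Divisor K F) (hD : IsOrdZero S D), y = Pic0.mk ⟨D, hD.mem_degZero S⟩ :=
  Iff.rfl

end Fermat.Agent.M1.Car.Defs45
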