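/-
M1 (S44), chapter CAR (helper58), brick **CAR-4 = (D0-core)**: a `p`-torsion class of level `0`
whose reductions on the two components of the special fibre are trivial (`= div φ̄_j`) has level
`1`.  Vocabulary of `Car/Defs43` and `Mon/WildPL43` (`Frame`, `InLocal`, `IsNode`).

Main result: `mem_cart_one_of_red_trivial` (literal target of report #1164).

Proof.  `p D = div f`.  Normalise `f` to a unit of `O_1`; the node argument of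
`WildData.not_pi_dvd2` shows that `f` is then a unit of `O_2` as well (if there is no node the two
components are treated separately).  At every closed point `x`, `f = h_x ^ p u_x` with `u_x ∈ B_x`
(Hartogs), so `f / φ_j ^ p` is regular at every closed point of `C_j`, hence constant modulo `π`
(`Frame.const_j`), and the constant is a `p`-th power (`hperf`): after rescaling `φ_j` by a unit of
`R`, `f ≡ φ_j ^ p mod π O_j`.  At a node `x`, `h_x ≡ φ_j w_j mod π O_j` with `w_j` units of `B_x`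
and `w_j ^ p u_x ≡ 1` on the branch `j`; hence `w_1 ^ p ≡ w_2 ^ p`, hence (Frobenius is injective on
the residue field) `w_1 ≡ w_2 mod 𝔪_x`; seminormality glues `h_x / φ` (`φ ≡ φ_j mod π O_j`) to a unit
`w` of `B_x` modulo `π (O_1 ⊓ O_2)`.  The divisor `D - div φ` has the local equations
`h_x / (φ w)`, which are `≡ 1 mod π` on every branch.
-/
import Mathlib
import Fermat.Agent.M1.Car.Defs43
import Fermat.Agent.M1.Mon.WildPL43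
import Fermat.Agent.M1.Car.Slope43

set_option autoImplicit false
set_option linter.unusedSectionVars false
set_option linter.unusedVariables false

namespace Fermat.Agent.M1.Car.DepthZero58

open AlgebraicCurve Fermat.Agent.ES.N34.NodalCore13 Fermat.Agent.M1.Car.Defs43
  Fermat.Agent.M1.Node.Thick25 Fermat.Agent.M1.Mon.WildPL43 Fermat.Agent.M1.Car.Slope43

/-! ### Frobenius on the residue field of a closed point -/

section Frob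

/-- Frobenius is injective modulo a prime ideal containing `p`. -/
theorem sub_mem_of_pow_sub_pow_mem {B : Type*} [CommRing B] {𝔪 : Ideal B} [h𝔪 : 𝔪.IsPrime] {p : ℕ}
    (hp : p.Prime) (hp𝔪 : (p : B) ∈ 𝔪) {x y : B} (h : x ^ p - y ^ p ∈ 𝔪) : x - y ∈ 𝔪 := by
  have h0 : ((p : ℕ) : B ⧸ 𝔪) = 0 := by
    rw [← map_natCast (Ideal.Quotient.mk 𝔪)]
    exact Ideal.Quotient.eq_zero_iff_mem.mpr hp𝔪
  have hchar : CharP (B ⧸ 𝔪) p := (CharP.charP_iff_prime_eq_zero hp).mpr h0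
  have hfact : Fact p.Prime := ⟨hp⟩
  have hinj := frobenius_inj (B ⧸ 𝔪) p
  have heq : frobenius (B ⧸ 𝔪) p (Ideal.Quotient.mk 𝔪 x) =
      frobenius (B ⧸ 𝔪) p (Ideal.Quotient.mk 𝔪 y) := by
    rw [frobenius_def, frobenius_def, ← map_pow, ← map_pow]
    exact Ideal.Quotient.eq.mpr h
  exact Ideal.Quotient.eq.mp (hinj heq)

/-- The Frobenius comparison at a node, on numerators. -/
theorem frob_node {B : Type*} [CommRing B] {𝔪 : Ideal B} [h𝔪 : 𝔪.IsPrime] {p : ℕ}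
    (hp : p.Prime) (hp𝔪 : (p : B) ∈ 𝔪) {a1 d1 a2 d2 au du : B} (hd1 : d1 ∉ 𝔪) (hdu : du ∉ 𝔪)
    (h1 : a1 ^ p * au - d1 ^ p * du ∈ 𝔪) (h2 : a2 ^ p * au - d2 ^ p * du ∈ 𝔪) :
    a1 * d2 - a2 * d1 ∈ 𝔪 := by
  have hau : au ∉ 𝔪 := by
    intro hau
    have : d1 ^ p * du ∈ 𝔪 := by
      have h3 : d1 ^ p * du = a1 ^ p * au - (a1 ^ p * au - d1 ^ p * du) := by ring
      rw [h3]
      exact 𝔪.sub_mem (𝔪.mul_mem_left _ hau) h1
    rcases h𝔪.mem_or_mem this with h | h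
    · exact hd1 (h𝔪.mem_of_pow_mem p h)
    · exact hdu h
  apply sub_mem_of_pow_sub_pow_mem hp hp𝔪
  have h3 : ((a1 * d2) ^ p - (a2 * d1) ^ p) * au ∈ 𝔪 := by
    have e : ((a1 * d2) ^ p - (a2 * d1) ^ p) * au =
        d2 ^ p * (a1 ^ p * au - d1 ^ p * du) - d1 ^ p * (a2 ^ p * au - d2 ^ p * du) := by ring
    rw [e]
    exact 𝔪.sub_mem (𝔪.mul_mem_left _ h1) (𝔪.mul_mem_left _ h2)
  exact (h𝔪.mem_or_mem h3).resolve_right hau

end Frob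

/-! ### Subring lemmas -/

section Sub

variable {F : Type*} [Field F]

/-- `a ≡ b mod ϖ S` implies `a ^ n ≡ b ^ n mod ϖ S`. -/
theorem pow_sub_pow_eq (S : Subring F) {ϖ a b : F} (ha : a ∈ S) (hb : b ∈ S)
    (hab : ∃ c ∈ S, a - b = ϖ * c) (n : ℕ) : ∃ c ∈ S, a ^ n - b ^ n = ϖ * c := by
  induction n with
  | zero => exact ⟨0, S.zero_mem, by simp⟩
  | succ n ih =>
    obtain ⟨c, hc, hcc⟩ := ih
    obtain ⟨c0, hc0, hcc0⟩ := hab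
    refine ⟨a * c + c0 * b ^ n, S.add_mem (S.mul_mem ha hc) (S.mul_mem hc0 (S.pow_mem hb n)), ?_⟩
    rw [pow_succ, pow_succ]
    linear_combination a * hcc + b ^ n * hcc0

end Sub

/-! ### `InLocal` calculus -/

section Loc

variable {R K F : Type*} [CommRing R] [Field K] [Field F] [Algebra K F] [Algebra R F]
variable {π : R} {B : Subalgebra R F} {𝔪 : Ideal B}

theorem inLocal_mul [h𝔪 : 𝔪.IsPrime] {w w' : F}
    (hw : InLocal B 𝔪 w) (hw' : InLocal B 𝔪 w') : InLocal B 𝔪 (w * w') := by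
  obtain ⟨a, d, hd, h⟩ := hw
  obtain ⟨a', d', hd', h'⟩ := hw'
  refine ⟨a * a', d * d', fun hh => (h𝔪.mem_or_mem hh).elim hd hd', ?_⟩
  push_cast
  rw [← h, ← h']; ring

theorem inLocal_one (h𝔪 : 𝔪 ≠ ⊤) : InLocal B 𝔪 1 :=
  InLocal.of_mem h𝔪 B.one_mem

theorem inLocal_pow [h𝔪 : 𝔪.IsPrime] {w : F} (hw : InLocal B 𝔪 w) (n : ℕ) :
    InLocal B 𝔪 (w ^ n) := by
  induction n with
  | zero => simpa using inLocal_one h𝔪.ne_top
  | succ n ih => rw [pow_succ]; exact inLocal_mul ih hw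

/-- An element of `B ∖ 𝔪` is a unit of `O_j` when the branch `j` passes through `𝔪`. -/
theorem inv_mem_of_on {Oj : ValuationSubring F} (hu : IsUnifOf Oj (algebraMap R F π))
    (leO : ∀ x ∈ B, x ∈ Oj) (hon : ¬ OffBranch π B Oj 𝔪) {d : B} (hd : d ∉ 𝔪) :
    ((d : F))⁻¹ ∈ Oj := by
  by_contra hinv
  obtain ⟨c, hc, hdc⟩ := hu.unif _ (leO _ d.2) hinv
  exact hon ⟨d, hd, c, hc, hdc⟩

/-- `B_𝔪 ⊆ O_j` when the branch `j` passes through `𝔪`. -/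
theorem inLocal_mem_of_on {Oj : ValuationSubring F} (hu : IsUnifOf Oj (algebraMap R F π))
    (leO : ∀ x ∈ B, x ∈ Oj) (hon : ¬ OffBranch π B Oj 𝔪) {w : F} (hw : InLocal B 𝔪 w) :
    w ∈ Oj := by
  obtain ⟨a, d, hd, h⟩ := hw
  have hd0 : (d : F) ≠ 0 := by
    intro h0
    apply hd
    have : d = 0 := Subtype.ext h0
    rw [this]; exact 𝔪.zero_mem
  have : w = (a : F) * ((d : F))⁻¹ := by
    rw [← h]; field_simp
  rw [this]
  exact Oj.mul_mem _ _ (leO _ a.2) (inv_mem_of_on hu leO hon hd)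

/-- `B_𝔪 ⊆ O_P` for a place `P` through `(B, 𝔪)`. -/
theorem inLocal_mem_place {P : Place K F} (hP : Through B 𝔪 P) {w : F} (hw : InLocal B 𝔪 w) :
    w ∈ P.toValuationSubring := by
  obtain ⟨a, d, hd, h⟩ := hw
  have hd0 : (d : F) ≠ 0 := by
    intro h0
    apply hd
    have : d = 0 := Subtype.ext h0
    rw [this]; exact 𝔪.zero_mem
  have : w = (a : F) * ((d : F))⁻¹ := by
    rw [← h]; field_simp
  rw [this]
  exact P.toValuationSubring.mul_mem _ _ (hP.1 a) (hP.2 d hd)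

/-- If the numerator of `w` is not in `𝔪`, then `w⁻¹ ∈ B_𝔪`. -/
theorem inLocal_inv_of_num {w : F} {a d : B} (ha : a ∉ 𝔪) (h : w * (d : F) = (a : F)) :
    InLocal B 𝔪 w⁻¹ := by
  have hw0 : w ≠ 0 := by
    rintro rfl
    apply ha
    have : a = 0 := Subtype.ext (by rw [← h, zero_mul]; rfl)
    rw [this]; exact 𝔪.zero_mem
  refine ⟨d, a, ha, ?_⟩
  rw [← h]; field_simp

/-- The numerator of a unit of `B_𝔪` is not in `𝔪`. -/
theorem inLocal_num_not_mem [h𝔪 : 𝔪.IsPrime] {w : F} (hw0 : w ≠ 0) (hw' : InLocal B 𝔪 w⁻¹)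
    {a d : B} (hd : d ∉ 𝔪) (h : w * (d : F) = (a : F)) : a ∉ 𝔪 := by
  obtain ⟨a', d', hd', h'⟩ := hw'
  intro ha
  have e : a * a' = d * d' := by
    apply Subtype.ext
    push_cast
    rw [← h, ← h']; field_simp
  have : d * d' ∈ 𝔪 := e ▸ 𝔪.mul_mem_right _ ha
  exact (h𝔪.mem_or_mem this).elim hd hd'

end Loc

/-! ### Places -/

section Ord

variable {K F : Type*} [Field K] [Field F] [Algebra K F] (v : Place K F)

theorem ord_nonneg_of_mem' {f : F} (h : f ∈ v.toValuationSubring) : 0 ≤ v.ord f := by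
  rcases eq_or_ne f 0 with rfl | hf
  · simp
  have h1 : v.adicValuation f ≤ 1 := by
    have := v.adicValuation_coe ⟨f, h⟩
    rw [show ((⟨f, h⟩ : v.toValuationSubring) : F) = f from rfl] at this
    rw [this]
    exact IsDedekindDomain.HeightOneSpectrum.intValuation_le_one _ _
  have h2 : WithZero.log (v.adicValuation f) ≤ 0 := by
    rw [← WithZero.log_one (M := ℤ)]
    exact (WithZero.log_le_log (v.adicValuation_ne_zero hf) one_ne_zero).mpr h1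
  unfold Place.ord
  omega

/-- A unit of `B_𝔪` is a local equation of the zero divisor. -/
theorem isLocEq_zero_of_unit {R : Type*} [CommRing R] [Algebra R F] {B : Subalgebra R F}
    {𝔪 : Ideal B} {w : F} (hw0 : w ≠ 0) (hw : InLocal B 𝔪 w) (hw' : InLocal B 𝔪 w⁻¹) :
    IsLocEq (K := K) B 𝔪 0 w := by
  refine ⟨hw0, fun P hP => ?_⟩
  have h1 := ord_nonneg_of_mem' P (inLocal_mem_place hP hw)
  have h2 := ord_nonneg_of_mem' P (inLocal_mem_place hP hw')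
  rw [P.ord_inv] at h2
  rw [Finsupp.zero_apply]
  omega

end Ord

/-! ### One side of the special fibre -/

section SideSec

variable {R K F : Type*} [CommRing R] [Field K] [Field F] [Algebra K F] [Algebra R F]
variable {π : R} {B0 B1 : Subalgebra R F} {O1 O2 : ValuationSubring F}

/-- Exchange of the two components. -/
theorem frame_swap (M : Frame (K := K) π B0 B1 O1 O2) : Frame (K := K) π B0 B1 O2 O1 where
  unif1 := M.unif2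
  unif2 := M.unif1
  le1 := M.le2
  le2 := M.le1
  vals1 := M.vals2
  vals2 := M.vals1
  dvrR := M.dvrR
  sat := fun B hB 𝔪 h𝔪 hπ𝔪 w hw h2 h1 => M.sat B hB 𝔪 h𝔪 hπ𝔪 w hw h1 h2
  hart := fun B hB 𝔪 h𝔪 hπ𝔪 w hw0 hP h2 h1 => M.hart B hB 𝔪 h𝔪 hπ𝔪 w hw0 hP h1 h2
  const1 := M.const2
  const2 := M.const1

theorem isNode_swap {B : Subalgebra R F} {𝔪 : Ideal B} (h : IsNode π B0 B1 O1 O2 B 𝔪) :
    IsNode π B0 B1 O2 O1 B 𝔪 :=
  ⟨h.chart, h.max, h.pi_mem, h.on2, h.on1⟩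

theorem hasLevel_swap {n : ℕ} {D : Divisor K F} (h : HasLevel π B0 B1 O1 O2 n D) :
    HasLevel π B0 B1 O2 O1 n D :=
  ⟨fun 𝔪 h𝔪 hπ => by
      obtain ⟨g, hg, h1, h2⟩ := h.1 𝔪 h𝔪 hπ
      exact ⟨g, hg, h2, h1⟩,
    fun 𝔪 h𝔪 hπ => by
      obtain ⟨g, hg, h1, h2⟩ := h.2 𝔪 h𝔪 hπ
      exact ⟨g, hg, h2, h1⟩⟩

theorem chartLevel_of {n : ℕ} {D : Divisor K F} (h : HasLevel π B0 B1 O1 O2 n D)
    {B : Subalgebra R F} (hB : B = B0 ∨ B = B1) : ChartLevel π B O1 O2 n D := by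
  rcases hB with rfl | rfl
  · exact h.1
  · exact h.2

/-- A level-`0` local equation is a unit of `O_j` on a branch through the point. -/
theorem strict_unit {B : Subalgebra R F} {𝔪 : Ideal B} {Oj : ValuationSubring F}
    (hπj : algebraMap R F π ∈ Oj) (hon : ¬ OffBranch π B Oj 𝔪) {h : F}
    (hs : StrictOn π B Oj 𝔪 0 h) : h ≠ 0 ∧ h ∈ Oj ∧ h⁻¹ ∈ Oj := by
  rcases hs with hoff | hs
  · exact absurd hoff hon
  · exact ⟨hs.1, StrictOn.mem hπj hs, hs.2.1⟩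

/-- The data on the component `1`: the frame, a level-`0` divisor `D`, and a unit `φ₁` of `O_1`
whose reduction cuts out the reduction of `D` on the component `1`. -/
structure Side (π : R) (B0 B1 : Subalgebra R F) (O1 O2 : ValuationSubring F) (D : Divisor K F)
    (φ1 : F) : Prop where
  frame : Frame (K := K) π B0 B1 O1 O2
  lev0 : HasLevel π B0 B1 O1 O2 0 D
  unit : φ1 ∈ O1 ∧ φ1⁻¹ ∈ O1
  red : ∀ B : Subalgebra R F, B = B0 ∨ B = B1 → ∀ 𝔪 : Ideal B, 𝔪.IsMaximal →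
    algebraMap R B π ∈ 𝔪 → ¬ OffBranch π B O1 𝔪 → ∀ h : F, IsLocEq B 𝔪 D h →
    StrictOn π B O1 𝔪 0 h → StrictOn π B O2 𝔪 0 h →
    ∃ u : F, InLocal B 𝔪 u ∧ InLocal B 𝔪 u⁻¹ ∧ ∃ c ∈ O1, h - φ1 * u = algebraMap R F π * c

namespace Side

variable {D : Divisor K F} {φ1 : F} {p : ℕ}

/-- The witness `u` of `red` is nonzero. -/
theorem red_ne (S : Side π B0 B1 O1 O2 D φ1) {B : Subalgebra R F} {𝔪 : Ideal B}
    (hon : ¬ OffBranch π B O1 𝔪) {h : F} (hs1 : StrictOn π B O1 𝔪 0 h) {u : F}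
    (hc : ∃ c ∈ O1, h - φ1 * u = algebraMap R F π * c) : φ1 ≠ 0 ∧ u ≠ 0 := by
  have M := S.frame
  obtain ⟨hh0, hh1, hh1'⟩ := strict_unit M.pi_mem1 hon hs1
  obtain ⟨c, hc, huc⟩ := hc
  have key : φ1 * u ≠ 0 := by
    intro h0
    rw [h0, sub_zero] at huc
    apply M.unif1.nonunit
    have hp0 := M.unif1.ne_zero
    have : (algebraMap R F π)⁻¹ = h⁻¹ * c := by
      field_simp
      rw [huc]
    rw [this]
    exact O1.mul_mem _ _ hh1' hc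
  exact ⟨left_ne_zero_of_mul key, right_ne_zero_of_mul key⟩

/-- One may assume `φ₁ ≠ 0`. -/
theorem exists_ne_zero (S : Side π B0 B1 O1 O2 D φ1) :
    ∃ φ : F, φ ≠ 0 ∧ Side π B0 B1 O1 O2 D φ := by
  by_cases h0 : φ1 = 0
  · refine ⟨1, one_ne_zero, S.frame, S.lev0, ⟨O1.one_mem, by simp [O1.one_mem]⟩, ?_⟩
    intro B hB 𝔪 h𝔪 hπ𝔪 hon h hh hs1 hs2
    obtain ⟨u, hu, hu', hc⟩ := S.red B hB 𝔪 h𝔪 hπ𝔪 hon h hh hs1 hs2
    exact absurd h0 (S.red_ne hon hs1 hc).1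
  · exact ⟨φ1, h0, S⟩

/-- **Local regularity**: at a closed point of the component `1`, `g / φ₁ ^ p` is congruent modulo
`π O_1` to an element of `B_𝔪`, which is a multiple of `g` in `O_2` at a node. -/
theorem local_reg (S : Side π B0 B1 O1 O2 D φ1) (hφ0 : φ1 ≠ 0) {g : F} (hg0 : g ≠ 0)
    (hdiv : ∀ P : Place K F, (p • D) P = P.ord g) (hg1 : g ∈ O1)
    (hg2 : (∃ (B : Subalgebra R F) (𝔪 : Ideal B), IsNode π B0 B1 O1 O2 B 𝔪) → g ∈ O2)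
    {B : Subalgebra R F} (hB : B = B0 ∨ B = B1) {𝔪 : Ideal B} (h𝔪 : 𝔪.IsMaximal)
    (hπ𝔪 : algebraMap R B π ∈ 𝔪) (hon : ¬ OffBranch π B O1 𝔪) :
    ∃ w : F, InLocal B 𝔪 w ∧ (∃ c ∈ O1, g / φ1 ^ p - w = algebraMap R F π * c) ∧
      (¬ OffBranch π B O2 𝔪 → ∃ t ∈ O2, w = g * t) := by
  have M := S.frame
  have hprime := h𝔪.isPrime
  obtain ⟨h, hh, hs1, hs2⟩ := chartLevel_of S.lev0 hB 𝔪 h𝔪 hπ𝔪
  obtain ⟨hh0, hh1, hh1'⟩ := strict_unit M.pi_mem1 hon hs1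
  have hk : IsLocEq B 𝔪 (0 : Divisor K F) (g / h ^ p) := by
    have := (IsLocEq.of_principal B 𝔪 hg0 hdiv).div (hh.pow p)
    rwa [sub_self] at this
  have hux1 : g / h ^ p ∈ O1 := by
    rw [div_eq_mul_inv, ← inv_pow]
    exact O1.mul_mem _ _ hg1 (pow_mem hh1' p)
  have hux : InLocal B 𝔪 (g / h ^ p) := by
    refine M.hart B hB 𝔪 h𝔪 hπ𝔪 _ hk.1 (fun P hP => by rw [hk.2 P hP]; simp) (Or.inr hux1) ?_
    by_cases hoff2 : OffBranch π B O2 𝔪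
    · exact Or.inl hoff2
    · obtain ⟨-, -, hh2'⟩ := strict_unit M.pi_mem2 hoff2 hs2
      refine Or.inr ?_
      rw [div_eq_mul_inv, ← inv_pow]
      exact O2.mul_mem _ _ (hg2 ⟨B, 𝔪, hB, h𝔪, hπ𝔪, hon, hoff2⟩) (pow_mem hh2' p)
  obtain ⟨u, hu, hu', c, hc, huc⟩ := S.red B hB 𝔪 h𝔪 hπ𝔪 hon h hh hs1 hs2
  have hu1 : u ∈ O1 := inLocal_mem_of_on M.unif1 (M.le1 B hB) hon hu
  refine ⟨u ^ p * (g / h ^ p), inLocal_mul (inLocal_pow hu p) hux, ?_, ?_⟩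
  · have hq : h / φ1 ∈ O1 := by
      rw [div_eq_mul_inv]; exact O1.mul_mem _ _ hh1 S.unit.2
    obtain ⟨c', hc', hcc'⟩ := pow_sub_pow_eq O1.toSubring (ϖ := algebraMap R F π) hq hu1
      ⟨c * φ1⁻¹, O1.mul_mem _ _ hc S.unit.2, by
        field_simp
        linear_combination huc⟩ p
    refine ⟨c' * (g / h ^ p), O1.mul_mem _ _ hc' hux1, ?_⟩
    have e : g / φ1 ^ p - u ^ p * (g / h ^ p) = ((h / φ1) ^ p - u ^ p) * (g / h ^ p) := by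
      have h1 := pow_ne_zero p hh0
      have h2 := pow_ne_zero p hφ0
      rw [div_pow]
      field_simp
    rw [e, hcc']; ring
  · intro hon2
    obtain ⟨-, -, hh2'⟩ := strict_unit M.pi_mem2 hon2 hs2
    have hu2 : u ∈ O2 := inLocal_mem_of_on M.unif2 (M.le2 B hB) hon2 hu
    refine ⟨u ^ p * (h ^ p)⁻¹, O2.mul_mem _ _ (pow_mem hu2 p)
      (by rw [← inv_pow]; exact pow_mem hh2' p), ?_⟩
    ring

/-- `g / φ₁ ^ p` is constant modulo `π` on the component `1`. -/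
theorem exists_const (S : Side π B0 B1 O1 O2 D φ1) (hφ0 : φ1 ≠ 0) {g : F} (hg0 : g ≠ 0)
    (hdiv : ∀ P : Place K F, (p • D) P = P.ord g) (hg1 : g ∈ O1)
    (hg2 : (∃ (B : Subalgebra R F) (𝔪 : Ideal B), IsNode π B0 B1 O1 O2 B 𝔪) → g ∈ O2) :
    ∃ r : R, ∃ c ∈ O1, g / φ1 ^ p - algebraMap R F r = algebraMap R F π * c := by
  have M := S.frame
  refine M.const1 (g / φ1 ^ p) ?_ (fun B hB 𝔪 h𝔪 hπ𝔪 hon => ?_)
  · rw [div_eq_mul_inv, ← inv_pow]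
    exact O1.mul_mem _ _ hg1 (pow_mem S.unit.2 p)
  · obtain ⟨w, hw, hc, -⟩ := S.local_reg hφ0 hg0 hdiv hg1 hg2 hB h𝔪 hπ𝔪 hon
    exact ⟨w, hw, hc⟩

/-- A unit of `O_1` congruent to `r` modulo `π O_1`: `π ∤ r`. -/
theorem not_dvd_const (M : Frame (K := K) π B0 B1 O1 O2) {q : F} (hq : q⁻¹ ∈ O1) (hq0 : q ≠ 0)
    {r : R} (hr : ∃ c ∈ O1, q - algebraMap R F r = algebraMap R F π * c) : ¬ π ∣ r := by
  rintro ⟨r', rfl⟩
  obtain ⟨c, hc, hr⟩ := hr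
  apply M.unif1.nonunit
  have hp0 := M.unif1.ne_zero
  have e : q = algebraMap R F π * (algebraMap R F r' + c) := by
    rw [map_mul] at hr
    linear_combination hr
  have : (algebraMap R F π)⁻¹ = q⁻¹ * (algebraMap R F r' + c) := by
    field_simp
    linear_combination e
  rw [this]
  exact O1.mul_mem _ _ hq (O1.add_mem _ _ (M.algebraMap_mem1 r') hc)

/-- If the special fibre has a node, a function `g` with `div g = p D` which is a unit on the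
component `1` and regular on the component `2` does not vanish on the component `2`. -/
theorem not_pi_dvd (S : Side π B0 B1 O1 O2 D φ1) (hφ0 : φ1 ≠ 0) {g : F} (hg0 : g ≠ 0)
    (hdiv : ∀ P : Place K F, (p • D) P = P.ord g) (hg1 : g ∈ O1) (hg1' : g⁻¹ ∈ O1)
    {Bs : Subalgebra R F} {𝔪s : Ideal Bs} (hs : IsNode π B0 B1 O1 O2 Bs 𝔪s) :
    ¬ ∃ c ∈ O2, g = algebraMap R F π * c := by
  rintro ⟨c2, hc2, hgc⟩
  have M := S.frame
  have hg2 : g ∈ O2 := by rw [hgc]; exact O2.mul_mem _ _ M.pi_mem2 hc2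
  obtain ⟨r, c, hc, hr⟩ := S.exists_const (p := p) hφ0 hg0 hdiv hg1 (fun _ => hg2)
  obtain ⟨w, hw, ⟨c1, hc1, hwc1⟩, hw2⟩ := S.local_reg (p := p) hφ0 hg0 hdiv hg1 (fun _ => hg2)
    hs.chart hs.max hs.pi_mem hs.on1
  obtain ⟨t, ht, hwt⟩ := hw2 hs.on2
  have hdvd : π ∣ r - 0 :=
    node_compare hs.max M.dvrR (M.le1 Bs hs.chart) (M.le2 Bs hs.chart) hs.on1 hs.on2 hw
      ⟨c - c1, sub_mem hc hc1, by linear_combination hr - hwc1⟩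
      ⟨c2 * t, O2.mul_mem _ _ hc2 ht, by rw [map_zero, sub_zero, hwt, hgc]; ring⟩
  rw [sub_zero] at hdvd
  refine not_dvd_const M (q := g / φ1 ^ p) ?_ (div_ne_zero hg0 (pow_ne_zero p hφ0)) ⟨c, hc, hr⟩ hdvd
  rw [inv_div, div_eq_mul_inv]
  exact O1.mul_mem _ _ (pow_mem S.unit.1 p) hg1'

/-- **Normalisation**: after rescaling `φ₁` by a unit of `R`, `g ≡ φ₁ ^ p mod π O_1`. -/
theorem normalize (S : Side π B0 B1 O1 O2 D φ1) (hφ0 : φ1 ≠ 0) (hp : p ≠ 0)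
    (hperf : ∀ r : R, ∃ s : R, π ∣ s ^ p - r) {g : F} (hg0 : g ≠ 0)
    (hdiv : ∀ P : Place K F, (p • D) P = P.ord g) (hg1 : g ∈ O1) (hg1' : g⁻¹ ∈ O1)
    (hg2 : (∃ (B : Subalgebra R F) (𝔪 : Ideal B), IsNode π B0 B1 O1 O2 B 𝔪) → g ∈ O2) :
    ∃ ψ : F, ψ ≠ 0 ∧ Side π B0 B1 O1 O2 D ψ ∧
      ∃ c ∈ O1, g / ψ ^ p - 1 = algebraMap R F π * c := by
  have M := S.frame
  obtain ⟨r, c, hc, hr⟩ := S.exists_const (p := p) hφ0 hg0 hdiv hg1 hg2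
  have hq' : (g / φ1 ^ p)⁻¹ ∈ O1 := by
    rw [inv_div, div_eq_mul_inv]
    exact O1.mul_mem _ _ (pow_mem S.unit.1 p) hg1'
  have hr' : ¬ π ∣ r := not_dvd_const M hq' (div_ne_zero hg0 (pow_ne_zero p hφ0)) ⟨c, hc, hr⟩
  obtain ⟨s, q, hsq⟩ := hperf r
  have hs' : ¬ π ∣ s := by
    intro hs
    apply hr'
    have h1 : π ∣ s ^ p := dvd_pow hs hp
    have : r = s ^ p - π * q := by rw [← hsq]; ring
    rw [this]
    exact dvd_sub h1 (dvd_mul_right π q)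
  have hs0 : s ≠ 0 := fun h => hs' (h ▸ dvd_zero π)
  obtain ⟨k, v, hkv⟩ := M.dvrR s hs0
  have hk : k = 0 := by
    by_contra hk
    exact hs' (hkv ▸ Dvd.dvd.mul_right (dvd_pow_self π hk) _)
  subst hk
  rw [pow_zero, one_mul] at hkv
  subst hkv
  set γ : F := algebraMap R F (v : R) with hγ
  set γ' : F := algebraMap R F ((v⁻¹ : Rˣ) : R) with hγ'
  have hγγ' : γ * γ' = 1 := by rw [hγ, hγ', ← map_mul, Units.mul_inv, map_one]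
  have hγ0 : γ ≠ 0 := left_ne_zero_of_mul_eq_one hγγ'
  have hγinv : γ⁻¹ = γ' := (eq_inv_of_mul_eq_one_right hγγ').symm
  have hγ'inv : γ'⁻¹ = γ := by rw [← hγinv, inv_inv]
  refine ⟨γ * φ1, mul_ne_zero hγ0 hφ0, ⟨M, S.lev0,
    ⟨O1.mul_mem _ _ (M.algebraMap_mem1 _) S.unit.1, by
      rw [mul_inv, hγinv]; exact O1.mul_mem _ _ (M.algebraMap_mem1 _) S.unit.2⟩, ?_⟩, ?_⟩
  · intro B hB 𝔪 h𝔪 hπ𝔪 hon h hh hs1 hs2
    have := h𝔪.isPrime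
    obtain ⟨u, hu, hu', c, hc, huc⟩ := S.red B hB 𝔪 h𝔪 hπ𝔪 hon h hh hs1 hs2
    refine ⟨u * γ', inLocal_mul hu (InLocal.of_mem h𝔪.ne_top (B.algebraMap_mem _)), ?_, c, hc, ?_⟩
    · rw [mul_inv, hγ'inv]
      exact inLocal_mul hu' (InLocal.of_mem h𝔪.ne_top (B.algebraMap_mem _))
    · rw [← huc]; linear_combination (-(φ1 * u)) * hγγ'
  · refine ⟨γ' ^ p * (c - algebraMap R F q), O1.mul_mem _ _ (pow_mem (M.algebraMap_mem1 _) p)
      (sub_mem hc (M.algebraMap_mem1 q)), ?_⟩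
    have hsq' : γ ^ p - algebraMap R F r = algebraMap R F π * algebraMap R F q := by
      rw [hγ, ← map_pow, ← map_sub, hsq, map_mul]
    have e : g / (γ * φ1) ^ p = γ' ^ p * (g / φ1 ^ p) := by
      rw [mul_pow, ← hγinv, inv_pow]
      have h1 := pow_ne_zero p hγ0
      have h2 := pow_ne_zero p hφ0
      field_simp
    have hpow : γ' ^ p * γ ^ p = 1 := by rw [← mul_pow, mul_comm, hγγ', one_pow]
    rw [e]
    linear_combination γ' ^ p * hr - γ' ^ p * hsq' + hpow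

/-- The witness of `red`, in quotient form. -/
theorem red_div (S : Side π B0 B1 O1 O2 D φ1) (hφ0 : φ1 ≠ 0) {B : Subalgebra R F}
    (hB : B = B0 ∨ B = B1) {𝔪 : Ideal B} (h𝔪 : 𝔪.IsMaximal) (hπ𝔪 : algebraMap R B π ∈ 𝔪)
    (hon : ¬ OffBranch π B O1 𝔪) {h : F} (hh : IsLocEq B 𝔪 D h) (hs1 : StrictOn π B O1 𝔪 0 h)
    (hs2 : StrictOn π B O2 𝔪 0 h) :
    ∃ u : F, u ≠ 0 ∧ InLocal B 𝔪 u ∧ InLocal B 𝔪 u⁻¹ ∧
      ∃ c ∈ O1, h / φ1 - u = algebraMap R F π * c := by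
  obtain ⟨u, hu, hu', c, hc, huc⟩ := S.red B hB 𝔪 h𝔪 hπ𝔪 hon h hh hs1 hs2
  refine ⟨u, (S.red_ne hon hs1 ⟨c, hc, huc⟩).2, hu, hu', c * φ1⁻¹, O1.mul_mem _ _ hc S.unit.2, ?_⟩
  field_simp
  linear_combination huc

end Side

/-! ### Valuation-ring computations -/

/-- A function congruent to a unit modulo `ϖ O` is a unit. -/
theorem unit_of_congr {O : ValuationSubring F} {ϖ : F} (hu : IsUnifOf O ϖ) (hϖ : ϖ ∈ O)
    {ψ φ : F} (hψ0 : ψ ≠ 0) (hψ : ψ ∈ O ∧ ψ⁻¹ ∈ O) (hφ : ∃ c ∈ O, φ - ψ = ϖ * c) :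
    φ ≠ 0 ∧ φ ∈ O ∧ φ⁻¹ ∈ O := by
  obtain ⟨c, hc, hφc⟩ := hφ
  have hcψ : c * ψ⁻¹ ∈ O := O.mul_mem _ _ hc hψ.2
  have e : φ = ψ * (1 + ϖ * (c * ψ⁻¹)) := by
    field_simp
    linear_combination hφc
  have hinv := one_add_inv_mem hu hϖ hcψ
  have h1 : 1 + ϖ * (c * ψ⁻¹) ≠ 0 := by
    intro h0
    apply hu.nonunit
    have hϖ0 := hu.ne_zero
    have h2 : ϖ * (-(c * ψ⁻¹)) = 1 := by linear_combination -h0
    have : ϖ⁻¹ = -(c * ψ⁻¹) := (eq_inv_of_mul_eq_one_right h2).symm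
    rw [this]
    exact O.neg_mem _ hcψ
  refine ⟨by rw [e]; exact mul_ne_zero hψ0 h1, ?_, ?_⟩
  · rw [e]
    exact O.mul_mem _ _ hψ.1 (O.add_mem _ _ O.one_mem (O.mul_mem _ _ hϖ hcψ))
  · rw [e, mul_inv]
    exact O.mul_mem _ _ hψ.2 hinv

/-- Transfer of an approximation from `ψ` to `φ ≡ ψ mod ϖ O`. -/
theorem approx_transfer {O : ValuationSubring F} {ϖ ψ φ h u : F} (hψ0 : ψ ≠ 0) (hψ' : ψ⁻¹ ∈ O)
    (hφ0 : φ ≠ 0) (hφ' : φ⁻¹ ∈ O) (hh : h ∈ O) (hφ : ∃ c ∈ O, φ - ψ = ϖ * c)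
    (hu : ∃ c ∈ O, h / ψ - u = ϖ * c) : ∃ c ∈ O, h / φ - u = ϖ * c := by
  obtain ⟨c, hc, hφc⟩ := hφ
  obtain ⟨c', hc', huc⟩ := hu
  refine ⟨c' - c * h * φ⁻¹ * ψ⁻¹, sub_mem hc'
    (O.mul_mem _ _ (O.mul_mem _ _ (O.mul_mem _ _ hc hh) hφ') hψ'), ?_⟩
  have e : h / φ - u = (h / ψ - u) - (φ - ψ) * h * φ⁻¹ * ψ⁻¹ := by
    field_simp
    ring
  rw [e, huc, hφc]; ring

/-- `u ^ p * (g / h ^ p) ≡ 1` when `g ≡ φ ^ p` and `h ≡ φ u`. -/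
theorem frob_cong {O : ValuationSubring F} {ϖ g φ h u : F} {p : ℕ} (hg : g ∈ O) (hφ0 : φ ≠ 0)
    (hh0 : h ≠ 0) (hh' : h⁻¹ ∈ O) (hz : h / φ ∈ O) (hu : u ∈ O)
    (hgφ : ∃ c ∈ O, g / φ ^ p - 1 = ϖ * c) (huc : ∃ c ∈ O, h / φ - u = ϖ * c) :
    ∃ c ∈ O, u ^ p * (g / h ^ p) - 1 = ϖ * c := by
  obtain ⟨c1, hc1, e1⟩ := pow_sub_pow_eq O.toSubring hz hu huc p
  obtain ⟨c2, hc2, e2⟩ := hgφ
  have hgh : g / h ^ p ∈ O := by
    rw [div_eq_mul_inv, ← inv_pow]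
    exact O.mul_mem _ _ hg (pow_mem hh' p)
  refine ⟨c2 - c1 * (g / h ^ p), sub_mem hc2 (O.mul_mem _ _ hc1 hgh), ?_⟩
  have e : u ^ p * (g / h ^ p) - 1 =
      (g / φ ^ p - 1) - ((h / φ) ^ p - u ^ p) * (g / h ^ p) := by
    have h1 := pow_ne_zero p hh0
    have h2 := pow_ne_zero p hφ0
    rw [div_pow]
    field_simp
    ring
  rw [e, e1, e2]; ring

/-- Level `1` from an approximation by a unit. -/
theorem strict_one {B : Subalgebra R F} {𝔪 : Ideal B} {Oj : ValuationSubring F} {z w : F}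
    (hz0 : z ≠ 0) (hz' : z⁻¹ ∈ Oj) (hw0 : w ≠ 0) (hw : w ∈ Oj) (hw' : w⁻¹ ∈ Oj)
    (hzw : ∃ c ∈ Oj, z - w = algebraMap R F π * c) : StrictOn π B Oj 𝔪 1 (z / w) := by
  obtain ⟨c, hc, h⟩ := hzw
  refine Or.inr ⟨div_ne_zero hz0 hw0, ?_, c * w⁻¹, Oj.mul_mem _ _ hc hw', ?_⟩
  · rw [inv_div, div_eq_mul_inv]; exact Oj.mul_mem _ _ hw hz'
  · rw [pow_one]
    field_simp
    linear_combination h

/-- An element of `B_𝔪` congruent to a unit of `B_𝔪` modulo `π O_j` on a branch through `𝔪` is a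
unit of `B_𝔪`. -/
theorem unit_glue {B : Subalgebra R F} {𝔪 : Ideal B} [h𝔪 : 𝔪.IsPrime] {Oj : ValuationSubring F}
    (leO : ∀ x ∈ B, x ∈ Oj) (hon : ¬ OffBranch π B Oj 𝔪) {u w : F} (hu0 : u ≠ 0)
    (hu : InLocal B 𝔪 u) (hu' : InLocal B 𝔪 u⁻¹) (hw : InLocal B 𝔪 w)
    (hwu : ∃ c ∈ Oj, w - u = algebraMap R F π * c) : w ≠ 0 ∧ InLocal B 𝔪 w⁻¹ := by
  obtain ⟨a, d, hd, had⟩ := hu
  obtain ⟨aw, dw, hdw, hawdw⟩ := hw
  have ha : a ∉ 𝔪 := inLocal_num_not_mem hu0 hu' hd had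
  have e : (w - u) * ((dw * d : B) : F) = ((aw * d - a * dw : B) : F) := by
    push_cast
    rw [← had, ← hawdw]; ring
  have hmem := InLocal.num_mem leO hon e hwu
  have haw : aw ∉ 𝔪 := by
    intro haw
    have : a * dw ∈ 𝔪 := by
      have e2 : a * dw = aw * d - (aw * d - a * dw) := by ring
      rw [e2]
      exact 𝔪.sub_mem (𝔪.mul_mem_right _ haw) hmem
    exact (h𝔪.mem_or_mem this).elim ha hdw
  refine ⟨?_, inLocal_inv_of_num haw hawdw⟩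
  rintro rfl
  apply haw
  have : aw = 0 := Subtype.ext (by rw [← hawdw, zero_mul]; rfl)
  rw [this]; exact 𝔪.zero_mem

end SideSec

/-! ### The level-one local equations -/

section Main

variable {R K F : Type*} [CommRing R] [Field K] [Field F] [Algebra K F] [Algebra R F]
variable {π : R} {B0 B1 : Subalgebra R F} {O1 O2 : ValuationSubring F}

/-- On a branch through the point: the quotient `h / φ` is approximated by a unit `u` of `B_𝔪`,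
with the Frobenius congruence `u ^ p (g / h ^ p) ≡ 1`. -/
theorem Side.branch {D : Divisor K F} {ψ1 : F} (S : Side π B0 B1 O1 O2 D ψ1) (hψ0 : ψ1 ≠ 0)
    {p : ℕ} {g : F} (hg1 : g ∈ O1)
    (hn : ∃ c ∈ O1, g / ψ1 ^ p - 1 = algebraMap R F π * c) {φ : F}
    (hφ : ∃ c ∈ O1, φ - ψ1 = algebraMap R F π * c) {B : Subalgebra R F}
    (hB : B = B0 ∨ B = B1) {𝔪 : Ideal B} (h𝔪 : 𝔪.IsMaximal) (hπ𝔪 : algebraMap R B π ∈ 𝔪)
    (hon : ¬ OffBranch π B O1 𝔪) {h : F} (hh : IsLocEq B 𝔪 D h) (hs1 : StrictOn π B O1 𝔪 0 h)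
    (hs2 : StrictOn π B O2 𝔪 0 h) :
    ∃ u : F, u ≠ 0 ∧ InLocal B 𝔪 u ∧ InLocal B 𝔪 u⁻¹ ∧
      (∃ c ∈ O1, h / φ - u = algebraMap R F π * c) ∧
      (∃ c ∈ O1, u ^ p * (g / h ^ p) - 1 = algebraMap R F π * c) := by
  have M := S.frame
  obtain ⟨hh0, hh1, hh1'⟩ := strict_unit M.pi_mem1 hon hs1
  obtain ⟨hφ0, hφ1, hφ1'⟩ := unit_of_congr M.unif1 M.pi_mem1 hψ0 S.unit hφ
  obtain ⟨u, hu0, hu, hu', huc⟩ := S.red_div hψ0 hB h𝔪 hπ𝔪 hon hh hs1 hs2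
  have hu1 : u ∈ O1 := inLocal_mem_of_on M.unif1 (M.le1 B hB) hon hu
  refine ⟨u, hu0, hu, hu', approx_transfer hψ0 S.unit.2 hφ0 hφ1' hh1 hφ huc, ?_⟩
  exact frob_cong hg1 hψ0 hh0 hh1'
    (by rw [div_eq_mul_inv]; exact O1.mul_mem _ _ hh1 S.unit.2) hu1 hn huc

/-- **The local statement**: `D - div φ` has level `1` at every closed point. -/
theorem levelAt_one {D : Divisor K F} {ψ1 ψ2 : F} (S1 : Side π B0 B1 O1 O2 D ψ1)
    (S2 : Side π B0 B1 O2 O1 D ψ2) (hψ10 : ψ1 ≠ 0) (hψ20 : ψ2 ≠ 0) {p : ℕ} (hp : p.Prime)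
    (hchar : π ∣ (p : R))
    (semi : ∀ B : Subalgebra R F, B = B0 ∨ B = B1 → ∀ 𝔪 : Ideal B,
      IsNode π B0 B1 O1 O2 B 𝔪 → ∀ z w1 w2 : F, InLocal B 𝔪 w1 → InLocal B 𝔪 w2 →
      (∃ c ∈ O1, z - w1 = algebraMap R F π * c) → (∃ c ∈ O2, z - w2 = algebraMap R F π * c) →
      (∃ a d : B, a ∈ 𝔪 ∧ d ∉ 𝔪 ∧ (w1 - w2) * (d : F) = (a : F)) →
      ∃ w, InLocal B 𝔪 w ∧ (∃ c ∈ O1, z - w = algebraMap R F π * c) ∧
        (∃ c ∈ O2, z - w = algebraMap R F π * c))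
    {g1 g2 : F} (hg10 : g1 ≠ 0) (hdiv1 : ∀ P : Place K F, (p • D) P = P.ord g1)
    (hg1 : g1 ∈ O1) (hg2 : g2 ∈ O2)
    (hnode : (∃ (B : Subalgebra R F) (𝔪 : Ideal B), IsNode π B0 B1 O1 O2 B 𝔪) → g1 = g2)
    (hn1 : ∃ c ∈ O1, g1 / ψ1 ^ p - 1 = algebraMap R F π * c)
    (hn2 : ∃ c ∈ O2, g2 / ψ2 ^ p - 1 = algebraMap R F π * c)
    {φ : F} (hφ1 : ∃ c ∈ O1, φ - ψ1 = algebraMap R F π * c)
    (hφ2 : ∃ c ∈ O2, φ - ψ2 = algebraMap R F π * c)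
    {Dφ : Divisor K F} (hDφ : ∀ P : Place K F, Dφ P = P.ord φ)
    {B : Subalgebra R F} (hB : B = B0 ∨ B = B1) {𝔪 : Ideal B} (h𝔪 : 𝔪.IsMaximal)
    (hπ𝔪 : algebraMap R B π ∈ 𝔪) : LevelAt π B O1 O2 1 (D - Dφ) 𝔪 := by
  have M := S1.frame
  have hprime := h𝔪.isPrime
  obtain ⟨h, hh, hs1, hs2⟩ := chartLevel_of S1.lev0 hB 𝔪 h𝔪 hπ𝔪
  obtain ⟨hφ0, hφO1, hφO1'⟩ := unit_of_congr M.unif1 M.pi_mem1 hψ10 S1.unit hφ1
  obtain ⟨-, hφO2, hφO2'⟩ := unit_of_congr M.unif2 M.pi_mem2 hψ20 S2.unit hφ2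
  have hφL : IsLocEq B 𝔪 Dφ φ := IsLocEq.of_principal B 𝔪 hφ0 hDφ
  have hzL : IsLocEq B 𝔪 (D - Dφ) (h / φ) := hh.div hφL
  have hunitL : ∀ w : F, w ≠ 0 → InLocal B 𝔪 w → InLocal B 𝔪 w⁻¹ →
      IsLocEq B 𝔪 (D - Dφ) (h / φ / w) := by
    intro w hw0 hw hw'
    have := hzL.div (isLocEq_zero_of_unit (K := K) hw0 hw hw')
    rwa [sub_zero] at this
  have hstr1 : ¬ OffBranch π B O1 𝔪 → ∀ w : F, w ≠ 0 → InLocal B 𝔪 w → InLocal B 𝔪 w⁻¹ →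
      (∃ c ∈ O1, h / φ - w = algebraMap R F π * c) → StrictOn π B O1 𝔪 1 (h / φ / w) := by
    intro hon w hw0 hw hw' hc
    obtain ⟨hh0, hh1, hh1'⟩ := strict_unit M.pi_mem1 hon hs1
    exact strict_one (div_ne_zero hh0 hφ0)
      (by rw [inv_div, div_eq_mul_inv]; exact O1.mul_mem _ _ hφO1 hh1') hw0
      (inLocal_mem_of_on M.unif1 (M.le1 B hB) hon hw)
      (inLocal_mem_of_on M.unif1 (M.le1 B hB) hon hw') hc
  have hstr2 : ¬ OffBranch π B O2 𝔪 → ∀ w : F, w ≠ 0 → InLocal B 𝔪 w → InLocal B 𝔪 w⁻¹ →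
      (∃ c ∈ O2, h / φ - w = algebraMap R F π * c) → StrictOn π B O2 𝔪 1 (h / φ / w) := by
    intro hon w hw0 hw hw' hc
    obtain ⟨hh0, hh2, hh2'⟩ := strict_unit M.pi_mem2 hon hs2
    exact strict_one (div_ne_zero hh0 hφ0)
      (by rw [inv_div, div_eq_mul_inv]; exact O2.mul_mem _ _ hφO2 hh2') hw0
      (inLocal_mem_of_on M.unif2 (M.le2 B hB) hon hw)
      (inLocal_mem_of_on M.unif2 (M.le2 B hB) hon hw') hc
  by_cases hoff1 : OffBranch π B O1 𝔪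
  · by_cases hoff2 : OffBranch π B O2 𝔪
    · exact ⟨h / φ, hzL, Or.inl hoff1, Or.inl hoff2⟩
    · obtain ⟨u, hu0, hu, hu', hc, -⟩ :=
        S2.branch hψ20 hg2 hn2 hφ2 hB h𝔪 hπ𝔪 hoff2 hh hs2 hs1
      exact ⟨h / φ / u, hunitL u hu0 hu hu', Or.inl hoff1, hstr2 hoff2 u hu0 hu hu' hc⟩
  · by_cases hoff2 : OffBranch π B O2 𝔪
    · obtain ⟨u, hu0, hu, hu', hc, -⟩ :=
        S1.branch hψ10 hg1 hn1 hφ1 hB h𝔪 hπ𝔪 hoff1 hh hs1 hs2
      exact ⟨h / φ / u, hunitL u hu0 hu hu', hstr1 hoff1 u hu0 hu hu' hc, Or.inl hoff2⟩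
    · -- a node
      have hs : IsNode π B0 B1 O1 O2 B 𝔪 := ⟨hB, h𝔪, hπ𝔪, hoff1, hoff2⟩
      have hgg := hnode ⟨B, 𝔪, hs⟩
      subst hgg
      obtain ⟨u1, hu10, hu1, hu1', hc1, hf1⟩ :=
        S1.branch hψ10 hg1 hn1 hφ1 hB h𝔪 hπ𝔪 hoff1 hh hs1 hs2
      obtain ⟨u2, hu20, hu2, hu2', hc2, hf2⟩ :=
        S2.branch hψ20 hg2 hn2 hφ2 hB h𝔪 hπ𝔪 hoff2 hh hs2 hs1
      obtain ⟨hh0, hh1, hh1'⟩ := strict_unit M.pi_mem1 hoff1 hs1
      obtain ⟨-, hh2, hh2'⟩ := strict_unit M.pi_mem2 hoff2 hs2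
      have hk : IsLocEq B 𝔪 (0 : Divisor K F) (g1 / h ^ p) := by
        have := (IsLocEq.of_principal B 𝔪 hg10 hdiv1).div (hh.pow p)
        rwa [sub_self] at this
      have hux : InLocal B 𝔪 (g1 / h ^ p) := by
        refine M.hart B hB 𝔪 h𝔪 hπ𝔪 _ hk.1 (fun P hP => by rw [hk.2 P hP]; simp)
          (Or.inr ?_) (Or.inr ?_)
        · rw [div_eq_mul_inv, ← inv_pow]; exact O1.mul_mem _ _ hg1 (pow_mem hh1' p)
        · rw [div_eq_mul_inv, ← inv_pow]; exact O2.mul_mem _ _ hg2 (pow_mem hh2' p)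
      obtain ⟨a1, d1, hd1, e1⟩ := hu1
      obtain ⟨a2, d2, hd2, e2⟩ := hu2
      obtain ⟨au, du, hdu, eu⟩ := hux
      have hp𝔪 : ((p : ℕ) : B) ∈ 𝔪 := by
        obtain ⟨q, hq⟩ := hchar
        have : ((p : ℕ) : B) = algebraMap R B π * algebraMap R B q := by
          rw [← map_mul, ← hq, map_natCast]
        rw [this]; exact 𝔪.mul_mem_right _ hπ𝔪
      have hm1 : a1 ^ p * au - d1 ^ p * du ∈ 𝔪 := by
        refine InLocal.num_mem (M.le1 B hB) hoff1 (w := u1 ^ p * (g1 / h ^ p) - 1)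
          (d := d1 ^ p * du) ?_ hf1
        push_cast
        rw [← e1, ← eu]; ring
      have hm2 : a2 ^ p * au - d2 ^ p * du ∈ 𝔪 := by
        refine InLocal.num_mem (M.le2 B hB) hoff2 (w := u2 ^ p * (g1 / h ^ p) - 1)
          (d := d2 ^ p * du) ?_ hf2
        push_cast
        rw [← e2, ← eu]; ring
      have hdiff := frob_node hp hp𝔪 hd1 hdu hm1 hm2
      obtain ⟨w, hw, hwc1, hwc2⟩ := semi B hB 𝔪 hs (h / φ) u1 u2 ⟨a1, d1, hd1, e1⟩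
        ⟨a2, d2, hd2, e2⟩ hc1 hc2
        ⟨a1 * d2 - a2 * d1, d1 * d2, hdiff,
          fun hmem => (hprime.mem_or_mem hmem).elim hd1 hd2, by
            push_cast
            rw [← e1, ← e2]; ring⟩
      have hwu : ∃ c ∈ O1, w - u1 = algebraMap R F π * c := by
        obtain ⟨c, hc, hcc⟩ := hc1
        obtain ⟨c', hc', hcc'⟩ := hwc1
        exact ⟨c - c', sub_mem hc hc', by linear_combination hcc - hcc'⟩
      obtain ⟨hw0, hw'⟩ := unit_glue (M.le1 B hB) hoff1 hu10 ⟨a1, d1, hd1, e1⟩ hu1' hw hwu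
      exact ⟨h / φ / w, hunitL w hw0 hw hw', hstr1 hoff1 w hw0 hw hw' hwc1,
        hstr2 hoff2 w hw0 hw hw' hwc2⟩

/-- **(D0-core)**: a `p`-torsion class of level `0` whose reductions on the two components are
trivial (`hred_j`: the reduction of `D` on `C_j` is `div φ̄_j`) lies in `Cart 1`. -/
theorem mem_cart_one_of_red_trivial [HasPrincipalDivisors K F]
    (M : Frame (K := K) π B0 B1 O1 O2)
    {hπ1 : algebraMap R F π ∈ O1} {hπ2 : algebraMap R F π ∈ O2}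
    (hvert : ∀ P : Place K F, P.ord (algebraMap R F π) = 0) {p : ℕ} (hp : p.Prime)
    (hchar : π ∣ (p : R)) (hperf : ∀ r : R, ∃ s : R, π ∣ s ^ p - r)
    (semi : ∀ B : Subalgebra R F, B = B0 ∨ B = B1 → ∀ 𝔪 : Ideal B,
      IsNode π B0 B1 O1 O2 B 𝔪 → ∀ z w1 w2 : F, InLocal B 𝔪 w1 → InLocal B 𝔪 w2 →
      (∃ c ∈ O1, z - w1 = algebraMap R F π * c) → (∃ c ∈ O2, z - w2 = algebraMap R F π * c) →
      (∃ a d : B, a ∈ 𝔪 ∧ d ∉ 𝔪 ∧ (w1 - w2) * (d : F) = (a : F)) →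
      ∃ w, InLocal B 𝔪 w ∧ (∃ c ∈ O1, z - w = algebraMap R F π * c) ∧
        (∃ c ∈ O2, z - w = algebraMap R F π * c))
    (approx2 : ∀ φ1 φ2 : F, φ1 ∈ O1 → φ2 ∈ O2 →
      ∃ φ, (∃ c ∈ O1, φ - φ1 = algebraMap R F π * c) ∧
        (∃ c ∈ O2, φ - φ2 = algebraMap R F π * c))
    (D : Divisor.degZero (K := K) (F := F)) (hpD : p • Pic0.mk D = 0)
    (hlev0 : HasLevel π B0 B1 O1 O2 0 (D : Divisor K F))
    (φ1 φ2 : F) (hφ1 : φ1 ∈ O1 ∧ φ1⁻¹ ∈ O1) (hφ2 : φ2 ∈ O2 ∧ φ2⁻¹ ∈ O2)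
    (hred1 : ∀ B : Subalgebra R F, B = B0 ∨ B = B1 → ∀ 𝔪 : Ideal B, 𝔪.IsMaximal →
      algebraMap R B π ∈ 𝔪 → ¬ OffBranch π B O1 𝔪 → ∀ h : F, IsLocEq B 𝔪 (D : Divisor K F) h →
      StrictOn π B O1 𝔪 0 h → StrictOn π B O2 𝔪 0 h →
      ∃ u : F, InLocal B 𝔪 u ∧ InLocal B 𝔪 u⁻¹ ∧ ∃ c ∈ O1, h - φ1 * u = algebraMap R F π * c)
    (hred2 : ∀ B : Subalgebra R F, B = B0 ∨ B = B1 → ∀ 𝔪 : Ideal B, 𝔪.IsMaximal →
      algebraMap R B π ∈ 𝔪 → ¬ OffBranch π B O2 𝔪 → ∀ h : F, IsLocEq B 𝔪 (D : Divisor K F) h →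
      StrictOn π B O1 𝔪 0 h → StrictOn π B O2 𝔪 0 h →
      ∃ u : F, InLocal B 𝔪 u ∧ InLocal B 𝔪 u⁻¹ ∧ ∃ c ∈ O2, h - φ2 * u = algebraMap R F π * c) :
    Pic0.mk D ∈ Cart π B0 B1 O1 O2 hπ1 hπ2 1 := by
  have S1₀ : Side π B0 B1 O1 O2 (D : Divisor K F) φ1 := ⟨M, hlev0, hφ1, hred1⟩
  have S2₀ : Side π B0 B1 O2 O1 (D : Divisor K F) φ2 :=
    ⟨frame_swap M, hasLevel_swap hlev0, hφ2,
      fun B hB 𝔪 h𝔪 hπ𝔪 hon h hh hs2 hs1 => hred2 B hB 𝔪 h𝔪 hπ𝔪 hon h hh hs1 hs2⟩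
  obtain ⟨φ1', hφ1'0, S1'⟩ := S1₀.exists_ne_zero
  obtain ⟨φ2', hφ2'0, S2'⟩ := S2₀.exists_ne_zero
  obtain ⟨f0, hf0, hdiv0⟩ := exists_principal_of_nsmul_eq_zero D hpD
  have hp0 : algebraMap R F π ≠ 0 := M.unif1.ne_zero
  obtain ⟨m1, f1, hf1, hf1', hff1⟩ := M.vals1 f0 hf0
  obtain ⟨m2, f2, hf2, hf2', hff2⟩ := M.vals2 f0 hf0
  have hf1_0 : f1 ≠ 0 := by
    rintro rfl
    exact hf0 (by rw [hff1, mul_zero])
  have hf2_0 : f2 ≠ 0 := by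
    rintro rfl
    exact hf0 (by rw [hff2, mul_zero])
  have hord : ∀ (m : ℤ) (f : F), f ≠ 0 → f0 = algebraMap R F π ^ m * f →
      ∀ P : Place K F, (p • (D : Divisor K F)) P = P.ord f := by
    intro m f hf h P
    rw [hdiv0 P, h, P.ord_mul (zpow_ne_zero m hp0) hf, P.ord_zpow, hvert, mul_zero, zero_add]
  have hrel : algebraMap R F π ^ m1 * f1 = algebraMap R F π ^ m2 * f2 := by rw [← hff1, ← hff2]
  have key : ∃ g1 g2 : F, g1 ≠ 0 ∧ g2 ≠ 0 ∧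
      (∀ P : Place K F, (p • (D : Divisor K F)) P = P.ord g1) ∧
      (∀ P : Place K F, (p • (D : Divisor K F)) P = P.ord g2) ∧ (g1 ∈ O1 ∧ g1⁻¹ ∈ O1) ∧
      (g2 ∈ O2 ∧ g2⁻¹ ∈ O2) ∧
      ((∃ (B : Subalgebra R F) (𝔪 : Ideal B), IsNode π B0 B1 O1 O2 B 𝔪) → g1 = g2) := by
    by_cases hex : ∃ (B : Subalgebra R F) (𝔪 : Ideal B), IsNode π B0 B1 O1 O2 B 𝔪
    · obtain ⟨Bs, 𝔪s, hs⟩ := hex
      have hm : m1 = m2 := by
        rcases lt_trichotomy m1 m2 with hlt | heq | hgt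
        · exfalso
          obtain ⟨n, hn⟩ : ∃ n : ℕ, m2 = m1 + ((n : ℤ) + 1) := ⟨(m2 - m1 - 1).toNat, by omega⟩
          have hf12 : f1 = algebraMap R F π * (algebraMap R F π ^ n * f2) := by
            rw [hn, zpow_add₀ hp0, zpow_add_one₀ hp0, zpow_natCast] at hrel
            apply mul_left_cancel₀ (zpow_ne_zero m1 hp0)
            rw [hrel]; ring
          exact S1'.not_pi_dvd (p := p) hφ1'0 hf1_0 (hord m1 f1 hf1_0 hff1) hf1 hf1' hs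
            ⟨_, O2.mul_mem _ _ (pow_mem M.pi_mem2 n) hf2, hf12⟩
        · exact heq
        · exfalso
          obtain ⟨n, hn⟩ : ∃ n : ℕ, m1 = m2 + ((n : ℤ) + 1) := ⟨(m1 - m2 - 1).toNat, by omega⟩
          have hf21 : f2 = algebraMap R F π * (algebraMap R F π ^ n * f1) := by
            rw [hn, zpow_add₀ hp0, zpow_add_one₀ hp0, zpow_natCast] at hrel
            apply mul_left_cancel₀ (zpow_ne_zero m2 hp0)
            rw [← hrel]; ring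
          exact S2'.not_pi_dvd (p := p) hφ2'0 hf2_0 (hord m2 f2 hf2_0 hff2) hf2 hf2'
            (isNode_swap hs) ⟨_, O1.mul_mem _ _ (pow_mem M.pi_mem1 n) hf1, hf21⟩
      have hf12 : f1 = f2 := by
        rw [hm] at hrel
        exact mul_left_cancel₀ (zpow_ne_zero m2 hp0) hrel
      exact ⟨f1, f2, hf1_0, hf2_0, hord m1 f1 hf1_0 hff1, hord m2 f2 hf2_0 hff2, ⟨hf1, hf1'⟩,
        ⟨hf2, hf2'⟩, fun _ => hf12⟩
    · exact ⟨f1, f2, hf1_0, hf2_0, hord m1 f1 hf1_0 hff1, hord m2 f2 hf2_0 hff2, ⟨hf1, hf1'⟩,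
        ⟨hf2, hf2'⟩, fun h => absurd h hex⟩
  obtain ⟨g1, g2, hg10, hg20, hdiv1, hdiv2, hg1u, hg2u, hnode⟩ := key
  obtain ⟨ψ1, hψ10, S1, hn1⟩ := S1'.normalize hφ1'0 hp.ne_zero hperf hg10 hdiv1 hg1u.1 hg1u.2
    (fun hex => by rw [hnode hex]; exact hg2u.1)
  obtain ⟨ψ2, hψ20, S2, hn2⟩ := S2'.normalize hφ2'0 hp.ne_zero hperf hg20 hdiv2 hg2u.1 hg2u.2
    (fun hex => by
      obtain ⟨B, 𝔪, hs⟩ := hex
      rw [← hnode ⟨B, 𝔪, isNode_swap hs⟩]; exact hg1u.1)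
  obtain ⟨φ, hφa, hφb⟩ := approx2 ψ1 ψ2 S1.unit.1 S2.unit.1
  obtain ⟨hφ0, -, -⟩ := unit_of_congr M.unif1 M.pi_mem1 hψ10 S1.unit hφa
  obtain ⟨Dφ, hDφ, hdeg⟩ := HasPrincipalDivisors.exists_divisor (K := K) φ hφ0
  have hlev : ∀ B : Subalgebra R F, B = B0 ∨ B = B1 →
      ChartLevel π B O1 O2 1 ((D : Divisor K F) - Dφ) := fun B hB 𝔪 h𝔪 hπ𝔪 =>
    levelAt_one S1 S2 hψ10 hψ20 hp hchar semi hg10 hdiv1 hg1u.1 hg2u.1 hnode hn1 hn2 hφa hφb hDφ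
      hB h𝔪 hπ𝔪
  refine ⟨D - ⟨Dφ, hdeg⟩, ?_, hlev B0 (Or.inl rfl), hlev B1 (Or.inr rfl)⟩
  have h1 : Pic0.mk (D - ⟨Dφ, hdeg⟩) = Pic0.mk D - Pic0.mk ⟨Dφ, hdeg⟩ := rfl
  have h2 : Pic0.mk (⟨Dφ, hdeg⟩ : Divisor.degZero (K := K) (F := F)) = 0 :=
    (QuotientAddGroup.eq_zero_iff _).mpr (AddSubgroup.mem_addSubgroupOf.mpr ⟨φ, hφ0, hDφ⟩)
  rw [h1, h2, sub_zero]

end Main

end Fermat.Agent.M1.Car.DepthZero58
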