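/-
M1 (S44), chapter CAR (helper58): **adapters for (D0-core)** `Car/DepthZero58`.

* `semi_of_nodeSumAt` : the local seminormality hypothesis `semi` of
  `DepthZero58.mem_cart_one_of_red_trivial` from helper98's `Seminormal98.NodeSumAt`
  (`𝔪 B_𝔪 = (𝔭₁ + 𝔭₂) B_𝔪` at the nodes);
* `exists_idem`, `approx2_of_z` : the two-valuation approximation hypothesis `approx2` from ONE
  function `z` vanishing on the component `1` and invertible on the component `2` (the same input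
  as `Slope43.exists_val_pair`);
* `hvert_of_tower` : `ord_P π = 0` for every place of `F / K` when `R → K → F` is a tower;
* `mem_cart_one_of_numData` : (D0-core) for a `NodalNumData` with `(AC_1)`, `(AC_2)`
  (`FrameInst98.frame_of_numData`), `NodeSumAt` at the nodes and `z`.
-/
import Mathlib
import Fermat.Agent.M1.Car.DepthZero58
import Fermat.Agent.M1.Fib.Seminormal98
import Fermat.Agent.M1.Fib.FrameInst98

set_option autoImplicit false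
set_option linter.unusedSectionVars false
set_option linter.unusedVariables false

namespace Fermat.Agent.M1.Car.DepthZeroInst58

open AlgebraicCurve Fermat.Agent.ES.N34.NodalCore13 Fermat.Agent.ES.N34.NumData13
  Fermat.Agent.M1.Car.Defs43 Fermat.Agent.M1.Node.Thick25 Fermat.Agent.M1.Mon.WildPL43
  Fermat.Agent.M1.Car.Slope43 Fermat.Agent.M1.Car.DepthZero58
  Fermat.Agent.M1.Fib.Branch98 Fermat.Agent.M1.Fib.Constants98 Fermat.Agent.M1.Fib.Seminormal98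

/-! ### Seminormality at a node, local form -/

section Semi

variable {R F : Type*} [CommRing R] [Field F] [Algebra R F]
variable {π : R} {B : Subalgebra R F} {O1 O2 : ValuationSubring F}

/-- **(F4), local form**: at a two-branch point where `𝔪 B_𝔪 = (𝔭₁ + 𝔭₂) B_𝔪`, a function `z`
congruent to `w₁ ∈ B_𝔪` on the branch `1` and to `w₂ ∈ B_𝔪` on the branch `2`, with
`w₁ - w₂ ∈ 𝔪 B_𝔪`, is congruent on both branches to a single element of `B_𝔪`. -/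
theorem semi_of_nodeSumAt (hu1 : IsUnifOf O1 (algebraMap R F π))
    (hu2 : IsUnifOf O2 (algebraMap R F π)) (le1 : ∀ x ∈ B, x ∈ O1) (le2 : ∀ x ∈ B, x ∈ O2)
    {𝔪 : Ideal B} [h𝔪 : 𝔪.IsPrime] (hon1 : ¬ OffBranch π B O1 𝔪) (hon2 : ¬ OffBranch π B O2 𝔪)
    (hsum : NodeSumAt π B O1 O2 𝔪) (z w1 w2 : F) (hw1 : InLocal B 𝔪 w1) (hw2 : InLocal B 𝔪 w2)
    (h1 : ∃ c ∈ O1, z - w1 = algebraMap R F π * c) (h2 : ∃ c ∈ O2, z - w2 = algebraMap R F π * c)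
    (hdiff : ∃ a d : B, a ∈ 𝔪 ∧ d ∉ 𝔪 ∧ (w1 - w2) * (d : F) = (a : F)) :
    ∃ w, InLocal B 𝔪 w ∧ (∃ c ∈ O1, z - w = algebraMap R F π * c) ∧
      (∃ c ∈ O2, z - w = algebraMap R F π * c) := by
  obtain ⟨a, d, ha, hd, had⟩ := hdiff
  obtain ⟨d', hd', v1, v2, ⟨c1, hc1, hv1⟩, ⟨c2, hc2, hv2⟩, hdf⟩ := hsum a ha
  have hdd : d * d' ∉ 𝔪 := fun hmem => (h𝔪.mem_or_mem hmem).elim hd hd'
  have hdd0 : ((d * d' : B) : F) ≠ 0 := by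
    intro h0
    apply hdd
    have : d * d' = 0 := Subtype.ext h0
    rw [this]; exact 𝔪.zero_mem
  have hinv1 : (((d * d' : B) : F))⁻¹ ∈ O1 := inv_mem_of_on hu1 le1 hon1 hdd
  have hinv2 : (((d * d' : B) : F))⁻¹ ∈ O2 := inv_mem_of_on hu2 le2 hon2 hdd
  have hdf' : ((d' : B) : F) * (a : F) = (v1 : F) + (v2 : F) := by
    have := congrArg (fun b : B => (b : F)) hdf
    simpa using this
  have hq : InLocal B 𝔪 ((v1 : F) * (((d * d' : B) : F))⁻¹) :=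
    ⟨v1, d * d', hdd, by field_simp⟩
  -- `w₁ - w₂ = (v₁ + v₂) / (d d')`
  have hw12 : w1 - w2 = ((v1 : F) + (v2 : F)) * (((d * d' : B) : F))⁻¹ := by
    rw [← hdf', ← had]
    push_cast
    have hd0 : (d : F) ≠ 0 := left_ne_zero_of_mul (by push_cast at hdd0; exact hdd0)
    have hd'0 : (d' : F) ≠ 0 := right_ne_zero_of_mul (by push_cast at hdd0; exact hdd0)
    field_simp
  obtain ⟨e1, he1, hz1⟩ := h1
  obtain ⟨e2, he2, hz2⟩ := h2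
  refine ⟨w1 - (v1 : F) * (((d * d' : B) : F))⁻¹, hw1.sub hq, ?_, ?_⟩
  · refine ⟨e1 + c1 * (((d * d' : B) : F))⁻¹, O1.add_mem _ _ he1 (O1.mul_mem _ _ hc1 hinv1), ?_⟩
    rw [hv1] at *
    linear_combination hz1
  · refine ⟨e2 - c2 * (((d * d' : B) : F))⁻¹, sub_mem he2 (O2.mul_mem _ _ hc2 hinv2), ?_⟩
    rw [hv2] at hw12
    linear_combination hz2 - hw12

end Semi

/-! ### Two-valuation approximation -/

section Approx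

variable {F : Type*} [Field F] {O1 O2 : ValuationSubring F} {ϖ : F}

/-- `1 + ϖ c` is nonzero. -/
theorem one_add_ne_zero {O : ValuationSubring F} (hu : IsUnifOf O ϖ) {c : F} (hc : c ∈ O) :
    1 + ϖ * c ≠ 0 := by
  intro h0
  apply hu.nonunit
  have h2 : ϖ * (-c) = 1 := by linear_combination -h0
  have : ϖ⁻¹ = -c := (eq_inv_of_mul_eq_one_right h2).symm
  rw [this]
  exact O.neg_mem _ hc

/-- **Almost-idempotents**: a function `≡ 1 mod ϖ ^ N O₁` and `≡ 0 mod ϖ ^ N O₂`. -/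
theorem exists_idem (hu1 : IsUnifOf O1 ϖ) (hu2 : IsUnifOf O2 ϖ) (hϖ1 : ϖ ∈ O1) (hϖ2 : ϖ ∈ O2)
    {z : F} (hz1 : ∃ c ∈ O1, z = ϖ * c) (hz2' : z⁻¹ ∈ O2) (hz0 : z ≠ 0) (N : ℕ) :
    ∃ e : F, (∃ a ∈ O1, 1 - e = ϖ ^ (N + 1) * a) ∧ (∃ b ∈ O2, e = ϖ ^ (N + 1) * b) := by
  obtain ⟨c, hc, hzc⟩ := hz1
  have hϖ0 : ϖ ≠ 0 := hu1.ne_zero
  have hc0 : c ≠ 0 := by
    rintro rfl
    exact hz0 (by rw [hzc, mul_zero])
  -- `y = z ^ 2 / ϖ = ϖ c ^ 2`, `t = y⁻¹ = ϖ (z⁻¹) ^ 2`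
  set y : F := ϖ * c ^ 2 with hy
  set t : F := ϖ * (z⁻¹) ^ 2 with ht
  have hyt : y * t = 1 := by
    rw [hy, ht, hzc]
    field_simp
  have hy0 : y ≠ 0 := left_ne_zero_of_mul_eq_one hyt
  have ht0 : t ≠ 0 := right_ne_zero_of_mul_eq_one hyt
  have hyN : y ^ (N + 1) = ϖ * (ϖ ^ N * c ^ (2 * (N + 1))) := by
    rw [hy, mul_pow, ← pow_mul]; ring
  have htN : t ^ (N + 1) = ϖ * (ϖ ^ N * (z⁻¹) ^ (2 * (N + 1))) := by
    rw [ht, mul_pow, ← pow_mul]; ring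
  have hm1 : ϖ ^ N * c ^ (2 * (N + 1)) ∈ O1 := O1.mul_mem _ _ (pow_mem hϖ1 N) (pow_mem hc _)
  have hm2 : ϖ ^ N * (z⁻¹) ^ (2 * (N + 1)) ∈ O2 := O2.mul_mem _ _ (pow_mem hϖ2 N) (pow_mem hz2' _)
  have hs1 : (1 + y ^ (N + 1))⁻¹ ∈ O1 := by rw [hyN]; exact one_add_inv_mem hu1 hϖ1 hm1
  have hs2 : (1 + t ^ (N + 1))⁻¹ ∈ O2 := by rw [htN]; exact one_add_inv_mem hu2 hϖ2 hm2
  have hs10 : 1 + y ^ (N + 1) ≠ 0 := by rw [hyN]; exact one_add_ne_zero hu1 hm1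
  have hs20 : 1 + t ^ (N + 1) ≠ 0 := by rw [htN]; exact one_add_ne_zero hu2 hm2
  have hytN : y ^ (N + 1) * t ^ (N + 1) = 1 := by rw [← mul_pow, hyt, one_pow]
  refine ⟨(1 + y ^ (N + 1))⁻¹, ⟨c ^ (2 * (N + 1)) * (1 + y ^ (N + 1))⁻¹,
    O1.mul_mem _ _ (pow_mem hc _) hs1, ?_⟩, ⟨(z⁻¹) ^ (2 * (N + 1)) * (1 + t ^ (N + 1))⁻¹,
    O2.mul_mem _ _ (pow_mem hz2' _) hs2, ?_⟩⟩
  · have e1 : 1 - (1 + y ^ (N + 1))⁻¹ = y ^ (N + 1) * (1 + y ^ (N + 1))⁻¹ := by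
      field_simp
      ring
    rw [e1, hyN]; ring
  · have e2 : (1 + y ^ (N + 1))⁻¹ = t ^ (N + 1) * (1 + t ^ (N + 1))⁻¹ := by
      rw [eq_comm, mul_inv_eq_iff_eq_mul₀ hs20, eq_comm, inv_mul_eq_iff_eq_mul₀ hs10]
      linear_combination -hytN
    rw [e2, htN]; ring

/-- Multiplying by a high power of `ϖ` lands in `ϖ O`. -/
theorem exists_pow_mul_mem {O : ValuationSubring F} (hϖ : ϖ ∈ O) (hϖ0 : ϖ ≠ 0)
    (vals : ∀ z : F, z ≠ 0 → ∃ (a : ℤ) (u : F), u ∈ O ∧ u⁻¹ ∈ O ∧ z = ϖ ^ a * u) (δ : F) :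
    ∃ N₀ : ℕ, ∀ N : ℕ, N₀ ≤ N → ∃ c ∈ O, ϖ ^ (N + 1) * δ = ϖ * c := by
  by_cases hδ : δ = 0
  · exact ⟨0, fun N _ => ⟨0, O.zero_mem, by rw [hδ]; ring⟩⟩
  obtain ⟨a, u, hu, -, hδu⟩ := vals δ hδ
  refine ⟨(-a).toNat, fun N hN => ?_⟩
  obtain ⟨k, hk⟩ : ∃ k : ℕ, (N : ℤ) + a = (k : ℤ) := ⟨((N : ℤ) + a).toNat, by omega⟩
  refine ⟨ϖ ^ k * u, O.mul_mem _ _ (pow_mem hϖ k) hu, ?_⟩
  have : ϖ ^ (N + 1) * δ = ϖ * (ϖ ^ ((N : ℤ) + a) * u) := by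
    rw [hδu, zpow_add₀ hϖ0, zpow_natCast, pow_succ]; ring
  rw [this, hk, zpow_natCast]

/-- **Two-valuation approximation** (the hypothesis `approx2` of
`DepthZero58.mem_cart_one_of_red_trivial`) from one function `z` vanishing on the component `1` and
invertible on the component `2`. -/
theorem approx2_of_z (hu1 : IsUnifOf O1 ϖ) (hu2 : IsUnifOf O2 ϖ) (hϖ1 : ϖ ∈ O1) (hϖ2 : ϖ ∈ O2)
    (vals1 : ∀ z : F, z ≠ 0 → ∃ (a : ℤ) (u : F), u ∈ O1 ∧ u⁻¹ ∈ O1 ∧ z = ϖ ^ a * u)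
    (vals2 : ∀ z : F, z ≠ 0 → ∃ (a : ℤ) (u : F), u ∈ O2 ∧ u⁻¹ ∈ O2 ∧ z = ϖ ^ a * u)
    {z : F} (hz1 : ∃ c ∈ O1, z = ϖ * c) (hz2' : z⁻¹ ∈ O2) (hz0 : z ≠ 0) (φ1 φ2 : F) :
    ∃ φ, (∃ c ∈ O1, φ - φ1 = ϖ * c) ∧ (∃ c ∈ O2, φ - φ2 = ϖ * c) := by
  have hϖ0 : ϖ ≠ 0 := hu1.ne_zero
  obtain ⟨N1, hN1⟩ := exists_pow_mul_mem hϖ1 hϖ0 vals1 (φ1 - φ2)
  obtain ⟨N2, hN2⟩ := exists_pow_mul_mem hϖ2 hϖ0 vals2 (φ1 - φ2)
  obtain ⟨c1, hc1, e1⟩ := hN1 (max N1 N2) (le_max_left _ _)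
  obtain ⟨c2, hc2, e2⟩ := hN2 (max N1 N2) (le_max_right _ _)
  obtain ⟨e, ⟨a, ha, hea⟩, ⟨b, hb, heb⟩⟩ := exists_idem hu1 hu2 hϖ1 hϖ2 hz1 hz2' hz0 (max N1 N2)
  refine ⟨e * φ1 + (1 - e) * φ2, ⟨-(a * c1), O1.neg_mem _ (O1.mul_mem _ _ ha hc1), ?_⟩,
    ⟨b * c2, O2.mul_mem _ _ hb hc2, ?_⟩⟩
  · have : e * φ1 + (1 - e) * φ2 - φ1 = -((1 - e) * (φ1 - φ2)) := by ring
    rw [this, hea]
    linear_combination (-a) * e1
  · have : e * φ1 + (1 - e) * φ2 - φ2 = e * (φ1 - φ2) := by ring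
    rw [this, heb]
    linear_combination b * e2

end Approx

/-! ### (D0-core) for a `NodalNumData` -/

section Inst

variable {R K F : Type*} [CommRing R] [Field K] [Field F] [Algebra R K] [Algebra K F]
  [Algebra R F] [IsScalarTower R K F]
variable {π : R} {t : F} {B0 B1 : Subalgebra R F} {O1 O2 : ValuationSubring F}

/-- `π` has order `0` at every place of `F / K`. -/
theorem hvert_of_tower (hπ0 : algebraMap R F π ≠ 0) (P : Place K F) :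
    P.ord (algebraMap R F π) = 0 := by
  rw [Fermat.Agent.M1.Node.SlopeAdapter25.ord_eq_zero_iff P hπ0]
  constructor
  · rw [IsScalarTower.algebraMap_apply R K F]
    exact P.algebraMap_mem' _
  · rw [IsScalarTower.algebraMap_apply R K F, ← map_inv₀]
    exact P.algebraMap_mem' _

/-- The hypothesis `semi` of (D0-core) for the two charts of a frame, from `NodeSumAt` at the
nodes. -/
theorem semi_of_frame (M : Frame (K := K) π B0 B1 O1 O2)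
    (hnodes : ∀ B : Subalgebra R F, B = B0 ∨ B = B1 → ∀ 𝔪 : Ideal B,
      IsNode π B0 B1 O1 O2 B 𝔪 → NodeSumAt π B O1 O2 𝔪) :
    ∀ B : Subalgebra R F, B = B0 ∨ B = B1 → ∀ 𝔪 : Ideal B,
      IsNode π B0 B1 O1 O2 B 𝔪 → ∀ z w1 w2 : F, InLocal B 𝔪 w1 → InLocal B 𝔪 w2 →
      (∃ c ∈ O1, z - w1 = algebraMap R F π * c) → (∃ c ∈ O2, z - w2 = algebraMap R F π * c) →
      (∃ a d : B, a ∈ 𝔪 ∧ d ∉ 𝔪 ∧ (w1 - w2) * (d : F) = (a : F)) →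
      ∃ w, InLocal B 𝔪 w ∧ (∃ c ∈ O1, z - w = algebraMap R F π * c) ∧
        (∃ c ∈ O2, z - w = algebraMap R F π * c) := by
  intro B hB 𝔪 hs z w1 w2 hw1 hw2 h1 h2 hdiff
  have := hs.max.isPrime
  exact semi_of_nodeSumAt M.unif1 M.unif2 (M.le1 B hB) (M.le2 B hB) hs.on1 hs.on2
    (hnodes B hB 𝔪 hs) z w1 w2 hw1 hw2 h1 h2 hdiff

/-- **(D0-core) for a frame with `NodeSumAt` at the nodes and one function `z`** vanishing on the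
component `1` and invertible on the component `2`. -/
theorem mem_cart_one_of_frame [HasPrincipalDivisors K F]
    (M : Frame (K := K) π B0 B1 O1 O2)
    {hπ1 : algebraMap R F π ∈ O1} {hπ2 : algebraMap R F π ∈ O2}
    (hnodes : ∀ B : Subalgebra R F, B = B0 ∨ B = B1 → ∀ 𝔪 : Ideal B,
      IsNode π B0 B1 O1 O2 B 𝔪 → NodeSumAt π B O1 O2 𝔪)
    {z : F} (hz1 : ∃ c ∈ O1, z = algebraMap R F π * c) (hz2' : z⁻¹ ∈ O2) (hz0 : z ≠ 0)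
    {p : ℕ} (hp : p.Prime) (hchar : π ∣ (p : R)) (hperf : ∀ r : R, ∃ s : R, π ∣ s ^ p - r)
    (D : Divisor.degZero (K := K) (F := F)) (hpD : p • Pic0.mk D = 0)
    (hlev0 : HasLevel π B0 B1 O1 O2 0 (D : Divisor K F))
    (φ1 φ2 : F) (hφ1 : φ1 ∈ O1 ∧ φ1⁻¹ ∈ O1) (hφ2 : φ2 ∈ O2 ∧ φ2⁻¹ ∈ O2)
    (hred1 : ∀ B : Subalgebra R F, B = B0 ∨ B = B1 → ∀ 𝔪 : Ideal B, 𝔪.IsMaximal →
      algebraMap R B π ∈ 𝔪 → ¬ OffBranch π B O1 𝔪 → ∀ h : F, IsLocEq B 𝔪 (D : Divisor K F) h →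
      StrictOn π B O1 𝔪 0 h → StrictOn π B O2 𝔪 0 h →
      ∃ u : F, InLocal B 𝔪 u ∧ InLocal B 𝔪 u⁻¹ ∧ ∃ c ∈ O1, h - φ1 * u = algebraMap R F π * c)
    (hred2 : ∀ B : Subalgebra R F, B = B0 ∨ B = B1 → ∀ 𝔪 : Ideal B, 𝔪.IsMaximal →
      algebraMap R B π ∈ 𝔪 → ¬ OffBranch π B O2 𝔪 → ∀ h : F, IsLocEq B 𝔪 (D : Divisor K F) h →
      StrictOn π B O1 𝔪 0 h → StrictOn π B O2 𝔪 0 h →
      ∃ u : F, InLocal B 𝔪 u ∧ InLocal B 𝔪 u⁻¹ ∧ ∃ c ∈ O2, h - φ2 * u = algebraMap R F π * c) :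
    Pic0.mk D ∈ Cart π B0 B1 O1 O2 hπ1 hπ2 1 :=
  mem_cart_one_of_red_trivial M (hvert_of_tower M.unif1.ne_zero) hp hchar hperf
    (semi_of_frame M hnodes)
    (fun ψ1 ψ2 _ _ => approx2_of_z M.unif1 M.unif2 M.pi_mem1 M.pi_mem2 M.vals1 M.vals2 hz1 hz2' hz0
      ψ1 ψ2)
    D hpD hlev0 φ1 φ2 hφ1 hφ2 hred1 hred2

/-- **(D0-core) for a `NodalNumData`** with `(AC_1)`, `(AC_2)`, `NodeSumAt` at the nodes of the two
charts (helper98's `Seminormal98.nodeSumAt_of_strong`) and one function `z`. -/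
theorem mem_cart_one_of_numData [HasPrincipalDivisors K F]
    (N : NodalNumData R K F π t B0 B1 O1 O2)
    (hac1 : ResidueAlgClosed π O1) (hac2 : ResidueAlgClosed π O2)
    {hπ1 : algebraMap R F π ∈ O1} {hπ2 : algebraMap R F π ∈ O2}
    (hnodes0 : ∀ 𝔪 : Ideal B0, Fermat.Agent.M1.Fib.H0k98.IsNode π B0 O1 O2 𝔪 →
      NodeSumAt π B0 O1 O2 𝔪)
    (hnodes1 : ∀ 𝔪 : Ideal B1, Fermat.Agent.M1.Fib.H0k98.IsNode π B1 O1 O2 𝔪 →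
      NodeSumAt π B1 O1 O2 𝔪)
    {z : F} (hz1 : ∃ c ∈ O1, z = algebraMap R F π * c) (hz2' : z⁻¹ ∈ O2) (hz0 : z ≠ 0)
    {p : ℕ} (hp : p.Prime) (hchar : π ∣ (p : R)) (hperf : ∀ r : R, ∃ s : R, π ∣ s ^ p - r)
    (D : Divisor.degZero (K := K) (F := F)) (hpD : p • Pic0.mk D = 0)
    (hlev0 : HasLevel π B0 B1 O1 O2 0 (D : Divisor K F))
    (φ1 φ2 : F) (hφ1 : φ1 ∈ O1 ∧ φ1⁻¹ ∈ O1) (hφ2 : φ2 ∈ O2 ∧ φ2⁻¹ ∈ O2)
    (hred1 : ∀ B : Subalgebra R F, B = B0 ∨ B = B1 → ∀ 𝔪 : Ideal B, 𝔪.IsMaximal →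
      algebraMap R B π ∈ 𝔪 → ¬ OffBranch π B O1 𝔪 → ∀ h : F, IsLocEq B 𝔪 (D : Divisor K F) h →
      StrictOn π B O1 𝔪 0 h → StrictOn π B O2 𝔪 0 h →
      ∃ u : F, InLocal B 𝔪 u ∧ InLocal B 𝔪 u⁻¹ ∧ ∃ c ∈ O1, h - φ1 * u = algebraMap R F π * c)
    (hred2 : ∀ B : Subalgebra R F, B = B0 ∨ B = B1 → ∀ 𝔪 : Ideal B, 𝔪.IsMaximal →
      algebraMap R B π ∈ 𝔪 → ¬ OffBranch π B O2 𝔪 → ∀ h : F, IsLocEq B 𝔪 (D : Divisor K F) h →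
      StrictOn π B O1 𝔪 0 h → StrictOn π B O2 𝔪 0 h →
      ∃ u : F, InLocal B 𝔪 u ∧ InLocal B 𝔪 u⁻¹ ∧ ∃ c ∈ O2, h - φ2 * u = algebraMap R F π * c) :
    Pic0.mk D ∈ Cart π B0 B1 O1 O2 hπ1 hπ2 1 := by
  refine mem_cart_one_of_frame (Fermat.Agent.M1.Fib.FrameInst98.frame_of_numData N hac1 hac2) ?_
    hz1 hz2' hz0 hp hchar hperf D hpD hlev0 φ1 φ2 hφ1 hφ2 hred1 hred2
  rintro B (rfl | rfl) 𝔪 hs
  · exact hnodes0 𝔪 ⟨hs.max, hs.pi_mem, hs.on1, hs.on2⟩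
  · exact hnodes1 𝔪 ⟨hs.max, hs.pi_mem, hs.on1, hs.on2⟩

end Inst

end Fermat.Agent.M1.Car.DepthZeroInst58
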