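/-
M1 (S44), chapter CAR (helper53): **local equations at the maximal ideals of a chart which do NOT
contain `π`** (closed points of the generic fibre which are closed in the chart).

At such an `𝔪` the local ring `B_𝔪` is the valuation ring `O_v` of a place `v` of `F / K`
(`HorizPlace13.exists_place_of_horizontal`), `v` is the only place through `(B, 𝔪)`
(`PlacePrime58.eq_of_le`), and `ϖ_v ^ (D v)` is a local equation of `D`.

* `exists_unique_through` : the place of a maximal ideal `𝔪 ∌ π`.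
* `exists_locEq_horiz` : one chart.
* `horiz_of_numData` : the fields `horiz0`, `horiz1` of `TorsClass43.TorsFrame`.
-/
import Mathlib
import Fermat.Agent.M1.Car.PlacePrime58
import Fermat.Agent.ES.N34.NumData13

set_option autoImplicit false
set_option linter.unusedSectionVars false
set_option linter.unusedVariables false

namespace Fermat.Agent.M1.Car.HorizEq53

open AlgebraicCurve
open Fermat.Agent.ES.N34.NodalCore13 Fermat.Agent.ES.N34.NumData13
open Fermat.Agent.M1.Car.Defs43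

section Chart

variable {R K F : Type*} [CommRing R] [Field K] [Field F] [Algebra R K] [Algebra K F]
  [Algebra R F] [IsScalarTower R K F]

variable (π : R) (t : F) (B : Subalgebra R F) (O1 : ValuationSubring F)
  (ht : t ∈ B) (noethB : IsNoetherianRing B) (fracR : IsFractionRing R K)
  (dvrR : ∀ r : R, r ≠ 0 → ∃ (k : ℕ) (v : Rˣ), r = π ^ k * v)
  (pi_ne : algebraMap R F π ≠ 0)
  (intcl : ∀ x : F, IsIntegral B x → x ∈ B)
  (int0 : ∀ x ∈ B, IsIntegral (Algebra.adjoin R {t}) x)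
  (frac : ∀ x : F, ∃ a ∈ B, ∃ b ∈ B, b ≠ 0 ∧ x * b = a)
  (leO1 : ∀ x ∈ B, x ∈ O1) (pi_nonunit1 : (algebraMap R F π)⁻¹ ∉ O1)

include pi_ne leO1 pi_nonunit1 in
/-- a maximal ideal of the chart is nonzero (`π` is a nonzero nonunit of `B`). -/
theorem ne_bot_of_isMaximal (𝔪 : Ideal B) (h𝔪 : 𝔪.IsMaximal) : 𝔪 ≠ ⊥ := by
  intro hbot
  have hπ0 : algebraMap R B π ≠ 0 := fun h0 => pi_ne (by
    have := congrArg (fun z : B => (z : F)) h0
    simpa using this)
  have hspan : Ideal.span {algebraMap R B π} = ⊤ := by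
    by_contra hnt
    have hmax := h𝔪
    rw [hbot] at hmax
    have := hmax.eq_of_le hnt bot_le
    exact hπ0 (Ideal.span_singleton_eq_bot.mp this.symm)
  have h1 : (1 : B) ∈ Ideal.span {algebraMap R B π} := by rw [hspan]; exact Submodule.mem_top
  obtain ⟨c, hc⟩ := Ideal.mem_span_singleton'.mp h1
  apply pi_nonunit1
  have hc' : (c : F) * algebraMap R F π = 1 := by
    have := congrArg (fun z : B => (z : F)) hc
    simpa using this
  have : (algebraMap R F π)⁻¹ = (c : F) := by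
    rw [mul_comm] at hc'
    exact inv_eq_of_mul_eq_one_right hc'
  rw [this]; exact leO1 _ c.2

include ht noethB fracR dvrR pi_ne intcl int0 frac leO1 pi_nonunit1 in
/-- **The place of a maximal ideal `𝔪 ∌ π`**: it passes through `(B, 𝔪)` and is the only place
doing so. -/
theorem exists_unique_through (𝔪 : Ideal B) (h𝔪 : 𝔪.IsMaximal) (hπ𝔪 : algebraMap R B π ∉ 𝔪) :
    ∃ v : Place K F, Through B 𝔪 v ∧ ∀ P : Place K F, Through B 𝔪 P → P = v := by
  have h𝔪p : 𝔪.IsPrime := h𝔪.isPrime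
  have hne := ne_bot_of_isMaximal π B O1 pi_ne leO1 pi_nonunit1 𝔪 h𝔪
  obtain ⟨v, hv⟩ := Fermat.Agent.ES.N34.HorizPlace13.exists_place_of_horizontal (K := K) π t B ht
    noethB fracR dvrR pi_ne intcl int0 frac 𝔪 hne hπ𝔪
  have h1 : (1 : B) ∉ 𝔪 := fun h1 => h𝔪p.ne_top ((Ideal.eq_top_iff_one 𝔪).mpr h1)
  refine ⟨v, ⟨fun b => (hv b).mpr ⟨b, 1, h1, by simp⟩, fun b hb => (hv _).mpr ⟨1, b, hb, ?_⟩⟩,
    fun P hP => ?_⟩
  · have hb0 : (b : F) ≠ 0 := by
      intro h0
      apply hb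
      have : b = 0 := Subtype.ext h0
      rw [this]; exact 𝔪.zero_mem
    simp [inv_mul_cancel₀ hb0]
  · symm
    apply PlacePrime58.eq_of_le
    intro z hz
    obtain ⟨a, s, hs, hzs⟩ := (hv z).mp hz
    have hs0 : (s : F) ≠ 0 := by
      intro h0
      apply hs
      have : s = 0 := Subtype.ext h0
      rw [this]; exact 𝔪.zero_mem
    have : z = (a : F) * ((s : F))⁻¹ := by rw [← hzs]; field_simp
    rw [this]
    exact P.toValuationSubring.mul_mem _ _ (hP.1 a) (hP.2 s hs)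

include ht noethB fracR dvrR pi_ne intcl int0 frac leO1 pi_nonunit1 in
/-- **Every divisor has a local equation at a maximal ideal `𝔪 ∌ π`.** -/
theorem exists_locEq_horiz (D : Divisor K F) (𝔪 : Ideal B) (h𝔪 : 𝔪.IsMaximal)
    (hπ𝔪 : algebraMap R B π ∉ 𝔪) : ∃ h, IsLocEq B 𝔪 D h := by
  obtain ⟨v, -, hv⟩ := exists_unique_through (K := K) π t B O1 ht noethB fracR dvrR pi_ne intcl int0
    frac leO1 pi_nonunit1 𝔪 h𝔪 hπ𝔪
  obtain ⟨ϖ, hϖ⟩ := IsDiscreteValuationRing.exists_irreducible v.toValuationSubring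
  have hϖ0 : (ϖ : F) ≠ 0 := fun h0 => hϖ.ne_zero (Subtype.ext h0)
  refine ⟨(ϖ : F) ^ (D v), zpow_ne_zero _ hϖ0, fun P hP => ?_⟩
  rw [hv P hP, v.ord_zpow, v.ord_coe_irreducible hϖ, mul_one]

end Chart

section Model

variable {R K F : Type*} [CommRing R] [Field K] [Field F] [Algebra R K] [Algebra K F]
  [Algebra R F] [IsScalarTower R K F]
variable {π : R} {t : F} {B0 B1 : Subalgebra R F} {O1 O2 : ValuationSubring F}

/-- **HORIZ-LOCEQ**: the fields `horiz0`, `horiz1` of `TorsClass43.TorsFrame` for a nodal two-chart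
model. -/
theorem horiz_of_numData (N : NodalNumData R K F π t B0 B1 O1 O2) (D : Divisor K F) :
    (∀ 𝔪 : Ideal B0, 𝔪.IsMaximal → algebraMap R B0 π ∉ 𝔪 → ∃ h, IsLocEq B0 𝔪 D h) ∧
    (∀ 𝔪 : Ideal B1, 𝔪.IsMaximal → algebraMap R B1 π ∉ 𝔪 → ∃ h, IsLocEq B1 𝔪 D h) := by
  have M := N.model
  exact ⟨fun 𝔪 h𝔪 hπ𝔪 => exists_locEq_horiz (K := K) π t B0 O1 M.t_mem N.noeth0 N.fracR N.dvrR
      M.pi_ne M.intcl0 M.int0 N.frac0 M.le_O1_0 M.pi_nonunit1 D 𝔪 h𝔪 hπ𝔪,
    fun 𝔪 h𝔪 hπ𝔪 => exists_locEq_horiz (K := K) π t⁻¹ B1 O1 M.tinv_mem N.noeth1 N.fracR N.dvrR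
      M.pi_ne M.intcl1 M.int1 N.frac1 M.le_O1_1 M.pi_nonunit1 D 𝔪 h𝔪 hπ𝔪⟩

end Model

end Fermat.Agent.M1.Car.HorizEq53
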