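/-
Programme M1 (S44, row 38) / ORD (S33, chapter G) — helper15.

**The hypothesis `htor` of the TRI / depth contracts from helper88's HK4.**  `htor` is the last
non-model input (besides (T4)) of `ContractInst43.wildContract_of_cart`,
`ContractNum15.wildContract_of_numData` and `ORD/Geo/Climb15.climb_T5`:

  `∀ n, 1 ≤ n → n < p → ∀ v ∈ V, v ∈ Cart n → ∃ D, Pic0.mk D = v ∧ HasLevel n D ∧
      ∃ c, HasLead π n (W.pair D) c ∧ IsToric π B0 B1 O1 O2 c`.

helper88's `NRM/HtorPush88.exists_lead_isToric` proves the inner statement for a divisor `D` both of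
whose degeneracy push-forwards are principal (`PushReg88.PushData` along `α` and `β`), given a unit
section of `O(D)` on each chart (`hunit0`, `hunit1`).  This file discharges `hunit0/hunit1`
(`AdelicToCech43.gen_of_chartLevel`: a divisor of level `n ≥ 1` has a generating section `≡ 1 mod
π ^ n` on both components), identifies the canonical pair, and packages the result in the literal
`htor` shapes.

* `inv_mem_of_sub_one` : `g = 1 + ϖ ^ n c`, `n ≥ 1`, `c ∈ O` ⟹ `g ≠ 0`, `g⁻¹ ∈ O`;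
* `hunit_of_chartLevel` : the hypotheses `hunit0/hunit1` of HK4;
* `TorsFrame.exists_lead_isToric_of_pushData` : divisor level, for any `TorsFrame`;
* `htor_of_pushData` : the literal `htor` of `ContractInst43.wildContract_of_cart`;
* `htor_of_pushData_numData` : the literal `htor` of `ContractNum15.wildContract_of_numData`
  (frame `TorsInst15.torsFrame_of_numData`);
* `htor_climb_of_pushData` : the literal `htor` of `ORD/Geo/Climb15.climb_T5`.
-/
import Mathlib
import Fermat.Agent.M1.NRM.HtorPush88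
import Fermat.Agent.M1.Car.TorsInst15

set_option autoImplicit false

namespace Fermat.Agent.M1.Car.HtorWire15

open AlgebraicCurve Fermat.Agent.ES.N34.NodalCore13 Fermat.Agent.ES.N34.NumData13
  Fermat.Agent.M1.Car.Defs43 Fermat.Agent.M1.Car.AdelicToCech43 Fermat.Agent.M1.Car.TorsClass43
  Fermat.Agent.M1.Pic2.Defs60 Fermat.Agent.M1.Pic2.Lead60 Fermat.Agent.M1.Node.Thick25
  Fermat.Agent.M1.NRM.ToricLead88 Fermat.Agent.M1.NRM.PushReg88 Fermat.Agent.M1.NRM.HtorPush88
  Fermat.Agent.M1.Fib.Constants98 Fermat.Agent.M1.Fib.H0k98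

section Unit

variable {F : Type*} [Field F]

/-- `1 + ϖ ^ n c` (`n ≥ 1`, `c ∈ O`, `ϖ` a non-unit of `O`) is a unit of the valuation ring `O`. -/
theorem inv_mem_of_sub_one {O : ValuationSubring F} {ϖ : F} (hu : IsUnifOf O ϖ)
    {n : ℕ} (hn : 1 ≤ n) {g c : F} (hc : c ∈ O) (hg : g - 1 = ϖ ^ n * c) :
    g ≠ 0 ∧ g⁻¹ ∈ O := by
  have hlt : O.valuation (ϖ ^ n * c) < 1 := by
    rw [map_mul, map_pow]
    have h1 : O.valuation ϖ ^ n < 1 := pow_lt_one₀ zero_le hu.val_lt_one (by omega)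
    have h2 : O.valuation c ≤ 1 := (O.valuation_le_one_iff c).mpr hc
    calc O.valuation ϖ ^ n * O.valuation c ≤ O.valuation ϖ ^ n * 1 :=
          mul_le_mul' le_rfl h2
      _ = O.valuation ϖ ^ n := mul_one _
      _ < 1 := h1
  have hval : O.valuation g = 1 := by
    have e : g = 1 + ϖ ^ n * c := by rw [← hg]; ring
    rw [e]
    exact (O.valuation).map_one_add_of_lt hlt
  have hg0 : g ≠ 0 := by
    rintro rfl
    rw [map_zero] at hval
    exact zero_ne_one hval
  refine ⟨hg0, ?_⟩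
  rw [← O.valuation_le_one_iff, map_inv₀, hval, inv_one]

end Unit

section Wire

variable {R K F : Type*} [CommRing R] [Field K] [Field F] [Algebra K F] [Algebra R F]
variable {π : R} {B B0 B1 B01 : Subalgebra R F} {O1 O2 : ValuationSubring F}

/-- **The hypotheses `hunit0`, `hunit1` of HK4**: a divisor of level `n ≥ 1` on a chart has a
section of `O(D)` over the chart which is a unit of both Gauss rings. -/
theorem hunit_of_chartLevel [HasPrincipalDivisors K F] (L : LocFrame (K := K) π B O1 O2)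
    (hvert : ∀ P : Place K F, P.ord (algebraMap R F π) = 0) {n : ℕ} (hn : 1 ≤ n)
    {D : Divisor K F} (hD : ChartLevel π B O1 O2 n D) :
    ∃ z ∈ secs B O1 O2 D, z ≠ 0 ∧ z⁻¹ ∈ O1 ∧ z⁻¹ ∈ O2 := by
  obtain ⟨g, hg0, hG, ⟨c1, hc1, h1⟩, ⟨c2, hc2, h2⟩, -⟩ := gen_of_chartLevel L hvert hn hD
  exact ⟨g, hG.1, hg0, (inv_mem_of_sub_one L.unif1 hn hc1 h1).2,
    (inv_mem_of_sub_one L.unif2 hn hc2 h2).2⟩

variable {E₁ E₂ : Type*} [Field E₁] [Field E₂]
  [Algebra K E₁] [Algebra K E₂] [Algebra R E₁] [Algebra R E₂]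
  [Algebra E₁ F] [IsScalarTower K E₁ F] [IsScalarTower R E₁ F] [FiniteDimensional E₁ F]
  [Algebra.IsSeparable E₁ F]
  [Algebra E₂ F] [IsScalarTower K E₂ F] [IsScalarTower R E₂ F] [FiniteDimensional E₂ F]
  [Algebra.IsSeparable E₂ F]
variable {q : ℕ} {t : F}
  {C0 C1 C01 : Subalgebra R E₁} {O' : ValuationSubring E₁}
  {D0 D1 D01 : Subalgebra R E₂} {O'' : ValuationSubring E₂}

/-- **HK4 for a `TorsFrame`, divisor level**: if `D` has level `n ≥ 1` and both degeneracy
push-forwards of `D` are principal, the canonical pair of `D` has a toric leading coefficient. -/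
theorem TorsFrame.exists_lead_isToric_of_pushData [HasPrincipalDivisors K F] [Fact q.Prime]
    (W : TorsFrame (K := K) π t B0 B1 B01 O1 O2)
    (hα : Branch π q C0 C1 C01 O' O1 O2 B0 B1 B01)
    (hβ : Branch π q D0 D1 D01 O'' O2 O1 B0 B1 B01)
    {n : ℕ} (hn : 1 ≤ n) {D : Divisor K F} (hD : HasLevel π B0 B1 O1 O2 n D)
    {f₁ : E₁} {f₂ : E₂}
    (hDα : PushData C0 C1 O' B0 B1 D f₁) (hDβ : PushData D0 D1 O'' B0 B1 D f₂) :
    ∃ c, HasLead (algebraMap R F π) n (W.pair D) c ∧
      Fermat.Agent.M1.Pic2.ToricPic15.IsToric π B0 B1 O1 O2 c :=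
  exists_lead_isToric W.two hα hβ W.le01_1 W.le01_2 hDα hDβ
    (hunit_of_chartLevel W.loc0 W.vert hn hD.1) (hunit_of_chartLevel W.loc1 W.vert hn hD.2)
    rfl rfl hn (W.level_pair hn hD)

/-- **The hypothesis `htor` of `ContractInst43.wildContract_of_cart`** (and of `Climb15.climb_T5`)
from HK4: it suffices that every divisor representing a class of `V` has principal degeneracy
push-forwards (`PushData` along `α` and `β`). -/
theorem htor_of_pushData [HasPrincipalDivisors K F] [Fact q.Prime]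
    (W : TorsFrame (K := K) π t B0 B1 B01 O1 O2)
    (hα : Branch π q C0 C1 C01 O' O1 O2 B0 B1 B01)
    (hβ : Branch π q D0 D1 D01 O'' O2 O1 B0 B1 B01)
    {hπ1 : algebraMap R F π ∈ O1} {hπ2 : algebraMap R F π ∈ O2}
    (V : AddSubgroup (Pic0 K F))
    (hpush : ∀ v ∈ V, ∀ D : Divisor.degZero (K := K) (F := F), Pic0.mk D = v →
      ∃ (f₁ : E₁) (f₂ : E₂), PushData C0 C1 O' B0 B1 (D : Divisor K F) f₁ ∧
        PushData D0 D1 O'' B0 B1 (D : Divisor K F) f₂)
    (n : ℕ) (hn : 1 ≤ n) (v : Pic0 K F) (hv : v ∈ V)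
    (hvn : v ∈ Cart π B0 B1 O1 O2 hπ1 hπ2 n) :
    ∃ D : Divisor.degZero (K := K) (F := F), Pic0.mk D = v ∧
      HasLevel π B0 B1 O1 O2 n (D : Divisor K F) ∧
      ∃ c, HasLead (algebraMap R F π) n (W.pair (D : Divisor K F)) c ∧
        Fermat.Agent.M1.Pic2.ToricPic15.IsToric π B0 B1 O1 O2 c := by
  obtain ⟨D, hDv, hD⟩ := hvn
  obtain ⟨f₁, f₂, hDα, hDβ⟩ := hpush v hv D hDv
  exact ⟨D, hDv, hD, TorsFrame.exists_lead_isToric_of_pushData W hα hβ hn hD hDα hDβ⟩

end Wire

section NumData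

variable {R K F : Type*} [CommRing R] [Field K] [Field F] [Algebra R K] [Algebra K F]
  [Algebra R F] [IsScalarTower R K F]
variable {π : R} {t : F} {B0 B1 : Subalgebra R F} {O1 O2 : ValuationSubring F}
variable {E₁ E₂ : Type*} [Field E₁] [Field E₂]
  [Algebra K E₁] [Algebra K E₂] [Algebra R E₁] [Algebra R E₂]
  [Algebra E₁ F] [IsScalarTower K E₁ F] [IsScalarTower R E₁ F] [FiniteDimensional E₁ F]
  [Algebra.IsSeparable E₁ F]
  [Algebra E₂ F] [IsScalarTower K E₂ F] [IsScalarTower R E₂ F] [FiniteDimensional E₂ F]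
  [Algebra.IsSeparable E₂ F]
variable {q : ℕ}
  {C0 C1 C01 : Subalgebra R E₁} {O' : ValuationSubring E₁}
  {D0 D1 D01 : Subalgebra R E₂} {O'' : ValuationSubring E₂}

/-- **The hypothesis `htor` of `ContractNum15.wildContract_of_numData`**, literally (frame
`TorsInst15.torsFrame_of_numData N hac1 hac2 hnode`, overlap `Branch98.overlap t B0 _`). -/
theorem htor_of_pushData_numData [HasPrincipalDivisors K F] [Fact q.Prime]
    (N : NodalNumData R K F π t B0 B1 O1 O2)
    (hac1 : ResidueAlgClosed π O1) (hac2 : ResidueAlgClosed π O2)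
    (hnode : HasNode π B0 B1 O1 O2)
    (hα : Branch π q C0 C1 C01 O' O1 O2 B0 B1
      (Fermat.Agent.M1.Fib.Branch98.overlap t B0 N.model.t_mem))
    (hβ : Branch π q D0 D1 D01 O'' O2 O1 B0 B1
      (Fermat.Agent.M1.Fib.Branch98.overlap t B0 N.model.t_mem))
    {hπ1 : algebraMap R F π ∈ O1} {hπ2 : algebraMap R F π ∈ O2}
    (V : AddSubgroup (Pic0 K F))
    (hpush : ∀ v ∈ V, ∀ D : Divisor.degZero (K := K) (F := F), Pic0.mk D = v →
      ∃ (f₁ : E₁) (f₂ : E₂), PushData C0 C1 O' B0 B1 (D : Divisor K F) f₁ ∧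
        PushData D0 D1 O'' B0 B1 (D : Divisor K F) f₂)
    {p : ℕ} :
    ∀ n : ℕ, 1 ≤ n → n < p → ∀ v ∈ V, v ∈ Cart π B0 B1 O1 O2 hπ1 hπ2 n →
      ∃ D : Divisor.degZero (K := K) (F := F), Pic0.mk D = v ∧
        HasLevel π B0 B1 O1 O2 n (D : Divisor K F) ∧
        ∃ c, HasLead (algebraMap R F π) n
          ((Fermat.Agent.M1.Car.TorsInst15.torsFrame_of_numData N hac1 hac2 hnode).pair
            (D : Divisor K F)) c ∧
          Fermat.Agent.M1.Pic2.ToricPic15.IsToric π B0 B1 O1 O2 c :=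
  fun n hn _ v hv hvn =>
    htor_of_pushData (Fermat.Agent.M1.Car.TorsInst15.torsFrame_of_numData N hac1 hac2 hnode)
      hα hβ V hpush n hn v hv hvn

/-- **The hypothesis `htor` of `ORD/Geo/Climb15.climb_T5` / `depthContract_of_numData`**, literally:
`Kpush` is any subgroup of the ambient group `J` such that every divisor whose class lands in
`Kpush` has principal degeneracy push-forwards. -/
theorem htor_climb_of_pushData [HasPrincipalDivisors K F] [Fact q.Prime]
    (N : NodalNumData R K F π t B0 B1 O1 O2)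
    (hac1 : ResidueAlgClosed π O1) (hac2 : ResidueAlgClosed π O2)
    (hnode : HasNode π B0 B1 O1 O2)
    (hα : Branch π q C0 C1 C01 O' O1 O2 B0 B1
      (Fermat.Agent.M1.Fib.Branch98.overlap t B0 N.model.t_mem))
    (hβ : Branch π q D0 D1 D01 O'' O2 O1 B0 B1
      (Fermat.Agent.M1.Fib.Branch98.overlap t B0 N.model.t_mem))
    {J : Type*} [AddCommGroup J] (bc : Pic0 K F →+ J) (Kpush : AddSubgroup J)
    (hpush : ∀ D : Divisor.degZero (K := K) (F := F), bc (Pic0.mk D) ∈ Kpush →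
      ∃ (f₁ : E₁) (f₂ : E₂), PushData C0 C1 O' B0 B1 (D : Divisor K F) f₁ ∧
        PushData D0 D1 O'' B0 B1 (D : Divisor K F) f₂)
    {p d : ℕ} :
    ∀ n : ℕ, 1 ≤ n → n < d → ∀ D : Divisor.degZero (K := K) (F := F),
      HasLevel π B0 B1 O1 O2 n (D : Divisor K F) → p • Pic0.mk D = 0 →
      bc (Pic0.mk D) ∈ Kpush →
      ∃ c, HasLead (algebraMap R F π) n
          ((Fermat.Agent.M1.Car.TorsInst15.torsFrame_of_numData N hac1 hac2 hnode).pair
            (D : Divisor K F)) c ∧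
        Fermat.Agent.M1.Pic2.ToricPic15.IsToric π B0 B1 O1 O2 c := by
  intro n hn _ D hD _ hK
  obtain ⟨f₁, f₂, hDα, hDβ⟩ := hpush D hK
  exact TorsFrame.exists_lead_isToric_of_pushData
    (Fermat.Agent.M1.Car.TorsInst15.torsFrame_of_numData N hac1 hac2 hnode) hα hβ hn hD hDα hDβ

end NumData

end Fermat.Agent.M1.Car.HtorWire15
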