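/-
M1 (row 38, S44), chapter CAR, brick CAR-6 (RAT), part 3c — helper25.

**Rational classes of `J₀(M)`** over a number field `K ⊂ ℚ̄`:

* `mem_range_bcPic0_iff` : the image of `Pic⁰(K·F_M) → J₀(M)(ℚ̄)` is exactly the subgroup of
  `Gal(ℚ̄/K)`-fixed classes (`J₀(M)(K) = J₀(M)(ℚ̄)^{G_K}`; uses the rational cusp `∞`);
* `bcPic0_injective` : the map is injective (Hilbert 90 via leading coefficients at `∞`);
* `bcPic0_smul` : for `K/ℚ` normal, the map is `Gal(ℚ̄/ℚ)`-equivariant.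
-/
import Mathlib
import Fermat.Agent.M1.Car.RatInf25
import Fermat.Agent.M1.Car.StableRep25
import Fermat.Agent.RR.LHypGen
import Fermat.Agent.ES.N34.GalDescent1

set_option autoImplicit false
set_option linter.unusedSectionVars false
set_option linter.style.haveILetI false

open AlgebraicCurve ModularCurve HahnSeries IntermediateField Polynomial IsLocalRing

namespace Fermat.Agent.M1.Car.RatMain25

open Fermat.Agent.X0 Fermat.Agent.X0.FF Fermat.Agent.RED.Interface4 Fermat.Agent.RED.DESC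
  Fermat.Agent.M1.Car.FibreAbs25 Fermat.Agent.M1.Car.Fibre25 Fermat.Agent.M1.Car.FibreEmb25
  Fermat.Agent.M1.Car.FibreSep25 Fermat.Agent.M1.Car.FibreCount25 Fermat.Agent.M1.Car.RatClass25
  Fermat.Agent.M1.Car.RatInf25 Fermat.Agent.ES.N34.GalRational1

noncomputable section

/-- Shortcut to the instance found (slowly) by instance search. -/
local instance (priority := 5000) algKFK (M : ℕ) (K : IntermediateField ℚ Qbar) :
    Algebra K (FK M K) := SubalgebraClass.toAlgebra (FK M K)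

variable (M : ℕ) [NeZero M] (K : IntermediateField ℚ Qbar) [FiniteDimensional ℚ K]

/-! ### The image: fixed classes -/

/-- The action of `Gal(ℚ̄/K)` on `ℚ̄·F_M`. -/
def rho : ↥K.fixingSubgroup →* SemilinearAut Qbar (Fbar M) :=
  (arithmeticGalois (modularFunctionFieldFull M)).comp K.fixingSubgroup.subtype

theorem rho_apply (σ : ↥K.fixingSubgroup) : rho M K σ = galBar M σ.1 := rfl

/-- **Rational classes = fixed classes**: the image of `Pic⁰(K·F_M)` in `J₀(M)(ℚ̄)` is the group of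
`Gal(ℚ̄/K)`-fixed classes. -/
theorem mem_range_bcPic0_iff (v : JZero M) :
    v ∈ (bcPic0 M K).range ↔
      ∀ σ : Qbar ≃ₐ[ℚ] Qbar, (∀ a ∈ K, σ a = a) → σ • v = v := by
  constructor
  · rintro ⟨x, rfl⟩ σ hσ
    exact smul_bcPic0 M K σ hσ x
  · intro hv
    have H := Fermat.Agent.RR.LHypGen.lHyp_of_isGen (hxj M)
    have hRI : Fermat.Agent.M1.Car.StableRep25.RiemannIneq Qbar (Fbar M) :=
      Fermat.Agent.RR.LHypGen.riemann_inequality_of_isGen (hxj M)
    obtain ⟨D, hD, hstab⟩ := Fermat.Agent.M1.Car.StableRep25.exists_stable_rep (rho M K) H hRI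
      (pInf M) (fun σ => smul_pInf M σ.1) v
      (fun σ => hv σ.1 ((IntermediateField.mem_fixingSubgroup_iff K σ.1).mp σ.2))
    obtain ⟨E, hE⟩ := exists_extDiv_eq_of_stable M K (D : Divisor Qbar (Fbar M))
      (fun σ hσ => hstab ⟨σ, (IntermediateField.mem_fixingSubgroup_iff K σ).mpr hσ⟩)
    have hE0 : E ∈ Divisor.degZero (K := K) (F := FK M K) := by
      rw [Divisor.mem_degZero, ← degree_extDiv M K E, hE]
      exact D.2
    refine ⟨Pic0.mk ⟨E, hE0⟩, ?_⟩
    rw [bcPic0_mk, ← hD]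
    congr 1
    exact Subtype.ext hE

/-! ### Injectivity -/

/-- The leading coefficient at `∞` of a function of `ℚ̄·F_M`. -/
def lcBar (g : Fbar M) : Qbar := Fermat.Agent.ES.P36.DescTools1.lcHom (tauInf M g)

theorem lcBar_mul (a b : Fbar M) : lcBar M (a * b) = lcBar M a * lcBar M b := by
  rw [lcBar, map_mul, map_mul]
  rfl

theorem lcBar_const (c : Qbar) : lcBar M (algebraMap Qbar (Fbar M) c) = c :=
  Fermat.Agent.ES.P36.DescTools1.lcHom_algebraMap c

theorem lcBar_smul (σ : Qbar ≃ₐ[ℚ] Qbar) (g : Fbar M) :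
    lcBar M (galBar M σ • g) = σ (lcBar M g) := by
  rw [lcBar, tauInf_smul, Fermat.Agent.ES.P36.DescTools1.lcHom_coeffMap]
  rfl

theorem lcBar_ne_zero {g : Fbar M} (hg : g ≠ 0) : lcBar M g ≠ 0 :=
  Fermat.Agent.ES.P36.DescTools1.lcHom_ne_zero
    ((map_ne_zero_iff _ (tauInf M).injective).mpr hg)

/-- **Hilbert 90 at `∞`**: a nonzero function whose divisor is `Gal(ℚ̄/K)`-stable is a constant
multiple of a function of `K·F_M`. -/
theorem exists_bc_of_stable_div {g : Fbar M} (hg : g ≠ 0)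
    (hstab : ∀ σ : Qbar ≃ₐ[ℚ] Qbar, (∀ a ∈ K, σ a = a) →
      ∀ P : Place Qbar (Fbar M), P.ord (galBar M σ • g) = P.ord g) :
    ∃ f : FK M K, f ≠ 0 ∧ ∀ P : Place Qbar (Fbar M), P.ord g = P.ord (bc M K f) := by
  have H := Fermat.Agent.RR.LHypGen.lHyp_of_isGen (hxj M)
  have hl0 : lcBar M g ≠ 0 := lcBar_ne_zero M hg
  have hc0 : algebraMap Qbar (Fbar M) (lcBar M g)⁻¹ ≠ 0 := by
    rw [ne_eq, map_eq_zero_iff _ (algebraMap Qbar (Fbar M)).injective]
    exact inv_ne_zero hl0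
  obtain ⟨g', hg'⟩ : ∃ g' : Fbar M, g' = algebraMap Qbar (Fbar M) (lcBar M g)⁻¹ * g := ⟨_, rfl⟩
  have hg'0 : g' ≠ 0 := by
    rw [hg']
    exact mul_ne_zero hc0 hg
  have hlc : lcBar M g' = 1 := by
    rw [hg', lcBar_mul, lcBar_const, inv_mul_cancel₀ hl0]
  have hord : ∀ P : Place Qbar (Fbar M), P.ord g' = P.ord g := by
    intro P
    rw [hg', P.ord_mul hc0 hg, ffp_ord_algebraMap, zero_add]
  -- `g'` is fixed by `Gal(ℚ̄/K)`
  have hfix : ∀ σ : Qbar ≃ₐ[ℚ] Qbar, (∀ a ∈ K, σ a = a) → galBar M σ • g' = g' := by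
    intro σ hσ
    have hσg'0 : galBar M σ • g' ≠ 0 :=
      Fermat.Agent.M1.Car.StableRep25.smul_ne_zero' (galBar M σ) hg'0
    have hσord : ∀ P : Place Qbar (Fbar M), P.ord (galBar M σ • g') = P.ord g' := by
      intro P
      have hσc0 : galBar M σ • algebraMap Qbar (Fbar M) (lcBar M g)⁻¹ ≠ 0 :=
        Fermat.Agent.M1.Car.StableRep25.smul_ne_zero' (galBar M σ) hc0
      have hσg0 : galBar M σ • g ≠ 0 :=
        Fermat.Agent.M1.Car.StableRep25.smul_ne_zero' (galBar M σ) hg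
      rw [hord, hg', smul_mul', P.ord_mul hσc0 hσg0, hstab σ hσ P,
        SemilinearAut.smul_algebraMap, ffp_ord_algebraMap, zero_add]
    obtain ⟨c, hc⟩ := Fermat.Agent.RR.LSpace.eq_algebraMap_of_forall_ord_nonneg H
      (f := galBar M σ • g' * g'⁻¹) (fun P => by
        rw [P.ord_mul hσg'0 (inv_ne_zero hg'0), P.ord_inv, hσord P]
        omega)
    have h1 : galBar M σ • g' = algebraMap Qbar (Fbar M) c * g' := by
      rw [← hc, mul_assoc, inv_mul_cancel₀ hg'0, mul_one]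
    have h2 := congrArg (lcBar M) h1
    rw [lcBar_smul, lcBar_mul, lcBar_const, hlc, map_one, mul_one] at h2
    rw [h1, ← h2, map_one, one_mul]
  obtain ⟨z, hz⟩ := exists_bc_eq_of_fixed M K g' hfix
  refine ⟨z, ?_, fun P => ?_⟩
  · rintro rfl
    rw [map_zero] at hz
    exact hg'0 hz.symm
  · rw [hz, hord]

/-- **`Pic⁰(K·F_M) → J₀(M)(ℚ̄)` is injective.** -/
theorem bcPic0_injective : Function.Injective (bcPic0 M K) := by
  rw [injective_iff_map_eq_zero]
  intro x hx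
  obtain ⟨E, rfl⟩ := Pic0.mk_surjective x
  rw [bcPic0_mk] at hx
  have hx' : (QuotientAddGroup.mk (extDivZero M K E) : Pic0 Qbar (Fbar M)) = 0 := hx
  rw [QuotientAddGroup.eq_zero_iff, AddSubgroup.mem_addSubgroupOf] at hx'
  obtain ⟨g, hg0, hg⟩ := hx'
  have hg' : ∀ P : Place Qbar (Fbar M),
      extDiv M K (E : Divisor K (FK M K)) P = P.ord g := hg
  obtain ⟨f, hf0, hf⟩ := exists_bc_of_stable_div M K hg0 (fun σ hσ P => by
    have h1 := SemilinearAut.ord_smul (galBar M σ) ((galBar M σ)⁻¹ • P) g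
    rw [smul_inv_smul] at h1
    rw [h1, ← hg', ← hg', ← SemilinearAut.divisor_smul_apply, smul_extDiv M K σ hσ])
  show (QuotientAddGroup.mk E : Pic0 K (FK M K)) = 0
  rw [QuotientAddGroup.eq_zero_iff, AddSubgroup.mem_addSubgroupOf]
  refine ⟨f, hf0, fun w => ?_⟩
  obtain ⟨P, rfl⟩ := resPlace_surjective M K w
  show (E : Divisor K (FK M K)) (resPlace M K P) = (resPlace M K P).ord f
  rw [← ord_resPlace, ← hf, ← hg', extDiv_apply]

/-! ### Equivariance (for `K / ℚ` normal) -/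

section Normal

variable [Normal ℚ K]

/-- The action of `Gal(ℚ̄/ℚ)` on `K·F_M` through `Gal(K/ℚ)`. -/
def galK (τ : Qbar ≃ₐ[ℚ] Qbar) : SemilinearAut K (FK M K) :=
  arithmeticGalois (modularFunctionFieldFull M) (τ.restrictNormal K)

theorem galK_def (τ : Qbar ≃ₐ[ℚ] Qbar) :
    galK M K τ = arithmeticGalois (modularFunctionFieldFull M) (τ.restrictNormal K) := rfl

theorem galK_inv (τ : Qbar ≃ₐ[ℚ] Qbar) : (galK M K τ)⁻¹ = galK M K τ⁻¹ := by
  rw [galK_def, galK_def, ← map_inv]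
  congr 1
  exact (map_inv (AlgEquiv.restrictNormalHom (F := ℚ) (K₁ := Qbar) K) τ).symm

theorem bc_galK_smul (τ : Qbar ≃ₐ[ℚ] Qbar) (f : FK M K) :
    bc M K (galK M K τ • f) = galBar M τ • bc M K f :=
  Fermat.Agent.ES.N34.GalDescent1.baseChangeHom_smul M K τ f

/-- Restriction of places is `Gal(ℚ̄/ℚ)`-equivariant. -/
theorem resPlace_galBar_smul (τ : Qbar ≃ₐ[ℚ] Qbar) (P : Place Qbar (Fbar M)) :
    resPlace M K (galBar M τ • P) = galK M K τ • resPlace M K P := by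
  apply place_ext_ord
  intro f
  have h1 := SemilinearAut.ord_smul (galK M K τ) (resPlace M K P) ((galK M K τ)⁻¹ • f)
  rw [smul_inv_smul] at h1
  have h2 := SemilinearAut.ord_smul (galBar M τ) P ((galBar M τ)⁻¹ • bc M K f)
  rw [smul_inv_smul] at h2
  have h3 : (galBar M τ)⁻¹ = galBar M τ⁻¹ := (map_inv _ τ).symm
  rw [h1, ← ord_resPlace, ← ord_resPlace, h2, galK_inv, bc_galK_smul, h3]

/-- Extension of divisors is `Gal(ℚ̄/ℚ)`-equivariant. -/
theorem extDiv_galK_smul (τ : Qbar ≃ₐ[ℚ] Qbar) (E : Divisor K (FK M K)) :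
    extDiv M K (galK M K τ • E) = galBar M τ • extDiv M K E := by
  ext P
  have h3 : (galBar M τ)⁻¹ = galBar M τ⁻¹ := (map_inv _ τ).symm
  rw [extDiv_apply, SemilinearAut.divisor_smul_apply, SemilinearAut.divisor_smul_apply,
    extDiv_apply, h3, resPlace_galBar_smul, galK_inv]

/-- **`Pic⁰(K·F_M) → J₀(M)(ℚ̄)` is `Gal(ℚ̄/ℚ)`-equivariant** (`K / ℚ` normal). -/
theorem bcPic0_smul (τ : Qbar ≃ₐ[ℚ] Qbar) (x : Pic0 K (FK M K)) :
    bcPic0 M K (arithmeticGalois (modularFunctionFieldFull M) (τ.restrictNormal K) • x) =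
      τ • bcPic0 M K x := by
  obtain ⟨D, rfl⟩ := Pic0.mk_surjective x
  rw [SemilinearAut.pic0_smul_mk, bcPic0_mk, bcPic0_mk, galois_smul_pic0_def,
    SemilinearAut.pic0_smul_mk]
  congr 1
  apply Subtype.ext
  rw [SemilinearAut.coe_degZeroSMulHom, coe_extDivZero, coe_extDivZero,
    SemilinearAut.coe_degZeroSMulHom]
  exact extDiv_galK_smul M K τ _

end Normal

end

end Fermat.Agent.M1.Car.RatMain25
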