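/-
M1 (row 38, S44), chapter CAR, brick CAR-6 (RAT), part 3d — helper25.

**Every class of `J₀(M)(ℚ̄)` is rational over a finite normal number field**, and the groups of
rational classes `J₀(M)(K) := range (bcPic0 M K)` grow with `K`.
-/
import Mathlib
import Fermat.Agent.M1.Car.RatMain25
import Fermat.Agent.ES.GAL.OpenStab12

set_option autoImplicit false
set_option linter.unusedSectionVars false
set_option linter.style.haveILetI false

open AlgebraicCurve ModularCurve HahnSeries IntermediateField Polynomial IsLocalRing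

namespace Fermat.Agent.M1.Car.RatLevel25

open Fermat.Agent.X0 Fermat.Agent.X0.FF Fermat.Agent.RED.Interface4 Fermat.Agent.RED.DESC
  Fermat.Agent.M1.Car.RatClass25 Fermat.Agent.M1.Car.RatMain25

noncomputable section

/-- Shortcut to the instance found (slowly) by instance search. -/
local instance (priority := 5000) algKFK (M : ℕ) (K : IntermediateField ℚ Qbar) :
    Algebra K (FK M K) := SubalgebraClass.toAlgebra (FK M K)

variable (M : ℕ) [NeZero M]

/-- The groups of rational classes grow with the field. -/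
theorem range_bcPic0_mono {K K' : IntermediateField ℚ Qbar} [FiniteDimensional ℚ K]
    [FiniteDimensional ℚ K'] (h : K ≤ K') : (bcPic0 M K).range ≤ (bcPic0 M K').range := by
  intro v hv
  rw [mem_range_bcPic0_iff] at hv ⊢
  exact fun σ hσ => hv σ fun a ha => hσ a (h ha)

/-- **Finitely many classes of `J₀(M)(ℚ̄)` are rational over a common finite normal number field**
(containing any prescribed number field). -/
theorem exists_normal_forall_mem_range_bcPic0 (K₀ : IntermediateField ℚ Qbar)
    [FiniteDimensional ℚ K₀] (T : Set (JZero M)) (hT : T.Finite) :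
    ∃ (K : IntermediateField ℚ Qbar) (_ : FiniteDimensional ℚ K) (_ : Normal ℚ K),
      K₀ ≤ K ∧ ∀ y ∈ T, y ∈ (bcPic0 M K).range := by
  obtain ⟨L, hL, H⟩ := Fermat.Agent.ES.GAL.OpenStab12.hasLevel_finite M T hT
  haveI := hL
  haveI halgQ : Algebra.IsAlgebraic ℚ Qbar := AlgebraicClosure.isAlgebraic ℚ
  haveI hnorQ : Normal ℚ Qbar := normal_iff.mpr fun x =>
    ⟨Algebra.IsIntegral.isIntegral x, IsAlgClosed.splits _⟩
  let K : IntermediateField ℚ Qbar :=
    IntermediateField.normalClosure ℚ (K₀ ⊔ L : IntermediateField ℚ Qbar) Qbar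
  have hK : (K₀ ⊔ L : IntermediateField ℚ Qbar) ≤ K := IntermediateField.le_normalClosure _
  have hfin : FiniteDimensional ℚ K := normalClosure.is_finiteDimensional ℚ _ Qbar
  have hnor : Normal ℚ K := normalClosure.normal ℚ _ Qbar
  refine ⟨K, hfin, hnor, le_trans le_sup_left hK, fun y hy => ?_⟩
  rw [mem_range_bcPic0_iff]
  exact fun σ hσ => H σ (fun a ha => hσ a (hK (le_sup_right (a := K₀) ha))) y hy

/-- Every class of `J₀(M)(ℚ̄)` is rational over a finite normal number field. -/
theorem exists_normal_mem_range_bcPic0 (K₀ : IntermediateField ℚ Qbar)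
    [FiniteDimensional ℚ K₀] (y : JZero M) :
    ∃ (K : IntermediateField ℚ Qbar) (_ : FiniteDimensional ℚ K) (_ : Normal ℚ K),
      K₀ ≤ K ∧ y ∈ (bcPic0 M K).range := by
  obtain ⟨K, h1, h2, h3, h4⟩ :=
    exists_normal_forall_mem_range_bcPic0 M K₀ {y} (Set.finite_singleton y)
  exact ⟨K, h1, h2, h3, h4 y rfl⟩

end

end Fermat.Agent.M1.Car.RatLevel25
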