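/-
M1 (row 38, S44) / ORD chapter G (Gb), brick RatRel (helper25): **relative base change `K ≤ K'` of
places, divisors and divisor classes of `K·F_M`** (`K ≤ K' ⊂ ℚ̄` number fields).

* `bcRel M h : K·F_M →+* K'·F_M` (coefficientwise inclusion), `bc_bcRel`;
* `resRel M h : Place K' (K'·F_M) → Place K (K·F_M)`, `resRel_resPlace` (transitivity of
  restriction), `placeRes : BaseChange13.PlaceRes (bcRel M h) (resRel M h)`;
* `extRel M h` (conorm of divisors), `extDiv_extRel`, `degree_extRel`, `extRel_mem_principal`;
* `conorm M h : Pic⁰(K·F_M) →+ Pic⁰(K'·F_M)`, `bcPic0_conorm`, `conorm_injective`, `conorm_smul`,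
  `conorm_spec` (= the hypothesis `hbc` of `BaseChange13.cart_map_le`).
-/
import Mathlib
import Fermat.Agent.M1.Car.RatMain25
import Fermat.Agent.M1.Car.BaseChange13
import Fermat.Agent.ES.P36.ConstUnram1

set_option autoImplicit false
set_option linter.unusedSectionVars false
set_option linter.style.haveILetI false

open AlgebraicCurve ModularCurve HahnSeries IntermediateField Polynomial IsLocalRing

namespace Fermat.Agent.M1.Car.RatRel25

open Fermat.Agent.X0 Fermat.Agent.X0.FF Fermat.Agent.RED.Interface4 Fermat.Agent.RED.DESC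
  Fermat.Agent.M1.Car.FibreAbs25 Fermat.Agent.M1.Car.Fibre25 Fermat.Agent.M1.Car.FibreEmb25
  Fermat.Agent.M1.Car.FibreSep25 Fermat.Agent.M1.Car.FibreCount25 Fermat.Agent.M1.Car.RatClass25
  Fermat.Agent.M1.Car.RatMain25

noncomputable section

/-- Shortcut to the instance found (slowly) by instance search. -/
local instance (priority := 5000) algKFK (M : ℕ) (K : IntermediateField ℚ Qbar) :
    Algebra K (FK M K) := SubalgebraClass.toAlgebra (FK M K)

variable (M : ℕ) [NeZero M] {K K' : IntermediateField ℚ Qbar} [FiniteDimensional ℚ K]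
  [FiniteDimensional ℚ K'] (h : K ≤ K')

/-! ### Functions and places -/

/-- The coefficientwise inclusion `K·F_M → K'·F_M`. -/
def bcRel : FK M K →+* FK M K' := Fermat.Agent.ES.P36.ConstUnram1.bcLe M h

theorem bc_bcRel (f : FK M K) : bc M K' (bcRel M h f) = bc M K f :=
  Fermat.Agent.ES.P36.ConstUnram1.baseChangeHom_bcLe M h f

theorem bcRel_ne_zero {f : FK M K} (hf : f ≠ 0) : bcRel M h f ≠ 0 :=
  (map_ne_zero_iff _ (bcRel M h).injective).mpr hf

/-- Restriction of places from `K'·F_M` to `K·F_M`. -/
def resRel (_h : K ≤ K') (P' : Place K' (FK M K')) : Place K (FK M K) :=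
  resPlace M K (resPlace_surjective M K' P').choose

/-- **Transitivity of restriction.** -/
theorem resRel_resPlace (P : Place Qbar (Fbar M)) :
    resRel M h (resPlace M K' P) = resPlace M K P := by
  have hspec := (resPlace_surjective M K' (resPlace M K' P)).choose_spec
  obtain ⟨σ, hσ, hσP⟩ := exists_smul_eq_of_resPlace_eq M K' _ P hspec
  have h1 := resPlace_smul M K σ (fun a ha => hσ a (h ha))
    (resPlace_surjective M K' (resPlace M K' P)).choose
  rw [hσP] at h1
  exact h1.symm

theorem ord_resRel (P' : Place K' (FK M K')) (f : FK M K) :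
    P'.ord (bcRel M h f) = (resRel M h P').ord f := by
  obtain ⟨P, rfl⟩ := resPlace_surjective M K' P'
  rw [resRel_resPlace, ← ord_resPlace, ← ord_resPlace, bc_bcRel]

theorem mem_resRel_iff (P' : Place K' (FK M K')) (f : FK M K) :
    f ∈ (resRel M h P').toValuationSubring ↔ bcRel M h f ∈ P'.toValuationSubring := by
  obtain ⟨P, rfl⟩ := resPlace_surjective M K' P'
  rw [resRel_resPlace, mem_resPlace_iff, mem_resPlace_iff, bc_bcRel]

/-- **`resRel` is a restriction map without ramification** (`BaseChange13.PlaceRes`). -/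
theorem placeRes : Fermat.Agent.M1.Car.BaseChange13.PlaceRes (bcRel M h) (resRel M h) where
  mem_iff := mem_resRel_iff M h
  ord_eq P' f _ := ord_resRel M h P' f

theorem resRel_surjective : Function.Surjective (resRel M h) := by
  intro w
  obtain ⟨P, rfl⟩ := resPlace_surjective M K w
  exact ⟨resPlace M K' P, resRel_resPlace M h P⟩

/-! ### Divisors -/

open Classical in
/-- The conorm of a divisor: `(extRel E) P' = E (P' ∩ K·F_M)`. -/
def extRelFun (E : Divisor K (FK M K)) : Divisor K' (FK M K') :=
  Finsupp.onFinset ((extDiv M K E).support.image (resPlace M K'))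
    (fun P' => E (resRel M h P')) (by
      intro P' hP'
      obtain ⟨P, rfl⟩ := resPlace_surjective M K' P'
      rw [Finset.mem_image]
      refine ⟨P, ?_, rfl⟩
      rw [Finsupp.mem_support_iff, extDiv_apply, ← resRel_resPlace M h P]
      exact hP')

/-- **The conorm of divisors** from `K·F_M` to `K'·F_M`. -/
def extRel : Divisor K (FK M K) →+ Divisor K' (FK M K') where
  toFun := extRelFun M h
  map_zero' := by
    ext P'
    rfl
  map_add' D E := by
    ext P'
    rfl

theorem extRel_apply (E : Divisor K (FK M K)) (P' : Place K' (FK M K')) :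
    extRel M h E P' = E (resRel M h P') := rfl

/-- Extension to `ℚ̄` is transitive. -/
theorem extDiv_extRel (E : Divisor K (FK M K)) : extDiv M K' (extRel M h E) = extDiv M K E := by
  ext P
  rw [extDiv_apply, extRel_apply, resRel_resPlace, extDiv_apply]

theorem degree_extRel (E : Divisor K (FK M K)) :
    Divisor.degree (extRel M h E) = Divisor.degree E := by
  rw [← degree_extDiv M K' (extRel M h E), extDiv_extRel, degree_extDiv]

theorem extRel_eq_ord {D : Divisor K (FK M K)} {f : FK M K}
    (hD : ∀ w : Place K (FK M K), D w = w.ord f) (P' : Place K' (FK M K')) :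
    extRel M h D P' = P'.ord (bcRel M h f) := by
  rw [extRel_apply, hD, ord_resRel]

theorem extRel_mem_principal {D : Divisor K (FK M K)}
    (hD : D ∈ Divisor.principal (K := K) (F := FK M K)) :
    extRel M h D ∈ Divisor.principal (K := K') (F := FK M K') := by
  obtain ⟨f, hf, hD⟩ := hD
  exact ⟨bcRel M h f, bcRel_ne_zero M h hf, extRel_eq_ord M h hD⟩

/-! ### Classes -/

/-- The conorm on divisors of degree zero. -/
def extRelZero : Divisor.degZero (K := K) (F := FK M K) →+
    Divisor.degZero (K := K') (F := FK M K') :=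
  ((extRel M h).comp (Divisor.degZero (K := K) (F := FK M K)).subtype).codRestrict _ (fun D => by
    show Divisor.degree (extRel M h (D : Divisor K (FK M K))) = 0
    rw [degree_extRel]
    exact D.2)

@[simp] theorem coe_extRelZero (D : Divisor.degZero (K := K) (F := FK M K)) :
    (extRelZero M h D : Divisor K' (FK M K')) = extRel M h (D : Divisor K (FK M K)) := rfl

/-- **The conorm** `Pic⁰(K·F_M) → Pic⁰(K'·F_M)`. -/
def conorm : Pic0 K (FK M K) →+ Pic0 K' (FK M K') :=
  QuotientAddGroup.map _ _ (extRelZero M h) (by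
    rintro ⟨D, hD0⟩ hD
    simp only [AddSubgroup.mem_addSubgroupOf, AddSubgroup.mem_comap] at hD ⊢
    exact extRel_mem_principal M h hD)

theorem conorm_mk (D : Divisor.degZero (K := K) (F := FK M K)) :
    conorm M h (Pic0.mk D) = Pic0.mk (extRelZero M h D) := rfl

/-- The hypothesis `hbc` of `BaseChange13.cart_map_le`: the conorm is the conorm on
representatives. -/
theorem conorm_spec (D : Divisor.degZero (K := K) (F := FK M K)) :
    ∃ E : Divisor.degZero (K := K') (F := FK M K'), conorm M h (Pic0.mk D) = Pic0.mk E ∧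
      ∀ P', (E : Divisor K' (FK M K')) P' = (D : Divisor K (FK M K)) (resRel M h P') :=
  ⟨extRelZero M h D, rfl, fun _ => rfl⟩

/-- **Base change to `ℚ̄` factors through the conorm.** -/
theorem bcPic0_conorm (x : Pic0 K (FK M K)) : bcPic0 M K' (conorm M h x) = bcPic0 M K x := by
  obtain ⟨D, rfl⟩ := Pic0.mk_surjective x
  rw [conorm_mk, bcPic0_mk, bcPic0_mk]
  congr 1
  apply Subtype.ext
  rw [coe_extDivZero, coe_extDivZero, coe_extRelZero, extDiv_extRel]

theorem conorm_injective : Function.Injective (conorm M h) := by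
  intro x y hxy
  apply bcPic0_injective M K
  rw [← bcPic0_conorm M h, ← bcPic0_conorm M h, hxy]

/-- The conorm is `Gal(ℚ̄/ℚ)`-equivariant (for `K`, `K'` normal over `ℚ`). -/
theorem conorm_smul [Normal ℚ K] [Normal ℚ K'] (τ : Qbar ≃ₐ[ℚ] Qbar) (x : Pic0 K (FK M K)) :
    conorm M h (galK M K τ • x) = galK M K' τ • conorm M h x := by
  apply bcPic0_injective M K'
  rw [bcPic0_conorm, galK_def, galK_def, bcPic0_smul, bcPic0_smul, bcPic0_conorm]

/-- The conorm is transitive. -/
theorem conorm_conorm {K'' : IntermediateField ℚ Qbar} [FiniteDimensional ℚ K''] (h' : K' ≤ K'')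
    (x : Pic0 K (FK M K)) : conorm M h' (conorm M h x) = conorm M (h.trans h') x := by
  apply bcPic0_injective M K''
  rw [bcPic0_conorm, bcPic0_conorm, bcPic0_conorm]

/-- The image of the group of `K`-rational classes in `J₀(M)(ℚ̄)` through the conorm. -/
theorem map_conorm_map_bcPic0 (S : AddSubgroup (Pic0 K (FK M K))) :
    (S.map (conorm M h)).map (bcPic0 M K') = S.map (bcPic0 M K) := by
  rw [AddSubgroup.map_map]
  congr 1
  ext x
  exact bcPic0_conorm M h x

end

end Fermat.Agent.M1.Car.RatRel25
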