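/-
M1 (S44), chapter CAR (helper58), brick **CAR-3 (WD), function level, CAR side**:
from the output of LINK-CORE (`ū₁ = c · w ^ p` on the component `C_1`) to the hypothesis `hred1`
of (D0-core) `DepthZero58.mem_cart_one_of_red_trivial`.

Setting: `Frame π B0 B1 O1 O2` (`Mon/WildPL43`), `D` a divisor of level `0`, `p D = div f`.

* `hnorm_of_valRing` : the local ring of the branch `C_1` at a closed point is `p`-root closed in
  the residue field of `O_1` as soon as it is a valuation ring of it (`η` or `η⁻¹` is congruent to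
  an element of `B_𝔪` for every unit `η` of `O_1`).
* `hred_of_pth_power` : **(WD-2)** if `f` is a unit of `O_1` (and of `O_2` when there is a node),
  `f ≡ r φ₁ ^ p mod π O_1` with `φ₁` a unit of `O_1`, and the branch local rings are `p`-root
  closed, then the reduction of `D` on `C_1` is `div φ̄₁` in the literal form `hred1`.
* `dvd_of_pth_power_at_node` : at a thick node, `η ^ p ≡ ε x ^ b mod π O_1` (`ε` a unit of the local
  ring) forces `p ∣ b`.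
* `exists_unit_rep` : **(b-shift)** a level-`0` divisor `D` with `p D = div f`, `v₁(f) = 0`,
  `v₂(f) = e p b'` is linearly equivalent to a level-`0` divisor `D'` with `p D' = div f'`, `f'` a
  unit of both `O_1` and `O_2`.
-/
import Mathlib
import Fermat.Agent.M1.Car.DepthZero58

set_option autoImplicit false
set_option linter.unusedSectionVars false
set_option linter.unusedVariables false

namespace Fermat.Agent.M1.Car.RedTrivial58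

open AlgebraicCurve Fermat.Agent.ES.N34.NodalCore13 Fermat.Agent.M1.Car.Defs43
  Fermat.Agent.M1.Node.Thick25 Fermat.Agent.M1.Mon.WildPL43 Fermat.Agent.M1.Car.Slope43
  Fermat.Agent.M1.Car.DepthZero58

section WD2

variable {R K F : Type*} [CommRing R] [Field K] [Field F] [Algebra K F] [Algebra R F]
variable {π : R} {B0 B1 : Subalgebra R F} {O1 O2 : ValuationSubring F}

/-- The local ring of the branch at `𝔪` is `p`-root closed in the residue field of `O_1`, as soon as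
it is a valuation ring of it. -/
theorem hnorm_of_valRing {B : Subalgebra R F} {𝔪 : Ideal B} [h𝔪 : 𝔪.IsPrime]
    (hu1 : IsUnifOf O1 (algebraMap R F π)) (hπ1 : algebraMap R F π ∈ O1)
    (le1 : ∀ x ∈ B, x ∈ O1) (hon : ¬ OffBranch π B O1 𝔪) {p : ℕ} (hp : 0 < p)
    (hval : ∀ η : F, η ∈ O1 → η⁻¹ ∈ O1 →
      (∃ b, InLocal B 𝔪 b ∧ ∃ c ∈ O1, η - b = algebraMap R F π * c) ∨
      (∃ b, InLocal B 𝔪 b ∧ ∃ c ∈ O1, η⁻¹ - b = algebraMap R F π * c))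
    (η : F) (hη : η ∈ O1)
    (hpow : ∃ b, InLocal B 𝔪 b ∧ ∃ c ∈ O1, η ^ p - b = algebraMap R F π * c) :
    ∃ b', InLocal B 𝔪 b' ∧ ∃ c ∈ O1, η - b' = algebraMap R F π * c := by
  by_cases hη0 : η = 0
  · exact ⟨0, InLocal.of_mem h𝔪.ne_top B.zero_mem, 0, O1.zero_mem, by rw [hη0]; simp⟩
  by_cases hη' : η⁻¹ ∈ O1
  swap
  · -- `η ∈ π O_1`
    obtain ⟨c, hc, hηc⟩ := hu1.unif η hη hη'
    exact ⟨0, InLocal.of_mem h𝔪.ne_top B.zero_mem, c, hc, by rw [sub_zero, hηc]⟩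
  rcases hval η hη hη' with h | ⟨b'', hb'', hcc''⟩
  · exact h
  obtain ⟨b, hb, c, hc, hcc⟩ := hpow
  obtain ⟨k, rfl⟩ : ∃ k, p = k + 1 := ⟨p - 1, by omega⟩
  have hb1 : b ∈ O1 := inLocal_mem_of_on hu1 le1 hon hb
  have hb''1 : b'' ∈ O1 := inLocal_mem_of_on hu1 le1 hon hb''
  obtain ⟨c1, hc1, hcc1⟩ := pow_sub_pow_eq O1.toSubring hη' hb''1 hcc'' k
  refine ⟨b * b'' ^ k, inLocal_mul hb (inLocal_pow hb'' k), c * (η⁻¹) ^ k + b * c1,
    O1.add_mem _ _ (O1.mul_mem _ _ hc (pow_mem hη' k)) (O1.mul_mem _ _ hb1 hc1), ?_⟩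
  have e : η - b * b'' ^ k = (η ^ (k + 1) - b) * (η⁻¹) ^ k + b * ((η⁻¹) ^ k - b'' ^ k) := by
    have : η ^ (k + 1) * (η⁻¹) ^ k = η := by
      rw [pow_succ, inv_pow]
      field_simp
    linear_combination -this
  rw [e, hcc, hcc1]; ring

/-- **(WD-2)**: if `p D = div f`, `f` a unit of `O_1` (and of `O_2` if there is a node),
`f ≡ r φ₁ ^ p mod π O_1` (the output of LINK-CORE on the component `1`, `φ₁` any lift of the
`p`-th root) and the branch local rings are `p`-root closed, then `hred1` holds for `φ₁`. -/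
theorem hred_of_pth_power (M : Frame (K := K) π B0 B1 O1 O2) {p : ℕ} (hp : 0 < p)
    (D : Divisor K F) {f : F} (hf0 : f ≠ 0)
    (hdiv : ∀ P : Place K F, (p • D) P = P.ord f) (hf1 : f ∈ O1 ∧ f⁻¹ ∈ O1)
    (hf2 : (∃ (B : Subalgebra R F) (𝔪 : Ideal B), IsNode π B0 B1 O1 O2 B 𝔪) → f ∈ O2 ∧ f⁻¹ ∈ O2)
    {φ1 : F} (hφ1 : φ1 ∈ O1 ∧ φ1⁻¹ ∈ O1)
    (hpow : ∃ r : R, ∃ c ∈ O1, f - algebraMap R F r * φ1 ^ p = algebraMap R F π * c)
    (hnorm1 : ∀ B : Subalgebra R F, B = B0 ∨ B = B1 → ∀ 𝔪 : Ideal B, 𝔪.IsMaximal →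
      algebraMap R B π ∈ 𝔪 → ¬ OffBranch π B O1 𝔪 → ∀ η : F, η ∈ O1 →
      (∃ b, InLocal B 𝔪 b ∧ ∃ c ∈ O1, η ^ p - b = algebraMap R F π * c) →
      ∃ b', InLocal B 𝔪 b' ∧ ∃ c ∈ O1, η - b' = algebraMap R F π * c) :
    ∀ B : Subalgebra R F, B = B0 ∨ B = B1 → ∀ 𝔪 : Ideal B, 𝔪.IsMaximal →
      algebraMap R B π ∈ 𝔪 → ¬ OffBranch π B O1 𝔪 → ∀ h : F, IsLocEq B 𝔪 D h →
      StrictOn π B O1 𝔪 0 h → StrictOn π B O2 𝔪 0 h →
      ∃ u : F, InLocal B 𝔪 u ∧ InLocal B 𝔪 u⁻¹ ∧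
        ∃ c ∈ O1, h - φ1 * u = algebraMap R F π * c := by
  intro B hB 𝔪 h𝔪 hπ𝔪 hon h hh hs1 hs2
  have hprime := h𝔪.isPrime
  have hp0 : algebraMap R F π ≠ 0 := M.unif1.ne_zero
  obtain ⟨hh0, hh1, hh1'⟩ := strict_unit M.pi_mem1 hon hs1
  obtain ⟨r, c, hc, hfr⟩ := hpow
  -- `φ₁ ≠ 0`
  have hφ0 : φ1 ≠ 0 := by
    rintro rfl
    rw [zero_pow hp.ne', mul_zero, sub_zero] at hfr
    apply M.unif1.nonunit
    have : (algebraMap R F π)⁻¹ = f⁻¹ * c := by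
      field_simp
      rw [hfr]
    rw [this]
    exact O1.mul_mem _ _ hf1.2 hc
  have hφp0 : φ1 ^ p ≠ 0 := pow_ne_zero p hφ0
  have hφpinv : (φ1 ^ p)⁻¹ ∈ O1 := by rw [← inv_pow]; exact pow_mem hφ1.2 p
  -- `r` is a unit of `R`
  have hr' : ¬ π ∣ r := by
    refine Side.not_dvd_const M (q := f / φ1 ^ p) ?_ (div_ne_zero hf0 hφp0)
      ⟨c * (φ1 ^ p)⁻¹, O1.mul_mem _ _ hc hφpinv, ?_⟩
    · rw [inv_div, div_eq_mul_inv]
      exact O1.mul_mem _ _ (pow_mem hφ1.1 p) hf1.2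
    · field_simp
      linear_combination hfr
  have hr0 : r ≠ 0 := fun h0 => hr' (h0 ▸ dvd_zero π)
  obtain ⟨k, v, hkv⟩ := M.dvrR r hr0
  have hk : k = 0 := by
    by_contra hk
    exact hr' (hkv ▸ Dvd.dvd.mul_right (dvd_pow_self π hk) _)
  subst hk
  rw [pow_zero, one_mul] at hkv
  subst hkv
  set ρ : F := algebraMap R F (v : R) with hρ
  set ρ' : F := algebraMap R F ((v⁻¹ : Rˣ) : R) with hρ'
  have hρρ' : ρ * ρ' = 1 := by rw [hρ, hρ', ← map_mul, Units.mul_inv, map_one]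
  have hρ0 : ρ ≠ 0 := left_ne_zero_of_mul_eq_one hρρ'
  have hρL : InLocal B 𝔪 ρ := InLocal.of_mem h𝔪.ne_top (B.algebraMap_mem _)
  have hρ'L : InLocal B 𝔪 ρ' := InLocal.of_mem h𝔪.ne_top (B.algebraMap_mem _)
  -- `u_x = f / h ^ p` is a unit of `B_𝔪`
  have hhp0 : h ^ p ≠ 0 := pow_ne_zero p hh0
  have hk : IsLocEq B 𝔪 (0 : Divisor K F) (f / h ^ p) := by
    have := (IsLocEq.of_principal B 𝔪 hf0 hdiv).div (hh.pow p)
    rwa [sub_self] at this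
  have hux1 : f / h ^ p ∈ O1 := by
    rw [div_eq_mul_inv, ← inv_pow]
    exact O1.mul_mem _ _ hf1.1 (pow_mem hh1' p)
  have hux1' : (f / h ^ p)⁻¹ ∈ O1 := by
    rw [inv_div, div_eq_mul_inv]
    exact O1.mul_mem _ _ (pow_mem hh1 p) hf1.2
  have hux : InLocal B 𝔪 (f / h ^ p) := by
    refine M.hart B hB 𝔪 h𝔪 hπ𝔪 _ hk.1 (fun P hP => by rw [hk.2 P hP]; simp) (Or.inr hux1) ?_
    by_cases hoff2 : OffBranch π B O2 𝔪
    · exact Or.inl hoff2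
    · obtain ⟨-, -, hh2'⟩ := strict_unit M.pi_mem2 hoff2 hs2
      refine Or.inr ?_
      rw [div_eq_mul_inv, ← inv_pow]
      exact O2.mul_mem _ _ (hf2 ⟨B, 𝔪, hB, h𝔪, hπ𝔪, hon, hoff2⟩).1 (pow_mem hh2' p)
  have hux' : InLocal B 𝔪 (f / h ^ p)⁻¹ := by
    have hk' := hk.inv
    rw [neg_zero] at hk'
    refine M.hart B hB 𝔪 h𝔪 hπ𝔪 _ hk'.1 (fun P hP => by rw [hk'.2 P hP]; simp) (Or.inr hux1') ?_
    by_cases hoff2 : OffBranch π B O2 𝔪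
    · exact Or.inl hoff2
    · obtain ⟨-, hh2, -⟩ := strict_unit M.pi_mem2 hoff2 hs2
      refine Or.inr ?_
      rw [inv_div, div_eq_mul_inv]
      exact O2.mul_mem _ _ (pow_mem hh2 p) (hf2 ⟨B, 𝔪, hB, h𝔪, hπ𝔪, hon, hoff2⟩).2
  -- `η = h / φ₁`
  have hη : h / φ1 ∈ O1 := by rw [div_eq_mul_inv]; exact O1.mul_mem _ _ hh1 hφ1.2
  have hη' : φ1 / h ∈ O1 := by rw [div_eq_mul_inv]; exact O1.mul_mem _ _ hφ1.1 hh1'
  obtain ⟨b', hb', c', hc', hcc'⟩ := hnorm1 B hB 𝔪 h𝔪 hπ𝔪 hon (h / φ1) hη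
    ⟨ρ * (f / h ^ p)⁻¹, inLocal_mul hρL hux', c * (φ1 ^ p)⁻¹ * (f / h ^ p)⁻¹,
      O1.mul_mem _ _ (O1.mul_mem _ _ hc hφpinv) hux1', by
        have e : (h / φ1) ^ p - ρ * (f / h ^ p)⁻¹ =
            (f - ρ * φ1 ^ p) * ((φ1 ^ p)⁻¹ * (f / h ^ p)⁻¹) := by
          rw [div_pow, inv_div]
          field_simp
        rw [e, hfr]; ring⟩
  obtain ⟨b'', hb'', c'', hc'', hcc''⟩ := hnorm1 B hB 𝔪 h𝔪 hπ𝔪 hon (φ1 / h) hη'
    ⟨ρ' * (f / h ^ p), inLocal_mul hρ'L hux, -(ρ' * (f / h ^ p) * c * f⁻¹),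
      O1.neg_mem _ (O1.mul_mem _ _ (O1.mul_mem _ _ (O1.mul_mem _ _ (M.algebraMap_mem1 _) hux1) hc)
        hf1.2), by
        have e2 : (φ1 / h) ^ p - ρ' * (f / h ^ p) = (φ1 ^ p - ρ' * f) * (h ^ p)⁻¹ := by
          rw [div_pow]
          field_simp
        have e3 : φ1 ^ p - ρ' * f = -(ρ' * (algebraMap R F π * c)) := by
          linear_combination (-ρ') * hfr - φ1 ^ p * hρρ'
        rw [e2, e3]
        field_simp⟩
  -- `b' b'' ≡ 1`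
  have hb''1 : b'' ∈ O1 := inLocal_mem_of_on M.unif1 (M.le1 B hB) hon hb''
  have hone : ∃ c ∈ O1, b' * b'' - 1 = algebraMap R F π * c := by
    refine ⟨-(c' * b'') - (h / φ1) * c'', sub_mem (O1.neg_mem _ (O1.mul_mem _ _ hc' hb''1))
      (O1.mul_mem _ _ hη hc''), ?_⟩
    have hηη' : h / φ1 * (φ1 / h) = 1 := by field_simp
    linear_combination (-b'') * hcc' - (h / φ1) * hcc'' + hηη'
  obtain ⟨a1, d1, hd1, e1⟩ := hb'
  obtain ⟨a2, d2, hd2, e2⟩ := hb''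
  have hmem : a1 * a2 - d1 * d2 ∈ 𝔪 := by
    refine InLocal.num_mem (M.le1 B hB) hon (w := b' * b'' - 1) (d := d1 * d2) ?_ hone
    push_cast
    rw [← e1, ← e2]; ring
  have ha1 : a1 ∉ 𝔪 := by
    intro ha1
    have : d1 * d2 ∈ 𝔪 := by
      have e3 : d1 * d2 = a1 * a2 - (a1 * a2 - d1 * d2) := by ring
      rw [e3]
      exact 𝔪.sub_mem (𝔪.mul_mem_right _ ha1) hmem
    exact (hprime.mem_or_mem this).elim hd1 hd2
  refine ⟨b', ⟨a1, d1, hd1, e1⟩, inLocal_inv_of_num ha1 e1, φ1 * c', O1.mul_mem _ _ hφ1.1 hc', ?_⟩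
  have : h - φ1 * b' = φ1 * (h / φ1 - b') := by field_simp
  rw [this, hcc']; ring

/-- The hypothesis `hnorm1` of `hred_of_pth_power` from "the local rings of the branch `C_1` are
valuation rings of the residue field of `O_1`". -/
theorem hnorm1_of_valRing (M : Frame (K := K) π B0 B1 O1 O2) {p : ℕ} (hp : 0 < p)
    (hval : ∀ B : Subalgebra R F, B = B0 ∨ B = B1 → ∀ 𝔪 : Ideal B, 𝔪.IsMaximal →
      algebraMap R B π ∈ 𝔪 → ¬ OffBranch π B O1 𝔪 → ∀ η : F, η ∈ O1 → η⁻¹ ∈ O1 →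
      (∃ b, InLocal B 𝔪 b ∧ ∃ c ∈ O1, η - b = algebraMap R F π * c) ∨
      (∃ b, InLocal B 𝔪 b ∧ ∃ c ∈ O1, η⁻¹ - b = algebraMap R F π * c)) :
    ∀ B : Subalgebra R F, B = B0 ∨ B = B1 → ∀ 𝔪 : Ideal B, 𝔪.IsMaximal →
      algebraMap R B π ∈ 𝔪 → ¬ OffBranch π B O1 𝔪 → ∀ η : F, η ∈ O1 →
      (∃ b, InLocal B 𝔪 b ∧ ∃ c ∈ O1, η ^ p - b = algebraMap R F π * c) →
      ∃ b', InLocal B 𝔪 b' ∧ ∃ c ∈ O1, η - b' = algebraMap R F π * c := by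
  intro B hB 𝔪 h𝔪 hπ𝔪 hon η hη hpow
  have := h𝔪.isPrime
  exact hnorm_of_valRing M.unif1 M.pi_mem1 (M.le1 B hB) hon hp (hval B hB 𝔪 h𝔪 hπ𝔪 hon) η hη hpow

end WD2

/-! ### At a thick node: `p ∣ b` -/

section Node

variable {F : Type*} [Field F] {C : Subring F} {O1 O2 : ValuationSubring F} {ϖ x y : F} {e : ℕ}

/-- `y ∈ ϖ O_1`. -/
theorem y_mem_pi (T : ThickNode C O1 O2 ϖ x y e) : ∃ o ∈ O1, y = ϖ * o := by
  rw [T.unif1.mem_pi_iff, T.val1_y]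
  exact pow_lt_one₀ zero_le T.unif1.val_lt_one T.e_pos.ne'

/-- `x` is a unit of `O_1`. -/
theorem x_inv_mem (T : ThickNode C O1 O2 ϖ x y e) : x⁻¹ ∈ O1 := by
  rw [← O1.valuation_le_one_iff, map_inv₀, T.val1_x, inv_one]

/-- Elements of `(ϖ, x, y)` are congruent to a multiple of `x` modulo `ϖ O_1`. -/
theorem cong_mul_x (T : ThickNode C O1 O2 ϖ x y e) {c a b d : F} (ha : a ∈ C) (hb : b ∈ C)
    (hd : d ∈ C) (hc : c = a * ϖ + b * x + d * y) : ∃ o ∈ O1, c - b * x = ϖ * o := by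
  obtain ⟨oy, hoy, hy⟩ := y_mem_pi T
  exact ⟨a + d * oy, O1.add_mem _ _ (T.le1 a ha) (O1.mul_mem _ _ (T.le1 d hd) hoy), by
    rw [hc, hy]; ring⟩

/-- An element of `C` congruent to a unit of `C` modulo `ϖ O_1` is not in `(ϖ, x, y)`. -/
theorem not_mem_of_cong_unit (T : ThickNode C O1 O2 ϖ x y e) {c ε a b d : F} (hc : c ∈ C)
    (hε : ε ∈ C) (hε' : ε⁻¹ ∈ C) (hε0 : ε ≠ 0) (hcε : ∃ o ∈ O1, c - ε = ϖ * o) (ha : a ∈ C)
    (hb : b ∈ C) (hd : d ∈ C) (hcabd : c = a * ϖ + b * x + d * y) : False := by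
  obtain ⟨a', ha', b', hb', hab'⟩ := T.vert1 (c - ε) (C.sub_mem hc hε) hcε
  refine T.not_unit_of_mem (c := ε) hε' (mul_inv_cancel₀ hε0) (C.sub_mem ha ha') hb
    (C.sub_mem hd hb') ?_
  have : ε = c - (c - ε) := by ring
  rw [this, hab', hcabd]; ring

/-- **`p ∣ b` at a thick node**, natural exponents: if the local ring of the branch is `p`-root
closed and `η ^ p ≡ ε x ^ b mod ϖ O_1` with `ε` a unit of `C`, then `p ∣ b`. -/
theorem dvd_of_pow_cong_nat (T : ThickNode C O1 O2 ϖ x y e) {p : ℕ} (hp : 0 < p)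
    (hnormC : ∀ η : F, η ∈ O1 → (∃ c ∈ C, ∃ o ∈ O1, η ^ p - c = ϖ * o) →
      ∃ c' ∈ C, ∃ o ∈ O1, η - c' = ϖ * o) :
    ∀ (b : ℕ) (η ε : F), η ∈ O1 → ε ∈ C → ε⁻¹ ∈ C → ε ≠ 0 →
      (∃ o ∈ O1, η ^ p - ε * x ^ b = ϖ * o) → p ∣ b := by
  intro b
  induction b using Nat.strong_induction_on with
  | _ b ih =>
    intro η ε hη hε hε' hε0 hcong
    rcases Nat.eq_zero_or_pos b with rfl | hb
    · exact dvd_zero p
    have hx1 : x ∈ O1 := T.le1 x T.x_mem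
    have hxinv := x_inv_mem T
    have hx0 := T.x_ne_zero
    obtain ⟨β, hβ, o1, ho1, hβe⟩ := hnormC η hη
      ⟨ε * x ^ b, C.mul_mem hε (C.pow_mem T.x_mem b), hcong⟩
    have hβ1 : β ∈ O1 := T.le1 β hβ
    -- `β ^ p ≡ ε x ^ b`
    obtain ⟨o2, ho2, hβp⟩ : ∃ o ∈ O1, β ^ p - ε * x ^ b = ϖ * o := by
      obtain ⟨o, ho, hoe⟩ := pow_sub_pow_eq O1.toSubring hη hβ1 ⟨o1, ho1, hβe⟩ p
      obtain ⟨o', ho', hoe'⟩ := hcong
      exact ⟨o' - o, sub_mem ho' ho, by linear_combination hoe' - hoe⟩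
    -- `β ≡ b₁ x`
    obtain ⟨b1, hb1, o3, ho3, hβb⟩ : ∃ b1 ∈ C, ∃ o ∈ O1, β - b1 * x = ϖ * o := by
      by_cases hβ0 : β = 0
      · exact ⟨0, C.zero_mem, 0, O1.zero_mem, by rw [hβ0]; ring⟩
      by_cases hβu : β⁻¹ ∈ C
      · exfalso
        -- `β ^ p` is a unit congruent to an element of `(ϖ, x, y)`
        obtain ⟨k, hk⟩ : ∃ k, b = k + 1 := ⟨b - 1, by omega⟩
        refine not_mem_of_cong_unit T (c := ε * x ^ b) (ε := β ^ p)
          (C.mul_mem hε (C.pow_mem T.x_mem b)) (C.pow_mem hβ p)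
          (by rw [← inv_pow]; exact C.pow_mem hβu p) (pow_ne_zero p hβ0)
          ⟨-o2, O1.neg_mem _ ho2, by linear_combination -hβp⟩ C.zero_mem
          (C.mul_mem hε (C.pow_mem T.x_mem k)) C.zero_mem ?_
        rw [hk, pow_succ]; ring
      · obtain ⟨a, ha, b1, hb1, d, hd, hβabd⟩ := T.nonunit β hβ hβu
        obtain ⟨o, ho, hoe⟩ := cong_mul_x T ha hb1 hd hβabd
        exact ⟨b1, hb1, o, ho, hoe⟩
    have hb11 : b1 ∈ O1 := T.le1 b1 hb1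
    -- `(b₁ x) ^ p ≡ ε x ^ b`
    obtain ⟨o4, ho4, hb1p⟩ : ∃ o ∈ O1, b1 ^ p * x ^ p - ε * x ^ b = ϖ * o := by
      obtain ⟨o, ho, hoe⟩ := pow_sub_pow_eq O1.toSubring hβ1 (O1.mul_mem _ _ hb11 hx1)
        ⟨o3, ho3, hβb⟩ p
      exact ⟨o2 - o, sub_mem ho2 ho, by rw [← mul_pow]; linear_combination hβp - hoe⟩
    rcases le_or_gt p b with hpb | hpb
    · -- descend
      obtain ⟨b', rfl⟩ := Nat.exists_eq_add_of_le hpb
      have hdvd : p ∣ b' := by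
        refine ih b' (by omega) b1 ε hb11 hε hε' hε0
          ⟨o4 * (x⁻¹) ^ p, O1.mul_mem _ _ ho4 (pow_mem hxinv p), ?_⟩
        have hxp : x ^ p ≠ 0 := pow_ne_zero p hx0
        have : b1 ^ p - ε * x ^ b' = (b1 ^ p * x ^ p - ε * x ^ (p + b')) * (x⁻¹) ^ p := by
          rw [pow_add, inv_pow]
          field_simp
        rw [this, hb1p]; ring
      exact (Nat.dvd_add_right (dvd_refl p)).mpr hdvd
    · -- `b < p`: contradiction
      exfalso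
      obtain ⟨k, hk⟩ : ∃ k, p = b + (k + 1) := ⟨p - b - 1, by omega⟩
      refine not_mem_of_cong_unit T (c := b1 ^ p * x ^ (k + 1)) (ε := ε)
        (C.mul_mem (C.pow_mem hb1 p) (C.pow_mem T.x_mem _)) hε hε' hε0
        ⟨o4 * (x⁻¹) ^ b, O1.mul_mem _ _ ho4 (pow_mem hxinv b), ?_⟩ C.zero_mem
        (C.mul_mem (C.pow_mem hb1 p) (C.pow_mem T.x_mem k)) C.zero_mem (by rw [pow_succ]; ring)
      have hxb : x ^ b ≠ 0 := pow_ne_zero b hx0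
      have hxp : x ^ p = x ^ b * x ^ (k + 1) := by
        conv_lhs => rw [hk]
        rw [pow_add]
      have : b1 ^ p * x ^ (k + 1) - ε = (b1 ^ p * x ^ p - ε * x ^ b) * (x⁻¹) ^ b := by
        rw [hxp, inv_pow]
        field_simp
      rw [this, hb1p]; ring

/-- **`p ∣ b` at a thick node**, integral exponents. -/
theorem dvd_of_pow_cong (T : ThickNode C O1 O2 ϖ x y e) {p : ℕ} (hp : 0 < p)
    (hnormC : ∀ η : F, η ∈ O1 → (∃ c ∈ C, ∃ o ∈ O1, η ^ p - c = ϖ * o) →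
      ∃ c' ∈ C, ∃ o ∈ O1, η - c' = ϖ * o)
    {b : ℤ} {η ε : F} (hη : η ∈ O1) (hη' : η⁻¹ ∈ O1) (hε : ε ∈ C) (hε' : ε⁻¹ ∈ C) (hε0 : ε ≠ 0)
    (hcong : ∃ o ∈ O1, η ^ p - ε * x ^ b = ϖ * o) : (p : ℤ) ∣ b := by
  obtain ⟨n, rfl | rfl⟩ := b.eq_nat_or_neg
  · rw [zpow_natCast] at hcong
    exact Int.natCast_dvd_natCast.mpr (dvd_of_pow_cong_nat T hp hnormC n η ε hη hε hε' hε0 hcong)
  · rw [dvd_neg]
    refine Int.natCast_dvd_natCast.mpr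
      (dvd_of_pow_cong_nat T hp hnormC n η⁻¹ ε⁻¹ hη' hε' (by rwa [inv_inv]) (inv_ne_zero hε0) ?_)
    obtain ⟨o, ho, hoe⟩ := hcong
    have hx0 := T.x_ne_zero
    have hx1 : x ∈ O1 := T.le1 x T.x_mem
    have hη0 : η ≠ 0 := by
      rintro rfl
      rw [zero_pow hp.ne', zero_sub] at hoe
      -- `ε x ^ (-n)` is a unit of `O_1` lying in `ϖ O_1`
      apply T.unif1.nonunit
      have hϖ0 := T.unif1.ne_zero
      have hxn : x ^ (-(n : ℤ)) ≠ 0 := zpow_ne_zero _ hx0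
      have h2 : ϖ * (-(o * (ε⁻¹ * x ^ n))) = 1 := by
        rw [zpow_neg, zpow_natCast] at hoe
        have hxn' : x ^ n ≠ 0 := pow_ne_zero n hx0
        have h3 : ϖ * o = -(ε * (x ^ n)⁻¹) := hoe.symm
        calc ϖ * (-(o * (ε⁻¹ * x ^ n))) = -(ϖ * o) * (ε⁻¹ * x ^ n) := by ring
          _ = 1 := by rw [h3]; field_simp
      have : ϖ⁻¹ = -(o * (ε⁻¹ * x ^ n)) := (eq_inv_of_mul_eq_one_right h2).symm
      rw [this]
      exact O1.neg_mem _ (O1.mul_mem _ _ ho (O1.mul_mem _ _ (T.le1 _ hε') (pow_mem hx1 n)))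
    refine ⟨-(o * (η⁻¹) ^ p * ε⁻¹ * x ^ n), O1.neg_mem _ (O1.mul_mem _ _ (O1.mul_mem _ _
      (O1.mul_mem _ _ ho (pow_mem hη' p)) (T.le1 _ hε')) (pow_mem hx1 n)), ?_⟩
    rw [zpow_neg, zpow_natCast] at hoe
    have hxn' : x ^ n ≠ 0 := pow_ne_zero n hx0
    have hηp : η ^ p ≠ 0 := pow_ne_zero p hη0
    have h3 : η ^ p = ε * (x ^ n)⁻¹ + ϖ * o := by linear_combination hoe
    have h4 : (η⁻¹) ^ p - ε⁻¹ * x ^ n = (ε * (x ^ n)⁻¹ - η ^ p) * ((η⁻¹) ^ p * ε⁻¹ * x ^ n) := by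
      rw [inv_pow]
      field_simp
    rw [h4, h3]; ring

/-- **The slope of `f` at a thick node is divisible by `e p`**: if `f / h ^ p` is vertical at the
node (`h` a unit of both `O_1`, `O_2`), `f ≡ ρ φ₁ ^ p mod ϖ O_1` and the local ring of the branch
`1` is `p`-root closed, then `e p ∣ v₂(f)` (with `v₁(f) = 0`). -/
theorem dvd_val2_of_pth_power (T : ThickNode C O1 O2 ϖ x y e) {p : ℕ} (hp : 0 < p)
    (hnormC : ∀ η : F, η ∈ O1 → (∃ c ∈ C, ∃ o ∈ O1, η ^ p - c = ϖ * o) →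
      ∃ c' ∈ C, ∃ o ∈ O1, η - c' = ϖ * o)
    {f h φ1 ρ ρ' : F} (hρ : ρ ∈ C) (hρ' : ρ' ∈ C) (hρρ' : ρ * ρ' = 1)
    (hh0 : h ≠ 0) (hh1 : h ∈ O1) (hh1' : h⁻¹ ∈ O1) (hh2 : O2.valuation h = 1)
    (hφ1 : φ1 ∈ O1 ∧ φ1⁻¹ ∈ O1) (hf0 : f ≠ 0) (hf1 : f ∈ O1 ∧ f⁻¹ ∈ O1)
    (hvert : (∃ n : ℕ, ϖ ^ n * (f / h ^ p) ∈ C) ∧ (∃ n : ℕ, ϖ ^ n * (f / h ^ p)⁻¹ ∈ C))
    (hpow : ∃ c ∈ O1, f - ρ * φ1 ^ p = ϖ * c) {m : ℤ}
    (hm : O2.valuation f = O2.valuation ϖ ^ m) : ((e : ℤ) * p) ∣ m := by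
  have hhp0 : h ^ p ≠ 0 := pow_ne_zero p hh0
  have hu0 : f / h ^ p ≠ 0 := div_ne_zero hf0 hhp0
  obtain ⟨a, b, ε, hε, hε', hε0, huε⟩ := T.vertical hu0 hvert.1 hvert.2
  obtain ⟨hm1, hm2⟩ := T.val_monomial hε hε' hε0 a b
  rw [← huε] at hm1 hm2
  have hv1u : O1.valuation (f / h ^ p) = 1 := by
    rw [map_div₀, map_pow, val_eq_one_of_unit hf0 hf1.1 hf1.2, val_eq_one_of_unit hh0 hh1 hh1',
      one_pow, div_one]
  have ha : a = 0 := by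
    apply T.unif1.zpow_injective
    rw [← hm1, hv1u, zpow_zero]
  have hv2u : O2.valuation (f / h ^ p) = O2.valuation ϖ ^ m := by
    rw [map_div₀, map_pow, hh2, one_pow, div_one, hm]
  have hmb : m = e * b := by
    have := T.unif2.zpow_injective (hv2u.symm.trans hm2)
    rw [this, ha, zero_add]
  subst ha
  rw [zpow_zero, mul_one] at huε
  obtain ⟨c, hc, hfc⟩ := hpow
  -- `φ₁ ≠ 0`
  have hφ0 : φ1 ≠ 0 := by
    rintro rfl
    rw [zero_pow hp.ne', mul_zero, sub_zero] at hfc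
    apply T.unif1.nonunit
    have hϖ0 := T.unif1.ne_zero
    have : ϖ⁻¹ = f⁻¹ * c := by
      field_simp
      rw [hfc]
    rw [this]
    exact O1.mul_mem _ _ hf1.2 hc
  have hρ0 : ρ ≠ 0 := left_ne_zero_of_mul_eq_one hρρ'
  have hρ'0 : ρ' ≠ 0 := right_ne_zero_of_mul_eq_one hρρ'
  have hρ'inv : ρ'⁻¹ = ρ := (eq_inv_of_mul_eq_one_left hρρ').symm
  have hdvd : (p : ℤ) ∣ b := by
    refine dvd_of_pow_cong T hp hnormC (η := φ1 / h) (ε := ρ' * ε)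
      (by rw [div_eq_mul_inv]; exact O1.mul_mem _ _ hφ1.1 hh1')
      (by rw [inv_div, div_eq_mul_inv]; exact O1.mul_mem _ _ hh1 hφ1.2)
      (C.mul_mem hρ' hε) (by rw [mul_inv, hρ'inv]; exact C.mul_mem hρ hε')
      (mul_ne_zero hρ'0 hε0)
      ⟨-(ρ' * c * (h⁻¹) ^ p), O1.neg_mem _ (O1.mul_mem _ _ (O1.mul_mem _ _ (T.le1 _ hρ') hc)
        (pow_mem hh1' p)), ?_⟩
    have e2 : (φ1 / h) ^ p - ρ' * ε * x ^ b = (φ1 ^ p - ρ' * f) * (h ^ p)⁻¹ := by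
      rw [mul_assoc, ← huε, div_pow]
      field_simp
    have e3 : φ1 ^ p - ρ' * f = -(ρ' * (ϖ * c)) := by
      linear_combination (-ρ') * hfc - φ1 ^ p * hρρ'
    rw [e2, e3, inv_pow]; ring
  obtain ⟨k, rfl⟩ := hdvd
  exact ⟨k, by rw [hmb]; ring⟩

end Node

/-! ### The `b`-shift -/

section Shift

variable {R K F : Type*} [CommRing R] [Field K] [Field F] [Algebra K F] [Algebra R F]
variable {π : R} {B0 B1 : Subalgebra R F} {O1 O2 : ValuationSubring F} {e : ℕ}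

/-- **(b-shift)**: a level-`0` divisor `D` with `p D = div f`, `v₁(f) = 0`, `v₂(f) = e p b'` is
linearly equivalent to a level-`0` divisor `D'` with `p D' = div f'`, `f'` a unit of both `O_1`
and `O_2`. -/
theorem exists_unit_rep [HasPrincipalDivisors K F] (M : SlopeFrame (K := K) π B0 B1 O1 O2 e)
    (hπ1 : algebraMap R F π ∈ O1) (hπ2 : algebraMap R F π ∈ O2)
    (hvert : ∀ P : Place K F, P.ord (algebraMap R F π) = 0)
    (approx : ∀ m : ℤ, ∃ g : F, g ≠ 0 ∧ O1.valuation g = 1 ∧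
      O2.valuation g = O2.valuation (algebraMap R F π) ^ m)
    (D : Divisor.degZero (K := K) (F := F)) (hlev0 : HasLevel π B0 B1 O1 O2 0 (D : Divisor K F))
    {p : ℕ} {f : F} (hf0 : f ≠ 0)
    (hdiv : ∀ P : Place K F, (p • (D : Divisor K F)) P = P.ord f)
    (hv1 : O1.valuation f = 1) {b' : ℤ}
    (hv2 : O2.valuation f = O2.valuation (algebraMap R F π) ^ ((e : ℤ) * p * b')) :
    ∃ D' : Divisor.degZero (K := K) (F := F), Pic0.mk D' = Pic0.mk D ∧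
      HasLevel π B0 B1 O1 O2 0 (D' : Divisor K F) ∧
      ∃ f' : F, f' ≠ 0 ∧ (∀ P : Place K F, (p • (D' : Divisor K F)) P = P.ord f') ∧
        O1.valuation f' = 1 ∧ O2.valuation f' = 1 := by
  have hp0 : algebraMap R F π ≠ 0 := M.unif1.ne_zero
  obtain ⟨g, hg0, hg1, hg2⟩ := approx (-((e : ℤ) * b'))
  obtain ⟨Dg, hDg, hdeg⟩ := HasPrincipalDivisors.exists_divisor (K := K) g hg0
  have hgL : ∀ (B : Subalgebra R F) (𝔪 : Ideal B), IsLocEq B 𝔪 Dg g := fun B 𝔪 =>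
    IsLocEq.of_principal B 𝔪 hg0 hDg
  set c : ℤ := (e : ℤ) * b' with hc
  have hg0' : g * algebraMap R F π ^ c ≠ 0 := mul_ne_zero hg0 (zpow_ne_zero c hp0)
  have hgL' : ∀ (B : Subalgebra R F) (𝔪 : Ideal B), IsLocEq B 𝔪 Dg (g * algebraMap R F π ^ c) :=
    fun B 𝔪 => ⟨hg0', fun P _ => by
      rw [P.ord_mul hg0 (zpow_ne_zero c hp0), P.ord_zpow, hvert, mul_zero, add_zero, hDg]⟩
  have hg2' : O2.valuation (g * algebraMap R F π ^ c) = 1 := by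
    rw [map_mul, map_zpow₀, hg2, ← zpow_add₀ M.unif2.val_ne_zero, neg_add_cancel, zpow_zero]
  have hlev : ∀ B : Subalgebra R F, B = B0 ∨ B = B1 →
      ChartLevel π B O1 O2 0 ((D : Divisor K F) + Dg) := by
    intro B hB 𝔪 h𝔪 hπ𝔪
    obtain ⟨h, hh, hs1, hs2⟩ := chartLevel_of hlev0 hB 𝔪 h𝔪 hπ𝔪
    by_cases hoff2 : OffBranch π B O2 𝔪
    · exact ⟨h * g, hh.mul (hgL B 𝔪), hs1.mul hπ1 (strictOn_zero_of_val hg1), Or.inl hoff2⟩
    by_cases hoff1 : OffBranch π B O1 𝔪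
    · exact ⟨h * (g * algebraMap R F π ^ c), hh.mul (hgL' B 𝔪), Or.inl hoff1,
        hs2.mul hπ2 (strictOn_zero_of_val hg2')⟩
    · have hs : IsNode π B0 B1 O1 O2 B 𝔪 := ⟨hB, h𝔪, hπ𝔪, hoff1, hoff2⟩
      obtain ⟨hh0, hh1, hh1'⟩ := strict_unit hπ1 hoff1 hs1
      obtain ⟨-, hh2, hh2'⟩ := strict_unit hπ2 hoff2 hs2
      have hv1h : O1.valuation (h * g) = O1.valuation (algebraMap R F π) ^ (0 : ℤ) := by
        rw [map_mul, val_eq_one_of_unit hh0 hh1 hh1', hg1, mul_one, zpow_zero]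
      have hv2h : O2.valuation (h * g) = O2.valuation (algebraMap R F π) ^ (-c) := by
        rw [map_mul, val_eq_one_of_unit hh0 hh2 hh2', hg2, one_mul]
      obtain ⟨h', hh', hv1', hv2'⟩ := M.shift B 𝔪 hs _ (h * g) 0 (-c) 0 (hh.mul (hgL B 𝔪)) hv1h
        hv2h ⟨-b', by rw [hc]; ring⟩
      rw [zpow_zero] at hv2'
      exact ⟨h', hh', strictOn_zero_of_val hv1', strictOn_zero_of_val hv2'⟩
  refine ⟨D + ⟨Dg, hdeg⟩, ?_, ⟨hlev B0 (Or.inl rfl), hlev B1 (Or.inr rfl)⟩, f * g ^ p,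
    mul_ne_zero hf0 (pow_ne_zero p hg0), ?_, ?_, ?_⟩
  · rw [Pic0.mk_add]
    have : Pic0.mk (⟨Dg, hdeg⟩ : Divisor.degZero (K := K) (F := F)) = 0 :=
      (QuotientAddGroup.eq_zero_iff _).mpr (AddSubgroup.mem_addSubgroupOf.mpr ⟨g, hg0, hDg⟩)
    rw [this, add_zero]
  · intro P
    have h1 : ((D + ⟨Dg, hdeg⟩ : Divisor.degZero (K := K) (F := F)) : Divisor K F) =
        (D : Divisor K F) + Dg := rfl
    rw [h1, smul_add, Finsupp.add_apply, hdiv P, P.ord_mul hf0 (pow_ne_zero p hg0),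
      ← zpow_natCast g p, P.ord_zpow, Finsupp.smul_apply, hDg, nsmul_eq_mul]
  · rw [map_mul, map_pow, hv1, hg1, one_pow, mul_one]
  · rw [map_mul, map_pow, hv2, hg2, ← zpow_natCast, ← zpow_mul, ← zpow_add₀ M.unif2.val_ne_zero]
    have : (e : ℤ) * p * b' + -((e : ℤ) * b') * (p : ℤ) = 0 := by ring
    rw [this, zpow_zero]

end Shift

end Fermat.Agent.M1.Car.RedTrivial58
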