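/-
M1 (S44), chapter CAR / NRM (helper60), brick **SIDE-TWO**: the `O₂`-side of (T4) from the
`O₁`-side and the push-forward along the second degeneracy map.

Setting (vocabulary of `NRM/TraceGauss88`): `F / E` finite separable of degree `q + 1`
(`E = F_L(M'')`, `F = F_L(M''p)` along the degeneracy map `β`, `q = p`), `O' ⊂ E` the Gauss ring of
the good level, `O₁ O₂ ⊂ F` the two Gauss rings over it (`TwoOver O' O₁ O₂ ϖ`), `κ(O₁) = κ(O')`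
(`h1`) and `κ(O₂) ^ q ⊆ κ(O')` (`h2`).

* `finrank_integralClosure` : `rank_{O'} (O₁ ⊓ O₂) = [F : E]`;
* `norm_sub_mem` : **the norm formula in valuation form**: for `c ∈ O₁ ⊓ O₂` with
  `c ≡ a₁ mod ϖ O₁`, `c ^ q ≡ a₂ mod ϖ O₂` (`a₁ a₂ ∈ O'`): `N_{F/E} c ≡ a₁ a₂ mod ϖ O'`
  (valuation form of `TwoPrimes88.norm_sub_mem_of_two_primes`);
* `hpow_other_side` : **(SIDE-TWO)** if `g` is a unit of `O₁` and `O₂`, `N_{F/E} g ≡ r₀ f' ^ q`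
  modulo `ϖ O'` (`f'` a unit of `O'`: this is `β_* D = - div f'⁻¹`, `q D = div g`, see
  `Car/SideTwoPush60`) and `g ≡ r φ₂ ^ q mod ϖ O₂` on
  the INSEPARABLE branch (the output of LINK-CORE on that branch), then `g ≡ r' φ₁ ^ q mod ϖ O₁` on
  the étale branch, with `φ₁` the image of an element of `E`.

In (T4) this is applied to `β : F_L(M'') → F_L(M''p)` with (`O₁`, `O₂`) := (Gauss ring at the cusp
`0`, Gauss ring at the cusp `∞`): LINK-CORE is needed on the `∞`-component only.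
-/
import Mathlib
import Fermat.Agent.M1.NRM.TraceGauss88
import Fermat.Agent.M1.NRM.TwoPrimes88

set_option autoImplicit false
set_option linter.unusedSectionVars false

namespace Fermat.Agent.M1.Car.SideTwo60

open Module IsLocalRing Fermat.Agent.M1.Node.Thick25 Fermat.Agent.M1.NRM.TraceGauss88
  Fermat.Agent.M1.NRM

section Norm

variable {E F : Type*} [Field E] [Field F] [Algebra E F] [FiniteDimensional E F]
  [Algebra.IsSeparable E F]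
variable {O' : ValuationSubring E} {O₁ O₂ : ValuationSubring F} {ϖ : E}

/-- the rank of the integral closure of `O'` in `F` is `[F : E]`. -/
theorem finrank_integralClosure (hT : TwoOver O' O₁ O₂ ϖ) :
    finrank O' (integralClosure O' F) = finrank E F := by
  have := hT.disc.isPrincipalIdealRing
  exact IsIntegralClosure.rank O' E F (integralClosure O' F)

/-- **The norm formula in valuation form** (`N c ≡ c̄₁ · c̄₂ ^ q`): for `c ∈ O₁ ⊓ O₂` with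
`c ≡ a₁ mod ϖ O₁` and `c ^ q ≡ a₂ mod ϖ O₂` (`a₁ a₂ ∈ O'`), `N_{F/E} c ≡ a₁ a₂ mod ϖ O'`, when
`[F : E] = q + 1`, `κ(O₁) = κ(O')` (`h1`), `κ(O₂) ^ q ⊆ κ(O')` (`h2`), `κ(O₂) ≠ κ(O')` (`hne`). -/
theorem norm_sub_mem (hT : TwoOver O' O₁ O₂ ϖ) (q : ℕ) [Fact q.Prime]
    (hqϖ : ∃ d ∈ O', (q : E) = ϖ * d) (hrank : finrank E F = q + 1)
    (h1 : ∀ x : F, x ∈ O₁ → x ∈ O₂ → ∃ a ∈ O', ∃ d ∈ O₁,
      x - algebraMap E F a = algebraMap E F ϖ * d)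
    (h2 : ∀ x : F, x ∈ O₁ → x ∈ O₂ → ∃ a ∈ O', ∃ d ∈ O₂,
      x ^ q - algebraMap E F a = algebraMap E F ϖ * d)
    (hne : ∃ x : F, x ∈ O₁ ∧ x ∈ O₂ ∧ ∀ a ∈ O', ∀ d ∈ O₂,
      x - algebraMap E F a ≠ algebraMap E F ϖ * d)
    {c : F} (hc1 : c ∈ O₁) (hc2 : c ∈ O₂) {a₁ a₂ : E} (ha₁ : a₁ ∈ O') (ha₂ : a₂ ∈ O')
    (hca₁ : ∃ d ∈ O₁, c - algebraMap E F a₁ = algebraMap E F ϖ * d)
    (hca₂ : ∃ d ∈ O₂, c ^ q - algebraMap E F a₂ = algebraMap E F ϖ * d) :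
    ∃ d ∈ O', Algebra.norm E c - a₁ * a₂ = ϖ * d := by
  have hcS : c ∈ integralClosure O' F := (hT.mem_integralClosure_iff c).mpr ⟨hc1, hc2⟩
  have := hT.finite
  have := hT.free
  have := hT.charP_residue q hqϖ
  have hmax2 : (cut O₂ hT.le2).IsMaximal := cut_isMaximal O₂ hT.le2 hT.comap2
  have hmax1 : (cut O₁ hT.le1).IsMaximal := cut_isMaximal O₁ hT.le1 hT.comap1
  have h1' : ∀ x : integralClosure O' F, ∃ a : O',
      x - algebraMap O' (integralClosure O' F) a ∈ cut O₁ hT.le1 := by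
    intro x
    obtain ⟨a, ha, d, hd, hxa⟩ := h1 x (hT.le1 x) (hT.le2 x)
    exact ⟨⟨a, ha⟩, (hT.mem_cut1_iff _).mpr ⟨d, hd, hxa⟩⟩
  have h2' : ∀ x : integralClosure O' F, ∃ a : O',
      x ^ q - algebraMap O' (integralClosure O' F) a ∈ cut O₂ hT.le2 := by
    intro x
    obtain ⟨a, ha, d, hd, hxa⟩ := h2 x (hT.le1 x) (hT.le2 x)
    exact ⟨⟨a, ha⟩, (hT.mem_cut2_iff _).mpr ⟨d, hd, hxa⟩⟩
  have hne' : ∃ x : integralClosure O' F, ∀ a : O',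
      x - algebraMap O' (integralClosure O' F) a ∉ cut O₂ hT.le2 := by
    obtain ⟨x, hx1, hx2, hx⟩ := hne
    refine ⟨⟨x, (hT.mem_integralClosure_iff x).mpr ⟨hx1, hx2⟩⟩, fun a hmem => ?_⟩
    obtain ⟨d, hd, hxa⟩ := (hT.mem_cut2_iff _).mp hmem
    exact hx a a.2 d hd hxa
  have hneq : cut O₁ hT.le1 ≠ cut O₂ hT.le2 := by
    obtain ⟨x, hx⟩ := hne'
    obtain ⟨a, ha⟩ := h1' x
    intro heq
    rw [heq] at ha
    exact hx a ha
  have hcop : IsCoprime (cut O₁ hT.le1) (cut O₂ hT.le2) :=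
    Ideal.isCoprime_iff_sup_eq.mpr (Ideal.IsMaximal.coprime_of_ne hmax1 hmax2 hneq)
  have hrank' : finrank O' (integralClosure O' F) = q + 1 := by
    rw [finrank_integralClosure hT, hrank]
  have hc₁ : (⟨c, hcS⟩ : integralClosure O' F) -
      algebraMap O' (integralClosure O' F) ⟨a₁, ha₁⟩ ∈ cut O₁ hT.le1 := by
    obtain ⟨d, hd, hxa⟩ := hca₁
    exact (hT.mem_cut1_iff _).mpr ⟨d, hd, hxa⟩
  have hc₂ : (⟨c, hcS⟩ : integralClosure O' F) ^ q -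
      algebraMap O' (integralClosure O' F) ⟨a₂, ha₂⟩ ∈ cut O₂ hT.le2 := by
    obtain ⟨d, hd, hxa⟩ := hca₂
    exact (hT.mem_cut2_iff _).mpr ⟨d, hd, hxa⟩
  have key := TwoPrimes88.norm_sub_mem_of_two_primes (R := O') (S := integralClosure O' F)
    (cut O₁ hT.le1) (cut O₂ hT.le2) (cut_ne_top O₁ hT.le1) hcop hT.cut_inf_cut q hrank' h1' h2'
    hc₁ hc₂
  obtain ⟨d0, hd0, hkey⟩ := (hT.disc.mem_maximalIdeal_iff _).mp key
  refine ⟨d0, hd0, ?_⟩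
  have hn := hT.norm_eq ⟨c, hcS⟩
  simp only at hn
  rw [hn]
  simpa using hkey

end Norm

/-! ### Small valuation-subring lemmas -/

section Val

variable {F : Type*} [Field F] {O : ValuationSubring F} {ϖ : F}

/-- `a ≡ b mod ϖ O` implies `a ^ n ≡ b ^ n mod ϖ O`. -/
theorem pow_sub_pow_mem {a b : F} (ha : a ∈ O) (hb : b ∈ O)
    (hab : ∃ c ∈ O, a - b = ϖ * c) (n : ℕ) : ∃ c ∈ O, a ^ n - b ^ n = ϖ * c := by
  induction n with
  | zero => exact ⟨0, O.zero_mem, by simp⟩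
  | succ n ih =>
    obtain ⟨c, hc, hcc⟩ := ih
    obtain ⟨c0, hc0, hcc0⟩ := hab
    refine ⟨a * c + c0 * b ^ n, O.add_mem _ _ (O.mul_mem _ _ ha hc)
      (O.mul_mem _ _ hc0 (pow_mem hb n)), ?_⟩
    rw [pow_succ, pow_succ]
    linear_combination a * hcc + b ^ n * hcc0

/-- an element congruent to a unit modulo `ϖ O` is a unit. -/
theorem unit_of_sub (hu : IsUnifOf O ϖ) {x y c : F} (hx0 : x ≠ 0) (hx : x ∈ O) (hx' : x⁻¹ ∈ O)
    (hc : c ∈ O) (h : y - x = ϖ * c) : y ≠ 0 ∧ y ∈ O ∧ y⁻¹ ∈ O := by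
  have hvx : O.valuation x = 1 := by
    apply le_antisymm ((O.valuation_le_one_iff _).mpr hx)
    have h1 : O.valuation x⁻¹ ≤ 1 := (O.valuation_le_one_iff _).mpr hx'
    rw [map_inv₀] at h1
    have hpos : 0 < O.valuation x := by
      rw [pos_iff_ne_zero, Valuation.ne_zero_iff]; exact hx0
    exact (inv_le_one₀ hpos).mp h1
  have hvc : O.valuation (ϖ * c) < 1 := (hu.mem_pi_iff _).mp ⟨c, hc, rfl⟩
  have hy : y = x + ϖ * c := by rw [← h]; ring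
  have hvy : O.valuation y = 1 := by
    rw [hy, Valuation.map_add_eq_of_lt_left _ (by rw [hvx]; exact hvc), hvx]
  have hy0 : y ≠ 0 := by
    intro h0
    rw [h0, map_zero] at hvy
    exact zero_ne_one hvy
  refine ⟨hy0, (O.valuation_le_one_iff _).mp hvy.le, ?_⟩
  rw [← O.valuation_le_one_iff, map_inv₀, hvy, inv_one]

end Val

/-! ### (SIDE-TWO) -/

section Side

variable {R E F : Type*} [CommRing R] [Field E] [Field F] [Algebra R E] [Algebra R F]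
  [Algebra E F] [IsScalarTower R E F] [FiniteDimensional E F] [Algebra.IsSeparable E F]
variable {π : R} {O' : ValuationSubring E} {O₁ O₂ : ValuationSubring F}

/-- **(SIDE-TWO)**.  `F / E` of degree `q + 1` with the two Gauss rings `O₁` (étale branch,
`κ(O₁) = κ(O')`) and `O₂` (inseparable branch, `κ(O₂) ^ q ⊆ κ(O')`) over `O'`.  If `g` is a unit of
`O₂`, integral at `O₁`, its norm is congruent modulo `π O'` to a constant times a `q`-th power of a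
unit of `O'`, and
`g ≡ r φ₂ ^ q mod π O₂` on the inseparable branch (`φ₂ ∈ O₁ ⊓ O₂` a unit of `O₂`), then
`g ≡ r' φ₁ ^ q mod π O₁` on the étale branch, `φ₁` (the image of) a unit of `O'`. -/
theorem hpow_other_side (hT : TwoOver O' O₁ O₂ (algebraMap R E π)) (q : ℕ) [Fact q.Prime]
    (hqϖ : ∃ d ∈ O', (q : E) = algebraMap R E π * d) (hrank : finrank E F = q + 1)
    (h1 : ∀ x : F, x ∈ O₁ → x ∈ O₂ → ∃ a ∈ O', ∃ d ∈ O₁,
      x - algebraMap E F a = algebraMap E F (algebraMap R E π) * d)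
    (h2 : ∀ x : F, x ∈ O₁ → x ∈ O₂ → ∃ a ∈ O', ∃ d ∈ O₂,
      x ^ q - algebraMap E F a = algebraMap E F (algebraMap R E π) * d)
    (hne : ∃ x : F, x ∈ O₁ ∧ x ∈ O₂ ∧ ∀ a ∈ O', ∀ d ∈ O₂,
      x - algebraMap E F a ≠ algebraMap E F (algebraMap R E π) * d)
    (hRO : ∀ r : R, algebraMap R E r ∈ O')
    (units : ∀ r : R, algebraMap R E r ≠ 0 → (algebraMap R E r)⁻¹ ∈ O' →
      ∃ r' : R, algebraMap R E r' * algebraMap R E r = 1)
    {g : F} (hg0 : g ≠ 0) (hg1 : g ∈ O₁) (hg2 : g ∈ O₂ ∧ g⁻¹ ∈ O₂)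
    (hN : ∃ r₀ : R, ∃ f' : E, f' ∈ O' ∧ f'⁻¹ ∈ O' ∧ ∃ d ∈ O',
      Algebra.norm E g - algebraMap R E r₀ * f' ^ q = algebraMap R E π * d)
    {φ₂ : F} (hφ0 : φ₂ ≠ 0) (hφ1 : φ₂ ∈ O₁) (hφ2 : φ₂ ∈ O₂ ∧ φ₂⁻¹ ∈ O₂)
    (hpow2 : ∃ r : R, ∃ c ∈ O₂, g - algebraMap R F r * φ₂ ^ q = algebraMap R F π * c) :
    ∃ φ₁ : E, φ₁ ∈ O' ∧ φ₁⁻¹ ∈ O' ∧ ∃ r : R, ∃ c ∈ O₁,
      g - algebraMap R F r * (algebraMap E F φ₁) ^ q = algebraMap R F π * c := by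
  have hRF : ∀ r : R, algebraMap R F r = algebraMap E F (algebraMap R E r) :=
    fun r => IsScalarTower.algebraMap_apply R E F r
  obtain ⟨r, c, hc, hgr⟩ := hpow2
  obtain ⟨r₀, f', hf', hf'i, dN, hdN, hNeq⟩ := hN
  rw [hRF r, hRF π] at hgr
  set ι := algebraMap E F with hι
  set ϖ : E := algebraMap R E π with hϖ
  -- `y = r φ₂ ^ q` is a unit of `O₂`
  have hrO2 : ι (algebraMap R E r) ∈ O₂ := (hT.comap2 _).mpr (hRO r)
  have hφq : φ₂ ^ q ∈ O₂ := pow_mem hφ2.1 q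
  have hφqi : (φ₂ ^ q)⁻¹ ∈ O₂ := by rw [← inv_pow]; exact pow_mem hφ2.2 q
  have hφq0 : φ₂ ^ q ≠ 0 := pow_ne_zero q hφ0
  have hyO : ι (algebraMap R E r) * φ₂ ^ q ∈ O₂ := O₂.mul_mem _ _ hrO2 hφq
  obtain ⟨hy0, -, hyi⟩ := unit_of_sub (y := ι (algebraMap R E r) * φ₂ ^ q) hT.unif2 hg0 hg2.1
    hg2.2 (O₂.neg_mem _ hc) (by linear_combination -hgr)
  -- `r` is a unit
  have hr0 : algebraMap R E r ≠ 0 := by
    intro h0
    apply hy0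
    rw [h0, map_zero, zero_mul]
  have hιr0 : ι (algebraMap R E r) ≠ 0 := (map_ne_zero ι).mpr hr0
  have hri : (algebraMap R E r)⁻¹ ∈ O' := by
    rw [← hT.comap2, map_inv₀]
    have : (ι (algebraMap R E r))⁻¹ = φ₂ ^ q * (ι (algebraMap R E r) * φ₂ ^ q)⁻¹ := by
      field_simp
    rw [this]
    exact O₂.mul_mem _ _ hφq hyi
  obtain ⟨r', hr'⟩ := units r hr0 hri
  -- `b ≡ φ₂ ^ q`, a unit of `O'`
  obtain ⟨b, hb, d, hd, hbd⟩ := h2 φ₂ hφ1 hφ2.1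
  obtain ⟨hιb0, hιbO, hιbi⟩ := unit_of_sub (y := ι b) hT.unif2 hφq0 hφq hφqi (O₂.neg_mem _ hd)
    (by linear_combination -hbd)
  have hb0 : b ≠ 0 := fun h0 => hιb0 (by rw [h0, map_zero])
  have hbi : b⁻¹ ∈ O' := by
    rw [← hT.comap2, map_inv₀]; exact hιbi
  -- `g ^ q ≡ r ^ q b ^ q`
  obtain ⟨cA, hcA, hA⟩ := pow_sub_pow_mem (ϖ := ι ϖ) hg2.1 hyO ⟨c, hc, hgr⟩ q
  obtain ⟨cB, hcB, hB⟩ := pow_sub_pow_mem (ϖ := ι ϖ) hφq hιbO ⟨d, hd, hbd⟩ q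
  have ha₂ : (algebraMap R E r) ^ q * b ^ q ∈ O' :=
    O'.mul_mem _ _ (pow_mem (hRO r) q) (pow_mem hb q)
  have hgq : ∃ d' ∈ O₂, g ^ q - ι ((algebraMap R E r) ^ q * b ^ q) = ι ϖ * d' := by
    refine ⟨cA + ι (algebraMap R E r) ^ q * cB,
      O₂.add_mem _ _ hcA (O₂.mul_mem _ _ (pow_mem hrO2 q) hcB), ?_⟩
    rw [map_mul, map_pow, map_pow]
    linear_combination hA + ι (algebraMap R E r) ^ q * hB
  -- the étale branch
  obtain ⟨a₁, ha₁, d₁, hd₁, hga⟩ := h1 g hg1 hg2.1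
  obtain ⟨d₀, hd₀, hkey⟩ := norm_sub_mem hT q hqϖ hrank h1 h2 hne hg1 hg2.1 ha₁ ha₂
    ⟨d₁, hd₁, hga⟩ hgq
  replace hkey : algebraMap R E r₀ * f' ^ q - a₁ * ((algebraMap R E r) ^ q * b ^ q) =
      ϖ * (d₀ - dN) := by linear_combination hkey - hNeq
  refine ⟨f' * b⁻¹, O'.mul_mem _ _ hf' hbi, ?_, r₀ * r' ^ q, ?_⟩
  · rw [mul_inv, inv_inv]
    exact O'.mul_mem _ _ hf'i hb
  have e1 : (algebraMap R E r') ^ q * (algebraMap R E r) ^ q = 1 := by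
    rw [← mul_pow, hr', one_pow]
  have e2 : b ^ q * (b⁻¹) ^ q = 1 := by
    rw [← mul_pow, mul_inv_cancel₀ hb0, one_pow]
  have hE : a₁ - algebraMap R E (r₀ * r' ^ q) * (f' * b⁻¹) ^ q =
      ϖ * (-((d₀ - dN) * (algebraMap R E r') ^ q * (b⁻¹) ^ q)) := by
    rw [map_mul, map_pow, mul_pow]
    linear_combination (-((algebraMap R E r') ^ q * (b⁻¹) ^ q)) * hkey -
      a₁ * (b ^ q * (b⁻¹) ^ q) * e1 - a₁ * e2
  refine ⟨d₁ + ι (-((d₀ - dN) * (algebraMap R E r') ^ q * (b⁻¹) ^ q)), O₁.add_mem _ _ hd₁ ?_, ?_⟩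
  · rw [hT.comap1]
    exact O'.neg_mem _ (O'.mul_mem _ _ (O'.mul_mem _ _ (O'.sub_mem hd₀ hdN)
      (pow_mem (hRO r') q)) (pow_mem hbi q))
  · have hE' : ι a₁ - ι (algebraMap R E (r₀ * r' ^ q)) * (ι (f' * b⁻¹)) ^ q =
        ι ϖ * ι (-((d₀ - dN) * (algebraMap R E r') ^ q * (b⁻¹) ^ q)) := by
      rw [← map_pow, ← map_mul, ← map_sub, hE, map_mul]
    rw [hRF, hRF π]
    linear_combination hga + hE'

/-- **(SIDE-TWO)**, with `φ₂` a unit of `O₂` only and an approximation `φ' ∈ O₁`,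
`φ' ≡ φ₂ mod π O₂` (weak approximation for `O₁ ≠ O₂`; the `approx2` of `Car/DepthZero58`). -/
theorem hpow_other_side' (hT : TwoOver O' O₁ O₂ (algebraMap R E π)) (q : ℕ) [Fact q.Prime]
    (hqϖ : ∃ d ∈ O', (q : E) = algebraMap R E π * d) (hrank : finrank E F = q + 1)
    (h1 : ∀ x : F, x ∈ O₁ → x ∈ O₂ → ∃ a ∈ O', ∃ d ∈ O₁,
      x - algebraMap E F a = algebraMap E F (algebraMap R E π) * d)
    (h2 : ∀ x : F, x ∈ O₁ → x ∈ O₂ → ∃ a ∈ O', ∃ d ∈ O₂,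
      x ^ q - algebraMap E F a = algebraMap E F (algebraMap R E π) * d)
    (hne : ∃ x : F, x ∈ O₁ ∧ x ∈ O₂ ∧ ∀ a ∈ O', ∀ d ∈ O₂,
      x - algebraMap E F a ≠ algebraMap E F (algebraMap R E π) * d)
    (hRO : ∀ r : R, algebraMap R E r ∈ O')
    (units : ∀ r : R, algebraMap R E r ≠ 0 → (algebraMap R E r)⁻¹ ∈ O' →
      ∃ r' : R, algebraMap R E r' * algebraMap R E r = 1)
    {g : F} (hg0 : g ≠ 0) (hg1 : g ∈ O₁) (hg2 : g ∈ O₂ ∧ g⁻¹ ∈ O₂)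
    (hN : ∃ r₀ : R, ∃ f' : E, f' ∈ O' ∧ f'⁻¹ ∈ O' ∧ ∃ d ∈ O',
      Algebra.norm E g - algebraMap R E r₀ * f' ^ q = algebraMap R E π * d)
    {φ₂ : F} (hφ0 : φ₂ ≠ 0) (hφ2 : φ₂ ∈ O₂ ∧ φ₂⁻¹ ∈ O₂)
    (happ : ∃ φ' : F, φ' ∈ O₁ ∧ ∃ c ∈ O₂, φ' - φ₂ = algebraMap R F π * c)
    (hpow2 : ∃ r : R, ∃ c ∈ O₂, g - algebraMap R F r * φ₂ ^ q = algebraMap R F π * c) :
    ∃ φ₁ : E, φ₁ ∈ O' ∧ φ₁⁻¹ ∈ O' ∧ ∃ r : R, ∃ c ∈ O₁,
      g - algebraMap R F r * (algebraMap E F φ₁) ^ q = algebraMap R F π * c := by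
  have hRF : ∀ r : R, algebraMap R F r = algebraMap E F (algebraMap R E r) :=
    fun r => IsScalarTower.algebraMap_apply R E F r
  obtain ⟨φ', hφ'1, c', hc', hφφ⟩ := happ
  have hu2 : IsUnifOf O₂ (algebraMap R F π) := by rw [hRF]; exact hT.unif2
  obtain ⟨hφ'0, hφ'2, hφ'i⟩ := unit_of_sub hu2 hφ0 hφ2.1 hφ2.2 hc' hφφ
  obtain ⟨r, c, hc, hgr⟩ := hpow2
  obtain ⟨cq, hcq, hq⟩ := pow_sub_pow_mem (ϖ := algebraMap R F π) hφ'2 hφ2.1 ⟨c', hc', hφφ⟩ q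
  have hrO2 : algebraMap R F r ∈ O₂ := by rw [hRF]; exact (hT.comap2 _).mpr (hRO r)
  refine hpow_other_side hT q hqϖ hrank h1 h2 hne hRO units hg0 hg1 hg2 hN hφ'0 hφ'1
    ⟨hφ'2, hφ'i⟩ ⟨r, c - algebraMap R F r * cq,
      O₂.sub_mem hc (O₂.mul_mem _ _ hrO2 hcq), ?_⟩
  linear_combination hgr - algebraMap R F r * hq

end Side

end Fermat.Agent.M1.Car.SideTwo60
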