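/-
M1 (S44), chapter CAR / NRM (helper60), brick **SIDE-TWO, divisor level**: the `O₂`-side of (T4)
(`hred2` of `Car/DepthZero58.mem_cart_one_of_red_trivial`, in the `hpow` shape of
`Car/RedTrivial58.hred_of_pth_power`) from the `O₁`-side and the SAME push-forward data along the
second degeneracy map that (T5) consumes (`NRM/PushReg88.PushData`, `NRM/ToricLead88.Branch`).

* `norm_congr_of_pushData` : `p D = div g`, `N_* D = - div f` (`f` a unit of the lower Gauss ring)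
  ⟹ `N g ≡ r₀ (f⁻¹) ^ p mod π O'` for a constant `r₀ : R`
  (norm formula + Hartogs on the two lower charts + `H⁰(X_k, O) = k`);
* `hpow_of_branch` : **(SIDE-TWO)** for `hB : Branch π p C0 C1 C01 O' O₁ O₂ B0 B1 B01` (the degeneracy
  map for which `O₁` is the étale branch) of degree `p + 1`: if `g ≡ r φ₂ ^ p mod π O₂` on the
  inseparable branch then `g ≡ r' φ₁ ^ p mod π O₁` on the étale branch.

Use in (T4): `hB := hβ` (the branch data of `β : F_L(M'') → F_L(M''p)`, for which the Gauss ring at the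
cusp `0` is the étale branch and the Gauss ring at `∞` the inseparable one).  LINK-CORE gives
`g ≡ r φ ^ p` on the `∞`-branch; this file gives it on the `0`-branch.
-/
import Mathlib
import Fermat.Agent.M1.Car.SideTwo60
import Fermat.Agent.M1.NRM.PushReg88

set_option autoImplicit false
set_option linter.unusedSectionVars false

namespace Fermat.Agent.M1.Car.SideTwoPush60

open AlgebraicCurve Module
open Fermat.Agent.M1.Pic2.Defs60 Fermat.Agent.M1.NRM.TraceGauss88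
  Fermat.Agent.M1.Node.Thick25 Fermat.Agent.M1.NRM.ToricLead88 Fermat.Agent.M1.NRM.PushReg88
  Fermat.Agent.M1.Car.SideTwo60

variable {R K E F : Type*} [CommRing R] [Field K] [Field E] [Field F] [Algebra K E] [Algebra K F]
  [Algebra E F] [IsScalarTower K E F] [FiniteDimensional E F] [Algebra.IsSeparable E F]
  [Algebra R E] [Algebra R F] [IsScalarTower R E F]
variable {π : R} {C0 C1 C01 : Subalgebra R E} {O' : ValuationSubring E}
  {O₁ O₂ : ValuationSubring F} {B0 B1 B01 : Subalgebra R F}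

/-- `p D = div g` and `N_* D = - div f` with `f` a unit of the lower Gauss ring `O'`: the norm of
`g` is congruent modulo `π O'` to a constant times `(f⁻¹) ^ p`. -/
theorem norm_congr_of_pushData [HasPrincipalDivisors K F]
    (hch : TwoChart (algebraMap R E π) C0 C1 C01) (hC01 : ∀ x ∈ C01, x ∈ O')
    (hT : TwoOver O' O₁ O₂ (algebraMap R E π))
    {D : Divisor K F} {f : E} (hD : PushData C0 C1 O' B0 B1 D f) {p : ℕ} {g : F} (hg0 : g ≠ 0)
    (hg1 : g ∈ O₁) (hg2 : g ∈ O₂)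
    (hdiv : ∀ P : Place K F, (p • D) P = P.ord g) :
    ∃ r₀ : R, ∃ f' : E, f' ∈ O' ∧ f'⁻¹ ∈ O' ∧ ∃ d ∈ O',
      Algebra.norm E g - algebraMap R E r₀ * f' ^ p = algebraMap R E π * d := by
  have hN0 : Algebra.norm E g ≠ 0 := Algebra.norm_ne_zero_iff.mpr hg0
  have hf0 : f ≠ 0 := hD.f_ne
  have hfp0 : f ^ p ≠ 0 := pow_ne_zero p hf0
  set x : E := Algebra.norm E g * f ^ p with hx
  have hx0 : x ≠ 0 := mul_ne_zero hN0 hfp0
  have hxO : x ∈ O' := O'.mul_mem _ _ (hT.norm_mem hg1 hg2) (pow_mem hD.f_mem p)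
  have hord : ∀ v' : Place K E, v'.ord x = 0 := by
    intro v'
    have h1 := hD.normFormula g hg0 (p • D) hdiv v'
    rw [map_nsmul, Finsupp.smul_apply, hD.push v', nsmul_eq_mul] at h1
    rw [hx, v'.ord_mul hN0 hfp0, ← h1, ← zpow_natCast, v'.ord_zpow]
    ring
  have hx0C : x ∈ C0 := hD.glob0 x hxO fun v' _ _ => by rw [hord]
  have hx1C : x ∈ C1 := hD.glob1 x hxO fun v' _ _ => by rw [hord]
  obtain ⟨r₀, z, hz, hxz⟩ := hch.h0k x hx0C x hx1C ⟨0, C01.zero_mem, by simp⟩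
  refine ⟨r₀, f⁻¹, hD.f_inv_mem, by rw [inv_inv]; exact hD.f_mem, z * (f⁻¹) ^ p,
    O'.mul_mem _ _ (hC01 z hz) (pow_mem hD.f_inv_mem p), ?_⟩
  have e : f ^ p * (f⁻¹) ^ p = 1 := by rw [← mul_pow, mul_inv_cancel₀ hf0, one_pow]
  have hxz' : Algebra.norm E g * f ^ p - algebraMap R E r₀ = algebraMap R E π * z := hxz
  linear_combination (f⁻¹) ^ p * hxz' - Algebra.norm E g * e

/-- **(SIDE-TWO), divisor level.**  `hB` the branch data of a degeneracy map `E → F` of degree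
`p + 1` for which `O₁` is the étale branch; `p D = div g` with `g` a unit of `O₂` integral at `O₁`;
`N_* D = - div f`.  If `g ≡ r φ₂ ^ p mod π O₂` (`φ₂` a unit of `O₂` admitting an approximation in
`O₁`), then `g ≡ r' φ₁ ^ p mod π O₁` with `φ₁` a unit of `O₁` (coming from `O'`). -/
theorem hpow_of_branch [HasPrincipalDivisors K F] {p : ℕ} [Fact p.Prime]
    (hB : Branch π p C0 C1 C01 O' O₁ O₂ B0 B1 B01) (hrank : finrank E F = p + 1)
    {D : Divisor K F} {f : E} (hD : PushData C0 C1 O' B0 B1 D f) {g : F} (hg0 : g ≠ 0)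
    (hg1 : g ∈ O₁) (hg2 : g ∈ O₂ ∧ g⁻¹ ∈ O₂)
    (hdiv : ∀ P : Place K F, (p • D) P = P.ord g)
    {φ₂ : F} (hφ0 : φ₂ ≠ 0) (hφ2 : φ₂ ∈ O₂ ∧ φ₂⁻¹ ∈ O₂)
    (happ : ∃ φ' : F, φ' ∈ O₁ ∧ ∃ c ∈ O₂, φ' - φ₂ = algebraMap R F π * c)
    (hpow2 : ∃ r : R, ∃ c ∈ O₂, g - algebraMap R F r * φ₂ ^ p = algebraMap R F π * c) :
    ∃ φ₁ : F, (φ₁ ∈ O₁ ∧ φ₁⁻¹ ∈ O₁) ∧ ∃ r : R, ∃ c ∈ O₁,
      g - algebraMap R F r * φ₁ ^ p = algebraMap R F π * c := by
  have hRO : ∀ r : R, algebraMap R E r ∈ O' := fun r => hB.C01_le _ (C01.algebraMap_mem r)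
  obtain ⟨φ₁, h1, h1', r, c, hc, hgc⟩ := hpow_other_side' hB.two p hB.resChar hrank hB.res1 hB.res2
    hB.ne hRO hB.units hg0 hg1 hg2
    (norm_congr_of_pushData hB.chart hB.C01_le hB.two hD hg0 hg1 hg2.1 hdiv) hφ0 hφ2 happ hpow2
  refine ⟨algebraMap E F φ₁, ⟨(hB.two.comap1 _).mpr h1, ?_⟩, r, c, hc, hgc⟩
  rw [← map_inv₀]
  exact (hB.two.comap1 _).mpr h1'

/-- **(SIDE-TWO) in the literal `hswap` shape of `Old/FrameAssembly58.mem_cart_one_of_pth_powers_swap`**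
(model naming: `O1` = the `∞`-branch, `O2` = the `0`-branch; `hβ` = the branch data of the second
degeneracy map, for which `O2` is the étale branch; `approx2` as in `Car/DepthZero58`). -/
theorem hswap_of_branch [HasPrincipalDivisors K F] {p : ℕ} [Fact p.Prime]
    {O1 O2 : ValuationSubring F}
    (hβ : Branch π p C0 C1 C01 O' O2 O1 B0 B1 B01) (hrank : finrank E F = p + 1)
    (approx2 : ∀ φ1 φ2 : F, φ1 ∈ O1 → φ2 ∈ O2 →
      ∃ φ, (∃ c ∈ O1, φ - φ1 = algebraMap R F π * c) ∧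
        (∃ c ∈ O2, φ - φ2 = algebraMap R F π * c))
    {D : Divisor K F} {f₂ : E} (hD : PushData C0 C1 O' B0 B1 D f₂) {f : F} (hf0 : f ≠ 0)
    (hdiv : ∀ P : Place K F, (p • D) P = P.ord f)
    (hf1 : f ∈ O1) (hf1' : f⁻¹ ∈ O1) (hf2 : f ∈ O2)
    (φ1 : F) (hφ1 : φ1 ∈ O1) (hφ1' : φ1⁻¹ ∈ O1)
    (hpow1 : ∃ r : R, ∃ c ∈ O1, f - algebraMap R F r * φ1 ^ p = algebraMap R F π * c) :
    ∃ φ2 : F, φ2 ∈ O2 ∧ φ2⁻¹ ∈ O2 ∧ ∃ r : R, ∃ c ∈ O2,
      f - algebraMap R F r * φ2 ^ p = algebraMap R F π * c := by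
  have hπF : algebraMap R F π = algebraMap E F (algebraMap R E π) :=
    IsScalarTower.algebraMap_apply R E F π
  have hu1 : IsUnifOf O1 (algebraMap R F π) := by rw [hπF]; exact hβ.two.unif2
  have hu2 : IsUnifOf O2 (algebraMap R F π) := by rw [hπF]; exact hβ.two.unif1
  have hπ2 : algebraMap R F π ∈ O2 := by
    rcases O2.mem_or_inv_mem (algebraMap R F π) with h | h
    · exact h
    · exact absurd h hu2.nonunit
  -- `φ1 ≠ 0`
  have hφ0 : φ1 ≠ 0 := by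
    rintro rfl
    obtain ⟨r, c, hc, h⟩ := hpow1
    have hp0 : p ≠ 0 := (Fact.out : p.Prime).ne_zero
    rw [zero_pow hp0, mul_zero, sub_zero] at h
    apply hu1.nonunit
    have : (algebraMap R F π)⁻¹ = c * f⁻¹ := by
      have hπ0 : algebraMap R F π ≠ 0 := hu1.ne_zero
      field_simp
      rw [h]
    rw [this]
    exact O1.mul_mem _ _ hc hf1'
  obtain ⟨φ, ⟨c1, hc1, h1⟩, ⟨c2, hc2, h2⟩⟩ := approx2 φ1 0 hφ1 O2.zero_mem
  have hφ2 : φ ∈ O2 := by
    have : φ = algebraMap R F π * c2 := by rw [← h2, sub_zero]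
    rw [this]
    exact O2.mul_mem _ _ hπ2 hc2
  obtain ⟨φ2, ⟨h, h'⟩, hr⟩ := hpow_of_branch hβ hrank hD hf0 hf2 ⟨hf1, hf1'⟩ hdiv hφ0
    ⟨hφ1, hφ1'⟩ ⟨φ, hφ2, c1, hc1, h1⟩ hpow1
  exact ⟨φ2, h, h', hr⟩

end Fermat.Agent.M1.Car.SideTwoPush60
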