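/-
M1 (S44), chapter CAR, brick CAR-3 (WD), LOCAL HALF (helper18): **the reduction of a function with
`p`-divisible divisor along a component of the special fibre is a `p`-th power up to a unit, at every
valuation ring of the residue field of the component.**

Frame (a) of `Car/Defs43` / `Mon/WildPL43`: `R` DVR-like with uniformiser `π`, `F` the function field,
charts `B0 ∋ t`, `B1 ∋ t⁻¹` integral over `R[t]`, `R[t⁻¹]`, Gauss rings `O1`, `O2`.
`red : ↥O1 →+* κ` ANY ring homomorphism to a field killing `π` (e.g. `IsLocalRing.residue ↥O1`, or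
`GaussGen8.gaussVSRed` into `κ((𝐪))`).

* `wd_loc` : `D` of level `0` (MV's output), `p • D = div g`, `g` a unit of `O1` AND of `O2` ("no node
  term"), `V` a valuation subring of `κ` containing `red R`.  Then `red g = w ^ p * ε` with `ε ∈ Vˣ`.
* `wd_loc_of_offBranch` : the same WITHOUT the hypothesis on `O2`, at every `V` whose centre is a
  one-branch point (all closed points above the centre prime are off the `O2`-branch).

Proof: `t̄ ∈ V` or `t̄⁻¹ ∈ V`, so `red B ⊆ V` for one chart `B` (integrality); `𝔮 := {b ∈ B | red b ∈ 𝔪_V}`;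
any maximal `𝔪 ⊇ 𝔮`; the level-`0` local equation `h` of `D` at `𝔪` is a unit of `O1`; `u := g / h ^ p`
has no horizontal divisor through `𝔪`, so `u, u⁻¹ ∈ B_𝔪` by `Frame.hart`; elements of `B ∖ 𝔪` reduce to
units of `V`.
-/
import Mathlib
import Fermat.Agent.M1.Mon.WildPL43
import Fermat.Agent.M1.Car.Centre99

set_option autoImplicit false
set_option linter.unusedSectionVars false

namespace Fermat.Agent.M1.Car.WDLoc18

open AlgebraicCurve Fermat.Agent.ES.N34.NodalCore13 Fermat.Agent.M1.Car.Defs43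
  Fermat.Agent.M1.Mon.WildPL43 Fermat.Agent.M1.Node.Thick25

variable {R K F : Type*} [CommRing R] [Field K] [Field F] [Algebra K F] [Algebra R F]

/-- the inclusion `B → O` of a chart into a Gauss ring, as a ring homomorphism. -/
def toVal (B : Subalgebra R F) (O : ValuationSubring F) (h : ∀ x ∈ B, x ∈ O) : ↥B →+* ↥O where
  toFun b := ⟨(b : F), h b b.2⟩
  map_one' := rfl
  map_mul' _ _ := rfl
  map_zero' := rfl
  map_add' _ _ := rfl

@[simp] theorem coe_toVal (B : Subalgebra R F) (O : ValuationSubring F) (h : ∀ x ∈ B, x ∈ O)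
    (b : B) : ((toVal B O h b : O) : F) = (b : F) := rfl

section OneChart

variable {κ : Type*} [Field κ] {π : R} {B : Subalgebra R F} {O1 O2 : ValuationSubring F}

/-- **Integrality**: if `red s ∈ V` and `red R ⊆ V` then `red B ⊆ V` for a chart `B` integral over
`R[s]`. -/
theorem red_mem_of_chart (hle : ∀ x ∈ B, x ∈ O1) (red : ↥O1 →+* κ) (V : ValuationSubring κ)
    {s : F} (hs : s ∈ B) (hint : ∀ x ∈ B, IsIntegral (Algebra.adjoin R {s}) x)
    (hRV : ∀ r : R, red (toVal B O1 hle (algebraMap R B r)) ∈ V)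
    (hsV : red (toVal B O1 hle ⟨s, hs⟩) ∈ V) (b : B) : red (toVal B O1 hle b) ∈ V := by
  have hSB : Algebra.adjoin R {s} ≤ B := Algebra.adjoin_le (Set.singleton_subset_iff.mpr hs)
  set ρ : ↥B →+* κ := red.comp (toVal B O1 hle) with hρ
  -- the image of `R[s]` lies in `V`
  have hS : ∀ (y : F) (hy : y ∈ Algebra.adjoin R {s}), ρ ⟨y, hSB hy⟩ ∈ V := by
    intro y hy
    induction hy using Algebra.adjoin_induction with
    | mem x hx =>
      rw [Set.mem_singleton_iff] at hx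
      subst hx
      exact hsV
    | algebraMap r => exact hRV r
    | add x y hx hy hx' hy' =>
      have : (⟨x + y, hSB (add_mem hx hy)⟩ : B) = ⟨x, hSB hx⟩ + ⟨y, hSB hy⟩ := rfl
      rw [this, map_add]
      exact V.add_mem _ _ hx' hy'
    | mul x y hx hy hx' hy' =>
      have : (⟨x * y, hSB (mul_mem hx hy)⟩ : B) = ⟨x, hSB hx⟩ * ⟨y, hSB hy⟩ := rfl
      rw [this, map_mul]
      exact V.mul_mem _ _ hx' hy'
  let ψS : ↥(Algebra.adjoin R {s}) →+* ↥V :=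
    RingHom.codRestrict (ρ.comp (Subalgebra.inclusion hSB : _ →ₐ[R] B).toRingHom) V.toSubring
      (fun y => hS y y.2)
  have hcomp : (algebraMap ↥V κ).comp ψS =
      ρ.comp (Subalgebra.inclusion hSB : _ →ₐ[R] B).toRingHom := RingHom.ext fun _ => rfl
  have hb := Centre99.exists_monic_of_isIntegral hSB b.2 (hint b b.2)
  have hint' : IsIntegral ↥V (ρ ⟨(b : F), b.2⟩) :=
    Centre99.isIntegral_of_monic_eval₂ _ ρ ψS hcomp hb
  exact Centre99.mem_of_isIntegral V hint'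

end OneChart

section Main

variable {κ : Type*} [Field κ] {π : R} {B0 B1 : Subalgebra R F} {O1 O2 : ValuationSubring F}

/-- **(WD), local half, on one chart** whose reduction lies in `V`. -/
theorem wd_loc_chart (M : Frame (K := K) π B0 B1 O1 O2) (B : Subalgebra R F)
    (hB : B = B0 ∨ B = B1) (red : ↥O1 →+* κ)
    (hπred : red (toVal B O1 (M.le1 B hB) (algebraMap R B π)) = 0)
    {p : ℕ} (D : Divisor K F) {g : F} (hg : g ≠ 0)
    (hgD : ∀ P : Place K F, (p : ℤ) * D P = P.ord g)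
    (hlev : ChartLevel π B O1 O2 0 D)
    (hg1 : g ∈ O1) (hg1' : g⁻¹ ∈ O1)
    (V : ValuationSubring κ) (hBV : ∀ b : B, red (toVal B O1 (M.le1 B hB) b) ∈ V)
    (hg2 : (g ∈ O2 ∧ g⁻¹ ∈ O2) ∨ ∀ 𝔪 : Ideal B, 𝔪.IsMaximal →
      (∀ b : B, b ∉ 𝔪 → (red (toVal B O1 (M.le1 B hB) b))⁻¹ ∈ V) → OffBranch π B O2 𝔪) :
    ∃ w ε : κ, red ⟨g, hg1⟩ = w ^ p * ε ∧ ε ∈ V ∧ ε⁻¹ ∈ V := by
  classical
  have hle := M.le1 B hB
  set ρ : ↥B →+* κ := red.comp (toVal B O1 hle) with hρ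
  let ρV : ↥B →+* ↥V := RingHom.codRestrict ρ V.toSubring hBV
  have hρV : ∀ b : B, ((ρV b : V) : κ) = ρ b := fun _ => rfl
  -- the centre prime and a closed point above it
  let 𝔮 : Ideal B := (IsLocalRing.maximalIdeal ↥V).comap ρV
  have h𝔮 : 𝔮.IsPrime := Ideal.comap_isPrime ρV _
  obtain ⟨𝔪, h𝔪, h𝔮𝔪⟩ := Ideal.exists_le_maximal 𝔮 h𝔮.ne_top
  have hπ𝔮 : algebraMap R B π ∈ 𝔮 := by
    show ρV (algebraMap R B π) ∈ IsLocalRing.maximalIdeal ↥V
    have h0 : ρV (algebraMap R B π) = 0 := Subtype.ext (by rw [hρV]; exact hπred)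
    rw [h0]; exact zero_mem _
  have hπ𝔪 : algebraMap R B π ∈ 𝔪 := h𝔮𝔪 hπ𝔮
  -- elements outside `𝔪` reduce to units of `V`
  have hunit : ∀ b : B, b ∉ 𝔪 → (ρ b)⁻¹ ∈ V := by
    intro b hb
    have hb𝔮 : b ∉ 𝔮 := fun h => hb (h𝔮𝔪 h)
    have hu : IsUnit (ρV b) := by
      by_contra hnu
      exact hb𝔮 ((IsLocalRing.mem_maximalIdeal _).mpr hnu)
    obtain ⟨c, hc⟩ := hu.exists_right_inv
    have hc' : ρ b * (c : κ) = 1 := by
      have := congrArg (fun z : ↥V => (z : κ)) hc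
      simpa [hρV] using this
    have : (ρ b)⁻¹ = (c : κ) := inv_eq_of_mul_eq_one_right hc'
    rw [this]; exact c.2
  -- the `O1`-branch passes through `𝔪`
  have hon1 : ¬ OffBranch π B O1 𝔪 := by
    rintro ⟨e, he, c, hc, hec⟩
    apply he
    apply h𝔮𝔪
    show ρV e ∈ IsLocalRing.maximalIdeal ↥V
    have hπ1 : algebraMap R F π ∈ O1 := hle _ (algebraMap R B π).2
    have he0 : ρ e = 0 := by
      have h1 : toVal B O1 hle e = toVal B O1 hle (algebraMap R B π) * ⟨c, hc⟩ :=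
        Subtype.ext (by rw [coe_toVal, hec]; rfl)
      rw [hρ, RingHom.comp_apply, h1, map_mul, hπred, zero_mul]
    have h0 : ρV e = 0 := Subtype.ext (by rw [hρV]; exact he0)
    rw [h0]; exact zero_mem _
  -- the local equation
  obtain ⟨h, hloc, hs1, hs2⟩ := hlev 𝔪 h𝔪 hπ𝔪
  have hπ1 : algebraMap R F π ∈ O1 := hle _ (algebraMap R B π).2
  have hh1 : h ≠ 0 ∧ h⁻¹ ∈ O1 ∧ ∃ c ∈ O1, h - 1 = algebraMap R F π ^ 0 * c :=
    hs1.resolve_left hon1
  have hhO1 : h ∈ O1 := StrictOn.mem hπ1 hh1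
  have hh0 : h ≠ 0 := hh1.1
  have hhi1 : h⁻¹ ∈ O1 := hh1.2.1
  -- `u := g / h ^ p`
  have hpD : ∀ P : Place K F, ((p : ℕ) • D) P = P.ord g := by
    intro P
    rw [Finsupp.smul_apply, nsmul_eq_mul, ← hgD P]
  have hlocg : IsLocEq B 𝔪 ((p : ℕ) • D) g := IsLocEq.of_principal B 𝔪 hg hpD
  have hlocu : IsLocEq B 𝔪 ((p : ℕ) • D - (p : ℕ) • D) (g / h ^ p) := hlocg.div (hloc.pow p)
  rw [sub_self] at hlocu
  have hu0 : g / h ^ p ≠ 0 := hlocu.1
  have hordu : ∀ P : Place K F, Through B 𝔪 P → P.ord (g / h ^ p) = 0 := fun P hP => by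
    rw [hlocu.2 P hP]; rfl
  have hordu' : ∀ P : Place K F, Through B 𝔪 P → P.ord (g / h ^ p)⁻¹ = 0 := fun P hP => by
    rw [P.ord_inv, hordu P hP, neg_zero]
  have huO1 : g / h ^ p ∈ O1 := by
    rw [div_eq_mul_inv, ← inv_pow]
    exact O1.mul_mem _ _ hg1 (pow_mem hhi1 p)
  have huO1' : (g / h ^ p)⁻¹ ∈ O1 := by
    rw [inv_div, div_eq_mul_inv]
    exact O1.mul_mem _ _ (pow_mem hhO1 p) hg1'
  -- the `O2` side
  have hO2 : OffBranch π B O2 𝔪 ∨ (g / h ^ p ∈ O2 ∧ (g / h ^ p)⁻¹ ∈ O2) := by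
    rcases hg2 with hg2 | hoff
    · rcases hs2 with hoff | hh2
      · exact Or.inl hoff
      · have hπ2 : algebraMap R F π ∈ O2 := M.le2 B hB _ (algebraMap R B π).2
        have hhO2 : h ∈ O2 := StrictOn.mem hπ2 hh2
        refine Or.inr ⟨?_, ?_⟩
        · rw [div_eq_mul_inv, ← inv_pow]
          exact O2.mul_mem _ _ hg2.1 (pow_mem hh2.2.1 p)
        · rw [inv_div, div_eq_mul_inv]
          exact O2.mul_mem _ _ (pow_mem hhO2 p) hg2.2
    · exact Or.inl (hoff 𝔪 h𝔪 hunit)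
  have hin : InLocal B 𝔪 (g / h ^ p) :=
    M.hart B hB 𝔪 h𝔪 hπ𝔪 _ hu0 (fun P hP => (hordu P hP).ge) (Or.inr huO1)
      (hO2.imp id fun h => h.1)
  have hin' : InLocal B 𝔪 (g / h ^ p)⁻¹ :=
    M.hart B hB 𝔪 h𝔪 hπ𝔪 _ (inv_ne_zero hu0) (fun P hP => (hordu' P hP).ge) (Or.inr huO1')
      (hO2.imp id fun h => h.2)
  obtain ⟨a, d, hd, had⟩ := hin
  obtain ⟨a', d', hd', had'⟩ := hin'
  have ha : a ∉ 𝔪 := by
    intro ha
    have hprod : a * a' = d * d' := by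
      apply Subtype.ext
      show (a : F) * (a' : F) = (d : F) * (d' : F)
      rw [← had, ← had']
      field_simp
    have : d * d' ∈ 𝔪 := hprod ▸ 𝔪.mul_mem_right a' ha
    rcases h𝔪.isPrime.mem_or_mem this with h | h
    · exact hd h
    · exact hd' h
  -- reduce
  have hρd : ρ d ≠ 0 := by
    intro h0
    -- `ρ d = 0` would make `d ∈ 𝔮 ⊆ 𝔪`
    apply hd
    apply h𝔮𝔪
    show ρV d ∈ IsLocalRing.maximalIdeal ↥V
    have : ρV d = 0 := Subtype.ext (by rw [hρV]; exact h0)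
    rw [this]; exact zero_mem _
  have hredu : red ⟨g / h ^ p, huO1⟩ * ρ d = ρ a := by
    rw [hρ, RingHom.comp_apply, RingHom.comp_apply, ← map_mul]
    congr 1
    exact Subtype.ext had
  have hredg : red ⟨g, hg1⟩ = red ⟨h, hhO1⟩ ^ p * red ⟨g / h ^ p, huO1⟩ := by
    rw [← map_pow, ← map_mul]
    congr 1
    apply Subtype.ext
    show g = h ^ p * (g / h ^ p)
    field_simp
  refine ⟨red ⟨h, hhO1⟩, red ⟨g / h ^ p, huO1⟩, hredg, ?_, ?_⟩
  · have : red ⟨g / h ^ p, huO1⟩ = ρ a * (ρ d)⁻¹ := by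
      rw [← hredu, mul_assoc, mul_inv_cancel₀ hρd, mul_one]
    rw [this]
    exact V.mul_mem _ _ (hBV a) (hunit d hd)
  · have : (red ⟨g / h ^ p, huO1⟩)⁻¹ = ρ d * (ρ a)⁻¹ := by
      rw [← hredu, mul_inv, mul_comm (red _)⁻¹, ← mul_assoc, mul_inv_cancel₀ hρd, one_mul]
    rw [this]
    exact V.mul_mem _ _ (hBV d) (hunit a ha)

/-- **(WD), local half**: `p • D = div g`, `D` of level `0`, `g` a unit of `O1` and of `O2`.  At every
valuation ring `V ⊇ red R` of `κ`, `red g` is a `p`-th power times a unit of `V`. -/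
theorem wd_loc (M : Frame (K := K) π B0 B1 O1 O2) {t : F} (ht : t ≠ 0) (ht0 : t ∈ B0)
    (ht1 : t⁻¹ ∈ B1)
    (hint0 : ∀ x ∈ B0, IsIntegral (Algebra.adjoin R {t}) x)
    (hint1 : ∀ x ∈ B1, IsIntegral (Algebra.adjoin R {t⁻¹}) x)
    (red : ↥O1 →+* κ)
    (hπred : red ⟨algebraMap R F π, M.le1 B0 (Or.inl rfl) _ (algebraMap R B0 π).2⟩ = 0)
    {p : ℕ} (D : Divisor K F) {g : F} (hg : g ≠ 0)
    (hgD : ∀ P : Place K F, (p : ℤ) * D P = P.ord g)
    (hlev0 : HasLevel π B0 B1 O1 O2 0 D)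
    (hg1 : g ∈ O1) (hg1' : g⁻¹ ∈ O1) (hg2 : g ∈ O2 ∧ g⁻¹ ∈ O2)
    (V : ValuationSubring κ)
    (hRV : ∀ r : R, red ⟨algebraMap R F r, M.le1 B0 (Or.inl rfl) _ (algebraMap R B0 r).2⟩ ∈ V) :
    ∃ w ε : κ, red ⟨g, hg1⟩ = w ^ p * ε ∧ ε ∈ V ∧ ε⁻¹ ∈ V := by
  have hle0 := M.le1 B0 (Or.inl rfl)
  have hle1 := M.le1 B1 (Or.inr rfl)
  have htt : red ⟨t, hle0 t ht0⟩ * red ⟨t⁻¹, hle1 _ ht1⟩ = 1 := by
    rw [← map_mul, ← map_one red]
    congr 1
    apply Subtype.ext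
    show t * t⁻¹ = 1
    exact mul_inv_cancel₀ ht
  rcases V.mem_or_inv_mem (red ⟨t, hle0 t ht0⟩) with htV | htV
  · -- chart `B0`
    have hBV : ∀ b : B0, red (toVal B0 O1 hle0 b) ∈ V :=
      red_mem_of_chart hle0 red V ht0 hint0 hRV htV
    exact wd_loc_chart M B0 (Or.inl rfl) red hπred D hg hgD hlev0.1 hg1 hg1' V hBV (Or.inl hg2)
  · -- chart `B1`
    have hinv : (red ⟨t, hle0 t ht0⟩)⁻¹ = red ⟨t⁻¹, hle1 _ ht1⟩ :=
      inv_eq_of_mul_eq_one_right htt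
    rw [hinv] at htV
    have hRV1 : ∀ r : R, red (toVal B1 O1 hle1 (algebraMap R B1 r)) ∈ V := hRV
    have hBV : ∀ b : B1, red (toVal B1 O1 hle1 b) ∈ V :=
      red_mem_of_chart hle1 red V ht1 hint1 hRV1 htV
    exact wd_loc_chart M B1 (Or.inr rfl) red hπred D hg hgD hlev0.2 hg1 hg1' V hBV (Or.inl hg2)

/-- **(WD), local half, one-branch version**: NO hypothesis on `O2`, at a valuation ring `V` all of whose
centres (closed points `𝔪` of a chart with `B ∖ 𝔪` reducing into `Vˣ`) are off the `O2`-branch. -/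
theorem wd_loc_of_offBranch (M : Frame (K := K) π B0 B1 O1 O2) {t : F} (ht : t ≠ 0) (ht0 : t ∈ B0)
    (ht1 : t⁻¹ ∈ B1)
    (hint0 : ∀ x ∈ B0, IsIntegral (Algebra.adjoin R {t}) x)
    (hint1 : ∀ x ∈ B1, IsIntegral (Algebra.adjoin R {t⁻¹}) x)
    (red : ↥O1 →+* κ)
    (hπred : red ⟨algebraMap R F π, M.le1 B0 (Or.inl rfl) _ (algebraMap R B0 π).2⟩ = 0)
    {p : ℕ} (D : Divisor K F) {g : F} (hg : g ≠ 0)
    (hgD : ∀ P : Place K F, (p : ℤ) * D P = P.ord g)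
    (hlev0 : HasLevel π B0 B1 O1 O2 0 D)
    (hg1 : g ∈ O1) (hg1' : g⁻¹ ∈ O1)
    (V : ValuationSubring κ)
    (hRV : ∀ r : R, red ⟨algebraMap R F r, M.le1 B0 (Or.inl rfl) _ (algebraMap R B0 r).2⟩ ∈ V)
    (hoff0 : ∀ 𝔪 : Ideal B0, 𝔪.IsMaximal →
      (∀ b : B0, b ∉ 𝔪 → (red (toVal B0 O1 (M.le1 B0 (Or.inl rfl)) b))⁻¹ ∈ V) →
        OffBranch π B0 O2 𝔪)
    (hoff1 : ∀ 𝔪 : Ideal B1, 𝔪.IsMaximal →
      (∀ b : B1, b ∉ 𝔪 → (red (toVal B1 O1 (M.le1 B1 (Or.inr rfl)) b))⁻¹ ∈ V) →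
        OffBranch π B1 O2 𝔪) :
    ∃ w ε : κ, red ⟨g, hg1⟩ = w ^ p * ε ∧ ε ∈ V ∧ ε⁻¹ ∈ V := by
  have hle0 := M.le1 B0 (Or.inl rfl)
  have hle1 := M.le1 B1 (Or.inr rfl)
  have htt : red ⟨t, hle0 t ht0⟩ * red ⟨t⁻¹, hle1 _ ht1⟩ = 1 := by
    rw [← map_mul, ← map_one red]
    congr 1
    apply Subtype.ext
    show t * t⁻¹ = 1
    exact mul_inv_cancel₀ ht
  rcases V.mem_or_inv_mem (red ⟨t, hle0 t ht0⟩) with htV | htV
  · have hBV : ∀ b : B0, red (toVal B0 O1 hle0 b) ∈ V :=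
      red_mem_of_chart hle0 red V ht0 hint0 hRV htV
    exact wd_loc_chart M B0 (Or.inl rfl) red hπred D hg hgD hlev0.1 hg1 hg1' V hBV (Or.inr hoff0)
  · have hinv : (red ⟨t, hle0 t ht0⟩)⁻¹ = red ⟨t⁻¹, hle1 _ ht1⟩ :=
      inv_eq_of_mul_eq_one_right htt
    rw [hinv] at htV
    have hRV1 : ∀ r : R, red (toVal B1 O1 hle1 (algebraMap R B1 r)) ∈ V := hRV
    have hBV : ∀ b : B1, red (toVal B1 O1 hle1 b) ∈ V :=
      red_mem_of_chart hle1 red V ht1 hint1 hRV1 htV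
    exact wd_loc_chart M B1 (Or.inr rfl) red hπred D hg hgD hlev0.2 hg1 hg1' V hBV (Or.inr hoff1)

end Main

end Fermat.Agent.M1.Car.WDLoc18
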